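/-
helper21, S25 (Jacobian exists), package NUM = "numerics of line bundles over the base field k".
INTERFACE FILE: definitions + the statements `Stmt_*` of the leaves.  Plan: NOTES/plan/S25_NUM.md.

Everything is about `L : Triple 𝒞 k` (S25/LB/Defs.lean) for a good curve datum `𝒞` over an algebraically
closed field `k`.  `h0 L`, `h1 L` are the dimensions of the Cech groups, `chi = h0 - h1`,
`genus 𝒞 = h1 (unit)`, `deg L = chi L - (1 - genus)`.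

DIVISORS are pairs of ideals `(J0, J1)`, `J0 ⊂ B0`, `J1 ⊂ B1`, with the same extension to `B01`
(an effective divisor `D` on the curve, `J_i` = the ideal of `D ∩ V_i`).
`IsTwist J0 J1 L L'` says `L' ≅ L(D)`: there is a morphism `L → L'`, injective, with image `J_i • L'.P_i`
on the chart `V_i` (so `L ≅ L'(-D)`).
POINTS of `V0` are `k`-algebra maps `q : B0 → k`; the divisor of `q` is `(ker q, B1 ∩ (ker q) B01)`.
POINTS at infinity are `k`-algebra maps `q : B1 → k` with `q z1 = 0`; divisor `(B0, ker q)`.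
-/
import Fermat.Agent.S25.LB.DefsB

set_option autoImplicit false

universe u

open Polynomial TensorProduct

namespace Fermat.Agent.S25.Num

open Fermat.Agent.S25.LB

variable {k : Type u} [Field k] {𝒞 : CurveDatum k}

/-! ## Dimensions -/

/-- `dim H0`. -/
noncomputable def h0 (L : Triple 𝒞 k) : ℕ := Module.finrank k L.H0

/-- `dim H1`. -/
noncomputable def h1 (L : Triple 𝒞 k) : ℕ := Module.finrank k L.H1

/-- The Euler characteristic. -/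
noncomputable def chi (L : Triple 𝒞 k) : ℤ := (h0 L : ℤ) - (h1 L : ℤ)

/-- `L` is isomorphic to the structure sheaf (same shape as `LB.Stmt_UNIT`). -/
def IsUnitTriple (L : Triple 𝒞 k) : Prop :=
  ∃ (e0 : L.P0 ≃ₗ[k ⊗[k] 𝒞.B0] (k ⊗[k] 𝒞.B0)) (e1 : L.P1 ≃ₗ[k ⊗[k] 𝒞.B1] (k ⊗[k] 𝒞.B1))
    (e01 : L.P01 ≃ₗ[k ⊗[k] 𝒞.B01] (k ⊗[k] 𝒞.B01)),
    (∀ p, e01 (L.r0 p) = 𝒞.ι0 k (e0 p)) ∧ (∀ p, e01 (L.r1 p) = 𝒞.ι1 k (e1 p))

open Classical in
/-- The genus: `dim H1` of a unit triple (`0` if there is none; there is one by `LB.Stmt_UNIT`). -/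
noncomputable def genus (𝒞 : CurveDatum k) : ℕ :=
  if h : ∃ L : Triple 𝒞 k, IsUnitTriple L then h1 h.choose else 0

/-- The degree of a triple: `chi L - chi (unit)`, with `chi (unit) = 1 - genus`. -/
noncomputable def deg (L : Triple 𝒞 k) : ℤ := chi L - (1 - (genus 𝒞 : ℤ))

/-! ## Divisors and twists -/

/-- The extension of an ideal of `B0` to `k ⊗ B0`. -/
noncomputable def ext0 (J : Ideal 𝒞.B0) : Ideal (k ⊗[k] 𝒞.B0) :=
  J.map (Algebra.TensorProduct.includeRight : 𝒞.B0 →ₐ[k] k ⊗[k] 𝒞.B0)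

/-- The extension of an ideal of `B1` to `k ⊗ B1`. -/
noncomputable def ext1 (J : Ideal 𝒞.B1) : Ideal (k ⊗[k] 𝒞.B1) :=
  J.map (Algebra.TensorProduct.includeRight : 𝒞.B1 →ₐ[k] k ⊗[k] 𝒞.B1)

/-- `(J0, J1)` is an effective divisor: nonzero ideals with the same extension to `B01`. -/
def IsEffDiv (J0 : Ideal 𝒞.B0) (J1 : Ideal 𝒞.B1) : Prop :=
  J0 ≠ ⊥ ∧ J1 ≠ ⊥ ∧ J0.map 𝒞.i0 = J1.map 𝒞.i1

/-- The degree of the effective divisor `(J0, J1)`: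
`dim B0/J0 + dim B1/J1 - dim B01/J01` (points of `V0` + points of `V1` - points of the overlap). -/
noncomputable def ddeg (J0 : Ideal 𝒞.B0) (J1 : Ideal 𝒞.B1) : ℤ :=
  (Module.finrank k (𝒞.B0 ⧸ J0) : ℤ) + (Module.finrank k (𝒞.B1 ⧸ J1) : ℤ) -
    (Module.finrank k (𝒞.B01 ⧸ J0.map 𝒞.i0) : ℤ)

/-- `φ : L → L'` identifies `L` with `L'(-D)`, `D = (J0, J1)`. -/
def IsTwistBy (J0 : Ideal 𝒞.B0) (J1 : Ideal 𝒞.B1) {L L' : Triple 𝒞 k} (φ : Triple.Hom L L') : Prop :=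
  Function.Injective φ.f0 ∧ Function.Injective φ.f1 ∧
    LinearMap.range φ.f0 = ext0 J0 • (⊤ : Submodule (k ⊗[k] 𝒞.B0) L'.P0) ∧
    LinearMap.range φ.f1 = ext1 J1 • (⊤ : Submodule (k ⊗[k] 𝒞.B1) L'.P1)

/-- `L' ≅ L(D)`, `D = (J0, J1)`. -/
def IsTwist (J0 : Ideal 𝒞.B0) (J1 : Ideal 𝒞.B1) (L L' : Triple 𝒞 k) : Prop :=
  ∃ φ : Triple.Hom L L', IsTwistBy J0 J1 φ

/-- The ideal in `B1` of a point (or of any divisor) of `V0`: `B1 ∩ J B01`. -/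
def tr01 (J : Ideal 𝒞.B0) : Ideal 𝒞.B1 := (J.map 𝒞.i0).comap 𝒞.i1

/-- The ideal in `B0` of a point (or of any divisor) of `V1`: `B0 ∩ J B01`. -/
def tr10 (J : Ideal 𝒞.B1) : Ideal 𝒞.B0 := (J.map 𝒞.i1).comap 𝒞.i0

/-- `L' ≅ L(q)` for a point `q` of `V0`. -/
def IsTwistPt0 (q : 𝒞.B0 →ₐ[k] k) (L L' : Triple 𝒞 k) : Prop :=
  IsTwist (RingHom.ker q) (tr01 (RingHom.ker q)) L L'

/-- `L' ≅ L(q)` for a point `q` of `V1`. -/
def IsTwistPt1 (q : 𝒞.B1 →ₐ[k] k) (L L' : Triple 𝒞 k) : Prop :=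
  IsTwist (tr10 (RingHom.ker q)) (RingHom.ker q) L L'

/-- The ideal in `B0` of the divisor `q_1 + … + q_n` of points of `V0`. -/
noncomputable def ptsI0 {n : ℕ} (q : Fin n → (𝒞.B0 →ₐ[k] k)) : Ideal 𝒞.B0 :=
  ∏ i, RingHom.ker (q i)

/-- The ideal in `B1` of the divisor `q_1 + … + q_n` of points of `V0`. -/
noncomputable def ptsI1 {n : ℕ} (q : Fin n → (𝒞.B0 →ₐ[k] k)) : Ideal 𝒞.B1 :=
  ∏ i, tr01 (RingHom.ker (q i))

/-- The ideal in `B1` of the divisor `q_1 + … + q_m` of points of `V1`. -/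
noncomputable def infI1 {m : ℕ} (q : Fin m → (𝒞.B1 →ₐ[k] k)) : Ideal 𝒞.B1 :=
  ∏ i, RingHom.ker (q i)

/-! ## The leaves of NUM.  Setting of every leaf: `k` algebraically closed, `𝒞.IsGood`. -/

/-- **NUM-FIN**: `H0` and `H1` are finite dimensional. -/
def Stmt_FIN : Prop :=
  ∀ (k : Type u) [Field k] [IsAlgClosed k] (𝒞 : CurveDatum k), 𝒞.IsGood →
    ∀ L : Triple 𝒞 k, Module.Finite k L.H0 ∧ Module.Finite k L.H1

/-- **NUM-ISO**: `h0`, `h1` are invariants of the isomorphism class; unit triples are isomorphic to each other,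
have `h0 = 1` (`IsGood.h0`) and `h1 = genus`; there is a unit triple. -/
def Stmt_ISO : Prop :=
  ∀ (k : Type u) [Field k] [IsAlgClosed k] (𝒞 : CurveDatum k), 𝒞.IsGood →
    (∀ L L' : Triple 𝒞 k, Nonempty (Triple.Iso L L') → h0 L = h0 L' ∧ h1 L = h1 L') ∧
    (∀ L L' : Triple 𝒞 k, Nonempty (Triple.Iso L L') → IsUnitTriple L → IsUnitTriple L') ∧
    (∀ L L' : Triple 𝒞 k, IsUnitTriple L → IsUnitTriple L' → Nonempty (Triple.Iso L L')) ∧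
    (∃ L : Triple 𝒞 k, IsUnitTriple L) ∧
    (∀ L : Triple 𝒞 k, IsUnitTriple L → h0 L = 1 ∧ h1 L = genus 𝒞)

/-- **NUM-TWEX**: twists exist (`L(D)` and `L(-D)`), are unique up to isomorphism, and compose
(`L(D)(D') = L(D + D')`, the sum of divisors is the product of ideals). -/
def Stmt_TWEX : Prop :=
  ∀ (k : Type u) [Field k] [IsAlgClosed k] (𝒞 : CurveDatum k), 𝒞.IsGood →
    ∀ (J0 : Ideal 𝒞.B0) (J1 : Ideal 𝒞.B1), IsEffDiv J0 J1 →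
      (∀ L : Triple 𝒞 k, ∃ L' : Triple 𝒞 k, IsTwist J0 J1 L L') ∧
      (∀ L : Triple 𝒞 k, ∃ L' : Triple 𝒞 k, IsTwist J0 J1 L' L) ∧
      (∀ L L' L'' : Triple 𝒞 k, IsTwist J0 J1 L L' → IsTwist J0 J1 L L'' → Nonempty (Triple.Iso L' L'')) ∧
      (∀ L L' L'' : Triple 𝒞 k, IsTwist J0 J1 L' L → IsTwist J0 J1 L'' L → Nonempty (Triple.Iso L' L'')) ∧
      (∀ L L' M M' : Triple 𝒞 k, Nonempty (Triple.Iso L M) → Nonempty (Triple.Iso L' M') →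
        IsTwist J0 J1 L L' → IsTwist J0 J1 M M') ∧
      (∀ (I0 : Ideal 𝒞.B0) (I1 : Ideal 𝒞.B1) (L L' L'' : Triple 𝒞 k),
        IsTwist J0 J1 L L' → IsTwist I0 I1 L' L'' → IsTwist (J0 * I0) (J1 * I1) L L'')

/-- **NUM-PTS**: the divisors of points: `(ker q, tr01 (ker q))` is an effective divisor of degree `1`,
it is `(ker q, ⊤)` when `q x0 = 0` and `(ker q, ker q1)` for the point `q1` of `V1` with the same restriction
to `B01` when `q x0 ≠ 0`; the same for points of `V1`; products of effective divisors are effective and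
`ddeg` is additive. -/
def Stmt_PTS : Prop :=
  ∀ (k : Type u) [Field k] [IsAlgClosed k] (𝒞 : CurveDatum k), 𝒞.IsGood →
    (∀ q : 𝒞.B0 →ₐ[k] k, IsEffDiv (RingHom.ker q) (tr01 (RingHom.ker q)) ∧
      ddeg (RingHom.ker q) (tr01 (RingHom.ker q)) = 1 ∧
      (q 𝒞.x0 = 0 → tr01 (RingHom.ker q) = ⊤) ∧
      (q 𝒞.x0 ≠ 0 → ∃ q01 : 𝒞.B01 →ₐ[k] k, q01.comp 𝒞.i0 = q ∧
        tr01 (RingHom.ker q) = RingHom.ker (q01.comp 𝒞.i1))) ∧
    (∀ q : 𝒞.B1 →ₐ[k] k, IsEffDiv (tr10 (RingHom.ker q)) (RingHom.ker q) ∧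
      ddeg (tr10 (RingHom.ker q)) (RingHom.ker q) = 1 ∧
      (q 𝒞.z1 = 0 → tr10 (RingHom.ker q) = ⊤) ∧
      (q 𝒞.z1 ≠ 0 → ∃ q01 : 𝒞.B01 →ₐ[k] k, q01.comp 𝒞.i1 = q ∧
        tr10 (RingHom.ker q) = RingHom.ker (q01.comp 𝒞.i0))) ∧
    (∀ (J0 I0 : Ideal 𝒞.B0) (J1 I1 : Ideal 𝒞.B1), IsEffDiv J0 J1 → IsEffDiv I0 I1 →
      IsEffDiv (J0 * I0) (J1 * I1) ∧ ddeg (J0 * I0) (J1 * I1) = ddeg J0 J1 + ddeg I0 I1 ∧
      0 ≤ ddeg J0 J1 ∧ (ddeg J0 J1 = 0 → J0 = ⊤ ∧ J1 = ⊤))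

/-- **NUM-CHI**: `chi (L(D)) = chi L + deg D`; `h0` does not decrease, `h1` does not increase, and both
change by at most `deg D`.  (`P1.Stmt_LES` for `0 → L → L(D) → L(D)/L → 0`; the quotient is a skyscraper with
`H1 = 0` and `dim H0 = ddeg`.) -/
def Stmt_CHI : Prop :=
  ∀ (k : Type u) [Field k] [IsAlgClosed k] (𝒞 : CurveDatum k), 𝒞.IsGood →
    ∀ (J0 : Ideal 𝒞.B0) (J1 : Ideal 𝒞.B1) (L L' : Triple 𝒞 k), IsTwist J0 J1 L L' →
      IsEffDiv J0 J1 ∧ chi L' = chi L + ddeg J0 J1 ∧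
      h0 L ≤ h0 L' ∧ h1 L' ≤ h1 L ∧ (h0 L' : ℤ) ≤ h0 L + ddeg J0 J1

/-- **NUM-MONO**: a nonzero morphism of triples is the twist by an effective divisor (the divisor of the
morphism); an injective morphism of degree `0` is an isomorphism. -/
def Stmt_MONO : Prop :=
  ∀ (k : Type u) [Field k] [IsAlgClosed k] (𝒞 : CurveDatum k), 𝒞.IsGood →
    ∀ (L L' : Triple 𝒞 k) (φ : Triple.Hom L L'), φ.f01 ≠ 0 →
      (∃ (J0 : Ideal 𝒞.B0) (J1 : Ideal 𝒞.B1), IsEffDiv J0 J1 ∧ IsTwistBy J0 J1 φ) ∧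
      (chi L' = chi L → Nonempty (Triple.Iso L L'))

/-- **NUM-SEC**: a nonzero global section of `L` is a nonzero morphism from a unit triple. -/
def Stmt_SEC : Prop :=
  ∀ (k : Type u) [Field k] [IsAlgClosed k] (𝒞 : CurveDatum k), 𝒞.IsGood →
    ∀ (L U : Triple 𝒞 k), IsUnitTriple U → 1 ≤ h0 L → ∃ φ : Triple.Hom U L, φ.f01 ≠ 0

/-- **NUM-MONOCOR** (used for the separatedness of the Jacobian): `deg L < 0 ⟹ h0 L = 0`, and
`deg L = 0`, `h0 L ≥ 1 ⟹ L` is a unit triple. -/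
def Stmt_MONOCOR : Prop :=
  ∀ (k : Type u) [Field k] [IsAlgClosed k] (𝒞 : CurveDatum k), 𝒞.IsGood →
    ∀ L : Triple 𝒞 k, (deg L < 0 → h0 L = 0) ∧ (deg L = 0 → 1 ≤ h0 L → IsUnitTriple L)

/-- **NUM-RIEM** (Riemann's theorem, the vanishing half): `H1 = 0` in large degree, uniformly. -/
def Stmt_RIEM : Prop :=
  ∀ (k : Type u) [Field k] [IsAlgClosed k] (𝒞 : CurveDatum k), 𝒞.IsGood →
    ∃ c : ℤ, ∀ L : Triple 𝒞 k, c ≤ deg L → h1 L = 0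

/-- **NUM-DROP** (the dropping lemma): if `h1 L > 0` then `h1 (L(q)) = h1 L - 1` for all but finitely many
points `q` of `V0`. -/
def Stmt_DROP : Prop :=
  ∀ (k : Type u) [Field k] [IsAlgClosed k] (𝒞 : CurveDatum k), 𝒞.IsGood →
    ∀ L : Triple 𝒞 k, 0 < h1 L →
      ∃ S : Finset (𝒞.B0 →ₐ[k] k), ∀ q : 𝒞.B0 →ₐ[k] k, q ∉ S →
        ∀ L' : Triple 𝒞 k, IsTwistPt0 q L L' → h1 L' + 1 = h1 L

/-- **NUM-NSP** (a non-special divisor): for every finite set `T` of points of `V0` there are `g = genus`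
points `q_1, …, q_g` of `V0`, not in `T`, with pairwise different values of `x0`, such that
`O(q_1 + … + q_g)` has `h1 = 0` and `h0 = 1`. -/
def Stmt_NSP : Prop :=
  ∀ (k : Type u) [Field k] [IsAlgClosed k] (𝒞 : CurveDatum k), 𝒞.IsGood →
    ∀ T : Finset (𝒞.B0 →ₐ[k] k),
      ∃ (q : Fin (genus 𝒞) → (𝒞.B0 →ₐ[k] k)) (U L : Triple 𝒞 k),
        (∀ i, q i ∉ T) ∧ Function.Injective (fun i => q i 𝒞.x0) ∧
        IsUnitTriple U ∧ IsTwist (ptsI0 q) (ptsI1 q) U L ∧ h1 L = 0 ∧ h0 L = 1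

/-- **NUM-EFF** (used for the properness of the Jacobian): a triple with a nonzero section is `O(D)` for an
effective divisor `D = q_1 + … + q_n + q'_1 + … + q'_m` (`q_i` points of `V0`, `q'_j` points at infinity),
`n + m = deg L`.  In particular every `L` with `deg L ≥ genus` is of this form (`h0 ≥ chi ≥ 1`). -/
def Stmt_EFF : Prop :=
  ∀ (k : Type u) [Field k] [IsAlgClosed k] (𝒞 : CurveDatum k), 𝒞.IsGood →
    ∀ L : Triple 𝒞 k, 1 ≤ h0 L →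
      ∃ (n m : ℕ) (q : Fin n → (𝒞.B0 →ₐ[k] k)) (q' : Fin m → (𝒞.B1 →ₐ[k] k)) (U : Triple 𝒞 k),
        (∀ j, q' j 𝒞.z1 = 0) ∧ IsUnitTriple U ∧
        IsTwist (ptsI0 q) (ptsI1 q * infI1 q') U L ∧ ((n + m : ℕ) : ℤ) = deg L

end Fermat.Agent.S25.Num
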