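import Mathlib
import Fermat.Agent.S25.Num.Defs
import Fermat.Agent.S25.P1.H45_Iso
import Fermat.Agent.S25.LB.H60_Unit

/-!
# S25, package NUM, leaf NUM-ISO (helper45)

* `dataIso E : P1.Data.Iso L.toData L'.toData` for an isomorphism of triples `E : Triple.Iso L L'`
  (over any `k`-algebra `R`), hence `h0Equiv`, `h1Equiv` on the Cech groups;
* `tripleIsoRefl`, `tripleIsoSymm`, `tripleIsoTrans`;
* `h0_eq_of_iso`, `h1_eq_of_iso`;
* `isUnitTriple_of_iso`, `iso_of_isUnitTriple`, `exists_isUnitTriple`;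
* `h0_unit : IsUnitTriple L → h0 L = 1` (from `IsGood.h0`), `h1_unit : IsUnitTriple L → h1 L = genus 𝒞`;
* `stmt_ISO : Stmt_ISO`.

Complete proofs, standard axioms only.
-/

set_option autoImplicit false

universe u

open Polynomial TensorProduct

namespace Fermat.Agent.S25.Num.H45

open Fermat.Agent.S25.LB Fermat.Agent.S25.Num

section General

variable {k : Type u} [Field k] {𝒞 : CurveDatum k} {R : Type u} [CommRing R] [Algebra k R]

/-- The identity isomorphism of triples. -/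
def tripleIsoRefl (L : Triple 𝒞 R) : Triple.Iso L L where
  e0 := LinearEquiv.refl _ _
  e1 := LinearEquiv.refl _ _
  e01 := LinearEquiv.refl _ _
  comm0 := fun _ => rfl
  comm1 := fun _ => rfl

/-- The inverse isomorphism of triples. -/
def tripleIsoSymm {L L' : Triple 𝒞 R} (E : Triple.Iso L L') : Triple.Iso L' L where
  e0 := E.e0.symm
  e1 := E.e1.symm
  e01 := E.e01.symm
  comm0 := fun p => by
    rw [LinearEquiv.symm_apply_eq, E.comm0, LinearEquiv.apply_symm_apply]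
  comm1 := fun p => by
    rw [LinearEquiv.symm_apply_eq, E.comm1, LinearEquiv.apply_symm_apply]

/-- The composition of isomorphisms of triples. -/
def tripleIsoTrans {L L' L'' : Triple 𝒞 R} (E : Triple.Iso L L') (E' : Triple.Iso L' L'') :
    Triple.Iso L L'' where
  e0 := E.e0.trans E'.e0
  e1 := E.e1.trans E'.e1
  e01 := E.e01.trans E'.e01
  comm0 := fun p => by simp only [LinearEquiv.trans_apply, E.comm0, E'.comm0]
  comm1 := fun p => by simp only [LinearEquiv.trans_apply, E.comm1, E'.comm1]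

/-- An isomorphism of triples induces an isomorphism of the two-chart data. -/
def dataIso {L L' : Triple 𝒞 R} (E : Triple.Iso L L') : P1.Data.Iso L.toData L'.toData where
  e0 :=
    { toFun := E.e0
      invFun := E.e0.symm
      map_add' := map_add _
      map_smul' := fun r (p : L.P0) => by
        change E.e0 (algebraMap R (R ⊗[k] 𝒞.B0) r • p) = algebraMap R (R ⊗[k] 𝒞.B0) r • E.e0 p
        exact E.e0.map_smul _ _
      left_inv := E.e0.left_inv
      right_inv := E.e0.right_inv }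
  e1 :=
    { toFun := E.e1
      invFun := E.e1.symm
      map_add' := map_add _
      map_smul' := fun r (p : L.P1) => by
        change E.e1 (algebraMap R (R ⊗[k] 𝒞.B1) r • p) = algebraMap R (R ⊗[k] 𝒞.B1) r • E.e1 p
        exact E.e1.map_smul _ _
      left_inv := E.e1.left_inv
      right_inv := E.e1.right_inv }
  e01 :=
    { toFun := E.e01
      invFun := E.e01.symm
      map_add' := map_add _
      map_smul' := fun r (p : L.P01) => by
        change E.e01 (algebraMap R (R ⊗[k] 𝒞.B01) r • p) =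
          algebraMap R (R ⊗[k] 𝒞.B01) r • E.e01 p
        exact E.e01.map_smul _ _
      left_inv := E.e01.left_inv
      right_inv := E.e01.right_inv }
  e0_X := fun (n : L.P0) => by
    change E.e0 (((1 : R) ⊗ₜ[k] 𝒞.x0 : R ⊗[k] 𝒞.B0) • n) =
      ((1 : R) ⊗ₜ[k] 𝒞.x0 : R ⊗[k] 𝒞.B0) • E.e0 n
    exact E.e0.map_smul _ _
  e1_Z := fun (n : L.P1) => by
    change E.e1 (((1 : R) ⊗ₜ[k] 𝒞.z1 : R ⊗[k] 𝒞.B1) • n) =
      ((1 : R) ⊗ₜ[k] 𝒞.z1 : R ⊗[k] 𝒞.B1) • E.e1 n
    exact E.e1.map_smul _ _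
  e01_T := fun (m : L.P01) => by
    change E.e01 (((1 : R) ⊗ₜ[k] 𝒞.i0 𝒞.x0 : R ⊗[k] 𝒞.B01) • m) =
      ((1 : R) ⊗ₜ[k] 𝒞.i0 𝒞.x0 : R ⊗[k] 𝒞.B01) • E.e01 m
    exact E.e01.map_smul _ _
  e_j0 := fun n => E.comm0 n
  e_j1 := fun n => E.comm1 n

/-- The isomorphism on `H0` induced by an isomorphism of triples. -/
noncomputable def tripleH0Equiv {L L' : Triple 𝒞 R} (E : Triple.Iso L L') : L.H0 ≃ₗ[R] L'.H0 :=
  P1.H45.h0Equiv (dataIso E)

/-- The isomorphism on `H1` induced by an isomorphism of triples. -/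
noncomputable def tripleH1Equiv {L L' : Triple 𝒞 R} (E : Triple.Iso L L') : L.H1 ≃ₗ[R] L'.H1 :=
  P1.H45.h1Equiv (dataIso E)

end General

section Field

variable {k : Type u} [Field k] {𝒞 : CurveDatum k}

theorem h0_eq_of_iso {L L' : Triple 𝒞 k} (E : Triple.Iso L L') : h0 L = h0 L' :=
  (tripleH0Equiv E).finrank_eq

theorem h1_eq_of_iso {L L' : Triple 𝒞 k} (E : Triple.Iso L L') : h1 L = h1 L' :=
  (tripleH1Equiv E).finrank_eq

theorem chi_eq_of_iso {L L' : Triple 𝒞 k} (E : Triple.Iso L L') : chi L = chi L' := by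
  unfold chi
  rw [h0_eq_of_iso E, h1_eq_of_iso E]

theorem deg_eq_of_iso {L L' : Triple 𝒞 k} (E : Triple.Iso L L') : deg L = deg L' := by
  unfold deg
  rw [chi_eq_of_iso E]

/-- Being a unit triple is invariant under isomorphism. -/
theorem isUnitTriple_of_iso {L L' : Triple 𝒞 k} (E : Triple.Iso L L') (h : IsUnitTriple L) :
    IsUnitTriple L' := by
  obtain ⟨e0, e1, e01, h0, h1⟩ := h
  refine ⟨E.e0.symm.trans e0, E.e1.symm.trans e1, E.e01.symm.trans e01, fun p => ?_, fun p => ?_⟩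
  · have hp : E.e01.symm (L'.r0 p) = L.r0 (E.e0.symm p) := by
      rw [LinearEquiv.symm_apply_eq, E.comm0, LinearEquiv.apply_symm_apply]
    rw [LinearEquiv.trans_apply, LinearEquiv.trans_apply, hp, h0]
  · have hp : E.e01.symm (L'.r1 p) = L.r1 (E.e1.symm p) := by
      rw [LinearEquiv.symm_apply_eq, E.comm1, LinearEquiv.apply_symm_apply]
    rw [LinearEquiv.trans_apply, LinearEquiv.trans_apply, hp, h1]

/-- Two unit triples are isomorphic. -/
theorem iso_of_isUnitTriple {L L' : Triple 𝒞 k} (h : IsUnitTriple L) (h' : IsUnitTriple L') :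
    Nonempty (Triple.Iso L L') := by
  obtain ⟨e0, e1, e01, h0, h1⟩ := h
  obtain ⟨e0', e1', e01', h0', h1'⟩ := h'
  refine ⟨{ e0 := e0.trans e0'.symm
            e1 := e1.trans e1'.symm
            e01 := e01.trans e01'.symm
            comm0 := fun p => ?_
            comm1 := fun p => ?_ }⟩
  · rw [LinearEquiv.trans_apply, LinearEquiv.trans_apply, LinearEquiv.symm_apply_eq, h0', h0,
      LinearEquiv.apply_symm_apply]
  · rw [LinearEquiv.trans_apply, LinearEquiv.trans_apply, LinearEquiv.symm_apply_eq, h1', h1,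
      LinearEquiv.apply_symm_apply]

/-- There is a unit triple. -/
theorem exists_isUnitTriple (h : 𝒞.IsGood) : ∃ L : Triple 𝒞 k, IsUnitTriple L :=
  ⟨H60.unitTriple 𝒞 k h, LinearEquiv.refl _ _, LinearEquiv.refl _ _, LinearEquiv.refl _ _,
    fun _ => rfl, fun _ => rfl⟩

theorem lid_ι0 (α : k ⊗[k] 𝒞.B0) :
    Algebra.TensorProduct.lid k 𝒞.B01 (𝒞.ι0 k α) = 𝒞.i0 (Algebra.TensorProduct.lid k 𝒞.B0 α) := by
  induction α using TensorProduct.induction_on with
  | zero => simp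
  | tmul c b =>
    rw [H60.ι0_tmul, Algebra.TensorProduct.lid_tmul, Algebra.TensorProduct.lid_tmul, map_smul]
  | add x y hx hy => rw [map_add, map_add, map_add, map_add, hx, hy]

theorem lid_ι1 (β : k ⊗[k] 𝒞.B1) :
    Algebra.TensorProduct.lid k 𝒞.B01 (𝒞.ι1 k β) = 𝒞.i1 (Algebra.TensorProduct.lid k 𝒞.B1 β) := by
  induction β using TensorProduct.induction_on with
  | zero => simp
  | tmul c b =>
    rw [H60.ι1_tmul, Algebra.TensorProduct.lid_tmul, Algebra.TensorProduct.lid_tmul, map_smul]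
  | add x y hx hy => rw [map_add, map_add, map_add, map_add, hx, hy]

/-- The global functions of a good curve datum are the constants (tensor form). -/
theorem const_of_glue (h : 𝒞.IsGood) (α : k ⊗[k] 𝒞.B0) (β : k ⊗[k] 𝒞.B1)
    (hαβ : 𝒞.ι0 k α = 𝒞.ι1 k β) :
    ∃ c : k, α = algebraMap k (k ⊗[k] 𝒞.B0) c ∧ β = algebraMap k (k ⊗[k] 𝒞.B1) c := by
  have h1 : 𝒞.i0 (Algebra.TensorProduct.lid k 𝒞.B0 α) =
      𝒞.i1 (Algebra.TensorProduct.lid k 𝒞.B1 β) := by
    rw [← lid_ι0, ← lid_ι1, hαβ]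
  obtain ⟨c, hc⟩ := h.h0 _ _ h1
  refine ⟨c, ?_, ?_⟩
  · apply (Algebra.TensorProduct.lid k 𝒞.B0).injective
    rw [hc, AlgEquiv.commutes]
  · apply (Algebra.TensorProduct.lid k 𝒞.B1).injective
    apply H60.i1_injective h
    rw [← h1, hc, AlgEquiv.commutes, AlgHom.commutes, AlgHom.commutes]

/-- `h0` of a unit triple is `1`. -/
theorem h0_unit (h : 𝒞.IsGood) {L : Triple 𝒞 k} (hL : IsUnitTriple L) : h0 L = 1 := by
  obtain ⟨e0, e1, e01, h0, h1⟩ := hL
  have hnt : Nontrivial (k ⊗[k] 𝒞.B0) := by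
    have := h.dom0
    exact (Algebra.TensorProduct.lid k 𝒞.B0).toEquiv.nontrivial
  have hv : (e0.symm 1, e1.symm 1) ∈ L.H0 := by
    change L.r0 (e0.symm 1) = L.r1 (e1.symm 1)
    apply e01.injective
    rw [h0, h1, LinearEquiv.apply_symm_apply, LinearEquiv.apply_symm_apply, map_one, map_one]
  have hne : (⟨(e0.symm 1, e1.symm 1), hv⟩ : L.H0) ≠ 0 := by
    intro h0'
    have h2 : e0.symm 1 = 0 := congrArg (fun x : L.H0 => x.1.1) h0'
    have h3 : (1 : k ⊗[k] 𝒞.B0) = 0 := by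
      have := congrArg e0 h2
      rwa [LinearEquiv.apply_symm_apply, map_zero] at this
    exact one_ne_zero h3
  unfold Num.h0
  rw [finrank_eq_one_iff_of_nonzero' _ hne]
  rintro ⟨⟨(a : L.P0), (b : L.P1)⟩, hab⟩
  have hab' : L.r0 a = L.r1 b := hab
  have hg : 𝒞.ι0 k (e0 a) = 𝒞.ι1 k (e1 b) := by rw [← h0, ← h1, hab']
  obtain ⟨c, hc0, hc1⟩ := const_of_glue h _ _ hg
  refine ⟨c, ?_⟩
  apply Subtype.ext
  change (algebraMap k (k ⊗[k] 𝒞.B0) c • e0.symm 1, algebraMap k (k ⊗[k] 𝒞.B1) c • e1.symm 1) =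
    (a, b)
  refine Prod.ext ?_ ?_
  · change algebraMap k (k ⊗[k] 𝒞.B0) c • e0.symm 1 = a
    apply e0.injective
    rw [map_smul, LinearEquiv.apply_symm_apply, hc0, smul_eq_mul, mul_one]
  · change algebraMap k (k ⊗[k] 𝒞.B1) c • e1.symm 1 = b
    apply e1.injective
    rw [map_smul, LinearEquiv.apply_symm_apply, hc1, smul_eq_mul, mul_one]

/-- `h1` of a unit triple is the genus. -/
theorem h1_unit (h : 𝒞.IsGood) {L : Triple 𝒞 k} (hL : IsUnitTriple L) : h1 L = genus 𝒞 := by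
  have hex : ∃ L : Triple 𝒞 k, IsUnitTriple L := exists_isUnitTriple h
  unfold genus
  rw [dif_pos hex]
  obtain ⟨E⟩ := iso_of_isUnitTriple hL hex.choose_spec
  exact h1_eq_of_iso E

/-- `chi` of a unit triple. -/
theorem chi_unit (h : 𝒞.IsGood) {L : Triple 𝒞 k} (hL : IsUnitTriple L) :
    chi L = 1 - (genus 𝒞 : ℤ) := by
  unfold chi
  rw [h0_unit h hL, h1_unit h hL]
  rfl

/-- `deg` of a unit triple is `0`. -/
theorem deg_unit (h : 𝒞.IsGood) {L : Triple 𝒞 k} (hL : IsUnitTriple L) : deg L = 0 := by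
  unfold deg
  rw [chi_unit h hL, sub_self]

end Field

/-- **NUM-ISO**. -/
theorem stmt_ISO : Stmt_ISO.{u} := by
  intro k _ _ 𝒞 h
  refine ⟨fun L L' ⟨E⟩ => ⟨h0_eq_of_iso E, h1_eq_of_iso E⟩,
    fun L L' ⟨E⟩ hL => isUnitTriple_of_iso E hL,
    fun L L' hL hL' => iso_of_isUnitTriple hL hL',
    exists_isUnitTriple h,
    fun L hL => ⟨h0_unit h hL, h1_unit h hL⟩⟩

end Fermat.Agent.S25.Num.H45
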