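/-
helper50, S25 (Jacobian exists), package NUM, leaf NUM-DED: the two charts of a good curve datum are
Dedekind domains, their maximal ideals are the kernels of the `k`-points (`k` algebraically closed).

* `isIntegrallyClosed_of_smooth_field` : a domain which is smooth over a field is integrally closed;
* `isDedekindDomain_of_finite_smooth`  : a domain, smooth over `k` and finite over `k[x]`, is Dedekind;
* `isDedekindDomain_B0 / B1 / B01`;
* `exists_point_of_isMaximal` : `k` alg. closed, `B` of finite type: every maximal ideal is the kernel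
  of a `k`-point.
-/
import Mathlib
import Fermat.Agent.S25.LB.Defs
import Fermat.Agent.S26.H39_NorAlg

set_option autoImplicit false
set_option linter.style.haveILetI false

universe u

open Polynomial

namespace Fermat.Agent.S25.Num.H50

section Normal

/-- A nontrivial flat algebra over a domain has injective structure map. -/
theorem algebraMap_injective_of_flat' (P S : Type*) [CommRing P] [IsDomain P] [CommRing S]
    [Nontrivial S] [Algebra P S] [Module.Flat P S] : Function.Injective (algebraMap P S) := by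
  rw [injective_iff_map_eq_zero]
  intro p hp
  by_contra hne
  have hreg : IsSMulRegular S p :=
    Module.Flat.isSMulRegular_of_nonZeroDivisors (mem_nonZeroDivisors_of_ne_zero hne)
  have h1 : p • (1 : S) = p • (0 : S) := by
    rw [smul_zero, Algebra.smul_def, mul_one, hp]
  exact one_ne_zero (hreg h1)

/-- A domain which is standard smooth over a field is integrally closed. -/
theorem isIntegrallyClosed_of_isStandardSmooth (k B : Type u) [Field k] [CommRing B] [IsDomain B]
    [Algebra k B] [Algebra.IsStandardSmooth k B] : IsIntegrallyClosed B := by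
  have hf : (algebraMap k B).IsStandardSmooth :=
    RingHom.isStandardSmooth_algebraMap.mpr inferInstance
  obtain ⟨n, g, -, hg⟩ := hf.exists_etale_mvPolynomial
  letI := g.toAlgebra
  haveI : Algebra.Etale (MvPolynomial (Fin n) k) B := hg
  exact Fermat.Agent.S26.H39.isIntegrallyClosed_of_etale (MvPolynomial (Fin n) k) B
    (algebraMap_injective_of_flat' (MvPolynomial (Fin n) k) B)

/-- An element of the fraction field which lies in `B[1/t]` for all `t` of a set generating the
unit ideal lies in `B`. -/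
theorem mem_range_of_cover {B : Type*} [CommRing B] [IsDomain B] (K : Type*) [Field K]
    [Algebra B K] [IsFractionRing B K] (s : Set B) (hs : Ideal.span s = ⊤) (x : K)
    (hx : ∀ t ∈ s, t ≠ 0 → ∃ (n : ℕ) (a : B), algebraMap B K (t ^ n) * x = algebraMap B K a) :
    ∃ b : B, algebraMap B K b = x := by
  classical
  let I : Ideal B :=
    { carrier := {r | ∃ y : B, algebraMap B K y = algebraMap B K r * x}
      add_mem' := by
        rintro a b ⟨y, hy⟩ ⟨z, hz⟩
        exact ⟨y + z, by rw [map_add, map_add, add_mul, hy, hz]⟩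
      zero_mem' := ⟨0, by simp⟩
      smul_mem' := by
        rintro c a ⟨y, hy⟩
        exact ⟨c * y, by rw [smul_eq_mul, map_mul, map_mul, mul_assoc, hy]⟩ }
  have hI : I = ⊤ := by
    by_contra hne
    obtain ⟨m, hm, hIm⟩ := Ideal.exists_le_maximal I hne
    have hsm : ¬ (s ⊆ m) := fun h => by
      have : Ideal.span s ≤ m := Ideal.span_le.mpr h
      rw [hs] at this
      exact hm.ne_top (top_le_iff.mp this)
    obtain ⟨t, hts, htm⟩ := Set.not_subset.mp hsm
    have ht0 : t ≠ 0 := fun h => htm (h ▸ m.zero_mem)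
    obtain ⟨n, a, ha⟩ := hx t hts ht0
    have : t ^ n ∈ I := ⟨a, ha.symm⟩
    exact htm (hm.isPrime.mem_of_pow_mem n (hIm this))
  have h1 : (1 : B) ∈ I := hI ▸ Submodule.mem_top
  obtain ⟨y, hy⟩ := h1
  exact ⟨y, by rw [hy, map_one, one_mul]⟩

/-- A domain which is smooth over a field is integrally closed. -/
theorem isIntegrallyClosed_of_smooth_field (k B : Type u) [Field k] [CommRing B] [IsDomain B]
    [Algebra k B] [Algebra.Smooth k B] : IsIntegrallyClosed B := by
  obtain ⟨s, hs, h⟩ := Algebra.Smooth.exists_span_eq_top_isStandardSmooth k B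
  have hle : ∀ t : {t : B // t ∈ s ∧ t ≠ 0}, Submonoid.powers t.1 ≤ nonZeroDivisors B :=
    fun t => powers_le_nonZeroDivisors_of_noZeroDivisors t.2.2
  refine IsIntegrallyClosed.of_localization_submonoid
    (fun t : {t : B // t ∈ s ∧ t ≠ 0} => Submonoid.powers t.1) hle (fun t => ?_) ?_
  · haveI : Algebra.IsStandardSmooth k (Localization.Away t.1) := h t.1 t.2.1
    haveI : IsDomain (Localization (Submonoid.powers t.1)) :=
      IsLocalization.isDomain_localization (hle t)
    exact isIntegrallyClosed_of_isStandardSmooth k (Localization.Away t.1)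
  · rw [eq_bot_iff]
    intro x hx
    rw [Algebra.mem_iInf] at hx
    obtain ⟨b, hb⟩ := mem_range_of_cover (FractionRing B) s hs x (fun t hts ht0 => by
      obtain ⟨a, u, ⟨n, rfl⟩, hxa⟩ := hx ⟨t, hts, ht0⟩
      refine ⟨n, a, ?_⟩
      rw [hxa]
      exact IsLocalization.mk'_spec' (FractionRing B) a _)
    rw [Algebra.mem_bot]
    exact ⟨b, hb⟩

end Normal

section Dedekind

variable (k : Type u) [Field k]

/-- A domain which is integral over `k[X]` has dimension `≤ 1`. -/
theorem dimensionLEOne_of_integral (B : Type u) [CommRing B] [IsDomain B] [Algebra k[X] B]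
    [Algebra.IsIntegral k[X] B] : Ring.DimensionLEOne B := by
  refine ⟨fun {p} hp0 hp => ?_⟩
  have hc0 : p.comap (algebraMap k[X] B) ≠ ⊥ := fun h => hp0 (Ideal.eq_bot_of_comap_eq_bot h)
  haveI : (p.comap (algebraMap k[X] B)).IsPrime := Ideal.comap_isPrime _ p
  have hmax : (p.comap (algebraMap k[X] B)).IsMaximal :=
    Ideal.IsPrime.isMaximal inferInstance hc0
  exact Ideal.isMaximal_of_isIntegral_of_isMaximal_comap p hmax

/-- A domain, smooth over `k` and finite over `k[x]`, is a Dedekind domain. -/
theorem isDedekindDomain_of_finite_smooth (B : Type u) [CommRing B] [IsDomain B] [Algebra k B]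
    [Algebra.Smooth k B] (x : B) (hfin : (Polynomial.aeval (R := k) x).toRingHom.Finite) :
    IsDedekindDomain B := by
  letI : Algebra k[X] B := (Polynomial.aeval (R := k) x).toRingHom.toAlgebra
  haveI : Module.Finite k[X] B := hfin
  haveI : Algebra.IsIntegral k[X] B := inferInstance
  haveI : Algebra.FiniteType k B := inferInstance
  haveI : IsNoetherianRing B := Algebra.FiniteType.isNoetherianRing k B
  haveI : Ring.DimensionLEOne B := dimensionLEOne_of_integral k B
  haveI : IsIntegrallyClosed B := isIntegrallyClosed_of_smooth_field k B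
  exact { }

end Dedekind

section Datum

open Fermat.Agent.S25.LB

variable {k : Type u} [Field k] (𝒞 : CurveDatum k)

/-- `x0 ≠ 0` in `B0`. -/
theorem x0_ne_zero (h : 𝒞.IsGood) : 𝒞.x0 ≠ 0 := by
  intro h0
  have h1 : Polynomial.aeval (R := k) 𝒞.x0 (X : k[X]) = Polynomial.aeval (R := k) 𝒞.x0 0 := by
    rw [Polynomial.aeval_X, map_zero, h0]
  exact X_ne_zero (h.trans0 h1)

/-- `z1 ≠ 0` in `B1`. -/
theorem z1_ne_zero (h : 𝒞.IsGood) : 𝒞.z1 ≠ 0 := by
  intro h0
  haveI := h.dom01
  have := 𝒞.hxz
  rw [h0, map_zero, mul_zero] at this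
  exact zero_ne_one this

/-- `B0` is a Dedekind domain. -/
theorem isDedekindDomain_B0 (h : 𝒞.IsGood) : IsDedekindDomain 𝒞.B0 :=
  haveI := h.dom0
  haveI := h.smooth0
  isDedekindDomain_of_finite_smooth k 𝒞.B0 𝒞.x0 h.fin0

/-- `B1` is a Dedekind domain. -/
theorem isDedekindDomain_B1 (h : 𝒞.IsGood) : IsDedekindDomain 𝒞.B1 :=
  haveI := h.dom1
  haveI := h.smooth1
  isDedekindDomain_of_finite_smooth k 𝒞.B1 𝒞.z1 h.fin1

/-- `B01` is a Dedekind domain. -/
theorem isDedekindDomain_B01 (h : 𝒞.IsGood) : IsDedekindDomain 𝒞.B01 := by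
  haveI := h.dom0
  haveI := h.dom01
  haveI := isDedekindDomain_B0 𝒞 h
  letI : Algebra 𝒞.B0 𝒞.B01 := 𝒞.i0.toRingHom.toAlgebra
  haveI : IsLocalization.Away 𝒞.x0 𝒞.B01 := h.loc0
  exact IsLocalization.isDedekindDomain 𝒞.B0
    (powers_le_nonZeroDivisors_of_noZeroDivisors (x0_ne_zero 𝒞 h)) 𝒞.B01

/-- `i0 : B0 → B01` is injective. -/
theorem i0_injective (h : 𝒞.IsGood) : Function.Injective 𝒞.i0 := by
  haveI := h.dom0
  letI : Algebra 𝒞.B0 𝒞.B01 := 𝒞.i0.toRingHom.toAlgebra
  haveI : IsLocalization.Away 𝒞.x0 𝒞.B01 := h.loc0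
  exact IsLocalization.injective 𝒞.B01
    (powers_le_nonZeroDivisors_of_noZeroDivisors (x0_ne_zero 𝒞 h))

/-- `i1 : B1 → B01` is injective. -/
theorem i1_injective (h : 𝒞.IsGood) : Function.Injective 𝒞.i1 := by
  haveI := h.dom1
  letI : Algebra 𝒞.B1 𝒞.B01 := 𝒞.i1.toRingHom.toAlgebra
  haveI : IsLocalization.Away 𝒞.z1 𝒞.B01 := h.loc1
  exact IsLocalization.injective 𝒞.B01
    (powers_le_nonZeroDivisors_of_noZeroDivisors (z1_ne_zero 𝒞 h))

/-- The three rings are of finite type over `k`. -/
theorem finiteType_B0 (h : 𝒞.IsGood) : Algebra.FiniteType k 𝒞.B0 :=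
  haveI := h.smooth0
  inferInstance

theorem finiteType_B1 (h : 𝒞.IsGood) : Algebra.FiniteType k 𝒞.B1 :=
  haveI := h.smooth1
  inferInstance

end Datum

section Points

variable (k : Type u) [Field k] [IsAlgClosed k]

/-- `k` algebraically closed, `B` of finite type over `k`: every maximal ideal of `B` is the
kernel of a `k`-point. -/
theorem exists_point_of_isMaximal (B : Type u) [CommRing B] [Algebra k B]
    [Algebra.FiniteType k B] (m : Ideal B) [hm : m.IsMaximal] :
    ∃ q : B →ₐ[k] k, RingHom.ker q.toRingHom = m := by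
  letI := Ideal.Quotient.field m
  haveI : Algebra.FiniteType k (B ⧸ m) :=
    Algebra.FiniteType.of_surjective (Ideal.Quotient.mkₐ k m) (Ideal.Quotient.mkₐ_surjective k m)
  haveI : Module.Finite k (B ⧸ m) := finite_of_finite_type_of_isJacobsonRing k (B ⧸ m)
  haveI : Algebra.IsIntegral k (B ⧸ m) := inferInstance
  have hbij : Function.Bijective (algebraMap k (B ⧸ m)) :=
    IsAlgClosed.algebraMap_bijective_of_isIntegral
  let e : k ≃ₐ[k] (B ⧸ m) := AlgEquiv.ofBijective (Algebra.ofId k (B ⧸ m)) hbij
  refine ⟨e.symm.toAlgHom.comp (Ideal.Quotient.mkₐ k m), ?_⟩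
  ext x
  rw [RingHom.mem_ker]
  change e.symm (Ideal.Quotient.mk m x) = 0 ↔ x ∈ m
  rw [map_eq_zero_iff _ e.symm.injective, Ideal.Quotient.eq_zero_iff_mem]

/-- The kernel of a `k`-point is a maximal ideal. -/
theorem ker_point_isMaximal {k : Type u} [Field k] (B : Type u) [CommRing B] [Algebra k B]
    (q : B →ₐ[k] k) : (RingHom.ker q.toRingHom).IsMaximal :=
  RingHom.ker_isMaximal_of_surjective q.toRingHom (fun c => ⟨algebraMap k B c, by simp⟩)

/-- A `k`-point is determined by its kernel. -/
theorem point_ext_of_ker_eq {k : Type u} [Field k] (B : Type u) [CommRing B] [Algebra k B]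
    (q q' : B →ₐ[k] k) (h : RingHom.ker q.toRingHom = RingHom.ker q'.toRingHom) : q = q' := by
  ext b
  have hb : b - algebraMap k B (q b) ∈ RingHom.ker q.toRingHom := by
    rw [RingHom.mem_ker]
    change q (b - algebraMap k B (q b)) = 0
    rw [map_sub, AlgHom.commutes, Algebra.algebraMap_self_apply, sub_self]
  rw [h, RingHom.mem_ker] at hb
  change q' (b - algebraMap k B (q b)) = 0 at hb
  rw [map_sub, AlgHom.commutes, Algebra.algebraMap_self_apply, sub_eq_zero] at hb
  exact hb.symm

end Points

end Fermat.Agent.S25.Num.H50
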