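/-
helper50, S25 (Jacobian exists), package NUM, leaf NUM-DED part 2: the fibres of the finite map `x`.

`B` a Dedekind domain, finite over `k[x]` (`x` transcendental), `k` algebraically closed.  For `c : k`
the ideal `(x - c) B` is the product of exactly `d` maximal ideals (with multiplicity),
`d = finrank k[X] B` the degree of `x`.
-/
import Mathlib
import Fermat.Agent.S25.Num.H50_Ded

set_option autoImplicit false
set_option linter.style.haveILetI false

universe u

open Polynomial UniqueFactorizationMonoid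

namespace Fermat.Agent.S25.Num.H50

section Fibre

variable (k : Type u) [Field k] (B : Type u) [CommRing B] [Algebra k B]

/-- The degree of `x : B`: the rank of `B` over `k[x]`. -/
noncomputable def degOf (x : B) : ℕ :=
  letI : Algebra k[X] B := (Polynomial.aeval (R := k) x).toRingHom.toAlgebra
  Module.finrank k[X] B

variable {k B}

theorem span_X_sub_C_isMaximal (c : k) : (Ideal.span {(X - C c : k[X])}).IsMaximal :=
  PrincipalIdealRing.isMaximal_of_irreducible (irreducible_X_sub_C c)

theorem span_X_sub_C_ne_bot (c : k) : Ideal.span {(X - C c : k[X])} ≠ ⊥ := by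
  rw [Ne, Ideal.span_singleton_eq_bot]
  exact X_sub_C_ne_zero c

/-- The inertia degree is one: `k` algebraically closed. -/
theorem finrank_quotient_eq_one [IsAlgClosed k] [Algebra.FiniteType k B] [Algebra k[X] B]
    [IsScalarTower k k[X] B] (p : Ideal k[X]) [p.IsMaximal] (q : Ideal B) [q.IsMaximal]
    [q.LiesOver p] : Module.finrank (k[X] ⧸ p) (B ⧸ q) = 1 := by
  letI := Ideal.Quotient.field p
  letI := Ideal.Quotient.field q
  haveI : Algebra.FiniteType k (B ⧸ q) :=
    Algebra.FiniteType.of_surjective (Ideal.Quotient.mkₐ k q) (Ideal.Quotient.mkₐ_surjective k q)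
  haveI : Module.Finite k (B ⧸ q) := finite_of_finite_type_of_isJacobsonRing k (B ⧸ q)
  haveI : Algebra.IsIntegral k (B ⧸ q) := inferInstance
  have hbij : Function.Bijective (algebraMap k (B ⧸ q)) :=
    IsAlgClosed.algebraMap_bijective_of_isIntegral
  have hsurj : Function.Surjective (algebraMap (k[X] ⧸ p) (B ⧸ q)) := by
    intro y
    obtain ⟨a, ha⟩ := hbij.2 y
    refine ⟨algebraMap k (k[X] ⧸ p) a, ?_⟩
    rw [← ha, ← IsScalarTower.algebraMap_apply]
  have hinj : Function.Injective (algebraMap (k[X] ⧸ p) (B ⧸ q)) :=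
    (algebraMap (k[X] ⧸ p) (B ⧸ q)).injective
  let e : (k[X] ⧸ p) ≃ₗ[k[X] ⧸ p] (B ⧸ q) :=
    (AlgEquiv.ofBijective (Algebra.ofId (k[X] ⧸ p) (B ⧸ q)) ⟨hinj, hsurj⟩).toLinearEquiv
  rw [← e.finrank_eq, Module.finrank_self]

/-- **Fibres of `x`.**  `B` Dedekind, finite over `k[x]`, `x` transcendental, `k` algebraically
closed: `(x - c) B` is the product of exactly `degOf k B x` maximal ideals. -/
theorem exists_fibre_factorization [IsAlgClosed k] [IsDedekindDomain B] [Algebra.FiniteType k B]
    (x : B) (hfin : (Polynomial.aeval (R := k) x).toRingHom.Finite)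
    (hinj : Function.Injective (Polynomial.aeval (R := k) x)) (c : k) :
    ∃ s : Multiset (Ideal B), (∀ P ∈ s, P.IsMaximal) ∧
      s.prod = Ideal.span {x - algebraMap k B c} ∧ Multiset.card s = degOf k B x := by
  classical
  letI : Algebra k[X] B := (Polynomial.aeval (R := k) x).toRingHom.toAlgebra
  have halg : ∀ f : k[X], algebraMap k[X] B f = Polynomial.aeval x f := fun _ => rfl
  haveI : IsScalarTower k k[X] B := IsScalarTower.of_algebraMap_eq (fun a => by
    rw [halg, Polynomial.algebraMap_eq, Polynomial.aeval_C])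
  haveI : Module.Finite k[X] B := hfin
  haveI : FaithfulSMul k[X] B := (faithfulSMul_iff_algebraMap_injective k[X] B).mpr hinj
  haveI : Module.IsTorsionFree k[X] B := inferInstance
  haveI : Module.Flat k[X] B := inferInstance
  set p : Ideal k[X] := Ideal.span {(X - C c : k[X])} with hp
  haveI hpmax : p.IsMaximal := span_X_sub_C_isMaximal c
  have hp0 : p ≠ ⊥ := span_X_sub_C_ne_bot c
  have hmap : p.map (algebraMap k[X] B) = Ideal.span {x - algebraMap k B c} := by
    rw [hp, Ideal.map_span, Set.image_singleton, halg, map_sub, Polynomial.aeval_X,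
      Polynomial.aeval_C]
  have hI0 : p.map (algebraMap k[X] B) ≠ ⊥ := by
    rw [hmap, Ne, Ideal.span_singleton_eq_bot, sub_eq_zero]
    intro h
    have h2 : Polynomial.aeval x (X : k[X]) = Polynomial.aeval x (C c) := by
      rw [Polynomial.aeval_X, Polynomial.aeval_C, h]
    have h3 := hinj h2
    exact X_sub_C_ne_zero c (sub_eq_zero.mpr h3)
  refine ⟨normalizedFactors (p.map (algebraMap k[X] B)), fun P hP => ?_, ?_, ?_⟩
  · have hprime : Prime P := prime_of_normalized_factor P hP
    exact Ideal.IsPrime.isMaximal (Ideal.isPrime_of_prime hprime) hprime.ne_zero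
  · rw [Ideal.prod_normalizedFactors_eq_self hI0, hmap]
  · have hfs : (p.primesOver B).Finite := by
      rw [← IsDedekindDomain.coe_primesOverFinset hp0 B]
      exact Finset.finite_toSet _
    letI : Fintype (p.primesOver B) := hfs.fintype
    have hsum := Ideal.sum_ramification_inertia_eq_finrank p B
    have hterm : ∀ q : p.primesOver B, q.1.ramificationIdx k[X] * q.1.inertiaDeg k[X] =
        (normalizedFactors (p.map (algebraMap k[X] B))).count q.1 := by
      intro q
      haveI : q.1.IsPrime := q.2.1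
      haveI : q.1.LiesOver p := q.2.2
      haveI : q.1.IsMaximal := Ideal.IsMaximal.of_liesOver_isMaximal q.1 p
      rw [Ideal.IsDedekindDomain.ramificationIdx_eq_normalizedFactors_count p q.1 hI0,
        Ideal.inertiaDeg_eq_of_isMaximal p q.1, finrank_quotient_eq_one p q.1, mul_one]
    rw [Finset.sum_congr rfl (fun q _ => hterm q)] at hsum
    unfold degOf
    rw [← hsum, ← Multiset.toFinset_sum_count_eq]
    have hset : ((normalizedFactors (p.map (algebraMap k[X] B))).toFinset : Set (Ideal B)) =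
        p.primesOver B := by
      rw [← IsDedekindDomain.coe_primesOverFinset hp0 B, IsDedekindDomain.primesOverFinset,
        factors_eq_normalizedFactors]
    have hmem : ∀ q : Ideal B,
        q ∈ (normalizedFactors (p.map (algebraMap k[X] B))).toFinset ↔ q ∈ p.primesOver B :=
      fun q => by rw [← hset, Finset.mem_coe]
    rw [← Finset.sum_coe_sort]
    refine Finset.sum_bij (fun q _ => ⟨q.1, (hmem q.1).mp q.2⟩) (fun _ _ => Finset.mem_univ _)
      (fun a _ b _ h => Subtype.ext (congrArg (fun z : p.primesOver B => z.1) h))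
      (fun b _ => ⟨⟨b.1, (hmem b.1).mpr b.2⟩, Finset.mem_univ _, rfl⟩)
      (fun _ _ => rfl)

end Fibre

section Datum

open Fermat.Agent.S25.LB

variable {k : Type u} [Field k] (𝒞 : CurveDatum k)

/-- `z1` is transcendental over `k`. -/
theorem trans1 (h : 𝒞.IsGood) : Function.Injective (Polynomial.aeval (R := k) 𝒞.z1) := by
  rw [← transcendental_iff_injective]
  intro hz
  have hx : Transcendental k 𝒞.x0 := transcendental_iff_injective.mpr h.trans0
  apply hx
  have h1 : IsAlgebraic k (𝒞.i1 𝒞.z1) := hz.algHom 𝒞.i1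
  letI : Invertible (𝒞.i1 𝒞.z1) := ⟨𝒞.i0 𝒞.x0, 𝒞.hxz, by rw [mul_comm]; exact 𝒞.hxz⟩
  have h2 : IsAlgebraic k (⅟(𝒞.i1 𝒞.z1)) := h1.invOf
  have h3 : IsAlgebraic k (𝒞.i0 𝒞.x0) := h2
  exact (isAlgebraic_algHom_iff 𝒞.i0 (i0_injective 𝒞 h)).mp h3

variable [IsAlgClosed k]

/-- The fibre of `x0` over `c`: `(x0 - c) B0` is the product of exactly `d₀` maximal ideals,
`d₀ = degOf k B0 x0`. -/
theorem exists_fibre_B0 (h : 𝒞.IsGood) (c : k) :
    ∃ s : Multiset (Ideal 𝒞.B0), (∀ P ∈ s, P.IsMaximal) ∧
      s.prod = Ideal.span {𝒞.x0 - algebraMap k 𝒞.B0 c} ∧ Multiset.card s = degOf k 𝒞.B0 𝒞.x0 :=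
  haveI := isDedekindDomain_B0 𝒞 h
  haveI := finiteType_B0 𝒞 h
  exists_fibre_factorization 𝒞.x0 h.fin0 h.trans0 c

/-- The fibre of `z1` over `c`: `(z1 - c) B1` is the product of exactly `d₁` maximal ideals,
`d₁ = degOf k B1 z1`.  For `c = 0` this is the divisor of the poles of `x0`. -/
theorem exists_fibre_B1 (h : 𝒞.IsGood) (c : k) :
    ∃ s : Multiset (Ideal 𝒞.B1), (∀ P ∈ s, P.IsMaximal) ∧
      s.prod = Ideal.span {𝒞.z1 - algebraMap k 𝒞.B1 c} ∧ Multiset.card s = degOf k 𝒞.B1 𝒞.z1 :=
  haveI := isDedekindDomain_B1 𝒞 h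
  haveI := finiteType_B1 𝒞 h
  exists_fibre_factorization 𝒞.z1 h.fin1 (trans1 𝒞 h) c

end Datum

end Fermat.Agent.S25.Num.H50
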