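/-
helper38, S25 (Jacobian exists), package NUM, leaf **NUM-PTS**: `stmt_PTS : Num.Stmt_PTS`.

Divisors of points on the two Dedekind charts of a good curve datum, additivity of `ddeg`,
`0 ≤ ddeg`, and `ddeg = 0 ⟹ trivial divisor`.  (`IsAlgClosed k` is not used.)

Reusable pieces:
* `finite_quotient_of_ne_bot` : `B` a domain finite over `k[x]`, `I ≠ ⊥` ⟹ `B ⧸ I` finite over `k`;
* `finrank_quotient_mul` : in a Dedekind domain over `k`,
  `dim B ⧸ I J = dim B ⧸ I + dim B ⧸ J` (`I, J ≠ ⊥`, finite colength);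
* `mem_of_mul_mem_mul` : `I J ⊔ (a) = I`, `a b ∈ I J` ⟹ `b ∈ J`;
* `surjective_quotientMap_away`, `finite_quotient_map_away`, `finrank_quotient_map_away_le` :
  `A ⧸ J → A[1/x] ⧸ J A[1/x]` is onto for `J` of finite colength;
* `finrank_quotient_ker_point` : `dim B ⧸ ker q = 1` for a `k`-point `q`;
* `IsChartPair i i' x z` (two charts with a common localization) with `symm`, `map_comap`,
  `point` (everything about the divisor of a point), `finrank_map_le`;
* `ker_point_ne_bot0 / 1`, `finite_quotient_B0 / B1`, `isChartPair`.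
-/
import Mathlib
import Fermat.Agent.S25.Num.Defs
import Fermat.Agent.S25.Num.H50_Ded
import Fermat.Agent.S25.Num.H50_Fibre

set_option autoImplicit false
set_option linter.style.haveILetI false

universe u

open Polynomial

namespace Fermat.Agent.S25.Num.H38

section General

variable {k : Type u} [Field k]

/-- A quotient of a domain finite over `k[x]` by a nonzero ideal is finite dimensional. -/
theorem finite_quotient_of_ne_bot {B : Type u} [CommRing B] [IsDomain B] [Algebra k B]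
    (x : B) (hfin : (Polynomial.aeval (R := k) x).toRingHom.Finite) (I : Ideal B) (hI : I ≠ ⊥) :
    Module.Finite k (B ⧸ I) := by
  letI : Algebra k[X] B := (Polynomial.aeval (R := k) x).toRingHom.toAlgebra
  haveI : Module.Finite k[X] B := hfin
  haveI : IsScalarTower k k[X] B := IsScalarTower.of_algebraMap_eq fun c => by
    change algebraMap k B c = Polynomial.aeval x (C c)
    rw [Polynomial.aeval_C]
  obtain ⟨b, hbI, hb0⟩ := Submodule.exists_mem_ne_zero_of_ne_bot hI
  have hc : I.comap (algebraMap k[X] B) ≠ ⊥ :=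
    Ideal.comap_ne_bot_of_integral_mem hb0 hbI (Algebra.IsIntegral.isIntegral b)
  obtain ⟨f, hfc, hf0⟩ := Submodule.exists_mem_ne_zero_of_ne_bot hc
  -- `B ⧸ I` over `AdjoinRoot f`
  have hle : Ideal.span {f} ≤ I.comap (algebraMap k[X] B) :=
    (Ideal.span_singleton_le_iff_mem _).2 hfc
  let φ : (k[X] ⧸ Ideal.span {f}) →ₐ[k] B ⧸ I :=
    Ideal.quotientMapₐ I (IsScalarTower.toAlgHom k k[X] B) hle
  letI : Algebra (k[X] ⧸ Ideal.span {f}) (B ⧸ I) := φ.toRingHom.toAlgebra
  haveI : IsScalarTower k (k[X] ⧸ Ideal.span {f}) (B ⧸ I) :=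
    IsScalarTower.of_algebraMap_eq fun c => by
      change algebraMap k (B ⧸ I) c = φ (algebraMap k (k[X] ⧸ Ideal.span {f}) c)
      rw [φ.commutes]
  haveI : IsScalarTower k[X] (k[X] ⧸ Ideal.span {f}) (B ⧸ I) := by
    refine ⟨fun p q b => ?_⟩
    obtain ⟨q, rfl⟩ := Ideal.Quotient.mk_surjective q
    obtain ⟨b, rfl⟩ := Ideal.Quotient.mk_surjective b
    change φ (p • Ideal.Quotient.mk _ q) * Ideal.Quotient.mk I b =
      p • (φ (Ideal.Quotient.mk _ q) * Ideal.Quotient.mk I b)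
    have h1 : p • (Ideal.Quotient.mk (Ideal.span {f}) q) = Ideal.Quotient.mk _ (p * q) := rfl
    have h2 : ∀ r : k[X], φ (Ideal.Quotient.mk _ r) = Ideal.Quotient.mk I (algebraMap k[X] B r) :=
      fun r => rfl
    have h3 : ∀ c : B, p • (Ideal.Quotient.mk I c) = Ideal.Quotient.mk I (algebraMap k[X] B p * c) :=
      fun c => by
        rw [← Algebra.smul_def]
        rfl
    rw [h1, h2, h2, ← map_mul, ← map_mul, h3, map_mul (algebraMap k[X] B), mul_assoc]
  haveI : Module.Finite k[X] (B ⧸ I) := inferInstance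
  haveI : Module.Finite (k[X] ⧸ Ideal.span {f}) (B ⧸ I) :=
    Module.Finite.of_restrictScalars_finite k[X] (k[X] ⧸ Ideal.span {f}) (B ⧸ I)
  haveI : Module.Finite k (k[X] ⧸ Ideal.span {f}) :=
    (AdjoinRoot.powerBasis hf0).finite
  exact Module.Finite.trans (k[X] ⧸ Ideal.span {f}) (B ⧸ I)

/-- The quotient by the kernel of a `k`-point is one dimensional. -/
theorem finrank_quotient_ker_point {B : Type u} [CommRing B] [Algebra k B] (q : B →ₐ[k] k) :
    Module.finrank k (B ⧸ RingHom.ker q) = 1 := by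
  have hs : Function.Surjective q := fun c => ⟨algebraMap k B c, by simp⟩
  rw [(Ideal.quotientKerAlgEquivOfSurjective hs).toLinearEquiv.finrank_eq]
  exact Module.finrank_self k

theorem finite_quotient_ker_point {B : Type u} [CommRing B] [Algebra k B] (q : B →ₐ[k] k) :
    Module.Finite k (B ⧸ RingHom.ker q) := by
  have hs : Function.Surjective q := fun c => ⟨algebraMap k B c, by simp⟩
  exact Module.Finite.equiv (Ideal.quotientKerAlgEquivOfSurjective hs).toLinearEquiv.symm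

/-- `finrank (B ⧸ ⊤) = 0`. -/
theorem finrank_quotient_top {B : Type u} [CommRing B] [Algebra k B] :
    Module.finrank k (B ⧸ (⊤ : Ideal B)) = 0 := by
  haveI : Subsingleton (B ⧸ (⊤ : Ideal B)) := Ideal.Quotient.subsingleton_iff.2 rfl
  exact Module.finrank_zero_of_subsingleton

/-- A finite dimensional quotient of dimension `0` is trivial. -/
theorem eq_top_of_finrank_quotient_eq_zero {B : Type u} [CommRing B] [Algebra k B]
    (I : Ideal B) [Module.Finite k (B ⧸ I)] (h : Module.finrank k (B ⧸ I) = 0) : I = ⊤ := by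
  haveI : Subsingleton (B ⧸ I) := Module.finrank_zero_iff.1 h
  exact Ideal.Quotient.subsingleton_iff.1 inferInstance

/-- In a Dedekind domain: if `I * J ⊔ (a) = I` and `a * b ∈ I * J` then `b ∈ J`. -/
theorem mem_of_mul_mem_mul {B : Type u} [CommRing B] [IsDedekindDomain B] (I J : Ideal B)
    (hI : I ≠ ⊥) (a : B) (ha : I * J ⊔ Ideal.span {a} = I) (b : B) (hab : a * b ∈ I * J) :
    b ∈ J := by
  have haI : Ideal.span {a} ≤ I := ha ▸ le_sup_right
  obtain ⟨A', hA'⟩ := Ideal.dvd_iff_le.2 haI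
  have hcop : J ⊔ A' = ⊤ := by
    have h1 : I * (J ⊔ A') = I * ⊤ := by
      rw [Ideal.mul_sup, ← hA', ha, Ideal.mul_top]
    exact mul_left_cancel₀ hI h1
  have h2 : I * (A' * Ideal.span {b}) ≤ I * J := by
    rw [← mul_assoc, ← hA', Ideal.span_singleton_mul_span_singleton,
      Ideal.span_singleton_le_iff_mem]
    exact hab
  have h3 : A' * Ideal.span {b} ≤ J := by
    rw [← Ideal.dvd_iff_le] at h2 ⊢
    exact (mul_dvd_mul_iff_left hI).1 h2
  have h4 : Ideal.span {b} ≤ J := by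
    calc Ideal.span {b} = Ideal.span {b} * (J ⊔ A') := by rw [hcop, Ideal.mul_top]
      _ = Ideal.span {b} * J ⊔ Ideal.span {b} * A' := Ideal.mul_sup _ _ _
      _ ≤ J := sup_le Ideal.mul_le_right (by rw [mul_comm]; exact h3)
  exact h4 (Ideal.mem_span_singleton_self b)

/-- **Additivity of the colength** in a Dedekind domain over a field. -/
theorem finrank_quotient_mul {B : Type u} [CommRing B] [IsDedekindDomain B] [Algebra k B]
    (I J : Ideal B) (hI : I ≠ ⊥) (hJ : J ≠ ⊥) [Module.Finite k (B ⧸ I * J)] :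
    Module.finrank k (B ⧸ I * J) = Module.finrank k (B ⧸ I) + Module.finrank k (B ⧸ J) := by
  have hIJ : I * J ≤ I := Ideal.mul_le_left
  have hne : I * J ≠ 0 := mul_ne_zero hI hJ
  obtain ⟨a, ha⟩ := IsDedekindDomain.exists_sup_span_eq hIJ hne
  have haI : a ∈ I := by
    have : a ∈ I * J ⊔ Ideal.span {a} := Ideal.mem_sup_right (Ideal.mem_span_singleton_self a)
    rwa [ha] at this
  let π : (B ⧸ I * J) →ₗ[k] (B ⧸ I) := (Ideal.Quotient.factorₐ k hIJ).toLinearMap
  have hπ : Function.Surjective π := Ideal.Quotient.factor_surjective hIJ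
  let ψB : (B ⧸ J) →ₗ[B] (B ⧸ I * J) :=
    Submodule.mapQ J (I * J) (LinearMap.mulLeft B a) (by
      intro b hb
      simp only [Submodule.mem_comap, LinearMap.mulLeft_apply]
      exact Ideal.mul_mem_mul haI hb)
  let ψ : (B ⧸ J) →ₗ[k] (B ⧸ I * J) := ψB.restrictScalars k
  have hψ : ∀ b : B, ψ (Ideal.Quotient.mk J b) = Ideal.Quotient.mk (I * J) (a * b) := fun b => rfl
  have hπmk : ∀ b : B, π (Ideal.Quotient.mk (I * J) b) = Ideal.Quotient.mk I b := fun b => rfl
  have hψinj : Function.Injective ψ := by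
    rw [← LinearMap.ker_eq_bot, LinearMap.ker_eq_bot']
    intro y hy
    obtain ⟨b, rfl⟩ := Ideal.Quotient.mk_surjective y
    rw [hψ, Ideal.Quotient.eq_zero_iff_mem] at hy
    rw [Ideal.Quotient.eq_zero_iff_mem]
    exact mem_of_mul_mem_mul I J hI a ha b hy
  have hrange : LinearMap.range ψ = LinearMap.ker π := by
    ext y
    obtain ⟨c, rfl⟩ := Ideal.Quotient.mk_surjective y
    rw [LinearMap.mem_range, LinearMap.mem_ker, hπmk, Ideal.Quotient.eq_zero_iff_mem]
    constructor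
    · rintro ⟨y, hy⟩
      obtain ⟨b, rfl⟩ := Ideal.Quotient.mk_surjective y
      rw [hψ, Ideal.Quotient.eq, ] at hy
      have h1 : a * b ∈ I := I.mul_mem_right b haI
      have h2 : a * b - c ∈ I := hIJ hy
      have : c = a * b - (a * b - c) := by ring
      rw [this]
      exact I.sub_mem h1 h2
    · intro hc
      rw [← ha, Submodule.mem_sup] at hc
      obtain ⟨d, hd, e, he, rfl⟩ := hc
      obtain ⟨b, rfl⟩ := Ideal.mem_span_singleton'.1 he
      refine ⟨Ideal.Quotient.mk J b, ?_⟩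
      rw [hψ, Ideal.Quotient.eq]
      have : a * b - (d + b * a) = -d := by ring
      rw [this]
      exact (I * J).neg_mem hd
  have h1 := LinearMap.finrank_range_add_finrank_ker π
  rw [LinearMap.range_eq_top.2 hπ, finrank_top, ← hrange, LinearMap.finrank_range_of_inj hψinj]
    at h1
  omega

/-- For a localization `A → L` away from `x` and an ideal `J` of finite colength, the map
`A ⧸ J → L ⧸ J L` is surjective. -/
theorem surjective_quotientMap_away {A L : Type u} [CommRing A] [CommRing L] [Algebra k A]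
    [Algebra k L] [Algebra A L] [IsScalarTower k A L] (x : A) [IsLocalization.Away x L]
    (J : Ideal A) [Module.Finite k (A ⧸ J)] :
    Function.Surjective (Ideal.quotientMapₐ (J.map (algebraMap A L))
      (IsScalarTower.toAlgHom k A L) Ideal.le_comap_map) := by
  set Φ := Ideal.quotientMapₐ (J.map (algebraMap A L))
      (IsScalarTower.toAlgHom k A L) Ideal.le_comap_map with hΦ
  have hΦmk : ∀ a : A, Φ (Ideal.Quotient.mk J a) =
      Ideal.Quotient.mk (J.map (algebraMap A L)) (algebraMap A L a) := fun a => rfl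
  haveI : IsArtinianRing (A ⧸ J) := IsArtinianRing.of_finite k (A ⧸ J)
  obtain ⟨n, y, hy⟩ := IsArtinian.exists_pow_succ_smul_dvd (Ideal.Quotient.mk J x) (1 : A ⧸ J)
  simp only [smul_eq_mul, mul_one] at hy
  have hu : IsUnit (Φ (Ideal.Quotient.mk J x)) := by
    rw [hΦmk]
    exact (IsLocalization.Away.algebraMap_isUnit x).map _
  have hinv : Φ (Ideal.Quotient.mk J x) * Φ y = 1 := by
    have h1 := congrArg Φ hy
    rw [map_mul, map_pow, map_pow, pow_succ, mul_assoc] at h1
    exact (hu.pow n).mul_left_cancel (by rw [h1, mul_one])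
  intro z
  obtain ⟨z, rfl⟩ := Ideal.Quotient.mk_surjective z
  obtain ⟨m, a, hma⟩ := IsLocalization.Away.surj x z
  refine ⟨Ideal.Quotient.mk J a * y ^ m, ?_⟩
  rw [map_mul, map_pow, hΦmk, ← hma, map_mul, map_pow, ← hΦmk, mul_assoc, ← mul_pow, hinv,
    one_pow, mul_one]

theorem finite_quotient_map_away {A L : Type u} [CommRing A] [CommRing L] [Algebra k A]
    [Algebra k L] [Algebra A L] [IsScalarTower k A L] (x : A) [IsLocalization.Away x L]
    (J : Ideal A) [Module.Finite k (A ⧸ J)] :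
    Module.Finite k (L ⧸ J.map (algebraMap A L)) :=
  Module.Finite.of_surjective (Ideal.quotientMapₐ (J.map (algebraMap A L))
      (IsScalarTower.toAlgHom k A L) Ideal.le_comap_map).toLinearMap
    (surjective_quotientMap_away x J)

theorem finrank_quotient_map_away_le {A L : Type u} [CommRing A] [CommRing L] [Algebra k A]
    [Algebra k L] [Algebra A L] [IsScalarTower k A L] (x : A) [IsLocalization.Away x L]
    (J : Ideal A) [Module.Finite k (A ⧸ J)] :
    Module.finrank k (L ⧸ J.map (algebraMap A L)) ≤ Module.finrank k (A ⧸ J) :=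
  LinearMap.finrank_le_finrank_of_surjective (f := (Ideal.quotientMapₐ (J.map (algebraMap A L))
      (IsScalarTower.toAlgHom k A L) Ideal.le_comap_map).toLinearMap)
    (surjective_quotientMap_away x J)

end General

section Pair

variable {k : Type u} [Field k] {A A' L : Type u} [CommRing A] [CommRing A'] [CommRing L]
  [Algebra k A] [Algebra k A'] [Algebra k L]

/-- Two charts `A`, `A'` with the common localization `L = A[1/x] = A'[1/z]`, `x z = 1`. -/
structure IsChartPair (i : A →ₐ[k] L) (i' : A' →ₐ[k] L) (x : A) (z : A') : Prop where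
  loc : @IsLocalization.Away A _ x L _ i.toRingHom.toAlgebra
  loc' : @IsLocalization.Away A' _ z L _ i'.toRingHom.toAlgebra
  hxz : i x * i' z = 1

variable {i : A →ₐ[k] L} {i' : A' →ₐ[k] L} {x : A} {z : A'}

theorem IsChartPair.symm (h : IsChartPair i i' x z) : IsChartPair i' i z x :=
  ⟨h.loc', h.loc, by rw [mul_comm]; exact h.hxz⟩

theorem IsChartPair.isUnit (h : IsChartPair i i' x z) : IsUnit (i x) :=
  IsUnit.of_mul_eq_one _ h.hxz

theorem IsChartPair.map_comap (h : IsChartPair i i' x z) (P : Ideal L) :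
    (P.comap i).map i = P := by
  letI : Algebra A L := i.toRingHom.toAlgebra
  haveI : IsLocalization.Away x L := h.loc
  exact IsLocalization.map_under (Submonoid.powers x) L P

theorem IsChartPair.finite_map (h : IsChartPair i i' x z) (J : Ideal A)
    [Module.Finite k (A ⧸ J)] : Module.Finite k (L ⧸ J.map i) := by
  letI : Algebra A L := i.toRingHom.toAlgebra
  haveI : IsScalarTower k A L := IsScalarTower.of_algebraMap_eq fun c => (i.commutes c).symm
  haveI : IsLocalization.Away x L := h.loc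
  exact finite_quotient_map_away (k := k) x J

theorem IsChartPair.finrank_map_le (h : IsChartPair i i' x z) (J : Ideal A)
    [Module.Finite k (A ⧸ J)] :
    Module.finrank k (L ⧸ J.map i) ≤ Module.finrank k (A ⧸ J) := by
  letI : Algebra A L := i.toRingHom.toAlgebra
  haveI : IsScalarTower k A L := IsScalarTower.of_algebraMap_eq fun c => (i.commutes c).symm
  haveI : IsLocalization.Away x L := h.loc
  exact finrank_quotient_map_away_le (k := k) x J

theorem IsChartPair.map_eq_top (h : IsChartPair i i' x z) (q : A →ₐ[k] k) (hq : q x = 0) :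
    (RingHom.ker q).map i = ⊤ :=
  Ideal.eq_top_of_isUnit_mem _ (Ideal.mem_map_of_mem i (show x ∈ RingHom.ker q from hq)) h.isUnit

theorem IsChartPair.exists_lift (h : IsChartPair i i' x z) (q : A →ₐ[k] k) (hq : q x ≠ 0) :
    ∃ q01 : L →ₐ[k] k, q01.comp i = q ∧ (RingHom.ker q).map i = RingHom.ker q01 := by
  letI : Algebra A L := i.toRingHom.toAlgebra
  haveI : IsScalarTower k A L := IsScalarTower.of_algebraMap_eq fun c => (i.commutes c).symm
  haveI : IsLocalization.Away x L := h.loc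
  have hu : IsUnit (q x) := IsUnit.mk0 _ hq
  let q01 : L →ₐ[k] k := IsLocalization.Away.liftAlgHom (S := L) x (f := q) hu
  have hcomp : q01.comp i = q := by
    ext a
    exact IsLocalization.Away.lift_eq x hu a
  refine ⟨q01, hcomp, ?_⟩
  have hc : (RingHom.ker q01).comap i = RingHom.ker q := by
    ext a
    rw [Ideal.mem_comap, RingHom.mem_ker, RingHom.mem_ker, ← hcomp]
    rfl
  rw [← hc]
  exact h.map_comap _

/-- Everything about the divisor of a point `q` of the chart `A`. -/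
theorem IsChartPair.point (h : IsChartPair i i' x z) [Nontrivial A']
    (hker' : ∀ q' : A' →ₐ[k] k, RingHom.ker q' ≠ ⊥) (q : A →ₐ[k] k) :
    ((RingHom.ker q).map i).comap i' ≠ ⊥ ∧
    (RingHom.ker q).map i = (((RingHom.ker q).map i).comap i').map i' ∧
    ((Module.finrank k (A ⧸ RingHom.ker q) : ℤ) +
        Module.finrank k (A' ⧸ ((RingHom.ker q).map i).comap i') -
        Module.finrank k (L ⧸ (RingHom.ker q).map i) = 1) ∧
    (q x = 0 → ((RingHom.ker q).map i).comap i' = ⊤) ∧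
    (q x ≠ 0 → ∃ q01 : L →ₐ[k] k, q01.comp i = q ∧
      ((RingHom.ker q).map i).comap i' = RingHom.ker (q01.comp i')) := by
  have hA : Module.finrank k (A ⧸ RingHom.ker q) = 1 := finrank_quotient_ker_point q
  by_cases hq : q x = 0
  · have hmap := h.map_eq_top q hq
    have hco : ((RingHom.ker q).map i).comap i' = ⊤ := by rw [hmap, Ideal.comap_top]
    refine ⟨?_, (h.symm.map_comap _).symm, ?_, fun _ => hco, fun hne => absurd hq hne⟩
    · rw [hco]
      exact top_ne_bot
    · rw [hco, hmap, hA, finrank_quotient_top, finrank_quotient_top]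
      norm_num
  · obtain ⟨q01, hcomp, hmap⟩ := h.exists_lift q hq
    have hco : ((RingHom.ker q).map i).comap i' = RingHom.ker (q01.comp i') := by
      rw [hmap]
      ext a
      rw [Ideal.mem_comap, RingHom.mem_ker, RingHom.mem_ker]
      rfl
    refine ⟨?_, (h.symm.map_comap _).symm, ?_, fun h0 => absurd h0 hq, fun _ => ⟨q01, hcomp, hco⟩⟩
    · rw [hco]
      exact hker' _
    · rw [hco, hmap, hA, finrank_quotient_ker_point, finrank_quotient_ker_point]
      norm_num

end Pair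

section Datum

open Fermat.Agent.S25.LB

variable {k : Type u} [Field k] (𝒞 : CurveDatum k)

theorem isChartPair (h : 𝒞.IsGood) : IsChartPair 𝒞.i0 𝒞.i1 𝒞.x0 𝒞.z1 :=
  ⟨h.loc0, h.loc1, 𝒞.hxz⟩

/-- The kernel of a point of a ring with a transcendental element is nonzero. -/
theorem ker_point_ne_bot {B : Type u} [CommRing B] [Algebra k B] (x : B)
    (hinj : Function.Injective (Polynomial.aeval (R := k) x)) (q : B →ₐ[k] k) :
    RingHom.ker q ≠ ⊥ := by
  intro hbot
  have hmem : x - algebraMap k B (q x) ∈ RingHom.ker q := by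
    rw [RingHom.mem_ker, map_sub, AlgHom.commutes, Algebra.algebraMap_self_apply, sub_self]
  rw [hbot, Ideal.mem_bot] at hmem
  have h1 : Polynomial.aeval (R := k) x (X - C (q x)) = Polynomial.aeval (R := k) x 0 := by
    rw [map_sub, Polynomial.aeval_X, Polynomial.aeval_C, map_zero, hmem]
  exact X_sub_C_ne_zero (q x) (hinj h1)

theorem ker_point_ne_bot0 (h : 𝒞.IsGood) (q : 𝒞.B0 →ₐ[k] k) : RingHom.ker q ≠ ⊥ :=
  ker_point_ne_bot 𝒞.x0 h.trans0 q

theorem ker_point_ne_bot1 (h : 𝒞.IsGood) (q : 𝒞.B1 →ₐ[k] k) : RingHom.ker q ≠ ⊥ :=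
  ker_point_ne_bot 𝒞.z1 (H50.trans1 𝒞 h) q

theorem finite_quotient_B0 (h : 𝒞.IsGood) (J : Ideal 𝒞.B0) (hJ : J ≠ ⊥) :
    Module.Finite k (𝒞.B0 ⧸ J) :=
  haveI := h.dom0
  finite_quotient_of_ne_bot 𝒞.x0 h.fin0 J hJ

theorem finite_quotient_B1 (h : 𝒞.IsGood) (J : Ideal 𝒞.B1) (hJ : J ≠ ⊥) :
    Module.Finite k (𝒞.B1 ⧸ J) :=
  haveI := h.dom1
  finite_quotient_of_ne_bot 𝒞.z1 h.fin1 J hJ

variable {𝒞}

/-- Part 1 of `Stmt_PTS`: points of `V0`. -/
theorem pts0 (h : 𝒞.IsGood) (q : 𝒞.B0 →ₐ[k] k) :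
    IsEffDiv (RingHom.ker q) (tr01 (RingHom.ker q)) ∧
      ddeg (RingHom.ker q) (tr01 (RingHom.ker q)) = 1 ∧
      (q 𝒞.x0 = 0 → tr01 (RingHom.ker q) = ⊤) ∧
      (q 𝒞.x0 ≠ 0 → ∃ q01 : 𝒞.B01 →ₐ[k] k, q01.comp 𝒞.i0 = q ∧
        tr01 (RingHom.ker q) = RingHom.ker (q01.comp 𝒞.i1)) := by
  haveI := h.dom1
  obtain ⟨h1, h2, h3, h4, h5⟩ := (isChartPair 𝒞 h).point (ker_point_ne_bot1 𝒞 h) q
  exact ⟨⟨ker_point_ne_bot0 𝒞 h q, h1, h2⟩, h3, h4, h5⟩

/-- Part 2 of `Stmt_PTS`: points of `V1`. -/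
theorem pts1 (h : 𝒞.IsGood) (q : 𝒞.B1 →ₐ[k] k) :
    IsEffDiv (tr10 (RingHom.ker q)) (RingHom.ker q) ∧
      ddeg (tr10 (RingHom.ker q)) (RingHom.ker q) = 1 ∧
      (q 𝒞.z1 = 0 → tr10 (RingHom.ker q) = ⊤) ∧
      (q 𝒞.z1 ≠ 0 → ∃ q01 : 𝒞.B01 →ₐ[k] k, q01.comp 𝒞.i1 = q ∧
        tr10 (RingHom.ker q) = RingHom.ker (q01.comp 𝒞.i0)) := by
  haveI := h.dom0
  obtain ⟨h1, h2, h3, h4, h5⟩ := (isChartPair 𝒞 h).symm.point (ker_point_ne_bot0 𝒞 h) q
  refine ⟨⟨h1, ker_point_ne_bot1 𝒞 h q, h2.symm⟩, ?_, h4, h5⟩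
  have e : (tr10 (RingHom.ker q)).map 𝒞.i0 = (RingHom.ker q).map 𝒞.i1 := h2.symm
  unfold ddeg
  rw [e]
  unfold tr10
  linarith

/-- Part 3 of `Stmt_PTS`: products of effective divisors and the degree. -/
theorem pts_mul (h : 𝒞.IsGood) (J0 I0 : Ideal 𝒞.B0) (J1 I1 : Ideal 𝒞.B1)
    (hJ : IsEffDiv J0 J1) (hI : IsEffDiv I0 I1) :
    IsEffDiv (J0 * I0) (J1 * I1) ∧ ddeg (J0 * I0) (J1 * I1) = ddeg J0 J1 + ddeg I0 I1 ∧
      0 ≤ ddeg J0 J1 ∧ (ddeg J0 J1 = 0 → J0 = ⊤ ∧ J1 = ⊤) := by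
  haveI := h.dom0
  haveI := h.dom1
  haveI := h.dom01
  haveI := H50.isDedekindDomain_B0 𝒞 h
  haveI := H50.isDedekindDomain_B1 𝒞 h
  haveI := H50.isDedekindDomain_B01 𝒞 h
  have hp := isChartPair 𝒞 h
  have hm0 : J0 * I0 ≠ ⊥ := mul_ne_zero hJ.1 hI.1
  have hm1 : J1 * I1 ≠ ⊥ := mul_ne_zero hJ.2.1 hI.2.1
  haveI := finite_quotient_B0 𝒞 h J0 hJ.1
  haveI := finite_quotient_B1 𝒞 h J1 hJ.2.1
  haveI := finite_quotient_B0 𝒞 h (J0 * I0) hm0
  haveI := finite_quotient_B1 𝒞 h (J1 * I1) hm1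
  have hJ01 : J0.map 𝒞.i0 ≠ ⊥ := by
    rw [Ne, Ideal.map_eq_bot_iff_of_injective (H50.i0_injective 𝒞 h)]
    exact hJ.1
  have hI01 : I0.map 𝒞.i0 ≠ ⊥ := by
    rw [Ne, Ideal.map_eq_bot_iff_of_injective (H50.i0_injective 𝒞 h)]
    exact hI.1
  have le0 : Module.finrank k (𝒞.B01 ⧸ J0.map 𝒞.i0) ≤ Module.finrank k (𝒞.B0 ⧸ J0) :=
    hp.finrank_map_le J0
  have le1 : Module.finrank k (𝒞.B01 ⧸ J0.map 𝒞.i0) ≤ Module.finrank k (𝒞.B1 ⧸ J1) := by
    rw [hJ.2.2]
    exact hp.symm.finrank_map_le J1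
  refine ⟨⟨hm0, hm1, ?_⟩, ?_, ?_, ?_⟩
  · rw [Ideal.map_mul, Ideal.map_mul, hJ.2.2, hI.2.2]
  · have a0 := finrank_quotient_mul (k := k) J0 I0 hJ.1 hI.1
    have a1 := finrank_quotient_mul (k := k) J1 I1 hJ.2.1 hI.2.1
    have hfin : Module.Finite k (𝒞.B01 ⧸ (J0 * I0).map 𝒞.i0) := hp.finite_map (J0 * I0)
    rw [Ideal.map_mul] at hfin
    have a01 := finrank_quotient_mul (k := k) (J0.map 𝒞.i0) (I0.map 𝒞.i0) hJ01 hI01
    unfold ddeg
    rw [Ideal.map_mul, a0, a1, a01]
    push_cast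
    ring
  · unfold ddeg
    omega
  · intro hd
    unfold ddeg at hd
    have e0 : Module.finrank k (𝒞.B0 ⧸ J0) = 0 := by omega
    have e1 : Module.finrank k (𝒞.B1 ⧸ J1) = 0 := by omega
    exact ⟨eq_top_of_finrank_quotient_eq_zero J0 e0, eq_top_of_finrank_quotient_eq_zero J1 e1⟩

/-- **NUM-PTS**. -/
theorem stmt_PTS : Stmt_PTS.{u} := by
  intro k _ _ 𝒞 h
  exact ⟨pts0 h, pts1 h, pts_mul h⟩

end Datum

end Fermat.Agent.S25.Num.H38
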