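/-
helper50, S25 (Jacobian exists), package NUM, leaf NUM-CHI (abstract part): additivity of the Euler
characteristic of two-chart data over a field, and the case of a skyscraper quotient.

* `h0`, `h1`, `chi` of two-chart data over a field `k`;
* `alt_sum_six` : the alternating sum of the dimensions in a six-term exact sequence vanishes;
* `chi_of_shortExact` : `chi N = chi N' + chi N''` for `0 → N' → N → N'' → 0`;
* `chi_skyscraper` : if `h0 Q = 1` and `H1 Q = 0` then `chi N = chi N' + 1`,
  `h0 N' ≤ h0 N ≤ h0 N' + 1` and `h1 N ≤ h1 N' ≤ h1 N + 1`.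
-/
import Mathlib
import Fermat.Agent.S25.P1.H61_Les

set_option autoImplicit false
set_option linter.style.haveILetI false

universe u

namespace Fermat.Agent.S25.Num.H50

open Fermat.Agent.S25.P1 Module

section LinAlg

variable {k : Type*} [Field k]
variable {V₁ V₂ V₃ V₄ V₅ V₆ : Type*}
  [AddCommGroup V₁] [Module k V₁] [AddCommGroup V₂] [Module k V₂]
  [AddCommGroup V₃] [Module k V₃] [AddCommGroup V₄] [Module k V₄]
  [AddCommGroup V₅] [Module k V₅] [AddCommGroup V₆] [Module k V₆]

/-- rank–nullity across an exact pair. -/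
theorem finrank_eq_ker_add_ker {U V W : Type*} [AddCommGroup U] [Module k U] [AddCommGroup V]
    [Module k V] [AddCommGroup W] [Module k W] [FiniteDimensional k U] [FiniteDimensional k V]
    (b : U →ₗ[k] V) (c : V →ₗ[k] W) (h : Function.Exact b c) :
    finrank k U = finrank k (LinearMap.ker b) + finrank k (LinearMap.ker c) := by
  rw [LinearMap.exact_iff.mp h, add_comm]
  exact (LinearMap.finrank_range_add_finrank_ker b).symm

/-- The alternating sum of the dimensions in a six-term exact sequence vanishes. -/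
theorem alt_sum_six [FiniteDimensional k V₁] [FiniteDimensional k V₂] [FiniteDimensional k V₃]
    [FiniteDimensional k V₄] [FiniteDimensional k V₅] [FiniteDimensional k V₆]
    (a : V₁ →ₗ[k] V₂) (b : V₂ →ₗ[k] V₃) (c : V₃ →ₗ[k] V₄) (d : V₄ →ₗ[k] V₅) (e : V₅ →ₗ[k] V₆)
    (ha : Function.Injective a) (hab : Function.Exact a b) (hbc : Function.Exact b c)
    (hcd : Function.Exact c d) (hde : Function.Exact d e) (he : Function.Surjective e) :
    (finrank k V₁ : ℤ) + finrank k V₃ + finrank k V₅ =
      (finrank k V₂ : ℤ) + finrank k V₄ + finrank k V₆ := by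
  have h1 := finrank_eq_ker_add_ker a b hab
  have h2 := finrank_eq_ker_add_ker b c hbc
  have h3 := finrank_eq_ker_add_ker c d hcd
  have h4 := finrank_eq_ker_add_ker d e hde
  have h5 := LinearMap.finrank_range_add_finrank_ker e
  rw [LinearMap.range_eq_top.mpr he, finrank_top] at h5
  have h0 : finrank k (LinearMap.ker a) = 0 := by
    rw [LinearMap.ker_eq_bot.mpr ha, finrank_bot]
  omega

end LinAlg

section Chi

variable {k : Type u} [Field k]

/-- `h0 = dim_k H0`. -/
noncomputable def h0 (N : Data k) : ℕ := finrank k N.H0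

/-- `h1 = dim_k H1`. -/
noncomputable def h1 (N : Data k) : ℕ := finrank k N.H1

/-- The Euler characteristic. -/
noncomputable def chi (N : Data k) : ℤ := (h0 N : ℤ) - h1 N

/-- Additivity of the Euler characteristic in short exact sequences. -/
theorem chi_of_shortExact {N' N N'' : Data k} (f : Data.Hom N' N) (g : Data.Hom N N'')
    (hse : Data.ShortExact f g)
    [FiniteDimensional k N'.H0] [FiniteDimensional k N'.H1]
    [FiniteDimensional k N.H0] [FiniteDimensional k N.H1]
    [FiniteDimensional k N''.H0] [FiniteDimensional k N''.H1] :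
    chi N = chi N' + chi N'' := by
  obtain ⟨δ, e1, e2, e3, e4, e5, e6⟩ := H61.stmt_LES k N' N N'' f g hse
  have := alt_sum_six f.mapH0 g.mapH0 δ f.mapH1 g.mapH1 e1 e2 e3 e4 e5 e6
  unfold chi h0 h1
  omega

/-- The case of a skyscraper quotient: `h0 Q = 1`, `H1 Q = 0`. -/
theorem chi_skyscraper {N' N Q : Data k} (f : Data.Hom N' N) (g : Data.Hom N Q)
    (hse : Data.ShortExact f g)
    [FiniteDimensional k N'.H0] [FiniteDimensional k N'.H1]
    [FiniteDimensional k N.H0] [FiniteDimensional k N.H1]
    (hQ0 : finrank k Q.H0 = 1) (hQ1 : Subsingleton Q.H1) :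
    chi N = chi N' + 1 ∧ h0 N' ≤ h0 N ∧ h0 N ≤ h0 N' + 1 ∧ h1 N ≤ h1 N' ∧ h1 N' ≤ h1 N + 1 := by
  haveI : FiniteDimensional k Q.H0 := Module.finite_of_finrank_pos (by rw [hQ0]; exact one_pos)
  haveI : FiniteDimensional k Q.H1 := inferInstance
  obtain ⟨δ, e1, e2, e3, e4, e5, e6⟩ := H61.stmt_LES k N' N Q f g hse
  have hQ1' : finrank k Q.H1 = 0 := finrank_zero_of_subsingleton
  have key := alt_sum_six f.mapH0 g.mapH0 δ f.mapH1 g.mapH1 e1 e2 e3 e4 e5 e6
  have a1 := finrank_eq_ker_add_ker f.mapH0 g.mapH0 e2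
  have a2 := finrank_eq_ker_add_ker g.mapH0 δ e3
  have a3 := finrank_eq_ker_add_ker δ f.mapH1 e4
  have a4 := finrank_eq_ker_add_ker f.mapH1 g.mapH1 e5
  have a0 : finrank k (LinearMap.ker f.mapH0) = 0 := by
    rw [LinearMap.ker_eq_bot.mpr e1, finrank_bot]
  have a5 := LinearMap.finrank_range_add_finrank_ker g.mapH1
  rw [LinearMap.range_eq_top.mpr e6, finrank_top] at a5
  unfold chi h0 h1
  refine ⟨by omega, by omega, by omega, by omega, by omega⟩

end Chi

end Fermat.Agent.S25.Num.H50
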