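/-
helper50, S25 (Jacobian exists), package NUM, leaf NUM-CHI (abstract part 2): the cokernel of an
injective morphism of two-chart data, and the Euler characteristic of a twist by a point.

* `cokerData f`, `cokerHom f`, `shortExact_coker` : `0 → N' → N → N / N' → 0`;
* `h0Equiv_of_j1_bijective`, `subsingleton_H1_of_j1_surjective` : if `j1` of `Q` is bijective then
  `H0 Q ≃ Q.N0` and `H1 Q = 0`;
* `chi_of_point0` : if `N / N'` is one-dimensional on the chart `0` and `j1` of `N / N'` is bijective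
  (a point of the chart `0`), then `chi N = chi N' + 1`, `h0 N' ≤ h0 N ≤ h0 N' + 1`,
  `h1 N ≤ h1 N' ≤ h1 N + 1`;  `chi_of_point1` : the same with the charts exchanged.
-/
import Mathlib
import Fermat.Agent.S25.Num.H50_Chi

set_option autoImplicit false
set_option linter.style.haveILetI false

universe u

namespace Fermat.Agent.S25.Num.H50

open Fermat.Agent.S25.P1 Module

section Coker

variable {A : Type u} [CommRing A] {N' N : Data A} (f : Data.Hom N' N)

theorem range_f0_le_comap_X0 :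
    LinearMap.range f.f0 ≤ (LinearMap.range f.f0).comap N.X0 := by
  rintro _ ⟨n, rfl⟩
  exact ⟨N'.X0 n, f.f0_X n⟩

theorem range_f1_le_comap_Z1 :
    LinearMap.range f.f1 ≤ (LinearMap.range f.f1).comap N.Z1 := by
  rintro _ ⟨n, rfl⟩
  exact ⟨N'.Z1 n, f.f1_Z n⟩

theorem range_f01_le_comap_T :
    LinearMap.range f.f01 ≤ (LinearMap.range f.f01).comap N.T.toLinearMap := by
  rintro _ ⟨n, rfl⟩
  exact ⟨N'.T n, f.f01_T n⟩

theorem f01_T_symm (m : N'.N01) : f.f01 (N'.T.symm m) = N.T.symm (f.f01 m) := by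
  apply N.T.injective
  rw [LinearEquiv.apply_symm_apply, ← f.f01_T, LinearEquiv.apply_symm_apply]

theorem range_f01_le_comap_T_symm :
    LinearMap.range f.f01 ≤ (LinearMap.range f.f01).comap N.T.symm.toLinearMap := by
  rintro _ ⟨n, rfl⟩
  exact ⟨N'.T.symm n, f01_T_symm f n⟩

theorem range_f0_le_comap_j0 :
    LinearMap.range f.f0 ≤ (LinearMap.range f.f01).comap N.j0 := by
  rintro _ ⟨n, rfl⟩
  exact ⟨N'.j0 n, f.f_j0 n⟩

theorem range_f1_le_comap_j1 :
    LinearMap.range f.f1 ≤ (LinearMap.range f.f01).comap N.j1 := by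
  rintro _ ⟨n, rfl⟩
  exact ⟨N'.j1 n, f.f_j1 n⟩

/-- The cokernel of a morphism of two-chart data. -/
noncomputable def cokerData : Data A where
  N0 := N.N0 ⧸ LinearMap.range f.f0
  N1 := N.N1 ⧸ LinearMap.range f.f1
  N01 := N.N01 ⧸ LinearMap.range f.f01
  X0 := Submodule.mapQ _ _ N.X0 (range_f0_le_comap_X0 f)
  Z1 := Submodule.mapQ _ _ N.Z1 (range_f1_le_comap_Z1 f)
  T := LinearEquiv.ofLinearMap
    (Submodule.mapQ _ _ N.T.toLinearMap (range_f01_le_comap_T f))
    (Submodule.mapQ _ _ N.T.symm.toLinearMap (range_f01_le_comap_T_symm f))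
    (by
      ext m
      simp)
    (by
      ext m
      simp)
  j0 := Submodule.mapQ _ _ N.j0 (range_f0_le_comap_j0 f)
  j1 := Submodule.mapQ _ _ N.j1 (range_f1_le_comap_j1 f)
  j0_X := fun n => by
    induction n using Submodule.Quotient.induction_on with
    | _ n => simp [N.j0_X]
  j1_Z := fun n => by
    induction n using Submodule.Quotient.induction_on with
    | _ n => simp [N.j1_Z]

/-- The projection onto the cokernel. -/
noncomputable def cokerHom : Data.Hom N (cokerData f) where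
  f0 := Submodule.mkQ _
  f1 := Submodule.mkQ _
  f01 := Submodule.mkQ _
  f0_X := fun _ => rfl
  f1_Z := fun _ => rfl
  f01_T := fun _ => rfl
  f_j0 := fun _ => rfl
  f_j1 := fun _ => rfl

/-- `0 → N' → N → N / N' → 0`. -/
theorem shortExact_coker (h0 : Function.Injective f.f0) (h1 : Function.Injective f.f1)
    (h01 : Function.Injective f.f01) : Data.ShortExact f (cokerHom f) where
  inj0 := h0
  inj1 := h1
  inj01 := h01
  ex0 := LinearMap.exact_iff.mpr (Submodule.ker_mkQ _)
  ex1 := LinearMap.exact_iff.mpr (Submodule.ker_mkQ _)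
  ex01 := LinearMap.exact_iff.mpr (Submodule.ker_mkQ _)
  surj0 := Submodule.mkQ_surjective _
  surj1 := Submodule.mkQ_surjective _
  surj01 := Submodule.mkQ_surjective _

end Coker

section Sky

variable {A : Type u} [CommRing A] (Q : Data A)

/-- If `j1` is surjective then `H1 = 0`. -/
theorem subsingleton_H1_of_j1_surjective (h : Function.Surjective Q.j1) : Subsingleton Q.H1 := by
  have htop : Q.B1 = ⊤ := by
    rw [eq_top_iff]
    intro m _
    obtain ⟨n, rfl⟩ := h m
    exact Submodule.mem_sup_right ⟨n, rfl⟩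
  exact Submodule.Quotient.subsingleton_iff.mpr htop

/-- If `j0` is surjective then `H1 = 0`. -/
theorem subsingleton_H1_of_j0_surjective (h : Function.Surjective Q.j0) : Subsingleton Q.H1 := by
  have htop : Q.B1 = ⊤ := by
    rw [eq_top_iff]
    intro m _
    obtain ⟨n, rfl⟩ := h m
    exact Submodule.mem_sup_left ⟨n, rfl⟩
  exact Submodule.Quotient.subsingleton_iff.mpr htop

/-- If `j1` is bijective then `H0 ≃ N0` (first projection). -/
noncomputable def h0Equiv_of_j1_bijective (h : Function.Bijective Q.j1) : Q.H0 ≃ₗ[A] Q.N0 :=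
  LinearEquiv.ofBijective ((LinearMap.fst A Q.N0 Q.N1).comp Q.H0.subtype) (by
    constructor
    · intro p q hpq
      have h1 : p.1.1 = q.1.1 := hpq
      have hp : Q.j0 p.1.1 = Q.j1 p.1.2 := p.2
      have hq : Q.j0 q.1.1 = Q.j1 q.1.2 := q.2
      have h2 : p.1.2 = q.1.2 := h.1 (by rw [← hp, ← hq, h1])
      exact Subtype.ext (Prod.ext h1 h2)
    · intro a
      obtain ⟨b, hb⟩ := h.2 (Q.j0 a)
      exact ⟨⟨(a, b), hb.symm⟩, rfl⟩)

/-- If `j0` is bijective then `H0 ≃ N1` (second projection). -/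
noncomputable def h0Equiv_of_j0_bijective (h : Function.Bijective Q.j0) : Q.H0 ≃ₗ[A] Q.N1 :=
  LinearEquiv.ofBijective ((LinearMap.snd A Q.N0 Q.N1).comp Q.H0.subtype) (by
    constructor
    · intro p q hpq
      have h2 : p.1.2 = q.1.2 := hpq
      have hp : Q.j0 p.1.1 = Q.j1 p.1.2 := p.2
      have hq : Q.j0 q.1.1 = Q.j1 q.1.2 := q.2
      have h1 : p.1.1 = q.1.1 := h.1 (by rw [hp, hq, h2])
      exact Subtype.ext (Prod.ext h1 h2)
    · intro b
      obtain ⟨a, ha⟩ := h.2 (Q.j1 b)
      exact ⟨⟨(a, b), ha⟩, rfl⟩)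

end Sky

section Point

variable {k : Type u} [Field k] {N' N : Data k} (f : Data.Hom N' N)

/-- **Twist by a point of the chart `0`**: `N' ⊆ N` with `N0 / N0'` one-dimensional and
`N1 / N1' → N01 / N01'` bijective. -/
theorem chi_of_point0 (hi0 : Function.Injective f.f0) (hi1 : Function.Injective f.f1)
    (hi01 : Function.Injective f.f01)
    [FiniteDimensional k N'.H0] [FiniteDimensional k N'.H1]
    [FiniteDimensional k N.H0] [FiniteDimensional k N.H1]
    (hdim : finrank k (N.N0 ⧸ LinearMap.range f.f0) = 1)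
    (hbij : Function.Bijective (cokerData f).j1) :
    chi N = chi N' + 1 ∧ h0 N' ≤ h0 N ∧ h0 N ≤ h0 N' + 1 ∧ h1 N ≤ h1 N' ∧ h1 N' ≤ h1 N + 1 := by
  refine chi_skyscraper f (cokerHom f) (shortExact_coker f hi0 hi1 hi01) ?_
    (subsingleton_H1_of_j1_surjective _ hbij.2)
  rw [(h0Equiv_of_j1_bijective _ hbij).finrank_eq]
  exact hdim

/-- **Twist by a point of the chart `1`**: `N' ⊆ N` with `N1 / N1'` one-dimensional and
`N0 / N0' → N01 / N01'` bijective. -/
theorem chi_of_point1 (hi0 : Function.Injective f.f0) (hi1 : Function.Injective f.f1)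
    (hi01 : Function.Injective f.f01)
    [FiniteDimensional k N'.H0] [FiniteDimensional k N'.H1]
    [FiniteDimensional k N.H0] [FiniteDimensional k N.H1]
    (hdim : finrank k (N.N1 ⧸ LinearMap.range f.f1) = 1)
    (hbij : Function.Bijective (cokerData f).j0) :
    chi N = chi N' + 1 ∧ h0 N' ≤ h0 N ∧ h0 N ≤ h0 N' + 1 ∧ h1 N ≤ h1 N' ∧ h1 N' ≤ h1 N + 1 := by
  refine chi_skyscraper f (cokerHom f) (shortExact_coker f hi0 hi1 hi01) ?_
    (subsingleton_H1_of_j0_surjective _ hbij.2)
  rw [(h0Equiv_of_j0_bijective _ hbij).finrank_eq]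
  exact hdim

end Point

end Fermat.Agent.S25.Num.H50
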