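/-
helper50, S25 (Jacobian exists), package NUM, leaf NUM-FIN: finiteness of the cohomology.

* `h0_finite_of_noetherian` : two-chart vector bundle over a noetherian ring `A`: `H0` is a finite
  `A`-module (`H0 N ↪ H0 (N(n))`, `n ≫ 0`, and `H97.h0_finite`);
* `h1_finite` : `H1` is a finite `A`-module (any ring; `H22.stmt_FG`);
* `triple_h0_finite`, `triple_h1_finite` : the case of a triple on a good curve datum over a
  noetherian `k`-algebra `R` (in particular `R = k`).
-/
import Mathlib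
import Fermat.Agent.S25.P1.H22_FG
import Fermat.Agent.S25.P1.H36_Tw
import Fermat.Agent.S25.P1.H83_H1FP
import Fermat.Agent.S25.P1.H97_H0Proj
import Fermat.Agent.S25.LB.H7_VB

set_option autoImplicit false
set_option linter.style.haveILetI false

universe u

namespace Fermat.Agent.S25.Num.H50

open Fermat.Agent.S25.P1 Fermat.Agent.S25.LB

section Data

variable {A : Type u} [CommRing A] (N : Data A)

/-- `H1` of a two-chart vector bundle is a finite module. -/
theorem h1_finite (hVB : N.IsVB) : Module.Finite A N.H1 :=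
  H22.stmt_FG A N hVB.loc (H83.fg0_of_proj0 N hVB.proj0)

/-- `T ^ n (j1 (Z1 ^ n b)) = j1 b`. -/
theorem T_pow_j1_Z1_pow (n : ℕ) (b : N.N1) :
    (N.T ^ (n : ℤ)) (N.j1 ((N.Z1 ^ n) b)) = N.j1 b := by
  rw [H22.j1_pow, ← LinearEquiv.mul_apply, ← zpow_add, add_neg_cancel, zpow_zero]
  rfl

/-- The inclusion `H0 N → H0 (N(n))`, `(a, b) ↦ (a, Z1 ^ n b)`. -/
noncomputable def twistIncl (n : ℕ) : N.H0 →ₗ[A] (N.twist (n : ℤ)).H0 :=
  LinearMap.codRestrict (N.twist (n : ℤ)).H0
    (((LinearMap.id : N.N0 →ₗ[A] N.N0).prodMap (N.Z1 ^ n)).comp N.H0.subtype) (fun p => by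
      have hp : N.j0 p.1.1 = N.j1 p.1.2 := p.2
      change N.j0 p.1.1 = (N.T ^ (n : ℤ)) (N.j1 ((N.Z1 ^ n) p.1.2))
      rw [T_pow_j1_Z1_pow, hp])

theorem twistIncl_injective (hVB : N.IsVB) (n : ℕ) : Function.Injective (twistIncl N n) := by
  intro p q h
  have h1 : (twistIncl N n p).1.1 = (twistIncl N n q).1.1 := by rw [h]
  have h1' : p.1.1 = q.1.1 := h1
  have hp : N.j0 p.1.1 = N.j1 p.1.2 := p.2
  have hq : N.j0 q.1.1 = N.j1 q.1.2 := q.2
  have h2 : p.1.2 = q.1.2 := H97.j1_injective N hVB.loc hVB.proj1 (by rw [← hp, ← hq, h1'])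
  exact Subtype.ext (Prod.ext h1' h2)

/-- `H0` of a two-chart vector bundle over a noetherian ring is a finite module. -/
theorem h0_finite_of_noetherian [IsNoetherianRing A] (hVB : N.IsVB) : Module.Finite A N.H0 := by
  obtain ⟨n0, hn0⟩ := H22.stmt_VAN A N hVB.loc (H83.fg0_of_proj0 N hVB.proj0)
  have hn : n0 ≤ ((n0.toNat : ℕ) : ℤ) := Int.self_le_toNat n0
  have hsub : Subsingleton (N.twist ((n0.toNat : ℕ) : ℤ)).H1 := hn0 _ hn
  have hVBt : (N.twist ((n0.toNat : ℕ) : ℤ)).IsVB := H36.twist_isVB N hVB _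
  haveI : Module.Finite A (N.twist ((n0.toNat : ℕ) : ℤ)).H0 := H97.h0_finite _ hVBt hsub
  haveI : IsNoetherian A (N.twist ((n0.toNat : ℕ) : ℤ)).H0 := isNoetherian_of_isNoetherianRing_of_finite A _
  exact Module.Finite.of_injective (twistIncl N n0.toNat) (twistIncl_injective N hVB n0.toNat)

end Data

section Triple

variable {k : Type u} [Field k] {𝒞 : CurveDatum k} {R : Type u} [CommRing R] [Algebra k R]

/-- `H1` of a triple is a finite `R`-module. -/
theorem triple_h1_finite (hG : 𝒞.IsGood) (L : Triple 𝒞 R) : Module.Finite R L.H1 :=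
  h1_finite L.toData (H7.stmt_VB k 𝒞 hG R L)

/-- `H0` of a triple over a noetherian ring is a finite `R`-module. -/
theorem triple_h0_finite [IsNoetherianRing R] (hG : 𝒞.IsGood) (L : Triple 𝒞 R) :
    Module.Finite R L.H0 :=
  h0_finite_of_noetherian L.toData (H7.stmt_VB k 𝒞 hG R L)

end Triple

end Fermat.Agent.S25.Num.H50
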