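/-
helper50, S25 (Jacobian exists), package NUM, leaf NUM-CHI (algebra part): invertible modules modulo an
ideal of finite colength.

* `exists_quot_smul_top_equiv`, `exists_quot_equiv_of_mem_iff` : `P / J P ≃ R / J` (`k`-linearly) for an
  invertible `R`-module `P` and an ideal `J` with `R / J` finite dimensional over `k`;
* `exists_quot_ext_equiv` : `(k ⊗ B) / J (k ⊗ B) ≃ B / J`;
* `ideal_le_of_smul_top_le`, `ideal_eq_of_smul_top_eq` : for an invertible module `P`, `I P ⊆ I' P ⟹ I ⊆ I'`;
* `nontrivial_of_invertible`;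
* `surjective_of_finite_of_loc` : a finite dimensional module maps ONTO its localisation.
-/
import Mathlib

set_option autoImplicit false
set_option linter.style.haveILetI false

universe u

open TensorProduct Module Polynomial

namespace Fermat.Agent.S25.Num.H50

section InvQuot

variable (k : Type u) [Field k] {R : Type u} [CommRing R] [Algebra k R] (J : Ideal R)
  (P : Type u) [AddCommGroup P] [Module R P] [Module k P] [IsScalarTower k R P]
  [Module.Invertible R P]

/-- An invertible module modulo an ideal of finite colength: the quotient is isomorphic to the quotient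
of the ring (the Picard group of a semilocal ring is trivial). -/
theorem exists_quot_smul_top_equiv [Module.Finite k (R ⧸ J)] :
    Nonempty ((P ⧸ (J • ⊤ : Submodule R P)) ≃ₗ[k] (R ⧸ J)) := by
  haveI : IsArtinianRing (R ⧸ J) := IsArtinianRing.of_finite k (R ⧸ J)
  haveI : Module.Free (R ⧸ J) ((R ⧸ J) ⊗[R] P) := inferInstance
  obtain ⟨e1⟩ := (Module.Invertible.free_iff_linearEquiv (R := R ⧸ J)
    (M := (R ⧸ J) ⊗[R] P)).mp inferInstance
  let e2 : ((R ⧸ J) ⊗[R] P) ≃ₗ[R] P ⧸ (J • ⊤ : Submodule R P) :=
    TensorProduct.quotTensorEquivQuotSMul P J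
  exact ⟨(e2.symm.restrictScalars k).trans (e1.restrictScalars k)⟩

/-- The same for a `k`-submodule with the same elements as `J • ⊤`. -/
theorem exists_quot_equiv_of_mem_iff [Module.Finite k (R ⧸ J)] (S : Submodule k P)
    (hS : ∀ p, p ∈ S ↔ p ∈ (J • ⊤ : Submodule R P)) :
    Nonempty ((P ⧸ S) ≃ₗ[k] (R ⧸ J)) := by
  obtain ⟨e⟩ := exists_quot_smul_top_equiv k J P
  have h : S = (J • ⊤ : Submodule R P).restrictScalars k := by
    ext p
    rw [hS p]
    rfl
  exact ⟨(Submodule.quotEquivOfEq _ _ h).trans
    ((Submodule.Quotient.restrictScalarsEquiv k (J • ⊤ : Submodule R P)).trans e)⟩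

end InvQuot

section Lid

variable (k : Type u) [Field k] (B : Type u) [CommRing B] [Algebra k B]

/-- `(k ⊗ B) / J (k ⊗ B) ≃ B / J`. -/
theorem exists_quot_ext_equiv (J : Ideal B) :
    Nonempty (((k ⊗[k] B) ⧸ J.map (Algebra.TensorProduct.includeRight : B →ₐ[k] k ⊗[k] B))
      ≃ₗ[k] (B ⧸ J)) := by
  have h : J.map (Algebra.TensorProduct.includeRight : B →ₐ[k] k ⊗[k] B) =
      J.map ((Algebra.TensorProduct.lid k B).symm : B →+* k ⊗[k] B) := by
    unfold Ideal.map
    congr 1
  exact ⟨(Ideal.quotientEquivAlg J _ (Algebra.TensorProduct.lid k B).symm h).symm.toLinearEquiv⟩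

end Lid

section SmulTop

variable {R : Type*} [CommRing R] {P : Type*} [AddCommGroup P] [Module R P]

/-- A linear form maps `I • ⊤` into `I`. -/
theorem dual_apply_mem_of_mem_smul_top (I : Ideal R) (φ : Module.Dual R P) {x : P}
    (hx : x ∈ (I • ⊤ : Submodule R P)) : φ x ∈ I := by
  refine Submodule.smul_induction_on (p := fun x => φ x ∈ I) hx ?_ ?_
  · intro b hb m _
    rw [map_smul, smul_eq_mul]
    exact I.mul_mem_right _ hb
  · intro x y hx hy
    rw [map_add]
    exact I.add_mem hx hy

/-- For an invertible module `P`, the ideal `I` is determined by `I • P`. -/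
theorem ideal_le_of_smul_top_le [Module.Invertible R P] {I I' : Ideal R}
    (h : (I • ⊤ : Submodule R P) ≤ I' • ⊤) : I ≤ I' := by
  intro a ha
  have key : ∀ t : Module.Dual R P ⊗[R] P, a * contractLeft R P t ∈ I' := by
    intro t
    induction t using TensorProduct.induction_on with
    | zero => simp
    | tmul φ p =>
      have h1 : a • p ∈ (I • ⊤ : Submodule R P) := Submodule.smul_mem_smul ha Submodule.mem_top
      have h2 := dual_apply_mem_of_mem_smul_top I' φ (h h1)
      rw [map_smul, smul_eq_mul] at h2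
      simpa using h2
    | add x y hx hy =>
      rw [map_add, mul_add]
      exact I'.add_mem hx hy
  obtain ⟨t, ht⟩ := (Module.Invertible.bijective (R := R) (M := P)).2 1
  have := key t
  rwa [ht, mul_one] at this

theorem ideal_eq_of_smul_top_eq [Module.Invertible R P] {I I' : Ideal R}
    (h : (I • ⊤ : Submodule R P) = I' • ⊤) : I = I' :=
  le_antisymm (ideal_le_of_smul_top_le h.le) (ideal_le_of_smul_top_le h.ge)

theorem nontrivial_of_invertible [Nontrivial R] [Module.Invertible R P] : Nontrivial P := by
  by_contra hP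
  rw [not_nontrivial_iff_subsingleton] at hP
  have h : ((⊤ : Ideal R) • ⊤ : Submodule R P) = (⊥ : Ideal R) • ⊤ := Subsingleton.elim _ _
  exact top_ne_bot (ideal_eq_of_smul_top_eq h)

end SmulTop

section Fitting

variable {k : Type*} [Field k] {V W : Type*} [AddCommGroup V] [Module k V] [AddCommGroup W]
  [Module k W]

/-- A finite dimensional module maps onto its localisation. -/
theorem surjective_of_finite_of_loc [FiniteDimensional k V] (X : V →ₗ[k] V) (T : W ≃ₗ[k] W)
    (j : V →ₗ[k] W) (hjX : ∀ v, j (X v) = T (j v))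
    (hsurj : ∀ w, ∃ (n : ℕ) (v : V), (T.toLinearMap ^ n) w = j v) : Function.Surjective j := by
  set U : Submodule k W := LinearMap.range j with hU
  have hTU : ∀ u ∈ U, T u ∈ U := by
    rintro _ ⟨v, rfl⟩
    exact ⟨X v, hjX v⟩
  let TU : U →ₗ[k] U := T.toLinearMap.restrict hTU
  have hinj : Function.Injective TU := by
    intro a b hab
    apply Subtype.ext
    apply T.injective
    exact congrArg Subtype.val hab
  have hsur : Function.Surjective TU := LinearMap.injective_iff_surjective.mp hinj
  have hpow : ∀ n : ℕ, ∀ u ∈ U, ∃ u' ∈ U, (T.toLinearMap ^ n) u' = u := by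
    intro n
    induction n with
    | zero => intro u hu; exact ⟨u, hu, rfl⟩
    | succ n ih =>
      intro u hu
      obtain ⟨⟨u1, hu1⟩, h1⟩ := hsur ⟨u, hu⟩
      have h1' : T u1 = u := congrArg Subtype.val h1
      obtain ⟨u2, hu2, h2⟩ := ih u1 hu1
      refine ⟨u2, hu2, ?_⟩
      rw [pow_succ', Module.End.mul_apply, h2]
      exact h1'
  intro w
  obtain ⟨n, v, hv⟩ := hsurj w
  obtain ⟨u', hu', h'⟩ := hpow n (j v) ⟨v, rfl⟩
  have hTinj : Function.Injective (T.toLinearMap ^ n) := by
    rw [Module.End.coe_pow]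
    exact T.injective.iterate n
  have : u' = w := hTinj (by rw [h', hv])
  rw [← this]
  exact hu'

end Fitting

end Fermat.Agent.S25.Num.H50
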