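import Mathlib
import Fermat.Agent.S25.LB.Defs

/-!
# S25, package NUM, leaf NUM-FRAC (helper9): triples over `k` inside the function field

`𝒞 : CurveDatum k` good, `K` a fraction field of `B01`.  Every triple `L` over `k` embeds into `K`:
there is an injective additive map `φ01 : L.P01 → K`, linear over `k ⊗ B01 ≅ B01 → K`.
-/

set_option autoImplicit false
set_option linter.style.haveILetI false
set_option linter.unusedSectionVars false

universe u

open TensorProduct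

namespace Fermat.Agent.S25.Num.H9

open Fermat.Agent.S25 LB

variable {k : Type u} [Field k] {𝒞 : CurveDatum k}

/-- the ring map `k ⊗ B01 → K` -/
noncomputable def toK (𝒞 : CurveDatum k) (K : Type u) [Field K] [Algebra 𝒞.B01 K] :
    (k ⊗[k] 𝒞.B01) →+* K :=
  (algebraMap 𝒞.B01 K).comp (Algebra.TensorProduct.lid k 𝒞.B01).toAlgHom.toRingHom

theorem isDomain_tensor01 (h : 𝒞.IsGood) : IsDomain (k ⊗[k] 𝒞.B01) :=
  haveI := h.dom01
  MulEquiv.isDomain 𝒞.B01 (Algebra.TensorProduct.lid k 𝒞.B01).toRingEquiv.toMulEquiv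

theorem isDomain_tensor0 (h : 𝒞.IsGood) : IsDomain (k ⊗[k] 𝒞.B0) :=
  haveI := h.dom0
  MulEquiv.isDomain 𝒞.B0 (Algebra.TensorProduct.lid k 𝒞.B0).toRingEquiv.toMulEquiv

theorem isDomain_tensor1 (h : 𝒞.IsGood) : IsDomain (k ⊗[k] 𝒞.B1) :=
  haveI := h.dom1
  MulEquiv.isDomain 𝒞.B1 (Algebra.TensorProduct.lid k 𝒞.B1).toRingEquiv.toMulEquiv

theorem toK_injective (_h : 𝒞.IsGood) (K : Type u) [Field K] [Algebra 𝒞.B01 K]
    [IsFractionRing 𝒞.B01 K] : Function.Injective (toK 𝒞 K) := by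
  haveI := _h.dom01
  intro a b hab
  have h1 := IsFractionRing.injective 𝒞.B01 K hab
  exact (Algebra.TensorProduct.lid k 𝒞.B01).injective h1


section Loc

variable (R : Type u) [CommRing R] [Algebra k R]

/-- `R ⊗ B01` is the localisation of `R ⊗ B0` at `1 ⊗ x0`. -/
theorem isLocalization_tensor0 (h : 𝒞.IsGood) :
    @IsLocalization (R ⊗[k] 𝒞.B0) _ (Submonoid.powers ((1 : R) ⊗ₜ[k] 𝒞.x0)) (R ⊗[k] 𝒞.B01) _
      (𝒞.ι0 R).toAlgebra := by
  letI : Algebra 𝒞.B0 𝒞.B01 := 𝒞.i0.toRingHom.toAlgebra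
  haveI : IsScalarTower k 𝒞.B0 𝒞.B01 :=
    IsScalarTower.of_algebraMap_eq fun c => (𝒞.i0.commutes c).symm
  haveI : IsLocalization (Submonoid.powers 𝒞.x0) 𝒞.B01 := h.loc0
  letI : Algebra (R ⊗[k] 𝒞.B0) (R ⊗[k] 𝒞.B01) := (𝒞.ι0 R).toAlgebra
  haveI : IsScalarTower R (R ⊗[k] 𝒞.B0) (R ⊗[k] 𝒞.B01) :=
    IsScalarTower.of_algebraMap_eq fun r => by
      change _ = (𝒞.ι0 R) _
      simp [CurveDatum.ι0, Algebra.TensorProduct.algebraMap_apply]
  have H : (algebraMap (R ⊗[k] 𝒞.B0) (R ⊗[k] 𝒞.B01)).comp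
      (Algebra.TensorProduct.includeRight (R := k) (A := R) (B := 𝒞.B0)).toRingHom =
      (Algebra.TensorProduct.includeRight (R := k) (A := R) (B := 𝒞.B01)).toRingHom.comp
        (algebraMap 𝒞.B0 𝒞.B01) := by
    ext b
    simp only [RingHom.comp_apply, AlgHom.toRingHom_eq_coe, RingHom.coe_coe,
      Algebra.TensorProduct.includeRight_apply, RingHom.algebraMap_toAlgebra]
    rfl
  have := IsLocalization.tensorProduct_tensorProduct_right k R (Submonoid.powers 𝒞.x0) 𝒞.B01 H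
  simpa [Submonoid.map_powers] using this


variable {R}

/-- the unit `(1 ⊗ i0 x0)^n` of `R ⊗ B01` -/
theorem isUnit_x0_pow (n : ℕ) : IsUnit (((1 : R) ⊗ₜ[k] 𝒞.i0 𝒞.x0 : R ⊗[k] 𝒞.B01) ^ n) :=
  (IsUnit.of_mul_eq_one _ (Triple.unit_mul_unit 𝒞 R)).pow n

/-- **P01 is invertible** over `R ⊗ B01` (it is the localisation of `P0`). -/
theorem invertible01 (h : 𝒞.IsGood) (L : Triple 𝒞 R) :
    Module.Invertible (R ⊗[k] 𝒞.B01) L.P01 := by
  letI : Algebra (R ⊗[k] 𝒞.B0) (R ⊗[k] 𝒞.B01) := (𝒞.ι0 R).toAlgebra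
  haveI := isLocalization_tensor0 R h
  letI : Module (R ⊗[k] 𝒞.B0) L.P01 := Module.compHom L.P01 (𝒞.ι0 R)
  haveI : IsScalarTower (R ⊗[k] 𝒞.B0) (R ⊗[k] 𝒞.B01) L.P01 := ⟨fun c a m => by
    change (c • a) • m = (𝒞.ι0 R c) • (a • m)
    rw [Algebra.smul_def, mul_smul]; rfl⟩
  let f : L.P0 →ₗ[R ⊗[k] 𝒞.B0] L.P01 :=
    { toFun := L.r0
      map_add' := map_add _
      map_smul' := fun c p => L.r0.map_smulₛₗ c p }
  have hpow : ∀ n : ℕ, (𝒞.ι0 R) (((1 : R) ⊗ₜ[k] 𝒞.x0) ^ n) =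
      ((1 : R) ⊗ₜ[k] 𝒞.i0 𝒞.x0 : R ⊗[k] 𝒞.B01) ^ n := fun n => by
    rw [map_pow]; rfl
  haveI : IsLocalizedModule (Submonoid.powers ((1 : R) ⊗ₜ[k] 𝒞.x0)) f := by
    constructor
    · rintro ⟨s, n, rfl⟩
      rw [Module.End.isUnit_iff]
      have hu := isUnit_x0_pow (𝒞 := 𝒞) (R := R) n
      constructor
      · intro a b hab
        have hab' : (𝒞.ι0 R) (((1 : R) ⊗ₜ[k] 𝒞.x0) ^ n) • a =
            (𝒞.ι0 R) (((1 : R) ⊗ₜ[k] 𝒞.x0) ^ n) • b := hab
        rw [hpow] at hab'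
        exact hu.smul_left_cancel.mp hab'
      · intro b
        refine ⟨(hu.unit⁻¹ : (R ⊗[k] 𝒞.B01)ˣ) • b, ?_⟩
        change (𝒞.ι0 R) (((1 : R) ⊗ₜ[k] 𝒞.x0) ^ n) • ((hu.unit⁻¹ : (R ⊗[k] 𝒞.B01)ˣ) • b) = b
        rw [hpow, Units.smul_def, smul_smul, IsUnit.mul_val_inv, one_smul]
    · intro y
      obtain ⟨n, p, hp⟩ := L.surj0 y
      exact ⟨(p, ⟨_, n, rfl⟩), by
        change (𝒞.ι0 R) (((1 : R) ⊗ₜ[k] 𝒞.x0) ^ n) • y = L.r0 p
        rw [hpow, hp]⟩
    · intro x₁ x₂ hx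
      have h0 : L.r0 (x₁ - x₂) = 0 := by
        rw [map_sub]; exact sub_eq_zero.mpr hx
      obtain ⟨n, hn⟩ := L.ker0 _ h0
      refine ⟨⟨_, n, rfl⟩, ?_⟩
      change ((1 : R) ⊗ₜ[k] 𝒞.x0 : R ⊗[k] 𝒞.B0) ^ n • x₁ = ((1 : R) ⊗ₜ[k] 𝒞.x0) ^ n • x₂
      rw [smul_sub] at hn
      exact sub_eq_zero.mp hn
  haveI := L.inv0
  exact Module.Invertible.of_isLocalization (Submonoid.powers ((1 : R) ⊗ₜ[k] 𝒞.x0)) f

end Loc


/-! ## The embedding of a triple over `k` in the function field -/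

/-- An embedding of the triple `L` over `k` in the fraction field `K` of `B01`: an injective
additive map `P01 → K` which is linear over `k ⊗ B01 → K`. -/
structure Emb (L : Triple 𝒞 k) (K : Type u) [Field K] [Algebra 𝒞.B01 K] where
  /-- the embedding of `P01` -/
  φ : L.P01 →+ K
  inj : Function.Injective φ
  lin : ∀ (c : k ⊗[k] 𝒞.B01) (m : L.P01), φ (c • m) = toK 𝒞 K c * φ m

theorem x0_ne_zero (h : 𝒞.IsGood) : 𝒞.x0 ≠ 0 := by
  intro h0
  have h1 : Polynomial.aeval (R := k) 𝒞.x0 (Polynomial.X : Polynomial k) = 0 := by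
    rw [Polynomial.aeval_X, h0]
  have h2 := h.trans0 (h1.trans (map_zero _).symm)
  exact Polynomial.X_ne_zero h2

theorem z1_ne_zero (h : 𝒞.IsGood) : 𝒞.z1 ≠ 0 := by
  haveI := h.dom01
  intro h0
  have := 𝒞.hxz
  rw [h0, map_zero, mul_zero] at this
  exact zero_ne_one this

theorem tmul_x0_pow_ne_zero (h : 𝒞.IsGood) (n : ℕ) :
    ((1 : k) ⊗ₜ[k] 𝒞.x0 : k ⊗[k] 𝒞.B0) ^ n ≠ 0 := by
  haveI := isDomain_tensor0 h
  apply pow_ne_zero
  intro h0
  have := congrArg (Algebra.TensorProduct.lid k 𝒞.B0) h0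
  rw [Algebra.TensorProduct.lid_tmul, one_smul, map_zero] at this
  exact x0_ne_zero h this

theorem tmul_z1_pow_ne_zero (h : 𝒞.IsGood) (n : ℕ) :
    ((1 : k) ⊗ₜ[k] 𝒞.z1 : k ⊗[k] 𝒞.B1) ^ n ≠ 0 := by
  haveI := isDomain_tensor1 h
  apply pow_ne_zero
  intro h0
  have := congrArg (Algebra.TensorProduct.lid k 𝒞.B1) h0
  rw [Algebra.TensorProduct.lid_tmul, one_smul, map_zero] at this
  exact z1_ne_zero h this

/-- `r0` is injective (triples over `k`). -/
theorem r0_injective (h : 𝒞.IsGood) (L : Triple 𝒞 k) : Function.Injective L.r0 := by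
  haveI := isDomain_tensor0 h
  haveI := L.inv0
  intro a b hab
  have h0 : L.r0 (a - b) = 0 := by rw [map_sub]; exact sub_eq_zero.mpr hab
  obtain ⟨n, hn⟩ := L.ker0 _ h0
  have hreg : IsSMulRegular L.P0 (((1 : k) ⊗ₜ[k] 𝒞.x0 : k ⊗[k] 𝒞.B0) ^ n) :=
    Module.Flat.isSMulRegular_of_nonZeroDivisors
      (mem_nonZeroDivisors_of_ne_zero (tmul_x0_pow_ne_zero h n))
  have : a - b = 0 := hreg (by simp only [hn, smul_zero])
  exact sub_eq_zero.mp this

/-- `r1` is injective (triples over `k`). -/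
theorem r1_injective (h : 𝒞.IsGood) (L : Triple 𝒞 k) : Function.Injective L.r1 := by
  haveI := isDomain_tensor1 h
  haveI := L.inv1
  intro a b hab
  have h0 : L.r1 (a - b) = 0 := by rw [map_sub]; exact sub_eq_zero.mpr hab
  obtain ⟨n, hn⟩ := L.ker1 _ h0
  have hreg : IsSMulRegular L.P1 (((1 : k) ⊗ₜ[k] 𝒞.z1 : k ⊗[k] 𝒞.B1) ^ n) :=
    Module.Flat.isSMulRegular_of_nonZeroDivisors
      (mem_nonZeroDivisors_of_ne_zero (tmul_z1_pow_ne_zero h n))
  have : a - b = 0 := hreg (by simp only [hn, smul_zero])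
  exact sub_eq_zero.mp this

/-- **NUM-FRAC (embedding)**: every triple over `k` embeds in the function field. -/
theorem exists_emb (h : 𝒞.IsGood) (K : Type u) [Field K] [Algebra 𝒞.B01 K]
    [IsFractionRing 𝒞.B01 K] (L : Triple 𝒞 k) : Nonempty (Emb L K) := by
  haveI := isDomain_tensor01 h
  haveI := invertible01 h L
  obtain ⟨I, ⟨e⟩⟩ := Module.Invertible.exists_linearEquiv_ideal (k ⊗[k] 𝒞.B01) L.P01
  refine ⟨⟨(toK 𝒞 K).toAddMonoidHom.comp
    ((I.subtype.toAddMonoidHom).comp e.toLinearMap.toAddMonoidHom), ?_, ?_⟩⟩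
  · intro a b hab
    have h1 := toK_injective h K hab
    exact e.injective (Subtype.ext h1)
  · intro c m
    simp only [AddMonoidHom.coe_comp, Function.comp_apply, LinearMap.toAddMonoidHom_coe,
      LinearEquiv.coe_coe, map_smul, RingHom.toAddMonoidHom_eq_coe, AddMonoidHom.coe_coe,
      Submodule.coe_subtype, Submodule.coe_smul, smul_eq_mul, map_mul]


/-! ## Cohomology through the embedding -/

section Coh

variable {K : Type u} [Field K] [Algebra 𝒞.B01 K] [Algebra k K] [IsScalarTower k 𝒞.B01 K]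
variable {L : Triple 𝒞 k}

theorem toK_algebraMap (c : k) :
    toK 𝒞 K (algebraMap k (k ⊗[k] 𝒞.B01) c) = algebraMap k K c := by
  rw [IsScalarTower.algebraMap_apply k 𝒞.B01 K]
  simp [toK, Algebra.algebraMap_eq_smul_one]

theorem Emb.map_algebraMap_smul (e : Emb L K) (c : k) (m : L.P01) :
    e.φ (algebraMap k (k ⊗[k] 𝒞.B01) c • m) = c • e.φ m := by
  rw [e.lin, toK_algebraMap, Algebra.smul_def]

/-- `φ` as a `k`-linear map on `N01` of the two-chart data. -/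
noncomputable def Emb.lin01 (e : Emb L K) : L.toData.N01 →ₗ[k] K where
  toFun := e.φ
  map_add' := map_add _
  map_smul' c m := e.map_algebraMap_smul c m

theorem Emb.lin01_apply (e : Emb L K) (m : L.P01) : e.lin01 m = e.φ m := rfl

theorem Emb.lin01_injective (e : Emb L K) : Function.Injective e.lin01 := e.inj

/-- the restriction of the embedding to the first chart -/
noncomputable def Emb.lin0 (e : Emb L K) : L.toData.N0 →ₗ[k] K := e.lin01.comp L.toData.j0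

/-- the restriction of the embedding to the second chart -/
noncomputable def Emb.lin1 (e : Emb L K) : L.toData.N1 →ₗ[k] K := e.lin01.comp L.toData.j1

theorem Emb.lin0_apply (e : Emb L K) (p : L.P0) : e.lin0 p = e.φ (L.r0 p) := rfl

theorem Emb.lin1_apply (e : Emb L K) (p : L.P1) : e.lin1 p = e.φ (L.r1 p) := rfl

/-- the image of `P0` in `K` -/
noncomputable def Emb.I0 (e : Emb L K) : Submodule k K := LinearMap.range e.lin0

/-- the image of `P1` in `K` -/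
noncomputable def Emb.I1 (e : Emb L K) : Submodule k K := LinearMap.range e.lin1

/-- the image of `P01` in `K` -/
noncomputable def Emb.I01 (e : Emb L K) : Submodule k K := LinearMap.range e.lin01

theorem Emb.I0_le (e : Emb L K) : e.I0 ≤ e.I01 := by
  rintro _ ⟨p, rfl⟩; exact ⟨_, rfl⟩

theorem Emb.I1_le (e : Emb L K) : e.I1 ≤ e.I01 := by
  rintro _ ⟨p, rfl⟩; exact ⟨_, rfl⟩

theorem Emb.lin0_injective (h : 𝒞.IsGood) (e : Emb L K) : Function.Injective e.lin0 :=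
  e.inj.comp (r0_injective h L)

theorem Emb.lin1_injective (h : 𝒞.IsGood) (e : Emb L K) : Function.Injective e.lin1 :=
  e.inj.comp (r1_injective h L)

/-- `H0 → I0 ⊓ I1`. -/
noncomputable def Emb.h0Map (e : Emb L K) : L.H0 →ₗ[k] ↥(e.I0 ⊓ e.I1) :=
  (e.lin0.comp ((LinearMap.fst k L.toData.N0 L.toData.N1).comp L.H0.subtype)).codRestrict _
    (fun p => by
      refine ⟨⟨p.1.1, rfl⟩, ⟨p.1.2, ?_⟩⟩
      have hp : L.toData.j0 p.1.1 = L.toData.j1 p.1.2 := p.2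
      change e.lin01 (L.toData.j1 p.1.2) = e.lin01 (L.toData.j0 p.1.1)
      rw [hp])

/-- **`H0 ≅ I0 ∩ I1`**. -/
theorem Emb.h0Map_bijective (h : 𝒞.IsGood) (e : Emb L K) : Function.Bijective e.h0Map := by
  constructor
  · intro p q hpq
    have h1 : e.lin0 p.1.1 = e.lin0 q.1.1 := congrArg Subtype.val hpq
    have h2 : p.1.1 = q.1.1 := e.lin0_injective h h1
    have hp : L.toData.j0 p.1.1 = L.toData.j1 p.1.2 := p.2
    have hq : L.toData.j0 q.1.1 = L.toData.j1 q.1.2 := q.2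
    have h3 : L.r1 p.1.2 = L.r1 q.1.2 := by
      change L.toData.j1 p.1.2 = L.toData.j1 q.1.2
      rw [← hp, ← hq, h2]
    have h4 : p.1.2 = q.1.2 := r1_injective h L h3
    exact Subtype.ext (Prod.ext h2 h4)
  · rintro ⟨y, ⟨p0, hp0⟩, ⟨p1, hp1⟩⟩
    have hmem : (p0, p1) ∈ L.H0 := by
      change L.toData.j0 p0 = L.toData.j1 p1
      apply e.lin01_injective
      change e.lin0 p0 = e.lin1 p1
      rw [hp0, hp1]
    exact ⟨⟨(p0, p1), hmem⟩, Subtype.ext hp0⟩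

/-- **`H0 ≅ I0 ∩ I1`** as a linear equivalence. -/
noncomputable def Emb.h0Equiv (h : 𝒞.IsGood) (e : Emb L K) : L.H0 ≃ₗ[k] ↥(e.I0 ⊓ e.I1) :=
  LinearEquiv.ofBijective e.h0Map (e.h0Map_bijective h)

/-- `H1 → K / (I0 + I1)`. -/
noncomputable def Emb.h1Map (e : Emb L K) : L.H1 →ₗ[k] K ⧸ (e.I0 ⊔ e.I1) :=
  Submodule.mapQ _ _ e.lin01 (by
    rintro m hm
    rw [Submodule.mem_comap]
    obtain ⟨a, ⟨n0, rfl⟩, b, ⟨n1, rfl⟩, rfl⟩ := Submodule.mem_sup.mp hm
    rw [map_add]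
    exact Submodule.add_mem _ (Submodule.mem_sup_left ⟨n0, rfl⟩)
      (Submodule.mem_sup_right ⟨n1, rfl⟩))

/-- `H1 → K / (I0 + I1)` is injective, with image `I01 / (I0 + I1)`. -/
theorem Emb.h1Map_injective (e : Emb L K) : Function.Injective e.h1Map := by
  rw [← LinearMap.ker_eq_bot, LinearMap.ker_eq_bot']
  intro x hx
  obtain ⟨m, rfl⟩ := Submodule.Quotient.mk_surjective _ x
  have h1 : e.lin01 m ∈ e.I0 ⊔ e.I1 := by
    have : e.h1Map (Submodule.Quotient.mk m) = Submodule.Quotient.mk (e.lin01 m) := rfl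
    rw [this] at hx
    exact (Submodule.Quotient.mk_eq_zero _).mp hx
  obtain ⟨a, ⟨n0, rfl⟩, b, ⟨n1, rfl⟩, hab⟩ := Submodule.mem_sup.mp h1
  rw [Submodule.Quotient.mk_eq_zero]
  have h2 : m = L.toData.j0 n0 + L.toData.j1 n1 := by
    apply e.lin01_injective
    rw [map_add]
    exact hab.symm
  rw [h2]
  exact Submodule.add_mem _ (Submodule.mem_sup_left ⟨n0, rfl⟩) (Submodule.mem_sup_right ⟨n1, rfl⟩)

theorem Emb.range_h1Map (e : Emb L K) :
    LinearMap.range e.h1Map = e.I01.map (e.I0 ⊔ e.I1).mkQ := by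
  ext y
  constructor
  · rintro ⟨x, rfl⟩
    obtain ⟨m, rfl⟩ := Submodule.Quotient.mk_surjective _ x
    exact ⟨e.lin01 m, ⟨m, rfl⟩, rfl⟩
  · rintro ⟨_, ⟨m, rfl⟩, rfl⟩
    exact ⟨Submodule.Quotient.mk m, rfl⟩

end Coh

end Fermat.Agent.S25.Num.H9
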