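/-
helper97, S25 (Jacobian exists), package NUM, leaves NUM-SEC and NUM-MONO.

* `stmt_SEC : Stmt_SEC` (unconditional): a nonzero global section of `L` is a nonzero morphism from a
  unit triple.
* `mono_of : Stmt_CHI → Stmt_PTS → Stmt_MONO`: a nonzero morphism of triples is the twist by an effective
  divisor; equal Euler characteristic ⟹ isomorphism.
* `isEffDiv_of_isTwistBy`: `IsTwistBy J0 J1 φ ⟹ IsEffDiv J0 J1` (for NUM-CHI).

Abstract input (any commutative ring `A`, invertible module `P`): `ℓ(m) n = ℓ(n) m`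
(`Module.Invertible.tmul_comm`), hence every submodule of `P` is `J • ⊤` for a unique ideal `J`
(`eq_idealOf_smul_top`, `smul_top_injective`), and a nonzero map of invertible modules over a domain
is injective (`injective_of_ne_zero`).
-/
import Fermat.Agent.S25.Num.Defs
import Fermat.Agent.S25.Num.H9_Frac

set_option autoImplicit false
set_option linter.style.haveILetI false

universe u v

open TensorProduct

namespace Fermat.Agent.S25.Num.H97

/-! ## Invertible modules -/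

section Inv

variable {A : Type u} [CommRing A] {P : Type v} [AddCommGroup P] [Module A P]

/-- rank one: `ℓ(m) n = ℓ(n) m` in an invertible module. -/
theorem dual_swap [Module.Invertible A P] (ℓ : Module.Dual A P) (m n : P) :
    ℓ m • n = ℓ n • m := by
  have h := congrArg (TensorProduct.lift ((LinearMap.lsmul A P).comp ℓ))
    (Module.Invertible.tmul_comm (R := A) (m₁ := m) (m₂ := n))
  simpa using h

theorem exists_contract_one [Module.Invertible A P] :
    ∃ t : Module.Dual A P ⊗[A] P, contractLeft A P t = 1 :=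
  (Module.Invertible.bijective (R := A) (M := P)).2 1

/-- the ideal of a submodule of an invertible module: generated by the values of the linear forms. -/
def idealOf (N : Submodule A P) : Ideal A :=
  Ideal.span {a | ∃ (ℓ : Module.Dual A P) (n : P), n ∈ N ∧ a = ℓ n}

theorem dual_mem_idealOf {N : Submodule A P} (ℓ : Module.Dual A P) {n : P} (hn : n ∈ N) :
    ℓ n ∈ idealOf N :=
  Ideal.subset_span ⟨ℓ, n, hn, rfl⟩

/-- every submodule of an invertible module is `J • ⊤`. -/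
theorem eq_idealOf_smul_top [Module.Invertible A P] (N : Submodule A P) :
    N = idealOf N • (⊤ : Submodule A P) := by
  apply le_antisymm
  · intro n hn
    have key : ∀ t : Module.Dual A P ⊗[A] P,
        contractLeft A P t • n ∈ idealOf N • (⊤ : Submodule A P) := by
      intro t
      induction t using TensorProduct.induction_on with
      | zero => simp
      | tmul ℓ p =>
        rw [contractLeft_apply, dual_swap]
        exact Submodule.smul_mem_smul (dual_mem_idealOf ℓ hn) Submodule.mem_top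
      | add x y hx hy =>
        rw [map_add, add_smul]
        exact Submodule.add_mem _ hx hy
    obtain ⟨t, ht⟩ := exists_contract_one (A := A) (P := P)
    have := key t
    rwa [ht, one_smul] at this
  · rw [Submodule.smul_le]
    intro a ha p _
    induction ha using Submodule.span_induction with
    | mem a h =>
      obtain ⟨ℓ, n, hn, rfl⟩ := h
      rw [dual_swap]
      exact N.smul_mem _ hn
    | zero => simp
    | add a b _ _ ha hb => rw [add_smul]; exact N.add_mem ha hb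
    | smul c a _ ha => rw [smul_eq_mul, mul_smul]; exact N.smul_mem _ ha

/-- the ideal is determined by `J • ⊤`. -/
theorem idealOf_smul_top [Module.Invertible A P] (J : Ideal A) :
    idealOf (J • (⊤ : Submodule A P)) = J := by
  apply le_antisymm
  · rw [idealOf, Ideal.span_le]
    rintro _ ⟨ℓ, n, hn, rfl⟩
    refine Submodule.smul_induction_on hn ?_ ?_
    · intro a ha p _
      rw [map_smul, smul_eq_mul]
      exact J.mul_mem_right _ ha
    · intro x y hx hy
      rw [map_add]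
      exact J.add_mem hx hy
  · intro a ha
    have key : ∀ t : Module.Dual A P ⊗[A] P,
        a * contractLeft A P t ∈ idealOf (J • (⊤ : Submodule A P)) := by
      intro t
      induction t using TensorProduct.induction_on with
      | zero => simp
      | tmul ℓ p =>
        rw [contractLeft_apply]
        have : a * ℓ p = ℓ (a • p) := by rw [map_smul, smul_eq_mul]
        rw [this]
        exact dual_mem_idealOf ℓ (Submodule.smul_mem_smul ha Submodule.mem_top)
      | add x y hx hy =>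
        rw [map_add, mul_add]
        exact Ideal.add_mem _ hx hy
    obtain ⟨t, ht⟩ := exists_contract_one (A := A) (P := P)
    have := key t
    rwa [ht, mul_one] at this

theorem smul_top_injective [Module.Invertible A P] {J J' : Ideal A}
    (h : J • (⊤ : Submodule A P) = J' • (⊤ : Submodule A P)) : J = J' := by
  rw [← idealOf_smul_top (P := P) J, h, idealOf_smul_top]

/-- an element killed by all linear forms is zero. -/
theorem eq_zero_of_dual [Module.Invertible A P] (p : P) (h : ∀ ℓ : Module.Dual A P, ℓ p = 0) :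
    p = 0 := by
  have key : ∀ t : Module.Dual A P ⊗[A] P, contractLeft A P t • p = 0 := by
    intro t
    induction t using TensorProduct.induction_on with
    | zero => simp
    | tmul ℓ q => rw [contractLeft_apply, dual_swap, h, zero_smul]
    | add x y hx hy => rw [map_add, add_smul, hx, hy, add_zero]
  obtain ⟨t, ht⟩ := exists_contract_one (A := A) (P := P)
  have := key t
  rwa [ht, one_smul] at this

/-- torsion freeness of invertible modules over a domain. -/
theorem smul_eq_zero_inv [IsDomain A] [Module.Invertible A P] {a : A} {p : P} (h : a • p = 0) :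
    a = 0 ∨ p = 0 := by
  by_cases ha : a = 0
  · exact Or.inl ha
  · right
    have hreg : IsSMulRegular P a :=
      Module.Flat.isSMulRegular_of_nonZeroDivisors (mem_nonZeroDivisors_of_ne_zero ha)
    exact hreg (by simp only [h, smul_zero])

/-- a nonzero map between invertible modules over a domain is injective. -/
theorem injective_of_ne_zero [IsDomain A] [Module.Invertible A P] {P' : Type v} [AddCommGroup P']
    [Module A P'] [Module.Invertible A P'] (f : P →ₗ[A] P') (hf : f ≠ 0) :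
    Function.Injective f := by
  obtain ⟨q, hq⟩ : ∃ q, f q ≠ 0 := by
    by_contra hcon
    exact hf (LinearMap.ext fun q => by
      by_contra hq
      exact hcon ⟨q, hq⟩)
  rw [← LinearMap.ker_eq_bot, LinearMap.ker_eq_bot']
  intro p hp
  apply eq_zero_of_dual (A := A)
  intro ℓ
  have h1 : ℓ p • f q = 0 := by
    rw [← map_smul, dual_swap, map_smul, hp, smul_zero]
  rcases smul_eq_zero_inv h1 with h2 | h2
  · exact h2
  · exact absurd h2 hq

/-- an invertible module over a nontrivial ring is nontrivial. -/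
theorem nontrivial_of_invertible [Nontrivial A] [Module.Invertible A P] : Nontrivial P := by
  by_contra hcon
  rw [not_nontrivial_iff_subsingleton] at hcon
  have : (1 : A) = 0 := FaithfulSMul.eq_of_smul_eq_smul (α := P) fun p => Subsingleton.elim _ _
  exact one_ne_zero this

end Inv

/-! ## Localisation of a map -/

section Loc

variable {A : Type*} {A' : Type*} [CommRing A] [CommRing A'] (ι : A →+* A')
  {P : Type*} {Q : Type*} [AddCommGroup P] [Module A P] [AddCommGroup Q] [Module A Q]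
  {P' : Type*} {Q' : Type*} [AddCommGroup P'] [Module A' P'] [AddCommGroup Q'] [Module A' Q']
  (r : P →ₛₗ[ι] P') (s : Q →ₛₗ[ι] Q') (u : A')
  (f : P →ₗ[A] Q) (f' : P' →ₗ[A'] Q')

theorem unit_smul_cancel {M : Type*} [AddCommGroup M] [Module A' M] {u : A'} (hu : IsUnit u)
    (n : ℕ) {m : M} (h : u ^ n • m = 0) : m = 0 := by
  obtain ⟨v, hv⟩ := (hu.pow n).exists_left_inv
  have : m = v • (u ^ n • m) := by rw [smul_smul, hv, one_smul]
  rw [this, h, smul_zero]

include ι in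
theorem loc_eq_zero (hu : IsUnit u) (hr : ∀ m : P', ∃ (n : ℕ) (p : P), u ^ n • m = r p)
    (hc : ∀ p, f' (r p) = s (f p)) (hf : f = 0) : f' = 0 := by
  ext m
  obtain ⟨n, p, hp⟩ := hr m
  have h1 : u ^ n • f' m = 0 := by
    rw [← map_smul, hp, hc, hf, LinearMap.zero_apply, map_zero]
  rw [LinearMap.zero_apply]
  exact unit_smul_cancel hu n h1

theorem smul_mem_of_mem_map {M : Type*} [AddCommGroup M] [Module A' M] (I : Ideal A)
    (N : Submodule A' M) (h : ∀ a ∈ I, ∀ m : M, ι a • m ∈ N) :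
    ∀ c ∈ I.map ι, ∀ m : M, c • m ∈ N := by
  intro c hc
  induction hc using Submodule.span_induction with
  | mem c hc =>
    obtain ⟨a, ha, rfl⟩ := hc
    exact h a ha
  | zero => intro m; rw [zero_smul]; exact N.zero_mem
  | add a b _ _ ha hb => intro m; rw [add_smul]; exact N.add_mem (ha m) (hb m)
  | smul c a _ ha => intro m; rw [smul_eq_mul, mul_smul]; exact N.smul_mem _ (ha m)

include ι in
/-- the range of the localised map is the extended ideal times everything. -/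
theorem loc_range (hu : IsUnit u) (hr : ∀ m : P', ∃ (n : ℕ) (p : P), u ^ n • m = r p)
    (hs : ∀ m : Q', ∃ (n : ℕ) (q : Q), u ^ n • m = s q)
    (hc : ∀ p, f' (r p) = s (f p)) (J : Ideal A)
    (hJ : LinearMap.range f = J • (⊤ : Submodule A Q)) :
    LinearMap.range f' = J.map ι • (⊤ : Submodule A' Q') := by
  apply le_antisymm
  · rintro _ ⟨m, rfl⟩
    obtain ⟨n, p, hp⟩ := hr m
    obtain ⟨v, hv⟩ := (hu.pow n).exists_left_inv
    have h1 : f' m = v • s (f p) := by
      rw [← hc, ← hp, map_smul, smul_smul, hv, one_smul]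
    rw [h1]
    apply Submodule.smul_mem
    have h2 : f p ∈ J • (⊤ : Submodule A Q) := by rw [← hJ]; exact ⟨p, rfl⟩
    refine Submodule.smul_induction_on h2 ?_ ?_
    · intro a ha q _
      rw [s.map_smulₛₗ]
      exact Submodule.smul_mem_smul (Ideal.mem_map_of_mem ι ha) Submodule.mem_top
    · intro x y hx hy
      rw [map_add]
      exact Submodule.add_mem _ hx hy
  · rw [Submodule.smul_le]
    intro c hcm m _
    refine smul_mem_of_mem_map ι J (LinearMap.range f') ?_ c hcm m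
    intro a ha m
    obtain ⟨n, q, hq⟩ := hs m
    obtain ⟨v, hv⟩ := (hu.pow n).exists_left_inv
    have h2 : a • q ∈ LinearMap.range f := by
      rw [hJ]; exact Submodule.smul_mem_smul ha Submodule.mem_top
    obtain ⟨p, hp⟩ := h2
    refine ⟨v • r p, ?_⟩
    rw [map_smul, hc, hp, s.map_smulₛₗ, ← hq, smul_smul, smul_smul]
    have : v * ι a * u ^ n = ι a := by
      rw [mul_comm v, mul_assoc, hv, mul_one]
    rw [this]

end Loc

/-! ## `k ⊗ B = B` -/

section Tensor

variable (k : Type u) [Field k] (B : Type u) [CommRing B] [Algebra k B]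

theorem includeRight_bijective :
    Function.Bijective (Algebra.TensorProduct.includeRight : B →ₐ[k] k ⊗[k] B) := by
  have h : ⇑(Algebra.TensorProduct.includeRight : B →ₐ[k] k ⊗[k] B) =
      ⇑(Algebra.TensorProduct.lid k B).symm := by
    funext b
    rw [Algebra.TensorProduct.lid_symm_apply]
    rfl
  rw [h]
  exact (Algebra.TensorProduct.lid k B).symm.bijective

/-- every ideal of `k ⊗ B` is extended from `B`. -/
theorem exists_map_includeRight (I : Ideal (k ⊗[k] B)) :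
    ∃ J : Ideal B, J.map (Algebra.TensorProduct.includeRight : B →ₐ[k] k ⊗[k] B) = I :=
  ⟨I.comap (Algebra.TensorProduct.includeRight : B →ₐ[k] k ⊗[k] B),
    Ideal.map_comap_of_surjective _ (includeRight_bijective k B).2 I⟩

theorem map_includeRight_injective {J J' : Ideal B}
    (h : J.map (Algebra.TensorProduct.includeRight : B →ₐ[k] k ⊗[k] B) =
      J'.map (Algebra.TensorProduct.includeRight : B →ₐ[k] k ⊗[k] B)) : J = J' := by
  rw [← Ideal.comap_map_of_bijective _ (includeRight_bijective k B) (I := J), h,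
    Ideal.comap_map_of_bijective _ (includeRight_bijective k B)]

end Tensor

open Fermat.Agent.S25 LB

variable {k : Type u} [Field k] {𝒞 : CurveDatum k}

/-- `1 ⊗ i1 z1` is a unit of `k ⊗ B01`. -/
theorem isUnit_z01 : IsUnit ((1 : k) ⊗ₜ[k] 𝒞.i1 𝒞.z1 : k ⊗[k] 𝒞.B01) :=
  IsUnit.of_mul_eq_one _ (by rw [mul_comm]; exact Triple.unit_mul_unit 𝒞 k)

/-- `1 ⊗ i0 x0` is a unit of `k ⊗ B01`. -/
theorem isUnit_x01 : IsUnit ((1 : k) ⊗ₜ[k] 𝒞.i0 𝒞.x0 : k ⊗[k] 𝒞.B01) :=
  IsUnit.of_mul_eq_one _ (Triple.unit_mul_unit 𝒞 k)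

/-- the extension of an ideal of `B01` to `k ⊗ B01`. -/
noncomputable def ext01 (J : Ideal 𝒞.B01) : Ideal (k ⊗[k] 𝒞.B01) :=
  J.map (Algebra.TensorProduct.includeRight : 𝒞.B01 →ₐ[k] k ⊗[k] 𝒞.B01)

theorem ext0_map (J : Ideal 𝒞.B0) : (ext0 J).map (𝒞.ι0 k) = ext01 (J.map 𝒞.i0) := by
  have h1 : ext0 J = J.map
      ((Algebra.TensorProduct.includeRight : 𝒞.B0 →ₐ[k] k ⊗[k] 𝒞.B0) : 𝒞.B0 →+* k ⊗[k] 𝒞.B0) := rfl
  have h2 : ext01 (J.map 𝒞.i0) = (J.map (𝒞.i0 : 𝒞.B0 →+* 𝒞.B01)).map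
      ((Algebra.TensorProduct.includeRight : 𝒞.B01 →ₐ[k] k ⊗[k] 𝒞.B01) :
        𝒞.B01 →+* k ⊗[k] 𝒞.B01) := rfl
  rw [h1, h2, Ideal.map_map, Ideal.map_map]
  congr 1

theorem ext1_map (J : Ideal 𝒞.B1) : (ext1 J).map (𝒞.ι1 k) = ext01 (J.map 𝒞.i1) := by
  have h1 : ext1 J = J.map
      ((Algebra.TensorProduct.includeRight : 𝒞.B1 →ₐ[k] k ⊗[k] 𝒞.B1) : 𝒞.B1 →+* k ⊗[k] 𝒞.B1) := rfl
  have h2 : ext01 (J.map 𝒞.i1) = (J.map (𝒞.i1 : 𝒞.B1 →+* 𝒞.B01)).map
      ((Algebra.TensorProduct.includeRight : 𝒞.B01 →ₐ[k] k ⊗[k] 𝒞.B01) :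
        𝒞.B01 →+* k ⊗[k] 𝒞.B01) := rfl
  rw [h1, h2, Ideal.map_map, Ideal.map_map]
  congr 1

theorem ext01_injective {J J' : Ideal 𝒞.B01} (h : ext01 (k := k) J = ext01 J') : J = J' :=
  map_includeRight_injective k 𝒞.B01 h

variable {L L' : Triple 𝒞 k}

/-! ## Morphisms of triples over `k` -/

theorem f0_ne_zero (φ : Triple.Hom L L') (hφ : φ.f01 ≠ 0) : φ.f0 ≠ 0 := fun h0 =>
  hφ (loc_eq_zero (𝒞.ι0 k) L.r0 L'.r0 _ φ.f0 φ.f01 isUnit_x01 L.surj0 φ.comm0 h0)

theorem f1_ne_zero (φ : Triple.Hom L L') (hφ : φ.f01 ≠ 0) : φ.f1 ≠ 0 := fun h1 =>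
  hφ (loc_eq_zero (𝒞.ι1 k) L.r1 L'.r1 _ φ.f1 φ.f01 isUnit_z01 L.surj1 φ.comm1 h1)

theorem f0_injective (h : 𝒞.IsGood) (φ : Triple.Hom L L') (h0 : φ.f0 ≠ 0) :
    Function.Injective φ.f0 :=
  haveI := H9.isDomain_tensor0 h
  haveI := L.inv0
  haveI := L'.inv0
  injective_of_ne_zero φ.f0 h0

theorem f1_injective (h : 𝒞.IsGood) (φ : Triple.Hom L L') (h1 : φ.f1 ≠ 0) :
    Function.Injective φ.f1 :=
  haveI := H9.isDomain_tensor1 h
  haveI := L.inv1
  haveI := L'.inv1
  injective_of_ne_zero φ.f1 h1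

theorem f01_injective (h : 𝒞.IsGood) (φ : Triple.Hom L L') (hφ : φ.f01 ≠ 0) :
    Function.Injective φ.f01 :=
  haveI := H9.isDomain_tensor01 h
  haveI := H9.invertible01 h L
  haveI := H9.invertible01 h L'
  injective_of_ne_zero φ.f01 hφ

theorem range_f01_of0 (φ : Triple.Hom L L') (J : Ideal (k ⊗[k] 𝒞.B0))
    (hJ : LinearMap.range φ.f0 = J • (⊤ : Submodule (k ⊗[k] 𝒞.B0) L'.P0)) :
    LinearMap.range φ.f01 = J.map (𝒞.ι0 k) • (⊤ : Submodule (k ⊗[k] 𝒞.B01) L'.P01) :=
  loc_range (𝒞.ι0 k) L.r0 L'.r0 _ φ.f0 φ.f01 isUnit_x01 L.surj0 L'.surj0 φ.comm0 J hJ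

theorem range_f01_of1 (φ : Triple.Hom L L') (J : Ideal (k ⊗[k] 𝒞.B1))
    (hJ : LinearMap.range φ.f1 = J • (⊤ : Submodule (k ⊗[k] 𝒞.B1) L'.P1)) :
    LinearMap.range φ.f01 = J.map (𝒞.ι1 k) • (⊤ : Submodule (k ⊗[k] 𝒞.B01) L'.P01) :=
  loc_range (𝒞.ι1 k) L.r1 L'.r1 _ φ.f1 φ.f01 isUnit_z01 L.surj1 L'.surj1 φ.comm1 J hJ

/-- the two ideals of a morphism have the same extension to the overlap. -/
theorem isEffDiv_core (h : 𝒞.IsGood) (φ : Triple.Hom L L') (h0 : φ.f0 ≠ 0) (h1 : φ.f1 ≠ 0)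
    (J0 : Ideal 𝒞.B0) (J1 : Ideal 𝒞.B1)
    (hr0 : LinearMap.range φ.f0 = ext0 J0 • (⊤ : Submodule (k ⊗[k] 𝒞.B0) L'.P0))
    (hr1 : LinearMap.range φ.f1 = ext1 J1 • (⊤ : Submodule (k ⊗[k] 𝒞.B1) L'.P1)) :
    IsEffDiv J0 J1 := by
  refine ⟨?_, ?_, ?_⟩
  · rintro rfl
    apply h0
    rw [← LinearMap.range_eq_bot, hr0, ext0, Ideal.map_bot, Submodule.bot_smul]
  · rintro rfl
    apply h1
    rw [← LinearMap.range_eq_bot, hr1, ext1, Ideal.map_bot, Submodule.bot_smul]
  · haveI := H9.invertible01 h L'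
    have e0 := range_f01_of0 φ _ hr0
    have e1 := range_f01_of1 φ _ hr1
    rw [ext0_map] at e0
    rw [ext1_map] at e1
    exact ext01_injective (smul_top_injective (e0.symm.trans e1))

/-- **for NUM-CHI**: a twist is by an effective divisor. -/
theorem isEffDiv_of_isTwistBy (h : 𝒞.IsGood) (J0 : Ideal 𝒞.B0) (J1 : Ideal 𝒞.B1)
    (φ : Triple.Hom L L') (hφ : IsTwistBy J0 J1 φ) : IsEffDiv J0 J1 := by
  obtain ⟨i0, i1, hr0, hr1⟩ := hφ
  haveI := H9.isDomain_tensor0 h
  haveI := H9.isDomain_tensor1 h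
  haveI := L.inv0
  haveI := L.inv1
  haveI : Nontrivial L.P0 := nontrivial_of_invertible (A := k ⊗[k] 𝒞.B0)
  haveI : Nontrivial L.P1 := nontrivial_of_invertible (A := k ⊗[k] 𝒞.B1)
  refine isEffDiv_core h φ ?_ ?_ J0 J1 hr0 hr1
  · intro hz
    obtain ⟨p, hp⟩ := exists_ne (0 : L.P0)
    exact hp (i0 (by rw [hz, LinearMap.zero_apply, map_zero]))
  · intro hz
    obtain ⟨p, hp⟩ := exists_ne (0 : L.P1)
    exact hp (i1 (by rw [hz, LinearMap.zero_apply, map_zero]))

/-- **NUM-MONO, first half**: a nonzero morphism is the twist by an effective divisor. -/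
theorem exists_isTwistBy (h : 𝒞.IsGood) (φ : Triple.Hom L L') (hφ : φ.f01 ≠ 0) :
    ∃ (J0 : Ideal 𝒞.B0) (J1 : Ideal 𝒞.B1), IsEffDiv J0 J1 ∧ IsTwistBy J0 J1 φ := by
  have h0 := f0_ne_zero φ hφ
  have h1 := f1_ne_zero φ hφ
  haveI := L'.inv0
  haveI := L'.inv1
  obtain ⟨J0, hJ0⟩ := exists_map_includeRight k 𝒞.B0 (idealOf (LinearMap.range φ.f0))
  obtain ⟨J1, hJ1⟩ := exists_map_includeRight k 𝒞.B1 (idealOf (LinearMap.range φ.f1))
  have hr0 : LinearMap.range φ.f0 = ext0 J0 • (⊤ : Submodule (k ⊗[k] 𝒞.B0) L'.P0) := by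
    rw [ext0, hJ0]
    exact eq_idealOf_smul_top _
  have hr1 : LinearMap.range φ.f1 = ext1 J1 • (⊤ : Submodule (k ⊗[k] 𝒞.B1) L'.P1) := by
    rw [ext1, hJ1]
    exact eq_idealOf_smul_top _
  exact ⟨J0, J1, isEffDiv_core h φ h0 h1 J0 J1 hr0 hr1,
    f0_injective h φ h0, f1_injective h φ h1, hr0, hr1⟩

/-- a morphism which is bijective on both charts is an isomorphism. -/
theorem iso_of_surjective (h : 𝒞.IsGood) (φ : Triple.Hom L L') (hφ : φ.f01 ≠ 0)
    (s0 : Function.Surjective φ.f0) (s1 : Function.Surjective φ.f1) :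
    Nonempty (Triple.Iso L L') := by
  have hr : LinearMap.range φ.f0 = (⊤ : Ideal (k ⊗[k] 𝒞.B0)) •
      (⊤ : Submodule (k ⊗[k] 𝒞.B0) L'.P0) := by
    rw [Submodule.top_smul]
    exact LinearMap.range_eq_top.mpr s0
  have h01 := range_f01_of0 φ _ hr
  rw [Ideal.map_top, Submodule.top_smul] at h01
  have s01 : Function.Surjective φ.f01 := LinearMap.range_eq_top.mp h01
  exact ⟨{ e0 := LinearEquiv.ofBijective φ.f0 ⟨f0_injective h φ (f0_ne_zero φ hφ), s0⟩
           e1 := LinearEquiv.ofBijective φ.f1 ⟨f1_injective h φ (f1_ne_zero φ hφ), s1⟩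
           e01 := LinearEquiv.ofBijective φ.f01 ⟨f01_injective h φ hφ, s01⟩
           comm0 := φ.comm0
           comm1 := φ.comm1 }⟩

/-- **NUM-MONO**, against NUM-CHI and NUM-PTS. -/
theorem mono_of (hC : Stmt_CHI.{u}) (hP : Stmt_PTS.{u}) : Stmt_MONO.{u} := by
  intro k _ _ 𝒞 h L L' φ hφ
  obtain ⟨J0, J1, hE, hT⟩ := exists_isTwistBy h φ hφ
  refine ⟨⟨J0, J1, hE, hT⟩, fun hchi => ?_⟩
  obtain ⟨-, hc, -, -, -⟩ := hC k 𝒞 h J0 J1 L L' ⟨φ, hT⟩
  have hd : ddeg J0 J1 = 0 := by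
    rw [hchi] at hc
    linarith
  obtain ⟨-, -, -, htop⟩ := (hP k 𝒞 h).2.2 J0 J0 J1 J1 hE hE
  obtain ⟨rfl, rfl⟩ := htop hd
  obtain ⟨-, -, hr0, hr1⟩ := hT
  refine iso_of_surjective h φ hφ ?_ ?_
  · rw [← LinearMap.range_eq_top, hr0, ext0, Ideal.map_top, Submodule.top_smul]
  · rw [← LinearMap.range_eq_top, hr1, ext1, Ideal.map_top, Submodule.top_smul]

/-! ## Sections -/

/-- the morphism from a unit triple given by a global section. -/
noncomputable def secHom (U : Triple 𝒞 k)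
    (e0 : U.P0 ≃ₗ[k ⊗[k] 𝒞.B0] (k ⊗[k] 𝒞.B0)) (e1 : U.P1 ≃ₗ[k ⊗[k] 𝒞.B1] (k ⊗[k] 𝒞.B1))
    (e01 : U.P01 ≃ₗ[k ⊗[k] 𝒞.B01] (k ⊗[k] 𝒞.B01))
    (hc0 : ∀ p, e01 (U.r0 p) = 𝒞.ι0 k (e0 p)) (hc1 : ∀ p, e01 (U.r1 p) = 𝒞.ι1 k (e1 p))
    (s0 : L.P0) (s1 : L.P1) (hs : L.r0 s0 = L.r1 s1) : Triple.Hom U L where
  f0 := (LinearMap.toSpanSingleton (k ⊗[k] 𝒞.B0) L.P0 s0).comp e0.toLinearMap
  f1 := (LinearMap.toSpanSingleton (k ⊗[k] 𝒞.B1) L.P1 s1).comp e1.toLinearMap
  f01 := (LinearMap.toSpanSingleton (k ⊗[k] 𝒞.B01) L.P01 (L.r0 s0)).comp e01.toLinearMap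
  comm0 := fun p => by
    simp only [LinearMap.comp_apply, LinearEquiv.coe_coe, LinearMap.toSpanSingleton_apply]
    rw [hc0, L.r0.map_smulₛₗ]
  comm1 := fun p => by
    simp only [LinearMap.comp_apply, LinearEquiv.coe_coe, LinearMap.toSpanSingleton_apply]
    rw [hc1, L.r1.map_smulₛₗ, hs]

/-- **NUM-SEC**. -/
theorem stmt_SEC : Stmt_SEC.{u} := by
  intro k _ _ 𝒞 h L U hU hL
  obtain ⟨e0, e1, e01, hc0, hc1⟩ := hU
  haveI : Nontrivial L.H0 :=
    Module.nontrivial_of_finrank_pos (R := k) (Nat.lt_of_lt_of_le Nat.zero_lt_one hL)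
  obtain ⟨s, hs⟩ := exists_ne (0 : L.H0)
  obtain ⟨t0, ht0⟩ : ∃ t0 : L.P0, t0 = s.1.1 := ⟨_, rfl⟩
  obtain ⟨t1, ht1⟩ : ∃ t1 : L.P1, t1 = s.1.2 := ⟨_, rfl⟩
  have hmem : L.r0 t0 = L.r1 t1 := by
    rw [ht0, ht1]
    exact s.2
  refine ⟨secHom U e0 e1 e01 hc0 hc1 t0 t1 hmem, fun hz => hs ?_⟩
  have h1 : (secHom U e0 e1 e01 hc0 hc1 t0 t1 hmem).f01 (e01.symm 1) = L.r0 t0 := by
    simp [secHom]
  rw [hz, LinearMap.zero_apply] at h1
  have h2 : t0 = 0 := H9.r0_injective h L (h1.symm.trans (map_zero L.r0).symm)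
  have h3 : t1 = 0 := H9.r1_injective h L ((hmem.symm.trans h1.symm).trans (map_zero L.r1).symm)
  exact Subtype.ext (Prod.ext (ht0.symm.trans h2) (ht1.symm.trans h3))

end Fermat.Agent.S25.Num.H97
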