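/-
helper50, S25 (Jacobian exists), package NUM, leaf NUM-CHI: `chi (L(D)) = chi L + deg D`
(`Num.Stmt_CHI` of `S25/Num/Defs.lean`).

For a twist `φ : L → L'` by `D = (J0, J1)` the cokernel `Q` of the two-chart data is a skyscraper:
`Q_i = P_i' / J_i P_i' ≃ B_i / J_i` (invertible module modulo an ideal of finite colength),
`Q_0 → Q_01` is onto (a finite dimensional module maps onto its localisation), so `H1 Q = 0` and
`dim H0 Q = dim Q_0 + dim Q_1 - dim Q_01 = ddeg J0 J1`; then the long exact sequence (`P1.H61.stmt_LES`).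
-/
import Mathlib
import Fermat.Agent.S25.Num.Defs
import Fermat.Agent.S25.Num.H50_Fin
import Fermat.Agent.S25.Num.H50_Coker
import Fermat.Agent.S25.Num.H50_InvQuot
import Fermat.Agent.S25.Num.H9_Frac
import Fermat.Agent.S25.Num.H38_Pts
import Fermat.Agent.S25.Num.H97_MonoSec

set_option autoImplicit false
set_option linter.style.haveILetI false

universe u

open TensorProduct Module

namespace Fermat.Agent.S25.Num.H50

open Fermat.Agent.S25.LB Fermat.Agent.S25.P1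

section Abstract

variable {k : Type u} [Field k]

/-- A quotient with `H1 = 0`: the Euler characteristic and the inequalities. -/
theorem chi_of_H1_subsingleton {N' N Q : Data k} (f : Data.Hom N' N) (g : Data.Hom N Q)
    (hse : Data.ShortExact f g)
    [FiniteDimensional k N'.H0] [FiniteDimensional k N'.H1]
    [FiniteDimensional k N.H0] [FiniteDimensional k N.H1]
    [FiniteDimensional k Q.H0] (hQ1 : Subsingleton Q.H1) :
    chi N = chi N' + (finrank k Q.H0 : ℤ) ∧ h0 N' ≤ h0 N ∧ h0 N ≤ h0 N' + finrank k Q.H0 ∧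
      h1 N ≤ h1 N' ∧ h1 N' ≤ h1 N + finrank k Q.H0 := by
  haveI : FiniteDimensional k Q.H1 := inferInstance
  obtain ⟨δ, e1, e2, e3, e4, e5, e6⟩ := H61.stmt_LES k N' N Q f g hse
  have hQ1' : finrank k Q.H1 = 0 := finrank_zero_of_subsingleton
  have key := alt_sum_six f.mapH0 g.mapH0 δ f.mapH1 g.mapH1 e1 e2 e3 e4 e5 e6
  have a1 := finrank_eq_ker_add_ker f.mapH0 g.mapH0 e2
  have a2 := finrank_eq_ker_add_ker g.mapH0 δ e3
  have a3 := finrank_eq_ker_add_ker δ f.mapH1 e4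
  have a4 := finrank_eq_ker_add_ker f.mapH1 g.mapH1 e5
  have a0 : finrank k (LinearMap.ker f.mapH0) = 0 := by
    rw [LinearMap.ker_eq_bot.mpr e1, finrank_bot]
  have a5 := LinearMap.finrank_range_add_finrank_ker g.mapH1
  rw [LinearMap.range_eq_top.mpr e6, finrank_top] at a5
  unfold chi h0 h1
  refine ⟨by omega, by omega, by omega, by omega, by omega⟩

/-- `dim H0 = dim N0 + dim N1 - dim N01` when `j0` is onto. -/
theorem finrank_H0_of_j0_surjective (Q : Data k) [FiniteDimensional k Q.N0]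
    [FiniteDimensional k Q.N1] (h : Function.Surjective Q.j0) :
    finrank k Q.H0 + finrank k Q.N01 = finrank k Q.N0 + finrank k Q.N1 := by
  set d : (Q.N0 × Q.N1) →ₗ[k] Q.N01 :=
    Q.j0 ∘ₗ LinearMap.fst k Q.N0 Q.N1 - Q.j1 ∘ₗ LinearMap.snd k Q.N0 Q.N1 with hd
  have hH0 : Q.H0 = LinearMap.ker d := LinearMap.eqLocus_eq_ker_sub _ _
  have hsurj : Function.Surjective d := by
    intro m
    obtain ⟨a, ha⟩ := h m
    exact ⟨(a, 0), by simp [hd, ha]⟩
  have h1 := LinearMap.finrank_range_add_finrank_ker d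
  rw [LinearMap.range_eq_top.mpr hsurj, finrank_top, Module.finrank_prod] at h1
  rw [hH0]
  omega

variable {N' N : Data k} (f : Data.Hom N' N)

theorem hom_f01_T_pow {N Q : Data k} (g : Data.Hom N Q) (n : ℕ) (m : N.N01) :
    (Q.T.toLinearMap ^ n) (g.f01 m) = g.f01 ((N.T.toLinearMap ^ n) m) := by
  induction n generalizing m with
  | zero => rfl
  | succ n ih =>
    rw [pow_succ, pow_succ, Module.End.mul_apply, Module.End.mul_apply, LinearEquiv.coe_coe,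
      LinearEquiv.coe_coe, ← g.f01_T]
    exact ih (N.T m)

/-- The chart `0` of the cokernel maps onto the overlap, if the chart `0` of the cokernel is finite
dimensional. -/
theorem cokerData_j0_surjective (hloc : N.IsLoc) [FiniteDimensional k (cokerData f).N0] :
    Function.Surjective (cokerData f).j0 := by
  refine surjective_of_finite_of_loc (cokerData f).X0 (cokerData f).T (cokerData f).j0
    (cokerData f).j0_X ?_
  intro w
  obtain ⟨m, rfl⟩ : ∃ m, (cokerHom f).f01 m = w := Submodule.mkQ_surjective _ w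
  obtain ⟨n, p, hp⟩ := hloc.surj0 m
  refine ⟨n, (cokerHom f).f0 p, ?_⟩
  rw [hom_f01_T_pow, hp, (cokerHom f).f_j0]

end Abstract

section HomData

variable {k : Type u} [Field k] {𝒞 : CurveDatum k} {R : Type u} [CommRing R] [Algebra k R]
  {L L' : Triple 𝒞 R} (φ : Triple.Hom L L')

/-- The morphism of two-chart data of a morphism of triples. -/
noncomputable def homToData : Data.Hom L.toData L'.toData where
  f0 :=
    { toFun := φ.f0
      map_add' := map_add _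
      map_smul' := fun c p => φ.f0.map_smul (algebraMap R (R ⊗[k] 𝒞.B0) c) p }
  f1 :=
    { toFun := φ.f1
      map_add' := map_add _
      map_smul' := fun c p => φ.f1.map_smul (algebraMap R (R ⊗[k] 𝒞.B1) c) p }
  f01 :=
    { toFun := φ.f01
      map_add' := map_add _
      map_smul' := fun c p => φ.f01.map_smul (algebraMap R (R ⊗[k] 𝒞.B01) c) p }
  f0_X := fun p => φ.f0.map_smul ((1 : R) ⊗ₜ[k] 𝒞.x0) p
  f1_Z := fun p => φ.f1.map_smul ((1 : R) ⊗ₜ[k] 𝒞.z1) p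
  f01_T := fun p => φ.f01.map_smul ((1 : R) ⊗ₜ[k] 𝒞.i0 𝒞.x0) p
  f_j0 := φ.comm0
  f_j1 := φ.comm1

@[simp] theorem homToData_f0_apply (p : L.P0) : (homToData φ).f0 p = φ.f0 p := rfl

@[simp] theorem homToData_f1_apply (p : L.P1) : (homToData φ).f1 p = φ.f1 p := rfl

@[simp] theorem homToData_f01_apply (p : L.P01) : (homToData φ).f01 p = φ.f01 p := rfl

theorem r0_pow_smul (L : Triple 𝒞 R) (n : ℕ) (p : L.P0) :
    L.r0 (((1 : R) ⊗ₜ[k] 𝒞.x0 : R ⊗[k] 𝒞.B0) ^ n • p) =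
      ((1 : R) ⊗ₜ[k] 𝒞.i0 𝒞.x0 : R ⊗[k] 𝒞.B01) ^ n • L.r0 p := by
  rw [L.r0.map_smulₛₗ, map_pow]
  rfl

/-- An injective morphism on the chart `0` is injective on the overlap. -/
theorem f01_injective_of_f0 (hi0 : Function.Injective φ.f0) : Function.Injective φ.f01 := by
  rw [injective_iff_map_eq_zero]
  intro m hm
  obtain ⟨n, p, hp⟩ := L.surj0 m
  have h1 : L'.r0 (φ.f0 p) = 0 := by
    rw [← φ.comm0, ← hp, map_smul, hm, smul_zero]
  obtain ⟨n', hn'⟩ := L'.ker0 _ h1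
  rw [← map_smul] at hn'
  have h2 : ((1 : R) ⊗ₜ[k] 𝒞.x0 : R ⊗[k] 𝒞.B0) ^ n' • p = 0 :=
    hi0 (by rw [hn', map_zero])
  have h3 := congrArg L.r0 h2
  rw [r0_pow_smul, map_zero, ← hp, smul_smul, ← pow_add] at h3
  exact (H9.isUnit_x0_pow (𝒞 := 𝒞) (R := R) (n' + n)).smul_left_cancel.mp (by rw [h3, smul_zero])

end HomData

section Main

variable {k : Type u} [Field k] {𝒞 : CurveDatum k} {L L' : Triple 𝒞 k} (φ : Triple.Hom L L')

/-- `Q_0 = P_0' / J_0 P_0' ≃ B_0 / J_0`. -/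
theorem exists_N0_equiv (hG : 𝒞.IsGood) (J0 : Ideal 𝒞.B0) (hJ0 : J0 ≠ ⊥)
    (hr0 : LinearMap.range φ.f0 = ext0 J0 • (⊤ : Submodule (k ⊗[k] 𝒞.B0) L'.P0)) :
    Nonempty ((cokerData (homToData φ)).N0 ≃ₗ[k] (𝒞.B0 ⧸ J0)) := by
  letI := L'.modR0
  have hst : IsScalarTower k (k ⊗[k] 𝒞.B0) L'.P0 := ⟨fun c a p => by
    change (c • a) • p = algebraMap k (k ⊗[k] 𝒞.B0) c • (a • p)
    have h1 : c • a = algebraMap k (k ⊗[k] 𝒞.B0) c * a := Algebra.smul_def c a
    rw [h1, mul_smul]⟩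
  haveI := L'.inv0
  obtain ⟨e1⟩ := exists_quot_ext_equiv k 𝒞.B0 J0
  haveI : Module.Finite k (𝒞.B0 ⧸ J0) := H38.finite_quotient_B0 𝒞 hG J0 hJ0
  haveI : Module.Finite k ((k ⊗[k] 𝒞.B0) ⧸ ext0 J0) := Module.Finite.equiv e1.symm
  obtain ⟨e2⟩ := @exists_quot_equiv_of_mem_iff k _ (k ⊗[k] 𝒞.B0) _ _ (ext0 J0) L'.P0 _ _ _ hst _ _
    (LinearMap.range (homToData φ).f0) (fun p => by
      rw [← hr0]
      exact Iff.rfl)
  exact ⟨e2.trans e1⟩

/-- `Q_1 = P_1' / J_1 P_1' ≃ B_1 / J_1`. -/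
theorem exists_N1_equiv (hG : 𝒞.IsGood) (J1 : Ideal 𝒞.B1) (hJ1 : J1 ≠ ⊥)
    (hr1 : LinearMap.range φ.f1 = ext1 J1 • (⊤ : Submodule (k ⊗[k] 𝒞.B1) L'.P1)) :
    Nonempty ((cokerData (homToData φ)).N1 ≃ₗ[k] (𝒞.B1 ⧸ J1)) := by
  letI := L'.modR1
  have hst : IsScalarTower k (k ⊗[k] 𝒞.B1) L'.P1 := ⟨fun c a p => by
    change (c • a) • p = algebraMap k (k ⊗[k] 𝒞.B1) c • (a • p)
    have h1 : c • a = algebraMap k (k ⊗[k] 𝒞.B1) c * a := Algebra.smul_def c a
    rw [h1, mul_smul]⟩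
  haveI := L'.inv1
  obtain ⟨e1⟩ := exists_quot_ext_equiv k 𝒞.B1 J1
  haveI : Module.Finite k (𝒞.B1 ⧸ J1) := H38.finite_quotient_B1 𝒞 hG J1 hJ1
  haveI : Module.Finite k ((k ⊗[k] 𝒞.B1) ⧸ ext1 J1) := Module.Finite.equiv e1.symm
  obtain ⟨e2⟩ := @exists_quot_equiv_of_mem_iff k _ (k ⊗[k] 𝒞.B1) _ _ (ext1 J1) L'.P1 _ _ _ hst _ _
    (LinearMap.range (homToData φ).f1) (fun p => by
      rw [← hr1]
      exact Iff.rfl)
  exact ⟨e2.trans e1⟩

/-- `Q_01 = P_01' / J_01 P_01' ≃ B_01 / J_01`. -/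
theorem exists_N01_equiv (hG : 𝒞.IsGood) (J0 : Ideal 𝒞.B0) (hJ0 : J0 ≠ ⊥)
    (hr0 : LinearMap.range φ.f0 = ext0 J0 • (⊤ : Submodule (k ⊗[k] 𝒞.B0) L'.P0)) :
    Nonempty ((cokerData (homToData φ)).N01 ≃ₗ[k] (𝒞.B01 ⧸ J0.map 𝒞.i0)) := by
  letI := L'.modR01
  have hst : IsScalarTower k (k ⊗[k] 𝒞.B01) L'.P01 := ⟨fun c a p => by
    change (c • a) • p = algebraMap k (k ⊗[k] 𝒞.B01) c • (a • p)
    have h1 : c • a = algebraMap k (k ⊗[k] 𝒞.B01) c * a := Algebra.smul_def c a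
    rw [h1, mul_smul]⟩
  haveI := H9.invertible01 hG L'
  have hr01 := H97.range_f01_of0 φ (ext0 J0) hr0
  rw [H97.ext0_map] at hr01
  obtain ⟨e1⟩ := exists_quot_ext_equiv k 𝒞.B01 (J0.map 𝒞.i0)
  haveI : Module.Finite k (𝒞.B0 ⧸ J0) := H38.finite_quotient_B0 𝒞 hG J0 hJ0
  haveI : Module.Finite k (𝒞.B01 ⧸ J0.map 𝒞.i0) := (H38.isChartPair 𝒞 hG).finite_map J0
  haveI : Module.Finite k ((k ⊗[k] 𝒞.B01) ⧸ H97.ext01 (J0.map 𝒞.i0)) := Module.Finite.equiv e1.symm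
  obtain ⟨e2⟩ := @exists_quot_equiv_of_mem_iff k _ (k ⊗[k] 𝒞.B01) _ _ (H97.ext01 (J0.map 𝒞.i0)) L'.P01 _ _ _ hst _ _
    (LinearMap.range (homToData φ).f01) (fun p => by
      rw [← hr01]
      exact Iff.rfl)
  exact ⟨e2.trans e1⟩

end Main

/-- **NUM-CHI**. -/
theorem stmt_CHI : Fermat.Agent.S25.Num.Stmt_CHI.{u} := by
  intro k _ _ 𝒞 hG J0 J1 L L' hT
  obtain ⟨φ, hφ⟩ := hT
  have hEff := H97.isEffDiv_of_isTwistBy hG J0 J1 φ hφ
  obtain ⟨hi0, hi1, hr0, hr1⟩ := hφ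
  obtain ⟨hJ0, hJ1, hJ01⟩ := hEff
  have hi01 := f01_injective_of_f0 φ hi0
  have hse := shortExact_coker (homToData φ) hi0 hi1 hi01
  obtain ⟨e0⟩ := exists_N0_equiv φ hG J0 hJ0 hr0
  obtain ⟨e1⟩ := exists_N1_equiv φ hG J1 hJ1 hr1
  obtain ⟨e01⟩ := exists_N01_equiv φ hG J0 hJ0 hr0
  haveI : Module.Finite k (𝒞.B0 ⧸ J0) := H38.finite_quotient_B0 𝒞 hG J0 hJ0
  haveI : Module.Finite k (𝒞.B1 ⧸ J1) := H38.finite_quotient_B1 𝒞 hG J1 hJ1
  haveI : FiniteDimensional k (cokerData (homToData φ)).N0 := Module.Finite.equiv e0.symm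
  haveI : FiniteDimensional k (cokerData (homToData φ)).N1 := Module.Finite.equiv e1.symm
  have hsurj := cokerData_j0_surjective (homToData φ) (H7.h7_isLoc L')
  have hH1 := subsingleton_H1_of_j0_surjective _ hsurj
  have hdim := finrank_H0_of_j0_surjective (cokerData (homToData φ)) hsurj
  haveI : FiniteDimensional k (cokerData (homToData φ)).H0 := inferInstance
  haveI : FiniteDimensional k L.toData.H0 := triple_h0_finite hG L
  haveI : FiniteDimensional k L.toData.H1 := triple_h1_finite hG L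
  haveI : FiniteDimensional k L'.toData.H0 := triple_h0_finite hG L'
  haveI : FiniteDimensional k L'.toData.H1 := triple_h1_finite hG L'
  have key := chi_of_H1_subsingleton (homToData φ) (cokerHom (homToData φ)) hse hH1
  rw [e0.finrank_eq, e1.finrank_eq, e01.finrank_eq] at hdim
  obtain ⟨k1, k2, k3, k4, k5⟩ := key
  unfold chi h0 h1 at k1
  unfold h0 at k2 k3
  unfold h1 at k4
  refine ⟨⟨hJ0, hJ1, hJ01⟩, ?_, k2, k4, ?_⟩
  · unfold Num.chi Num.h0 Num.h1 ddeg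
    change ((finrank k L'.toData.H0 : ℤ) - (finrank k L'.toData.H1 : ℤ)) =
      ((finrank k L.toData.H0 : ℤ) - (finrank k L.toData.H1 : ℤ)) + _
    omega
  · unfold Num.h0 ddeg
    change ((finrank k L'.toData.H0 : ℤ)) ≤ (finrank k L.toData.H0 : ℤ) + _
    omega

end Fermat.Agent.S25.Num.H50
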