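import Fermat.Agent.S25.Num.Defs

/-!
# S25, package NUM: `NUM-MONOCOR` (wiring)

`monocor_of : Stmt_ISO → Stmt_SEC → Stmt_MONO → Stmt_CHI → Stmt_PTS → Stmt_MONOCOR`.

If `h0 L ≥ 1`, a nonzero section is a nonzero morphism `U → L` from a unit triple (SEC), which is the
twist by an effective divisor `D` (MONO); so `deg L = chi L - chi U = ddeg D ≥ 0` (CHI, PTS, ISO), and
`deg L = 0` forces `chi L = chi U`, hence `U ≅ L` (MONO) and `L` is a unit triple (ISO).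
-/

set_option autoImplicit false

universe u

namespace Fermat.Agent.S25.Num.H44

open Fermat.Agent.S25.LB Fermat.Agent.S25.Num

/-- The key computation: a triple with a nonzero section has `deg L = ddeg D ≥ 0` for the divisor `D`
of the section, and is a unit triple as soon as `chi L = chi U`. -/
theorem deg_nonneg_of_section (hISO : Stmt_ISO.{u}) (hSEC : Stmt_SEC.{u}) (hMONO : Stmt_MONO.{u})
    (hCHI : Stmt_CHI.{u}) (hPTS : Stmt_PTS.{u})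
    (k : Type u) [Field k] [IsAlgClosed k] (𝒞 : CurveDatum k) (hC : 𝒞.IsGood)
    (L : Triple 𝒞 k) (hL : 1 ≤ h0 L) :
    0 ≤ deg L ∧ (deg L = 0 → IsUnitTriple L) := by
  obtain ⟨-, hiso2, -, ⟨U, hU⟩, hiso5⟩ := hISO k 𝒞 hC
  obtain ⟨hU0, hU1⟩ := hiso5 U hU
  obtain ⟨φ, hφ⟩ := hSEC k 𝒞 hC L U hU hL
  obtain ⟨⟨J0, J1, hJ, hT⟩, hmono2⟩ := hMONO k 𝒞 hC U L φ hφ
  obtain ⟨-, hchi, -, -, -⟩ := hCHI k 𝒞 hC J0 J1 U L ⟨φ, hT⟩
  obtain ⟨-, -, hpts3⟩ := hPTS k 𝒞 hC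
  obtain ⟨-, -, hnn, -⟩ := hpts3 J0 J0 J1 J1 hJ hJ
  have hchiU : chi U = 1 - (genus 𝒞 : ℤ) := by
    unfold chi
    rw [hU0, hU1]
    push_cast
    ring
  have hdeg : deg L = ddeg J0 J1 := by
    unfold deg
    rw [hchi, hchiU]
    ring
  refine ⟨by rw [hdeg]; exact hnn, fun h0 => ?_⟩
  have hchiL : chi L = chi U := by
    rw [hdeg] at h0
    rw [hchi, h0, add_zero]
  exact hiso2 U L (hmono2 hchiL) hU

/-- **NUM-MONOCOR** from ISO, SEC, MONO, CHI, PTS. -/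
theorem monocor_of (hISO : Stmt_ISO.{u}) (hSEC : Stmt_SEC.{u}) (hMONO : Stmt_MONO.{u})
    (hCHI : Stmt_CHI.{u}) (hPTS : Stmt_PTS.{u}) : Stmt_MONOCOR.{u} := by
  intro k _ _ 𝒞 hC L
  refine ⟨fun hneg => ?_, fun h0 hL => ?_⟩
  · by_contra hne
    have hL : 1 ≤ h0 L := Nat.one_le_iff_ne_zero.mpr hne
    have := (deg_nonneg_of_section hISO hSEC hMONO hCHI hPTS k 𝒞 hC L hL).1
    omega
  · exact (deg_nonneg_of_section hISO hSEC hMONO hCHI hPTS k 𝒞 hC L hL).2 h0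

end Fermat.Agent.S25.Num.H44
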