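/-
helper21, S25 package NUM, leaf NUM-RIEM: Riemann's theorem, the vanishing half.
`riem_of : Stmt_CHI → Stmt_SEC → Stmt_MONO → Stmt_ISO → Stmt_RIEM`.

Proof.  `U` a unit triple, `A = U(n0 D∞)` with `H1 A = 0` (`P1.Stmt_VAN`; `D∞` = the divisor of poles of `x0`,
the twist by `n D∞` only changes the gluing by the unit `x0 ^ n` of `B01`).  If `deg L ≥ ddeg (n0 D∞) + genus`
then `M = L(-n0 D∞)` has `chi M ≥ 1`, hence a nonzero section, i.e. a nonzero morphism `U → M`; it is the twist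
by an effective divisor `(J0, J1)`; the same maps are a morphism `A → L`, the twist by `(J0, J1)`, so
`h1 L ≤ h1 A = 0`.
-/
import Fermat.Agent.S25.Num.Defs
import Fermat.Agent.S25.Num.H9_Frac
import Fermat.Agent.S25.P1.H83_H1FP
import Fermat.Agent.S25.LB.H7_VB

set_option autoImplicit false
set_option linter.style.haveILetI false
set_option linter.unusedSectionVars false

universe u

open TensorProduct

namespace Fermat.Agent.S25.Num.H21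

open Fermat.Agent.S25 Fermat.Agent.S25.LB Fermat.Agent.S25.Num

variable {k : Type u} [Field k] {𝒞 : CurveDatum k}

/-- The unit `1 ⊗ x0` of `k ⊗ B01`. -/
noncomputable def xK (𝒞 : CurveDatum k) : k ⊗[k] 𝒞.B01 := (1 : k) ⊗ₜ[k] 𝒞.i0 𝒞.x0

/-- Its inverse `1 ⊗ z1`. -/
noncomputable def zK (𝒞 : CurveDatum k) : k ⊗[k] 𝒞.B01 := (1 : k) ⊗ₜ[k] 𝒞.i1 𝒞.z1

theorem xK_mul_zK : xK 𝒞 * zK 𝒞 = 1 := Triple.unit_mul_unit 𝒞 k

theorem xK_pow_mul_zK_pow (n : ℕ) : xK 𝒞 ^ n * zK 𝒞 ^ n = 1 := by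
  rw [← mul_pow, xK_mul_zK, one_pow]

theorem zK_pow_mul_xK_pow (n : ℕ) : zK 𝒞 ^ n * xK 𝒞 ^ n = 1 := by
  rw [mul_comm, xK_pow_mul_zK_pow]

/-- Change the gluing of a triple by a unit `u` of `k ⊗ B01` (`u = x0 ^ n`: the twist by `n D∞`). -/
@[reducible] noncomputable def twU (L : Triple 𝒞 k) (u v : k ⊗[k] 𝒞.B01) (huv : u * v = 1) :
    Triple 𝒞 k where
  P0 := L.P0
  P1 := L.P1
  P01 := L.P01
  r0 := L.r0
  r1 :=
    { toFun := fun p => u • L.r1 p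
      map_add' := fun p q => by rw [map_add, smul_add]
      map_smul' := fun c p => by
        rw [L.r1.map_smulₛₗ, smul_smul, smul_smul, mul_comm] }
  inv0 := L.inv0
  inv1 := L.inv1
  surj0 := L.surj0
  ker0 := L.ker0
  surj1 := fun m => by
    obtain ⟨n, p, hp⟩ := L.surj1 (v • m)
    refine ⟨n, p, ?_⟩
    change _ = u • L.r1 p
    have h1 : u * ((1 : k) ⊗ₜ[k] 𝒞.i1 𝒞.z1 : k ⊗[k] 𝒞.B01) ^ n * v =
        ((1 : k) ⊗ₜ[k] 𝒞.i1 𝒞.z1 : k ⊗[k] 𝒞.B01) ^ n := by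
      rw [mul_comm u, mul_assoc, huv, mul_one]
    rw [← hp, smul_smul, smul_smul, h1]
  ker1 := fun p hp => by
    apply L.ker1
    have h : u • L.r1 p = 0 := hp
    have h2 : v • (u • L.r1 p) = 0 := by rw [h, smul_zero]
    rwa [smul_smul, mul_comm, huv, one_smul] at h2

theorem twU_r1_apply (L : Triple 𝒞 k) (u v : k ⊗[k] 𝒞.B01) (huv : u * v = 1) (p : L.P1) :
    (twU L u v huv).r1 p = u • L.r1 p := rfl

/-- A morphism `U → L(-D)` is a morphism `U(D) → L` (`D = n D∞`). -/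
noncomputable def homTw (U L : Triple 𝒞 k) (u v : k ⊗[k] 𝒞.B01) (huv : u * v = 1) (hvu : v * u = 1)
    (ψ : Triple.Hom U (twU L v u hvu)) : Triple.Hom (twU U u v huv) L where
  f0 := ψ.f0
  f1 := ψ.f1
  f01 := ψ.f01
  comm0 := ψ.comm0
  comm1 := fun p => by
    have h1 : ψ.f01 (U.r1 p) = v • L.r1 (ψ.f1 p) := ψ.comm1 p
    change ψ.f01 (u • U.r1 p) = L.r1 (ψ.f1 p)
    rw [map_smul, h1, smul_smul, huv, one_smul]

/-- The natural morphism `L(-n D∞) → L`: the identity on `V0`, multiplication by `z1 ^ n` on `V1`. -/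
noncomputable def incTw (L : Triple 𝒞 k) (n : ℕ) :
    Triple.Hom (twU L (zK 𝒞 ^ n) (xK 𝒞 ^ n) (zK_pow_mul_xK_pow n)) L where
  f0 := LinearMap.id
  f1 := (((1 : k) ⊗ₜ[k] 𝒞.z1 : k ⊗[k] 𝒞.B1) ^ n) • LinearMap.id
  f01 := LinearMap.id
  comm0 := fun _ => rfl
  comm1 := fun p => by
    change zK 𝒞 ^ n • L.r1 p = L.r1 ((((1 : k) ⊗ₜ[k] 𝒞.z1 : k ⊗[k] 𝒞.B1) ^ n) • p)
    rw [L.r1.map_smulₛₗ, map_pow]
    rfl

theorem ext0_top : ext0 (⊤ : Ideal 𝒞.B0) = ⊤ := Ideal.map_top _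

theorem ext1_span_singleton (a : 𝒞.B1) :
    ext1 (Ideal.span {a}) = Ideal.span {((1 : k) ⊗ₜ[k] a : k ⊗[k] 𝒞.B1)} := by
  unfold ext1
  rw [Ideal.map_span, Set.image_singleton]
  rfl

theorem incTw_isTwistBy (hG : 𝒞.IsGood) (L : Triple 𝒞 k) (n : ℕ) :
    IsTwistBy (⊤ : Ideal 𝒞.B0) (Ideal.span {𝒞.z1 ^ n}) (incTw L n) := by
  refine ⟨fun a b h => h, ?_, ?_, ?_⟩
  · -- multiplication by `z1 ^ n` is injective on `P1`
    intro a b hab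
    have h1 : (((1 : k) ⊗ₜ[k] 𝒞.z1 : k ⊗[k] 𝒞.B1) ^ n) • a =
        (((1 : k) ⊗ₜ[k] 𝒞.z1 : k ⊗[k] 𝒞.B1) ^ n) • b := hab
    have h2 := congrArg L.r1 h1
    rw [L.r1.map_smulₛₗ, L.r1.map_smulₛₗ, map_pow] at h2
    have h3 : zK 𝒞 ^ n • L.r1 a = zK 𝒞 ^ n • L.r1 b := h2
    have h4 := congrArg (fun m => xK 𝒞 ^ n • m) h3
    simp only [smul_smul, xK_pow_mul_zK_pow, one_smul] at h4
    exact H9.r1_injective hG L h4
  · rw [ext0_top]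
    change LinearMap.range (LinearMap.id : L.P0 →ₗ[k ⊗[k] 𝒞.B0] L.P0) = _
    rw [LinearMap.range_id, Submodule.top_smul]
  · rw [ext1_span_singleton, Submodule.ideal_span_singleton_smul]
    ext m
    constructor
    · rintro ⟨p, rfl⟩
      rw [Submodule.mem_smul_pointwise_iff_exists]
      refine ⟨p, Submodule.mem_top, ?_⟩
      change _ = (((1 : k) ⊗ₜ[k] 𝒞.z1 : k ⊗[k] 𝒞.B1) ^ n) • p
      rw [Algebra.TensorProduct.tmul_pow, one_pow]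
    · intro hm
      rw [Submodule.mem_smul_pointwise_iff_exists] at hm
      obtain ⟨p, -, rfl⟩ := hm
      refine ⟨p, ?_⟩
      change (((1 : k) ⊗ₜ[k] 𝒞.z1 : k ⊗[k] 𝒞.B1) ^ n) • p = _
      rw [Algebra.TensorProduct.tmul_pow, one_pow]

/-- `H1 = 0` for the two-chart data means that every section on the overlap is a sum. -/
theorem exists_add_of_subsingleton {A : Type u} [CommRing A] (N : P1.Data A)
    (h : Subsingleton N.H1) (m : N.N01) : ∃ (p : N.N0) (q : N.N1), N.j0 p + N.j1 q = m := by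
  have h1 : (Submodule.Quotient.mk m : N.N01 ⧸ N.B1) = 0 := Subsingleton.elim _ _
  rw [Submodule.Quotient.mk_eq_zero] at h1
  obtain ⟨a, ⟨p, rfl⟩, b, ⟨q, rfl⟩, hab⟩ := Submodule.mem_sup.mp h1
  exact ⟨p, q, hab⟩

theorem subsingleton_of_exists_add {A : Type u} [CommRing A] (N : P1.Data A)
    (h : ∀ m : N.N01, ∃ (p : N.N0) (q : N.N1), N.j0 p + N.j1 q = m) : Subsingleton N.H1 := by
  have htop : N.B1 = ⊤ := by
    rw [eq_top_iff]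
    intro m _
    obtain ⟨p, q, hpq⟩ := h m
    rw [← hpq]
    exact Submodule.add_mem _ (Submodule.mem_sup_left ⟨p, rfl⟩) (Submodule.mem_sup_right ⟨q, rfl⟩)
  change Subsingleton (N.N01 ⧸ N.B1)
  rw [htop]
  exact Submodule.Quotient.subsingleton_iff.mpr rfl

theorem twist_j1 (U : Triple 𝒞 k) (n : ℕ) (q : U.P1) :
    (U.toData.twist ((n : ℕ) : ℤ)).j1 q = xK 𝒞 ^ n • U.r1 q := by
  exact (P1.H22.toLinearMap_pow_apply U.toData n (U.toData.j1 q)).symm.trans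
    (H7.h7_T_pow U n (U.r1 q))

/-- `H1 (U(n D∞)) = 0` for `n ≫ 0`. -/
theorem exists_h1_twist_eq_zero (hG : 𝒞.IsGood) (U : Triple 𝒞 k) :
    ∃ n : ℕ, h1 (twU U (xK 𝒞 ^ n) (zK 𝒞 ^ n) (xK_pow_mul_zK_pow n)) = 0 := by
  have hVB : U.toData.IsVB := H7.stmt_VB k 𝒞 hG k U
  obtain ⟨n0, hn0⟩ := P1.H22.stmt_VAN k U.toData hVB.loc (P1.H83.fg0_of_proj0 U.toData hVB.proj0)
  refine ⟨n0.toNat, ?_⟩
  have hs : Subsingleton (U.toData.twist ((n0.toNat : ℕ) : ℤ)).H1 := hn0 _ (Int.self_le_toNat n0)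
  have hs' : Subsingleton (twU U (xK 𝒞 ^ n0.toNat) (zK 𝒞 ^ n0.toNat)
      (xK_pow_mul_zK_pow n0.toNat)).toData.H1 := by
    apply subsingleton_of_exists_add
    intro m
    obtain ⟨p, q, hpq⟩ := exists_add_of_subsingleton _ hs m
    refine ⟨p, q, ?_⟩
    rw [← hpq]
    congr 1
    exact (twist_j1 U n0.toNat q).symm
  unfold h1
  exact Module.finrank_zero_of_subsingleton

/-- **NUM-RIEM** from CHI, SEC, MONO, ISO. -/
theorem riem_of (hC : Stmt_CHI.{u}) (hS : Stmt_SEC.{u}) (hM : Stmt_MONO.{u}) (hI : Stmt_ISO.{u}) :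
    Stmt_RIEM.{u} := by
  intro k _ _ 𝒞 hG
  obtain ⟨-, -, -, ⟨U, hU⟩, -⟩ := hI k 𝒞 hG
  obtain ⟨n, hn⟩ := exists_h1_twist_eq_zero hG U
  refine ⟨ddeg (⊤ : Ideal 𝒞.B0) (Ideal.span {𝒞.z1 ^ n}) + (genus 𝒞 : ℤ), fun L hL => ?_⟩
  -- `M = L(-n D∞)`
  obtain ⟨-, hchi, -, -, -⟩ := hC k 𝒞 hG ⊤ (Ideal.span {𝒞.z1 ^ n}) _ L
    ⟨incTw L n, incTw_isTwistBy hG L n⟩
  have hM1 : 1 ≤ h0 (twU L (zK 𝒞 ^ n) (xK 𝒞 ^ n) (zK_pow_mul_xK_pow n)) := by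
    have h1 : (1 : ℤ) ≤ chi (twU L (zK 𝒞 ^ n) (xK 𝒞 ^ n) (zK_pow_mul_xK_pow n)) := by
      unfold deg at hL
      omega
    unfold chi at h1
    omega
  obtain ⟨ψ, hψ⟩ := hS k 𝒞 hG _ U hU hM1
  obtain ⟨⟨J0, J1, -, hJ⟩, -⟩ := hM k 𝒞 hG _ _ ψ hψ
  have hJ' : IsTwistBy J0 J1
      (homTw U L (xK 𝒞 ^ n) (zK 𝒞 ^ n) (xK_pow_mul_zK_pow n) (zK_pow_mul_xK_pow n) ψ) := hJ
  obtain ⟨-, -, -, hle, -⟩ := hC k 𝒞 hG J0 J1 _ L ⟨_, hJ'⟩
  omega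

end Fermat.Agent.S25.Num.H21
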