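import Fermat.Agent.S25.Num.Defs
import Fermat.Agent.S25.Num.H50_Ded

/-!
# S25, package NUM: `NUM-EFF`

helper47.  `eff_of : Stmt_ISO → Stmt_SEC → Stmt_MONO → Stmt_CHI → Stmt_PTS → Stmt_EFF`.

A triple with a nonzero section is the twist of a unit triple by the divisor `(J0, J1)` of the section
(SEC, MONO), `deg L = ddeg J0 J1` (CHI, ISO), and every effective divisor is a sum of points:
`J0 = ∏ ker q_i`, `J1 = ∏ tr01 (ker q_i) * ∏ ker q'_j` with `q'_j` at infinity (`factor`; pure ideal theory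
in the Dedekind domains `B0`, `B1`, `B01`; induction scheme of helper44).
-/

set_option autoImplicit false
set_option linter.style.haveILetI false
set_option linter.unusedSectionVars false

universe u

namespace Fermat.Agent.S25.Num.H47

open Fermat.Agent.S25.LB Fermat.Agent.S25.Num

variable {k : Type u} [Field k] {𝒞 : CurveDatum k}

/-- `(J0, J1)` is a sum of points. -/
def IsPtsDiv (J0 : Ideal 𝒞.B0) (J1 : Ideal 𝒞.B1) : Prop :=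
  ∃ (n m : ℕ) (q : Fin n → (𝒞.B0 →ₐ[k] k)) (q' : Fin m → (𝒞.B1 →ₐ[k] k)),
    (∀ j, q' j 𝒞.z1 = 0) ∧ J0 = ptsI0 q ∧ J1 = ptsI1 q * infI1 q' ∧
      ((n + m : ℕ) : ℤ) = ddeg J0 J1

theorem ker_toRingHom {B : Type u} [CommRing B] [Algebra k B] (q : B →ₐ[k] k) :
    RingHom.ker q.toRingHom = RingHom.ker q := rfl

theorem ptsI0_cons {n : ℕ} (q₀ : 𝒞.B0 →ₐ[k] k) (q : Fin n → (𝒞.B0 →ₐ[k] k)) :
    ptsI0 (Fin.cons q₀ q : Fin (n + 1) → (𝒞.B0 →ₐ[k] k)) = RingHom.ker q₀ * ptsI0 q := by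
  unfold ptsI0
  rw [Fin.prod_univ_succ]
  simp only [Fin.cons_zero, Fin.cons_succ]

theorem ptsI1_cons {n : ℕ} (q₀ : 𝒞.B0 →ₐ[k] k) (q : Fin n → (𝒞.B0 →ₐ[k] k)) :
    ptsI1 (Fin.cons q₀ q : Fin (n + 1) → (𝒞.B0 →ₐ[k] k)) =
      tr01 (RingHom.ker q₀) * ptsI1 q := by
  unfold ptsI1
  rw [Fin.prod_univ_succ]
  simp only [Fin.cons_zero, Fin.cons_succ]

theorem infI1_cons {m : ℕ} (q₀ : 𝒞.B1 →ₐ[k] k) (q : Fin m → (𝒞.B1 →ₐ[k] k)) :
    infI1 (Fin.cons q₀ q : Fin (m + 1) → (𝒞.B1 →ₐ[k] k)) = RingHom.ker q₀ * infI1 q := by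
  unfold infI1
  rw [Fin.prod_univ_succ]
  simp only [Fin.cons_zero, Fin.cons_succ]

/-- `map i1 (tr01 J) = map i0 J` (`B01` is a localisation of `B1`). -/
theorem map_tr01 (hC : 𝒞.IsGood) (J : Ideal 𝒞.B0) :
    (tr01 J).map 𝒞.i1 = J.map 𝒞.i0 := by
  letI : Algebra 𝒞.B1 𝒞.B01 := 𝒞.i1.toRingHom.toAlgebra
  haveI : IsLocalization.Away 𝒞.z1 𝒞.B01 := hC.loc1
  exact IsLocalization.map_under (Submonoid.powers 𝒞.z1) 𝒞.B01 (J.map 𝒞.i0)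

/-- `ddeg ⊤ ⊤ = 0` (from the additivity). -/
theorem ddeg_top [IsAlgClosed k] (hPTS : Stmt_PTS.{u}) (hC : 𝒞.IsGood) :
    IsEffDiv (⊤ : Ideal 𝒞.B0) (⊤ : Ideal 𝒞.B1) ∧ ddeg (⊤ : Ideal 𝒞.B0) (⊤ : Ideal 𝒞.B1) = 0 := by
  haveI := hC.dom0
  haveI := hC.dom1
  obtain ⟨-, -, hpts3⟩ := hPTS k 𝒞 hC
  have hE : IsEffDiv (⊤ : Ideal 𝒞.B0) (⊤ : Ideal 𝒞.B1) := by
    refine ⟨top_ne_bot, top_ne_bot, ?_⟩
    have h0 : (⊤ : Ideal 𝒞.B0).map 𝒞.i0 = ⊤ := by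
      rw [Ideal.eq_top_iff_one]
      have : (𝒞.i0 : 𝒞.B0 →+* 𝒞.B01) 1 ∈ (⊤ : Ideal 𝒞.B0).map 𝒞.i0 :=
        Ideal.mem_map_of_mem _ (Submodule.mem_top)
      simpa using this
    have h1 : (⊤ : Ideal 𝒞.B1).map 𝒞.i1 = ⊤ := by
      rw [Ideal.eq_top_iff_one]
      have : (𝒞.i1 : 𝒞.B1 →+* 𝒞.B01) 1 ∈ (⊤ : Ideal 𝒞.B1).map 𝒞.i1 :=
        Ideal.mem_map_of_mem _ (Submodule.mem_top)
      simpa using this
    rw [h0, h1]
  refine ⟨hE, ?_⟩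
  obtain ⟨-, hadd, -, -⟩ := hpts3 ⊤ ⊤ ⊤ ⊤ hE hE
  rw [Ideal.top_mul, Ideal.top_mul] at hadd
  omega

theorem map_top_i0 (𝒞 : CurveDatum k) : (⊤ : Ideal 𝒞.B0).map 𝒞.i0 = ⊤ := by
  rw [Ideal.eq_top_iff_one]
  have : (𝒞.i0 : 𝒞.B0 →+* 𝒞.B01) 1 ∈ (⊤ : Ideal 𝒞.B0).map 𝒞.i0 :=
    Ideal.mem_map_of_mem _ (Submodule.mem_top)
  simpa using this

/-- strict growth when a maximal ideal is split off -/
theorem lt_of_eq_maximal_mul {B : Type u} [CommRing B] [IsDedekindDomain B] {J 𝔪 J' : Ideal B}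
    (h𝔪 : 𝔪.IsMaximal) (hJ : J ≠ ⊥) (h : J = 𝔪 * J') : J < J' ∧ J' ≠ ⊥ := by
  have hJ' : J' ≠ ⊥ := by
    rintro rfl
    rw [Ideal.mul_bot] at h
    exact hJ h
  refine ⟨lt_of_le_of_ne (h ▸ Ideal.mul_le_right) ?_, hJ'⟩
  intro heq
  rw [heq] at h
  have h1 : (1 : Ideal B) * J' = 𝔪 * J' := by rw [one_mul]; exact h
  have h2 : (1 : Ideal B) = 𝔪 := mul_right_cancel₀ hJ' h1
  exact h𝔪.ne_top (h2 ▸ Ideal.one_eq_top)

variable [IsAlgClosed k]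

/-- **Lemma B**: an effective divisor `(⊤, J1)` is a sum of points at infinity. -/
theorem factor_inf (hPTS : Stmt_PTS.{u}) (hC : 𝒞.IsGood) (J1 : Ideal 𝒞.B1)
    (hE : IsEffDiv (⊤ : Ideal 𝒞.B0) J1) : IsPtsDiv (⊤ : Ideal 𝒞.B0) J1 := by
  haveI := hC.dom0
  haveI := hC.dom1
  haveI := hC.dom01
  haveI := H50.isDedekindDomain_B1 𝒞 hC
  haveI := H50.finiteType_B1 𝒞 hC
  obtain ⟨-, hpts2, hpts3⟩ := hPTS k 𝒞 hC
  induction J1 using WellFoundedGT.induction with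
  | ind J1 IH =>
    by_cases htop : J1 = ⊤
    · subst htop
      refine ⟨0, 0, Fin.elim0, Fin.elim0, fun j => j.elim0, ?_, ?_, ?_⟩
      · simp [ptsI0, Ideal.one_eq_top]
      · simp [ptsI1, infI1, Ideal.one_eq_top]
      · rw [(ddeg_top hPTS hC).2]
        rfl
    · obtain ⟨𝔪, h𝔪, hle⟩ := Ideal.exists_le_maximal J1 htop
      obtain ⟨q', hq'⟩ := H50.exists_point_of_isMaximal k 𝒞.B1 𝔪
      rw [ker_toRingHom] at hq'
      have hmapJ1 : J1.map 𝒞.i1 = ⊤ := by rw [← hE.2.2, map_top_i0]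
      -- the point is at infinity
      have hz : q' 𝒞.z1 = 0 := by
        by_contra hne
        obtain ⟨-, -, -, hq01⟩ := hpts2 q'
        obtain ⟨q01, hq01, -⟩ := hq01 hne
        have h1 : 𝔪.map 𝒞.i1 ≤ RingHom.ker q01 := by
          rw [Ideal.map_le_iff_le_comap]
          intro b hb
          rw [Ideal.mem_comap, RingHom.mem_ker]
          have h2 : q' b = 0 := by
            rw [← hq'] at hb
            exact (RingHom.mem_ker).mp hb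
          rw [← hq01] at h2
          exact h2
        have h3 : (⊤ : Ideal 𝒞.B01) ≤ RingHom.ker q01 := by
          rw [← hmapJ1]
          exact (Ideal.map_mono hle).trans h1
        have h4 : (1 : 𝒞.B01) ∈ RingHom.ker q01 := h3 Submodule.mem_top
        rw [RingHom.mem_ker, map_one] at h4
        exact one_ne_zero h4
      obtain ⟨J1', hJ1'⟩ := Ideal.dvd_iff_le.mpr hle
      obtain ⟨hlt, hJ1'0⟩ := lt_of_eq_maximal_mul h𝔪 hE.2.1 hJ1'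
      have hE' : IsEffDiv (⊤ : Ideal 𝒞.B0) J1' := by
        refine ⟨hE.1, hJ1'0, ?_⟩
        rw [map_top_i0]
        exact (top_le_iff.mp (hmapJ1 ▸ Ideal.map_mono hlt.le)).symm
      obtain ⟨n, m, q, q'', hq'', h0, h1, hd⟩ := IH J1' hlt hE'
      obtain ⟨hEq, hdq, htr, -⟩ := hpts2 q'
      have htr' := htr hz
      rw [htr'] at hEq hdq
      obtain ⟨-, hadd, -, -⟩ := hpts3 ⊤ ⊤ (RingHom.ker q') J1' hEq hE'
      rw [Ideal.top_mul, hdq, hq', ← hJ1'] at hadd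
      refine ⟨n, m + 1, q, Fin.cons q' q'', ?_, h0, ?_, ?_⟩
      · intro j
        refine Fin.cases ?_ (fun i => ?_) j
        · rw [Fin.cons_zero]; exact hz
        · rw [Fin.cons_succ]; exact hq'' i
      · rw [infI1_cons, hJ1', h1, hq', mul_left_comm]
      · rw [hadd, ← hd]
        push_cast
        ring

/-- **Lemma A**: every effective divisor is a sum of points. -/
theorem factor (hPTS : Stmt_PTS.{u}) (hC : 𝒞.IsGood) (J0 : Ideal 𝒞.B0) (J1 : Ideal 𝒞.B1)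
    (hE : IsEffDiv J0 J1) : IsPtsDiv J0 J1 := by
  haveI := hC.dom0
  haveI := hC.dom1
  haveI := hC.dom01
  haveI := H50.isDedekindDomain_B0 𝒞 hC
  haveI := H50.isDedekindDomain_B1 𝒞 hC
  haveI := H50.isDedekindDomain_B01 𝒞 hC
  haveI := H50.finiteType_B0 𝒞 hC
  obtain ⟨hpts1, -, hpts3⟩ := hPTS k 𝒞 hC
  induction J0 using WellFoundedGT.induction generalizing J1 with
  | ind J0 IH =>
    by_cases htop : J0 = ⊤
    · subst htop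
      exact factor_inf hPTS hC J1 hE
    · obtain ⟨𝔪, h𝔪, hle⟩ := Ideal.exists_le_maximal J0 htop
      obtain ⟨q₀, hq₀⟩ := H50.exists_point_of_isMaximal k 𝒞.B0 𝔪
      rw [ker_toRingHom] at hq₀
      obtain ⟨J0', hJ0'⟩ := Ideal.dvd_iff_le.mpr hle
      obtain ⟨hlt, hJ0'0⟩ := lt_of_eq_maximal_mul h𝔪 hE.1 hJ0'
      -- `J1 ≤ tr01 𝔪`
      have hle1 : J1 ≤ tr01 𝔪 := by
        unfold tr01
        calc J1 ≤ (J1.map 𝒞.i1).comap 𝒞.i1 := Ideal.le_comap_map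
          _ = (J0.map 𝒞.i0).comap 𝒞.i1 := by rw [hE.2.2]
          _ ≤ (𝔪.map 𝒞.i0).comap 𝒞.i1 := Ideal.comap_mono (Ideal.map_mono hle)
      obtain ⟨J1', hJ1'⟩ := Ideal.dvd_iff_le.mpr hle1
      have hJ1'0 : J1' ≠ ⊥ := by
        rintro rfl
        rw [Ideal.mul_bot] at hJ1'
        exact hE.2.1 hJ1'
      have h𝔪0 : 𝔪 ≠ ⊥ := by
        rintro rfl
        rw [Ideal.bot_mul] at hJ0'
        exact hE.1 hJ0'
      have hmap𝔪 : 𝔪.map 𝒞.i0 ≠ ⊥ := by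
        intro h
        exact h𝔪0 ((Ideal.map_eq_bot_iff_of_injective (H50.i0_injective 𝒞 hC)).mp h)
      have hE' : IsEffDiv J0' J1' := by
        refine ⟨hJ0'0, hJ1'0, ?_⟩
        have h1 := hE.2.2
        rw [hJ0', hJ1', Ideal.map_mul, Ideal.map_mul, map_tr01 hC] at h1
        exact mul_left_cancel₀ hmap𝔪 h1
      obtain ⟨n, m, q, q', hq', h0, h1, hd⟩ := IH J0' hlt J1' hE'
      obtain ⟨hEq, hdq, -, -⟩ := hpts1 q₀
      obtain ⟨-, hadd, -, -⟩ := hpts3 (RingHom.ker q₀) J0' (tr01 (RingHom.ker q₀)) J1' hEq hE'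
      rw [hdq, hq₀, ← hJ0', ← hJ1'] at hadd
      refine ⟨n + 1, m, Fin.cons q₀ q, q', hq', ?_, ?_, ?_⟩
      · rw [ptsI0_cons, hJ0', h0, hq₀]
      · rw [ptsI1_cons, hJ1', h1, hq₀, mul_assoc]
      · rw [hadd, ← hd]
        push_cast
        ring

/-- **NUM-EFF** from ISO, SEC, MONO, CHI, PTS. -/
theorem eff_of (hISO : Stmt_ISO.{u}) (hSEC : Stmt_SEC.{u}) (hMONO : Stmt_MONO.{u})
    (hCHI : Stmt_CHI.{u}) (hPTS : Stmt_PTS.{u}) : Stmt_EFF.{u} := by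
  intro k _ _ 𝒞 hC L hL
  obtain ⟨-, -, -, ⟨U, hU⟩, hiso5⟩ := hISO k 𝒞 hC
  obtain ⟨hU0, hU1⟩ := hiso5 U hU
  obtain ⟨φ, hφ⟩ := hSEC k 𝒞 hC L U hU hL
  obtain ⟨⟨J0, J1, hJ, hT⟩, -⟩ := hMONO k 𝒞 hC U L φ hφ
  obtain ⟨-, hchi, -, -, -⟩ := hCHI k 𝒞 hC J0 J1 U L ⟨φ, hT⟩
  have hchiU : chi U = 1 - (genus 𝒞 : ℤ) := by
    unfold chi
    rw [hU0, hU1]
    push_cast
    ring
  have hdeg : deg L = ddeg J0 J1 := by
    unfold deg
    rw [hchi, hchiU]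
    ring
  obtain ⟨n, m, q, q', hq', h0, h1, hd⟩ := factor hPTS hC J0 J1 hJ
  refine ⟨n, m, q, q', U, hq', hU, ⟨φ, ?_⟩, ?_⟩
  · rw [← h0, ← h1]
    exact hT
  · rw [hd, hdeg]

end Fermat.Agent.S25.Num.H47
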