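/-
helper50, S25 (Jacobian exists), package NUM, leaf NUM-FIN: `H0` and `H1` of a triple over the base field
are finite dimensional (`Num.Stmt_FIN` of `S25/Num/Defs.lean`).
-/
import Mathlib
import Fermat.Agent.S25.Num.Defs
import Fermat.Agent.S25.Num.H50_Fin

set_option autoImplicit false

universe u

namespace Fermat.Agent.S25.Num.H50

open Fermat.Agent.S25.LB

/-- **NUM-FIN**. -/
theorem stmt_FIN : Fermat.Agent.S25.Num.Stmt_FIN.{u} := by
  intro k _ _ 𝒞 hG L
  exact ⟨triple_h0_finite hG L, triple_h1_finite hG L⟩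

end Fermat.Agent.S25.Num.H50
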