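import Mathlib
import Fermat.Agent.S25.Num.H9_Frac
import Fermat.Agent.S25.Num.H50_Ded

/-!
# S25, package NUM, leaf NUM-FRAC part 2 (helper9): from fractional ideals to triples

`FracData 𝒞 K`: a pair `(J0, J1)` of nonzero fractional ideals of `B0`, `B1` in `K = Frac B01`
(as `k`-subspaces of `K`, closed under `B0` resp. `B1`) generating the same `B01`-module.
`exists_triple_of_fracData`: every `FracData` is the pair of images `(I0, I1)` of an embedded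
triple; `Emb.toFracData`: conversely.
-/

set_option autoImplicit false
set_option linter.style.haveILetI false
set_option linter.unusedSectionVars false

universe u

open TensorProduct nonZeroDivisors

namespace Fermat.Agent.S25.Num.H9

open Fermat.Agent.S25 LB

/-! ## General lemmas -/

/-- A nonzero fractional ideal of a Dedekind domain is an invertible module. -/
theorem invertible_of_fractional (A : Type u) [CommRing A] [IsDedekindDomain A]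
    (K : Type u) [Field K] [Algebra A K] [IsFractionRing A K] (J : Submodule A K)
    (hne : J ≠ ⊥) (hfrac : IsFractional A⁰ J) : Module.Invertible A J := by
  let I : FractionalIdeal A⁰ K := ⟨J, hfrac⟩
  have hI : I ≠ 0 := by
    intro h0
    apply hne
    have := congrArg (fun I : FractionalIdeal A⁰ K => (I : Submodule A K)) h0
    simpa [I] using this
  have hu : IsUnit I := Ne.isUnit hI
  let u : (Submodule A K)ˣ := Units.map (FractionalIdeal.coeSubmoduleHom A⁰ K).toMonoidHom hu.unit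
  have huJ : (u : Submodule A K) = J := rfl
  have : Module.Invertible A (u : Submodule A K) := inferInstance
  exact huJ ▸ this

/-- transport of `IsDedekindDomain` along a ring isomorphism -/
theorem isDedekindDomain_of_ringEquiv {A B : Type u} [CommRing A] [CommRing B]
    [IsDedekindDomain B] (e : A ≃+* B) : IsDedekindDomain A := by
  haveI : IsDomain A := MulEquiv.isDomain B e.toMulEquiv
  haveI : IsNoetherianRing A := isNoetherianRing_of_ringEquiv B e.symm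
  haveI : Ring.DimensionLEOne A := Ring.DimensionLEOne.of_ringEquiv e
  haveI : IsIntegrallyClosed A := IsIntegrallyClosed.of_equiv e.symm
  exact { }


/-! ## The ring maps `k ⊗ B_i → K` -/

section Maps

variable {k : Type u} [Field k] (𝒞 : CurveDatum k) (K : Type u) [Field K] [Algebra 𝒞.B01 K]

/-- the map `B0 → K` -/
noncomputable def b0K : 𝒞.B0 →+* K := (algebraMap 𝒞.B01 K).comp 𝒞.i0.toRingHom

/-- the map `B1 → K` -/
noncomputable def b1K : 𝒞.B1 →+* K := (algebraMap 𝒞.B01 K).comp 𝒞.i1.toRingHom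

/-- the ring map `k ⊗ B0 → K` -/
noncomputable def toK0 : (k ⊗[k] 𝒞.B0) →+* K :=
  (b0K 𝒞 K).comp (Algebra.TensorProduct.lid k 𝒞.B0).toAlgHom.toRingHom

/-- the ring map `k ⊗ B1 → K` -/
noncomputable def toK1 : (k ⊗[k] 𝒞.B1) →+* K :=
  (b1K 𝒞 K).comp (Algebra.TensorProduct.lid k 𝒞.B1).toAlgHom.toRingHom

variable {𝒞 K}

theorem b0K_apply (b : 𝒞.B0) : b0K 𝒞 K b = algebraMap 𝒞.B01 K (𝒞.i0 b) := rfl

theorem b1K_apply (b : 𝒞.B1) : b1K 𝒞 K b = algebraMap 𝒞.B01 K (𝒞.i1 b) := rfl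

theorem toK0_tmul (c : k) (b : 𝒞.B0) : toK0 𝒞 K (c ⊗ₜ[k] b) = b0K 𝒞 K (c • b) := by
  simp [toK0]

theorem toK1_tmul (c : k) (b : 𝒞.B1) : toK1 𝒞 K (c ⊗ₜ[k] b) = b1K 𝒞 K (c • b) := by
  simp [toK1]

theorem toK_tmul (c : k) (b : 𝒞.B01) : toK 𝒞 K (c ⊗ₜ[k] b) = algebraMap 𝒞.B01 K (c • b) := by
  simp [toK]

theorem toK_ι0 (c : k ⊗[k] 𝒞.B0) : toK 𝒞 K (𝒞.ι0 k c) = toK0 𝒞 K c := by
  induction c using TensorProduct.induction_on with
  | zero => simp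
  | tmul a b =>
    rw [toK0_tmul]
    change toK 𝒞 K (a ⊗ₜ[k] 𝒞.i0 b) = _
    rw [toK_tmul, b0K_apply, map_smul 𝒞.i0]
  | add x y hx hy => rw [map_add, map_add, map_add, hx, hy]

theorem toK_ι1 (c : k ⊗[k] 𝒞.B1) : toK 𝒞 K (𝒞.ι1 k c) = toK1 𝒞 K c := by
  induction c using TensorProduct.induction_on with
  | zero => simp
  | tmul a b =>
    rw [toK1_tmul]
    change toK 𝒞 K (a ⊗ₜ[k] 𝒞.i1 b) = _
    rw [toK_tmul, b1K_apply, map_smul 𝒞.i1]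
  | add x y hx hy => rw [map_add, map_add, map_add, hx, hy]

theorem toK0_eq (c : k ⊗[k] 𝒞.B0) :
    toK0 𝒞 K c = b0K 𝒞 K (Algebra.TensorProduct.lid k 𝒞.B0 c) := rfl

theorem toK1_eq (c : k ⊗[k] 𝒞.B1) :
    toK1 𝒞 K c = b1K 𝒞 K (Algebra.TensorProduct.lid k 𝒞.B1 c) := rfl

theorem toK_eq (c : k ⊗[k] 𝒞.B01) :
    toK 𝒞 K c = algebraMap 𝒞.B01 K (Algebra.TensorProduct.lid k 𝒞.B01 c) := rfl

variable [IsFractionRing 𝒞.B01 K]

theorem b0K_injective (h : 𝒞.IsGood) : Function.Injective (b0K 𝒞 K) := by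
  haveI := h.dom01
  exact (IsFractionRing.injective 𝒞.B01 K).comp (H50.i0_injective 𝒞 h)

theorem b1K_injective (h : 𝒞.IsGood) : Function.Injective (b1K 𝒞 K) := by
  haveI := h.dom01
  exact (IsFractionRing.injective 𝒞.B01 K).comp (H50.i1_injective 𝒞 h)

theorem toK0_injective (h : 𝒞.IsGood) : Function.Injective (toK0 𝒞 K) :=
  (b0K_injective h).comp (Algebra.TensorProduct.lid k 𝒞.B0).injective

theorem toK1_injective (h : 𝒞.IsGood) : Function.Injective (toK1 𝒞 K) :=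
  (b1K_injective h).comp (Algebra.TensorProduct.lid k 𝒞.B1).injective

/-- every element of `K` is a quotient of elements of `B0` -/
theorem exists_div_b0K (h : 𝒞.IsGood) (z : K) :
    ∃ x y : 𝒞.B0, y ≠ 0 ∧ z = b0K 𝒞 K x / b0K 𝒞 K y := by
  haveI := h.dom01
  haveI := h.dom0
  letI : Algebra 𝒞.B0 𝒞.B01 := 𝒞.i0.toRingHom.toAlgebra
  haveI : IsLocalization.Away 𝒞.x0 𝒞.B01 := h.loc0
  obtain ⟨a, b, hb, rfl⟩ := IsFractionRing.div_surjective (A := 𝒞.B01) z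
  obtain ⟨⟨a0, ⟨_, n, rfl⟩⟩, ha⟩ := IsLocalization.surj (Submonoid.powers 𝒞.x0) a
  obtain ⟨⟨b0, ⟨_, m, rfl⟩⟩, hb0⟩ := IsLocalization.surj (Submonoid.powers 𝒞.x0) b
  have ha' : a * 𝒞.i0 (𝒞.x0 ^ n) = 𝒞.i0 a0 := ha
  have hb' : b * 𝒞.i0 (𝒞.x0 ^ m) = 𝒞.i0 b0 := hb0
  have hx : (𝒞.i0 𝒞.x0 : 𝒞.B01) ≠ 0 := by
    intro h0
    have := 𝒞.hxz
    rw [h0, zero_mul] at this
    exact zero_ne_one this
  have hbne : b ≠ 0 := nonZeroDivisors.ne_zero hb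
  have hb0ne : b0 ≠ 0 := by
    intro h0
    rw [h0, map_zero] at hb'
    rcases mul_eq_zero.mp hb' with h1 | h1
    · exact hbne h1
    · rw [map_pow] at h1
      exact hx (pow_eq_zero_iff (by
        intro hm; subst hm; simp at h1) |>.mp h1)
  refine ⟨a0 * 𝒞.x0 ^ m, b0 * 𝒞.x0 ^ n, mul_ne_zero hb0ne (pow_ne_zero _ (H50.x0_ne_zero 𝒞 h)), ?_⟩
  have hinj := IsFractionRing.injective 𝒞.B01 K
  have hbK : algebraMap 𝒞.B01 K b ≠ 0 := (map_ne_zero_iff _ hinj).mpr hbne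
  have hxK : ∀ j : ℕ, algebraMap 𝒞.B01 K (𝒞.i0 (𝒞.x0 ^ j)) ≠ 0 := fun j =>
    (map_ne_zero_iff _ hinj).mpr (by rw [map_pow]; exact pow_ne_zero _ hx)
  have h1 := hxK n
  have h2 := hxK m
  simp only [b0K_apply, map_mul, ← ha', ← hb']
  field_simp

/-- every element of `K` is a quotient of elements of `B1` -/
theorem exists_div_b1K (h : 𝒞.IsGood) (z : K) :
    ∃ x y : 𝒞.B1, y ≠ 0 ∧ z = b1K 𝒞 K x / b1K 𝒞 K y := by
  haveI := h.dom01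
  haveI := h.dom1
  letI : Algebra 𝒞.B1 𝒞.B01 := 𝒞.i1.toRingHom.toAlgebra
  haveI : IsLocalization.Away 𝒞.z1 𝒞.B01 := h.loc1
  obtain ⟨a, b, hb, rfl⟩ := IsFractionRing.div_surjective (A := 𝒞.B01) z
  obtain ⟨⟨a0, ⟨_, n, rfl⟩⟩, ha⟩ := IsLocalization.surj (Submonoid.powers 𝒞.z1) a
  obtain ⟨⟨b0, ⟨_, m, rfl⟩⟩, hb0⟩ := IsLocalization.surj (Submonoid.powers 𝒞.z1) b
  have ha' : a * 𝒞.i1 (𝒞.z1 ^ n) = 𝒞.i1 a0 := ha
  have hb' : b * 𝒞.i1 (𝒞.z1 ^ m) = 𝒞.i1 b0 := hb0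
  have hx : (𝒞.i1 𝒞.z1 : 𝒞.B01) ≠ 0 := by
    intro h0
    have := 𝒞.hxz
    rw [h0, mul_zero] at this
    exact zero_ne_one this
  have hbne : b ≠ 0 := nonZeroDivisors.ne_zero hb
  have hb0ne : b0 ≠ 0 := by
    intro h0
    rw [h0, map_zero] at hb'
    rcases mul_eq_zero.mp hb' with h1 | h1
    · exact hbne h1
    · rw [map_pow] at h1
      exact hx (pow_eq_zero_iff (by
        intro hm; subst hm; simp at h1) |>.mp h1)
  refine ⟨a0 * 𝒞.z1 ^ m, b0 * 𝒞.z1 ^ n, mul_ne_zero hb0ne (pow_ne_zero _ (H50.z1_ne_zero 𝒞 h)), ?_⟩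
  have hinj := IsFractionRing.injective 𝒞.B01 K
  have hbK : algebraMap 𝒞.B01 K b ≠ 0 := (map_ne_zero_iff _ hinj).mpr hbne
  have hxK : ∀ j : ℕ, algebraMap 𝒞.B01 K (𝒞.i1 (𝒞.z1 ^ j)) ≠ 0 := fun j =>
    (map_ne_zero_iff _ hinj).mpr (by rw [map_pow]; exact pow_ne_zero _ hx)
  have h1 := hxK n
  have h2 := hxK m
  simp only [b1K_apply, map_mul, ← ha', ← hb']
  field_simp

/-- `K` is the fraction field of `k ⊗ B0`. -/
theorem isFractionRing_toK0 (h : 𝒞.IsGood) :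
    @IsFractionRing (k ⊗[k] 𝒞.B0) _ K _ (toK0 𝒞 K).toAlgebra := by
  letI : Algebra (k ⊗[k] 𝒞.B0) K := (toK0 𝒞 K).toAlgebra
  haveI : FaithfulSMul (k ⊗[k] 𝒞.B0) K :=
    (faithfulSMul_iff_algebraMap_injective _ _).mpr (toK0_injective h)
  refine IsFractionRing.of_field (k ⊗[k] 𝒞.B0) K (fun z => ?_)
  obtain ⟨x, y, -, rfl⟩ := exists_div_b0K h z
  refine ⟨(Algebra.TensorProduct.lid k 𝒞.B0).symm x, (Algebra.TensorProduct.lid k 𝒞.B0).symm y, ?_⟩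
  change _ = toK0 𝒞 K _ / toK0 𝒞 K _
  rw [toK0_eq, toK0_eq, AlgEquiv.apply_symm_apply, AlgEquiv.apply_symm_apply]

/-- `K` is the fraction field of `k ⊗ B1`. -/
theorem isFractionRing_toK1 (h : 𝒞.IsGood) :
    @IsFractionRing (k ⊗[k] 𝒞.B1) _ K _ (toK1 𝒞 K).toAlgebra := by
  letI : Algebra (k ⊗[k] 𝒞.B1) K := (toK1 𝒞 K).toAlgebra
  haveI : FaithfulSMul (k ⊗[k] 𝒞.B1) K :=
    (faithfulSMul_iff_algebraMap_injective _ _).mpr (toK1_injective h)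
  refine IsFractionRing.of_field (k ⊗[k] 𝒞.B1) K (fun z => ?_)
  obtain ⟨x, y, -, rfl⟩ := exists_div_b1K h z
  refine ⟨(Algebra.TensorProduct.lid k 𝒞.B1).symm x, (Algebra.TensorProduct.lid k 𝒞.B1).symm y, ?_⟩
  change _ = toK1 𝒞 K _ / toK1 𝒞 K _
  rw [toK1_eq, toK1_eq, AlgEquiv.apply_symm_apply, AlgEquiv.apply_symm_apply]

theorem isDedekindDomain_tensor0 (h : 𝒞.IsGood) : IsDedekindDomain (k ⊗[k] 𝒞.B0) :=
  haveI := H50.isDedekindDomain_B0 𝒞 h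
  isDedekindDomain_of_ringEquiv (Algebra.TensorProduct.lid k 𝒞.B0).toRingEquiv

theorem isDedekindDomain_tensor1 (h : 𝒞.IsGood) : IsDedekindDomain (k ⊗[k] 𝒞.B1) :=
  haveI := H50.isDedekindDomain_B1 𝒞 h
  isDedekindDomain_of_ringEquiv (Algebra.TensorProduct.lid k 𝒞.B1).toRingEquiv

end Maps


/-! ## Fractional data and the triple of a fractional datum -/

section Conv

variable {k : Type u} [Field k] {𝒞 : CurveDatum k} {K : Type u} [Field K] [Algebra 𝒞.B01 K]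
  [Algebra k K]

/-- A pair `(J0, J1)` of nonzero fractional ideals of `B0`, `B1` in `K` (as `k`-subspaces of `K`)
which generate the same `B01`-module. -/
structure FracData (𝒞 : CurveDatum k) (K : Type u) [Field K] [Algebra 𝒞.B01 K] [Algebra k K] where
  /-- the sections on the first chart -/
  J0 : Submodule k K
  /-- the sections on the second chart -/
  J1 : Submodule k K
  smul0 : ∀ (b : 𝒞.B0) (y : K), y ∈ J0 → b0K 𝒞 K b * y ∈ J0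
  smul1 : ∀ (b : 𝒞.B1) (y : K), y ∈ J1 → b1K 𝒞 K b * y ∈ J1
  ne0 : J0 ≠ ⊥
  ne1 : J1 ≠ ⊥
  den0 : ∃ d : 𝒞.B0, d ≠ 0 ∧ ∀ y ∈ J0, ∃ b : 𝒞.B0, b0K 𝒞 K d * y = b0K 𝒞 K b
  den1 : ∃ d : 𝒞.B1, d ≠ 0 ∧ ∀ y ∈ J1, ∃ b : 𝒞.B1, b1K 𝒞 K d * y = b1K 𝒞 K b
  to1 : ∀ y ∈ J0, ∃ n : ℕ, b1K 𝒞 K 𝒞.z1 ^ n * y ∈ J1
  to0 : ∀ y ∈ J1, ∃ n : ℕ, b0K 𝒞 K 𝒞.x0 ^ n * y ∈ J0

variable [IsFractionRing 𝒞.B01 K] [IsScalarTower k 𝒞.B01 K]

theorem b0K_x0_mul_b1K_z1 : b0K 𝒞 K 𝒞.x0 * b1K 𝒞 K 𝒞.z1 = 1 := by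
  rw [b0K_apply, b1K_apply, ← map_mul, 𝒞.hxz, map_one]

theorem b0K_x0_pow_mul_b1K_z1_pow (n : ℕ) : b0K 𝒞 K 𝒞.x0 ^ n * b1K 𝒞 K 𝒞.z1 ^ n = 1 := by
  rw [← mul_pow, b0K_x0_mul_b1K_z1, one_pow]

/-- every element of `B01`, mapped to `K`, is `x0^(-n) b0`. -/
theorem exists_b0K_eq (h : 𝒞.IsGood) (b : 𝒞.B01) :
    ∃ (n : ℕ) (b0 : 𝒞.B0), b0K 𝒞 K 𝒞.x0 ^ n * algebraMap 𝒞.B01 K b = b0K 𝒞 K b0 := by
  letI : Algebra 𝒞.B0 𝒞.B01 := 𝒞.i0.toRingHom.toAlgebra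
  haveI : IsLocalization.Away 𝒞.x0 𝒞.B01 := h.loc0
  obtain ⟨⟨a0, ⟨_, n, rfl⟩⟩, ha⟩ := IsLocalization.surj (Submonoid.powers 𝒞.x0) b
  have ha' : b * 𝒞.i0 (𝒞.x0 ^ n) = 𝒞.i0 a0 := ha
  refine ⟨n, a0, ?_⟩
  rw [b0K_apply, b0K_apply, ← ha', map_mul, map_pow, map_pow, mul_comm]

namespace FracData

variable (D : FracData 𝒞 K)

theorem x0_pow_mem {y : K} (hy : y ∈ D.J0) (n : ℕ) : b0K 𝒞 K 𝒞.x0 ^ n * y ∈ D.J0 := by
  rw [← map_pow]; exact D.smul0 _ _ hy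

theorem z1_pow_mem {y : K} (hy : y ∈ D.J1) (n : ℕ) : b1K 𝒞 K 𝒞.z1 ^ n * y ∈ D.J1 := by
  rw [← map_pow]; exact D.smul1 _ _ hy

/-- `J0` as a submodule over `k ⊗ B0`. -/
noncomputable def J0' :
    @Submodule (k ⊗[k] 𝒞.B0) K _ _ (toK0 𝒞 K).toAlgebra.toModule :=
  letI : Algebra (k ⊗[k] 𝒞.B0) K := (toK0 𝒞 K).toAlgebra
  { carrier := D.J0
    add_mem' := fun ha hb => D.J0.add_mem ha hb
    zero_mem' := D.J0.zero_mem
    smul_mem' := fun c y hy => by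
      change toK0 𝒞 K c * y ∈ D.J0
      rw [toK0_eq]
      exact D.smul0 _ _ hy }

/-- `J1` as a submodule over `k ⊗ B1`. -/
noncomputable def J1' :
    @Submodule (k ⊗[k] 𝒞.B1) K _ _ (toK1 𝒞 K).toAlgebra.toModule :=
  letI : Algebra (k ⊗[k] 𝒞.B1) K := (toK1 𝒞 K).toAlgebra
  { carrier := D.J1
    add_mem' := fun ha hb => D.J1.add_mem ha hb
    zero_mem' := D.J1.zero_mem
    smul_mem' := fun c y hy => by
      change toK1 𝒞 K c * y ∈ D.J1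
      rw [toK1_eq]
      exact D.smul1 _ _ hy }

/-- the `B01`-module generated by `J0` (and by `J1`), as a submodule over `k ⊗ B01`. -/
noncomputable def J01' (h : 𝒞.IsGood) :
    @Submodule (k ⊗[k] 𝒞.B01) K _ _ (toK 𝒞 K).toAlgebra.toModule :=
  letI : Algebra (k ⊗[k] 𝒞.B01) K := (toK 𝒞 K).toAlgebra
  { carrier := {y | ∃ n : ℕ, b0K 𝒞 K 𝒞.x0 ^ n * y ∈ D.J0}
    add_mem' := by
      rintro a b ⟨n, hn⟩ ⟨m, hm⟩
      refine ⟨n + m, ?_⟩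
      have h1 := D.x0_pow_mem hn m
      have h2 := D.x0_pow_mem hm n
      have : b0K 𝒞 K 𝒞.x0 ^ (n + m) * (a + b) =
          b0K 𝒞 K 𝒞.x0 ^ m * (b0K 𝒞 K 𝒞.x0 ^ n * a) +
            b0K 𝒞 K 𝒞.x0 ^ n * (b0K 𝒞 K 𝒞.x0 ^ m * b) := by ring
      rw [this]
      exact D.J0.add_mem h1 h2
    zero_mem' := ⟨0, by simp⟩
    smul_mem' := by
      rintro c y ⟨n, hn⟩
      obtain ⟨m, b0, hb0⟩ := exists_b0K_eq (K := K) h (Algebra.TensorProduct.lid k 𝒞.B01 c)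
      refine ⟨n + m, ?_⟩
      change b0K 𝒞 K 𝒞.x0 ^ (n + m) * (toK 𝒞 K c * y) ∈ D.J0
      have : b0K 𝒞 K 𝒞.x0 ^ (n + m) * (toK 𝒞 K c * y) =
          b0K 𝒞 K b0 * (b0K 𝒞 K 𝒞.x0 ^ n * y) := by
        rw [← hb0, toK_eq]; ring
      rw [this]
      exact D.smul0 _ _ hn }


theorem invertible_J0' (h : 𝒞.IsGood) :
    @Module.Invertible (k ⊗[k] 𝒞.B0) D.J0' _ _
      (letI : Algebra (k ⊗[k] 𝒞.B0) K := (toK0 𝒞 K).toAlgebra; inferInstance) := by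
  letI : Algebra (k ⊗[k] 𝒞.B0) K := (toK0 𝒞 K).toAlgebra
  haveI := isDedekindDomain_tensor0 h
  haveI : IsFractionRing (k ⊗[k] 𝒞.B0) K := isFractionRing_toK0 h
  refine invertible_of_fractional (k ⊗[k] 𝒞.B0) K D.J0' ?_ ?_
  · intro h0
    apply D.ne0
    rw [eq_bot_iff]
    intro y hy
    have : y ∈ D.J0' := hy
    rw [h0] at this
    exact this
  · obtain ⟨d, hd, hden⟩ := D.den0
    refine ⟨(Algebra.TensorProduct.lid k 𝒞.B0).symm d, ?_, ?_⟩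
    · haveI := isDomain_tensor0 h
      apply mem_nonZeroDivisors_of_ne_zero
      intro h0
      apply hd
      have := congrArg (Algebra.TensorProduct.lid k 𝒞.B0) h0
      simpa using this
    · intro y hy
      obtain ⟨b, hb⟩ := hden y hy
      refine ⟨(Algebra.TensorProduct.lid k 𝒞.B0).symm b, ?_⟩
      change toK0 𝒞 K _ = toK0 𝒞 K _ * y
      rw [toK0_eq, toK0_eq, AlgEquiv.apply_symm_apply, AlgEquiv.apply_symm_apply, hb]

theorem invertible_J1' (h : 𝒞.IsGood) :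
    @Module.Invertible (k ⊗[k] 𝒞.B1) D.J1' _ _
      (letI : Algebra (k ⊗[k] 𝒞.B1) K := (toK1 𝒞 K).toAlgebra; inferInstance) := by
  letI : Algebra (k ⊗[k] 𝒞.B1) K := (toK1 𝒞 K).toAlgebra
  haveI := isDedekindDomain_tensor1 h
  haveI : IsFractionRing (k ⊗[k] 𝒞.B1) K := isFractionRing_toK1 h
  refine invertible_of_fractional (k ⊗[k] 𝒞.B1) K D.J1' ?_ ?_
  · intro h0
    apply D.ne1
    rw [eq_bot_iff]
    intro y hy
    have : y ∈ D.J1' := hy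
    rw [h0] at this
    exact this
  · obtain ⟨d, hd, hden⟩ := D.den1
    refine ⟨(Algebra.TensorProduct.lid k 𝒞.B1).symm d, ?_, ?_⟩
    · haveI := isDomain_tensor1 h
      apply mem_nonZeroDivisors_of_ne_zero
      intro h0
      apply hd
      have := congrArg (Algebra.TensorProduct.lid k 𝒞.B1) h0
      simpa using this
    · intro y hy
      obtain ⟨b, hb⟩ := hden y hy
      refine ⟨(Algebra.TensorProduct.lid k 𝒞.B1).symm b, ?_⟩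
      change toK1 𝒞 K _ = toK1 𝒞 K _ * y
      rw [toK1_eq, toK1_eq, AlgEquiv.apply_symm_apply, AlgEquiv.apply_symm_apply, hb]


theorem toK_x0_pow (n : ℕ) :
    toK 𝒞 K (((1 : k) ⊗ₜ[k] 𝒞.i0 𝒞.x0 : k ⊗[k] 𝒞.B01) ^ n) = b0K 𝒞 K 𝒞.x0 ^ n := by
  rw [map_pow, toK_tmul, one_smul, b0K_apply]

theorem toK_z1_pow (n : ℕ) :
    toK 𝒞 K (((1 : k) ⊗ₜ[k] 𝒞.i1 𝒞.z1 : k ⊗[k] 𝒞.B01) ^ n) = b1K 𝒞 K 𝒞.z1 ^ n := by
  rw [map_pow, toK_tmul, one_smul, b1K_apply]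

theorem mem_J01'_of_mem_J1 (h : 𝒞.IsGood) {y : K} (hy : y ∈ D.J1) : y ∈ D.J01' h :=
  D.to0 y hy

theorem mem_J01'_of_mem_J0 (h : 𝒞.IsGood) {y : K} (hy : y ∈ D.J0) : y ∈ D.J01' h :=
  ⟨0, by simpa using hy⟩

theorem exists_z1_pow_mem (h : 𝒞.IsGood) {y : K} (hy : y ∈ D.J01' h) :
    ∃ n : ℕ, b1K 𝒞 K 𝒞.z1 ^ n * y ∈ D.J1 := by
  obtain ⟨n, hn⟩ := hy
  obtain ⟨m, hm⟩ := D.to1 _ hn
  refine ⟨m, ?_⟩
  have h1 := D.z1_pow_mem hm n
  have : b1K 𝒞 K 𝒞.z1 ^ n * (b1K 𝒞 K 𝒞.z1 ^ m * (b0K 𝒞 K 𝒞.x0 ^ n * y)) =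
      b1K 𝒞 K 𝒞.z1 ^ m * y := by
    have h2 := b0K_x0_pow_mul_b1K_z1_pow (𝒞 := 𝒞) (K := K) n
    calc b1K 𝒞 K 𝒞.z1 ^ n * (b1K 𝒞 K 𝒞.z1 ^ m * (b0K 𝒞 K 𝒞.x0 ^ n * y))
        = (b0K 𝒞 K 𝒞.x0 ^ n * b1K 𝒞 K 𝒞.z1 ^ n) * (b1K 𝒞 K 𝒞.z1 ^ m * y) := by ring
      _ = b1K 𝒞 K 𝒞.z1 ^ m * y := by rw [h2, one_mul]
  rwa [this] at h1

/-- **The triple of a fractional datum.** -/
noncomputable def toTriple (h : 𝒞.IsGood) : Triple 𝒞 k :=
  letI a0 : Algebra (k ⊗[k] 𝒞.B0) K := (toK0 𝒞 K).toAlgebra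
  letI a1 : Algebra (k ⊗[k] 𝒞.B1) K := (toK1 𝒞 K).toAlgebra
  letI a01 : Algebra (k ⊗[k] 𝒞.B01) K := (toK 𝒞 K).toAlgebra
  { P0 := D.J0'
    P1 := D.J1'
    P01 := D.J01' h
    r0 :=
      { toFun := fun y => ⟨y.1, D.mem_J01'_of_mem_J0 h y.2⟩
        map_add' := fun _ _ => rfl
        map_smul' := fun c y => Subtype.ext (by
          change toK0 𝒞 K c * y.1 = toK 𝒞 K (𝒞.ι0 k c) * y.1
          rw [toK_ι0]) }
    r1 :=
      { toFun := fun y => ⟨y.1, D.mem_J01'_of_mem_J1 h y.2⟩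
        map_add' := fun _ _ => rfl
        map_smul' := fun c y => Subtype.ext (by
          change toK1 𝒞 K c * y.1 = toK 𝒞 K (𝒞.ι1 k c) * y.1
          rw [toK_ι1]) }
    inv0 := D.invertible_J0' h
    inv1 := D.invertible_J1' h
    surj0 := by
      rintro ⟨y, n, hn⟩
      refine ⟨n, ⟨_, hn⟩, Subtype.ext ?_⟩
      change toK 𝒞 K (((1 : k) ⊗ₜ[k] 𝒞.i0 𝒞.x0 : k ⊗[k] 𝒞.B01) ^ n) * y = _
      rw [toK_x0_pow]
      rfl
    ker0 := by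
      rintro ⟨y, hy⟩ h0
      refine ⟨0, ?_⟩
      have : y = 0 := congrArg Subtype.val h0
      subst this
      rw [pow_zero, one_smul]
      rfl
    surj1 := by
      rintro ⟨y, hy⟩
      obtain ⟨n, hn⟩ := D.exists_z1_pow_mem h hy
      refine ⟨n, ⟨_, hn⟩, Subtype.ext ?_⟩
      change toK 𝒞 K (((1 : k) ⊗ₜ[k] 𝒞.i1 𝒞.z1 : k ⊗[k] 𝒞.B01) ^ n) * y = _
      rw [toK_z1_pow]
      rfl
    ker1 := by
      rintro ⟨y, hy⟩ h0
      refine ⟨0, ?_⟩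
      have : y = 0 := congrArg Subtype.val h0
      subst this
      rw [pow_zero, one_smul]
      rfl }


/-- the tautological embedding of the triple of a fractional datum -/
noncomputable def emb (h : 𝒞.IsGood) : Emb (D.toTriple h) K :=
  letI a01 : Algebra (k ⊗[k] 𝒞.B01) K := (toK 𝒞 K).toAlgebra
  { φ := (D.J01' h).subtype.toAddMonoidHom
    inj := Subtype.val_injective
    lin := fun _ _ => rfl }

theorem emb_I0 (h : 𝒞.IsGood) : (D.emb h).I0 = D.J0 := by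
  ext y
  constructor
  · rintro ⟨p, rfl⟩
    exact p.2
  · intro hy
    exact ⟨⟨y, hy⟩, rfl⟩

theorem emb_I1 (h : 𝒞.IsGood) : (D.emb h).I1 = D.J1 := by
  ext y
  constructor
  · rintro ⟨p, rfl⟩
    exact p.2
  · intro hy
    exact ⟨⟨y, hy⟩, rfl⟩

theorem mem_emb_I01 (h : 𝒞.IsGood) (y : K) :
    y ∈ (D.emb h).I01 ↔ ∃ n : ℕ, b0K 𝒞 K 𝒞.x0 ^ n * y ∈ D.J0 := by
  constructor
  · rintro ⟨p, rfl⟩
    exact p.2
  · intro hy
    exact ⟨⟨y, hy⟩, rfl⟩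

end FracData

/-- **NUM-FRAC (converse)**: every fractional datum is the pair of images of an embedded
triple. -/
theorem exists_triple_of_fracData (h : 𝒞.IsGood) (D : FracData 𝒞 K) :
    ∃ (L : Triple 𝒞 k) (e : Emb L K), e.I0 = D.J0 ∧ e.I1 = D.J1 :=
  ⟨D.toTriple h, D.emb h, D.emb_I0 h, D.emb_I1 h⟩

end Conv

end Fermat.Agent.S25.Num.H9
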