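/-
helper63, S25 (Jacobian exists), package NUM, leaf NUM-DROP (the dropping lemma).

`stmt_DROP_of : Stmt_RIEM → Stmt_CHI → Stmt_TWEX → Stmt_PTS → Stmt_DROP`.

Proof.  A point `q` of `V0` is BAD for `L` if `h1 (L(q)) = h1 L`, equivalently (CHI + PTS)
`h0 (L(q)) = h0 L + 1`.  KEY lemma (`h0_key`): if `q` is bad for `L` and `D` is an effective divisor
prime to `q`, then `q` is bad for `L(D)`; it is proved inside the function field `K` with helper9's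
embeddings `Emb`.  Hence for pairwise different bad points `q_1, …, q_m` the triple
`M = L(q_1 + … + q_m)` has `h1 M = h1 L > 0` and `deg M = deg L + m`, which contradicts RIEM as soon as
`deg L + m ≥ c`.  So there are fewer than `c - deg L` bad points.
-/
import Mathlib
import Fermat.Agent.S25.Num.Defs
import Fermat.Agent.S25.Num.H9_FracConv
import Fermat.Agent.S25.Num.H50_Fin
import Fermat.Agent.S25.LB.H74_Hom

set_option autoImplicit false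
set_option linter.style.haveILetI false
set_option linter.unusedSectionVars false
set_option linter.unusedVariables false

universe u

open TensorProduct nonZeroDivisors

namespace Fermat.Agent.S25.Num.H63

open Fermat.Agent.S25 LB

/-! ## A generic lemma on Dedekind domains -/

/-- Cancellation of a nonzero ideal `P` of a Dedekind domain: if `P y ⊂ ℓ (P N)` then `y ∈ ℓ N`. -/
theorem mem_range_of_forall_mul_mem {A : Type*} [CommRing A] [IsDedekindDomain A]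
    {K : Type*} [Field K] [Algebra A K] [IsFractionRing A K]
    (P : Ideal A) (hP : P ≠ ⊥) {N : Type*} [AddCommGroup N] [Module A N]
    (ℓ : N →ₗ[A] K) (y : K)
    (hy : ∀ a ∈ P, algebraMap A K a * y ∈ (P • (⊤ : Submodule A N)).map ℓ) :
    y ∈ LinearMap.range ℓ := by
  set I : FractionalIdeal A⁰ K := (P : FractionalIdeal A⁰ K) with hI
  have hI0 : I ≠ 0 := FractionalIdeal.coeIdeal_ne_zero.mpr hP
  have h1 : I * I⁻¹ = 1 := mul_inv_cancel₀ hI0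
  have hone : (1 : K) ∈ I * I⁻¹ := by
    rw [h1]; exact FractionalIdeal.one_mem_one _
  -- the key step: `j * ℓ w ∈ range ℓ` for `j ∈ I⁻¹`, `w ∈ P N`
  have hstep : ∀ j ∈ I⁻¹, ∀ w ∈ (P • (⊤ : Submodule A N)), j * ℓ w ∈ LinearMap.range ℓ := by
    intro j hj w hw
    refine Submodule.smul_induction_on hw ?_ ?_
    · intro c hc n _
      have hjc : j * algebraMap A K c ∈ (1 : FractionalIdeal A⁰ K) :=
        (FractionalIdeal.mem_inv_iff hI0).mp hj _ ((FractionalIdeal.mem_coeIdeal _).mpr ⟨c, hc, rfl⟩)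
      obtain ⟨d, hd⟩ := (FractionalIdeal.mem_one_iff _).mp hjc
      refine ⟨d • n, ?_⟩
      rw [map_smul, map_smul, Algebra.smul_def, Algebra.smul_def, hd]
      ring
    · intro w w' hw hw'
      rw [map_add, mul_add]
      exact Submodule.add_mem _ hw hw'
  have hall : ∀ z ∈ I * I⁻¹, z * y ∈ LinearMap.range ℓ := by
    intro z hz
    refine FractionalIdeal.mul_induction_on hz ?_ ?_
    · intro i hi j hj
      obtain ⟨a, ha, rfl⟩ := (FractionalIdeal.mem_coeIdeal _).mp hi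
      obtain ⟨w, hw, hwy⟩ := hy a ha
      have : algebraMap A K a * j * y = j * ℓ w := by
        rw [hwy]; ring
      rw [this]
      exact hstep j hj w hw
    · intro x x' hx hx'
      rw [add_mul]
      exact Submodule.add_mem _ hx hx'
  have := hall 1 hone
  rwa [one_mul] at this


/-! ## Tools on embeddings -/

section EmbTools

variable {k : Type u} [Field k] {𝒞 : CurveDatum k}
variable {K : Type u} [Field K] [Algebra 𝒞.B01 K] [Algebra k K] [IsScalarTower k 𝒞.B01 K]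

theorem one_tmul_lid0 (z : k ⊗[k] 𝒞.B0) :
    ((1 : k) ⊗ₜ[k] (Algebra.TensorProduct.lid k 𝒞.B0 z) : k ⊗[k] 𝒞.B0) = z := by
  have : (Algebra.TensorProduct.lid k 𝒞.B0).symm (Algebra.TensorProduct.lid k 𝒞.B0 z) = z :=
    AlgEquiv.symm_apply_apply _ _
  rwa [Algebra.TensorProduct.lid_symm_apply] at this

theorem one_tmul_lid1 (z : k ⊗[k] 𝒞.B1) :
    ((1 : k) ⊗ₜ[k] (Algebra.TensorProduct.lid k 𝒞.B1 z) : k ⊗[k] 𝒞.B1) = z := by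
  have : (Algebra.TensorProduct.lid k 𝒞.B1).symm (Algebra.TensorProduct.lid k 𝒞.B1 z) = z :=
    AlgEquiv.symm_apply_apply _ _
  rwa [Algebra.TensorProduct.lid_symm_apply] at this

theorem mem_ext0_iff (J : Ideal 𝒞.B0) (z : k ⊗[k] 𝒞.B0) :
    z ∈ (ext0 J : Ideal (k ⊗[k] 𝒞.B0)) ↔ ∃ a ∈ J, ((1 : k) ⊗ₜ[k] a : k ⊗[k] 𝒞.B0) = z := by
  have hs : Function.Surjective
      (Algebra.TensorProduct.includeRight : 𝒞.B0 →ₐ[k] k ⊗[k] 𝒞.B0) := fun z =>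
    ⟨Algebra.TensorProduct.lid k 𝒞.B0 z, one_tmul_lid0 z⟩
  exact Ideal.mem_map_iff_of_surjective _ hs

theorem mem_ext1_iff (J : Ideal 𝒞.B1) (z : k ⊗[k] 𝒞.B1) :
    z ∈ (ext1 J : Ideal (k ⊗[k] 𝒞.B1)) ↔ ∃ a ∈ J, ((1 : k) ⊗ₜ[k] a : k ⊗[k] 𝒞.B1) = z := by
  have hs : Function.Surjective
      (Algebra.TensorProduct.includeRight : 𝒞.B1 →ₐ[k] k ⊗[k] 𝒞.B1) := fun z =>
    ⟨Algebra.TensorProduct.lid k 𝒞.B1 z, one_tmul_lid1 z⟩
  exact Ideal.mem_map_iff_of_surjective _ hs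

theorem ext0_ne_bot {J : Ideal 𝒞.B0} (hJ : J ≠ ⊥) : (ext0 J : Ideal (k ⊗[k] 𝒞.B0)) ≠ ⊥ := by
  obtain ⟨a, ha, ha0⟩ := Submodule.exists_mem_ne_zero_of_ne_bot hJ
  intro h0
  have h1 : ((1 : k) ⊗ₜ[k] a : k ⊗[k] 𝒞.B0) ∈ (ext0 J : Ideal (k ⊗[k] 𝒞.B0)) :=
    (mem_ext0_iff J _).mpr ⟨a, ha, rfl⟩
  rw [h0, Ideal.mem_bot] at h1
  have h2 := congrArg (Algebra.TensorProduct.lid k 𝒞.B0) h1
  rw [Algebra.TensorProduct.lid_tmul, one_smul, map_zero] at h2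
  exact ha0 h2

theorem ext1_ne_bot {J : Ideal 𝒞.B1} (hJ : J ≠ ⊥) : (ext1 J : Ideal (k ⊗[k] 𝒞.B1)) ≠ ⊥ := by
  obtain ⟨a, ha, ha0⟩ := Submodule.exists_mem_ne_zero_of_ne_bot hJ
  intro h0
  have h1 : ((1 : k) ⊗ₜ[k] a : k ⊗[k] 𝒞.B1) ∈ (ext1 J : Ideal (k ⊗[k] 𝒞.B1)) :=
    (mem_ext1_iff J _).mpr ⟨a, ha, rfl⟩
  rw [h0, Ideal.mem_bot] at h1
  have h2 := congrArg (Algebra.TensorProduct.lid k 𝒞.B1) h1
  rw [Algebra.TensorProduct.lid_tmul, one_smul, map_zero] at h2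
  exact ha0 h2

/-- The map on the overlap is injective if the map on the first chart is. -/
theorem f01_injective (h : 𝒞.IsGood) {L L' : Triple 𝒞 k} (φ : Triple.Hom L L')
    (h0 : Function.Injective φ.f0) : Function.Injective φ.f01 := by
  rw [injective_iff_map_eq_zero]
  intro m hm
  obtain ⟨n, p, hp⟩ := L.surj0 m
  have h1 : L'.r0 (φ.f0 p) = 0 := by
    rw [← φ.comm0, ← hp, map_smul, hm, smul_zero]
  have h2 : φ.f0 p = 0 := H9.r0_injective h L' (h1.trans (map_zero _).symm)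
  have h3 : p = 0 := h0 (h2.trans (map_zero _).symm)
  rw [h3, map_zero] at hp
  exact H74.XX_pow_smul_cancel L n (hp.trans (smul_zero _).symm)

/-- The pull back of an embedding along an injective morphism. -/
noncomputable def embComp {L L' : Triple 𝒞 k} (e' : H9.Emb L' K) (φ : Triple.Hom L L')
    (hφ : Function.Injective φ.f01) : H9.Emb L K where
  φ := e'.φ.comp φ.f01.toAddMonoidHom
  inj := e'.inj.comp hφ
  lin := fun c m => by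
    change e'.φ (φ.f01 (c • m)) = H9.toK 𝒞 K c * e'.φ (φ.f01 m)
    rw [map_smul, e'.lin]

theorem embComp_apply {L L' : Triple 𝒞 k} (e' : H9.Emb L' K) (φ : Triple.Hom L L')
    (hφ : Function.Injective φ.f01) (m : L.P01) :
    (embComp e' φ hφ).φ m = e'.φ (φ.f01 m) := rfl

/-- Rescaling an embedding by a nonzero element of `K`. -/
noncomputable def embScale {L : Triple 𝒞 k} (e : H9.Emb L K) (c : K) (hc : c ≠ 0) :
    H9.Emb L K where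
  φ := (AddMonoidHom.mulLeft c).comp e.φ
  inj := fun a b hab => e.inj (mul_left_cancel₀ hc hab)
  lin := fun a m => by
    change c * e.φ (a • m) = H9.toK 𝒞 K a * (c * e.φ m)
    rw [e.lin]; ring

theorem embScale_apply {L : Triple 𝒞 k} (e : H9.Emb L K) (c : K) (hc : c ≠ 0) (m : L.P01) :
    (embScale e c hc).φ m = c * e.φ m := rfl

/-- Two embeddings of the same triple differ by a scalar of `K`. -/
theorem exists_scale (h : 𝒞.IsGood) [IsFractionRing 𝒞.B01 K] {L : Triple 𝒞 k}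
    (e e' : H9.Emb L K) : ∃ c : K, c ≠ 0 ∧ ∀ m, e'.φ m = c * e.φ m := by
  by_cases hall : ∀ m : L.P01, m = 0
  · refine ⟨1, one_ne_zero, fun m => ?_⟩
    rw [hall m, map_zero, map_zero, mul_zero]
  push Not at hall
  obtain ⟨m0, hm0⟩ := hall
  have he0 : e.φ m0 ≠ 0 := fun h0 => hm0 (e.inj (h0.trans (map_zero _).symm))
  have he0' : e'.φ m0 ≠ 0 := fun h0 => hm0 (e'.inj (h0.trans (map_zero _).symm))
  refine ⟨e'.φ m0 / e.φ m0, div_ne_zero he0' he0, fun m => ?_⟩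
  letI : Algebra (k ⊗[k] 𝒞.B0) K := (H9.toK0 𝒞 K).toAlgebra
  haveI : IsFractionRing (k ⊗[k] 𝒞.B0) K := H9.isFractionRing_toK0 h
  haveI := H9.isDomain_tensor0 h
  obtain ⟨a, b, hb, hab⟩ := IsFractionRing.div_surjective (A := k ⊗[k] 𝒞.B0) (e.φ m / e.φ m0)
  have hb0 : H9.toK0 𝒞 K b ≠ 0 := by
    have := nonZeroDivisors.ne_zero hb
    exact fun h0 => this (H9.toK0_injective h (h0.trans (map_zero _).symm))
  have hab' : H9.toK0 𝒞 K a / H9.toK0 𝒞 K b = e.φ m / e.φ m0 := hab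
  have h1 : H9.toK0 𝒞 K b * e.φ m = H9.toK0 𝒞 K a * e.φ m0 := by
    have h5 : H9.toK0 𝒞 K a = e.φ m / e.φ m0 * H9.toK0 𝒞 K b := (div_eq_iff hb0).mp hab'
    rw [h5]
    field_simp
  have h2 : (𝒞.ι0 k b) • m = (𝒞.ι0 k a) • m0 := by
    apply e.inj
    rw [e.lin, e.lin, H9.toK_ι0, H9.toK_ι0, h1]
  have h3 : H9.toK0 𝒞 K b * e'.φ m = H9.toK0 𝒞 K a * e'.φ m0 := by
    rw [← H9.toK_ι0, ← H9.toK_ι0, ← e'.lin, ← e'.lin, h2]
  have h4 : e'.φ m = H9.toK0 𝒞 K a / H9.toK0 𝒞 K b * e'.φ m0 := by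
    rw [div_mul_eq_mul_div, ← h3, mul_div_cancel_left₀ _ hb0]
  rw [h4, hab']
  field_simp

theorem mem_I0_iff {L : Triple 𝒞 k} (e : H9.Emb L K) (y : K) :
    y ∈ e.I0 ↔ ∃ p : L.P0, e.φ (L.r0 p) = y := Iff.rfl

theorem mem_I1_iff {L : Triple 𝒞 k} (e : H9.Emb L K) (y : K) :
    y ∈ e.I1 ↔ ∃ p : L.P1, e.φ (L.r1 p) = y := Iff.rfl

/-! ### Chart 0 -/

theorem I0_le_of_comp {L L' : Triple 𝒞 k} (φ : Triple.Hom L L') (e : H9.Emb L K)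
    (e' : H9.Emb L' K) (hc : ∀ m, e.φ m = e'.φ (φ.f01 m)) : e.I0 ≤ e'.I0 := by
  intro y hy
  obtain ⟨p, rfl⟩ := (mem_I0_iff e y).mp hy
  exact (mem_I0_iff e' _).mpr ⟨φ.f0 p, by rw [hc, φ.comm0]⟩

theorem mul_mem_I0 {L L' : Triple 𝒞 k} (φ : Triple.Hom L L') (J0 : Ideal 𝒞.B0)
    (hr : LinearMap.range φ.f0 = ext0 J0 • (⊤ : Submodule (k ⊗[k] 𝒞.B0) L'.P0))
    (e : H9.Emb L K) (e' : H9.Emb L' K) (hc : ∀ m, e.φ m = e'.φ (φ.f01 m))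
    {y : K} (hy : y ∈ e'.I0) {a : 𝒞.B0} (ha : a ∈ J0) : H9.b0K 𝒞 K a * y ∈ e.I0 := by
  obtain ⟨p', rfl⟩ := (mem_I0_iff e' y).mp hy
  have hmem : ((1 : k) ⊗ₜ[k] a : k ⊗[k] 𝒞.B0) • p' ∈ LinearMap.range φ.f0 := by
    rw [hr]
    exact Submodule.smul_mem_smul ((mem_ext0_iff J0 _).mpr ⟨a, ha, rfl⟩) Submodule.mem_top
  obtain ⟨p, hp⟩ := hmem
  refine (mem_I0_iff e _).mpr ⟨p, ?_⟩
  rw [hc, φ.comm0, hp, L'.r0.map_smulₛₗ, e'.lin, H9.toK_ι0, H9.toK0_tmul, one_smul]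

theorem mem_I0_of_forall_mul_mem (h : 𝒞.IsGood) [IsFractionRing 𝒞.B01 K] {L L' : Triple 𝒞 k}
    (φ : Triple.Hom L L') (P0 : Ideal 𝒞.B0) (hP : P0 ≠ ⊥)
    (hr : LinearMap.range φ.f0 = ext0 P0 • (⊤ : Submodule (k ⊗[k] 𝒞.B0) L'.P0))
    (e : H9.Emb L K) (e' : H9.Emb L' K) (hc : ∀ m, e.φ m = e'.φ (φ.f01 m))
    {y : K} (hy : ∀ a ∈ P0, H9.b0K 𝒞 K a * y ∈ e.I0) : y ∈ e'.I0 := by
  letI : Algebra (k ⊗[k] 𝒞.B0) K := (H9.toK0 𝒞 K).toAlgebra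
  haveI := H9.isDedekindDomain_tensor0 h
  haveI : IsFractionRing (k ⊗[k] 𝒞.B0) K := H9.isFractionRing_toK0 h
  let ℓ : L'.P0 →ₗ[k ⊗[k] 𝒞.B0] K :=
    { toFun := fun p => e'.φ (L'.r0 p)
      map_add' := fun p p' => by rw [map_add, map_add]
      map_smul' := fun c p => by
        change e'.φ (L'.r0 (c • p)) = H9.toK0 𝒞 K c * e'.φ (L'.r0 p)
        rw [L'.r0.map_smulₛₗ, e'.lin, H9.toK_ι0] }
  have key := mem_range_of_forall_mul_mem (ext0 P0 : Ideal (k ⊗[k] 𝒞.B0)) (ext0_ne_bot hP) ℓ y ?_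
  · obtain ⟨p, hp⟩ := key
    exact (mem_I0_iff e' y).mpr ⟨p, hp⟩
  · intro a' ha'
    obtain ⟨a, ha, rfl⟩ := (mem_ext0_iff P0 a').mp ha'
    have h1 : H9.b0K 𝒞 K a * y ∈ e.I0 := hy a ha
    obtain ⟨p, hp⟩ := (mem_I0_iff e _).mp h1
    refine ⟨φ.f0 p, ?_, ?_⟩
    · rw [← hr]; exact ⟨p, rfl⟩
    · change e'.φ (L'.r0 (φ.f0 p)) = H9.toK0 𝒞 K ((1 : k) ⊗ₜ[k] a) * y
      rw [← φ.comm0, ← hc, hp, H9.toK0_tmul, one_smul]

/-! ### Chart 1 -/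

theorem I1_le_of_comp {L L' : Triple 𝒞 k} (φ : Triple.Hom L L') (e : H9.Emb L K)
    (e' : H9.Emb L' K) (hc : ∀ m, e.φ m = e'.φ (φ.f01 m)) : e.I1 ≤ e'.I1 := by
  intro y hy
  obtain ⟨p, rfl⟩ := (mem_I1_iff e y).mp hy
  exact (mem_I1_iff e' _).mpr ⟨φ.f1 p, by rw [hc, φ.comm1]⟩

theorem mul_mem_I1 {L L' : Triple 𝒞 k} (φ : Triple.Hom L L') (J1 : Ideal 𝒞.B1)
    (hr : LinearMap.range φ.f1 = ext1 J1 • (⊤ : Submodule (k ⊗[k] 𝒞.B1) L'.P1))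
    (e : H9.Emb L K) (e' : H9.Emb L' K) (hc : ∀ m, e.φ m = e'.φ (φ.f01 m))
    {y : K} (hy : y ∈ e'.I1) {a : 𝒞.B1} (ha : a ∈ J1) : H9.b1K 𝒞 K a * y ∈ e.I1 := by
  obtain ⟨p', rfl⟩ := (mem_I1_iff e' y).mp hy
  have hmem : ((1 : k) ⊗ₜ[k] a : k ⊗[k] 𝒞.B1) • p' ∈ LinearMap.range φ.f1 := by
    rw [hr]
    exact Submodule.smul_mem_smul ((mem_ext1_iff J1 _).mpr ⟨a, ha, rfl⟩) Submodule.mem_top
  obtain ⟨p, hp⟩ := hmem
  refine (mem_I1_iff e _).mpr ⟨p, ?_⟩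
  rw [hc, φ.comm1, hp, L'.r1.map_smulₛₗ, e'.lin, H9.toK_ι1, H9.toK1_tmul, one_smul]

theorem mem_I1_of_forall_mul_mem (h : 𝒞.IsGood) [IsFractionRing 𝒞.B01 K] {L L' : Triple 𝒞 k}
    (φ : Triple.Hom L L') (P1 : Ideal 𝒞.B1) (hP : P1 ≠ ⊥)
    (hr : LinearMap.range φ.f1 = ext1 P1 • (⊤ : Submodule (k ⊗[k] 𝒞.B1) L'.P1))
    (e : H9.Emb L K) (e' : H9.Emb L' K) (hc : ∀ m, e.φ m = e'.φ (φ.f01 m))
    {y : K} (hy : ∀ a ∈ P1, H9.b1K 𝒞 K a * y ∈ e.I1) : y ∈ e'.I1 := by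
  letI : Algebra (k ⊗[k] 𝒞.B1) K := (H9.toK1 𝒞 K).toAlgebra
  haveI := H9.isDedekindDomain_tensor1 h
  haveI : IsFractionRing (k ⊗[k] 𝒞.B1) K := H9.isFractionRing_toK1 h
  let ℓ : L'.P1 →ₗ[k ⊗[k] 𝒞.B1] K :=
    { toFun := fun p => e'.φ (L'.r1 p)
      map_add' := fun p p' => by rw [map_add, map_add]
      map_smul' := fun c p => by
        change e'.φ (L'.r1 (c • p)) = H9.toK1 𝒞 K c * e'.φ (L'.r1 p)
        rw [L'.r1.map_smulₛₗ, e'.lin, H9.toK_ι1] }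
  have key := mem_range_of_forall_mul_mem (ext1 P1 : Ideal (k ⊗[k] 𝒞.B1)) (ext1_ne_bot hP) ℓ y ?_
  · obtain ⟨p, hp⟩ := key
    exact (mem_I1_iff e' y).mpr ⟨p, hp⟩
  · intro a' ha'
    obtain ⟨a, ha, rfl⟩ := (mem_ext1_iff P1 a').mp ha'
    have h1 : H9.b1K 𝒞 K a * y ∈ e.I1 := hy a ha
    obtain ⟨p, hp⟩ := (mem_I1_iff e _).mp h1
    refine ⟨φ.f1 p, ?_, ?_⟩
    · rw [← hr]; exact ⟨p, rfl⟩
    · change e'.φ (L'.r1 (φ.f1 p)) = H9.toK1 𝒞 K ((1 : k) ⊗ₜ[k] a) * y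
      rw [← φ.comm1, ← hc, hp, H9.toK1_tmul, one_smul]

end EmbTools

/-! ## The KEY lemma -/

section Key

variable {k : Type u} [Field k] {𝒞 : CurveDatum k}
variable {K : Type u} [Field K] [Algebra 𝒞.B01 K] [Algebra k K] [IsScalarTower k 𝒞.B01 K]

theorem finrank_I0_inf_I1 (h : 𝒞.IsGood) {L : Triple 𝒞 k} (e : H9.Emb L K) :
    Module.finrank k ↥(e.I0 ⊓ e.I1) = h0 L :=
  (e.h0Equiv h).finrank_eq.symm

theorem finite_I0_inf_I1 (h : 𝒞.IsGood) {L : Triple 𝒞 k} (e : H9.Emb L K) :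
    Module.Finite k ↥(e.I0 ⊓ e.I1) :=
  haveI := H50.triple_h0_finite h L
  Module.Finite.equiv (e.h0Equiv h)

/-- The KEY lemma inside a fraction field `K` of `B01`. -/
theorem h0_key_aux (h : 𝒞.IsGood) [IsFractionRing 𝒞.B01 K] {L Lq M Mq : Triple 𝒞 k}
    (p0 J0 : Ideal 𝒞.B0) (p1 J1 : Ideal 𝒞.B1)
    (hp0 : p0 ≠ ⊥) (hp1 : p1 ≠ ⊥) (hc0 : p0 ⊔ J0 = ⊤) (hc1 : p1 ⊔ J1 = ⊤)
    (φq : Triple.Hom L Lq) (hφq : IsTwistBy p0 p1 φq)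
    (φD : Triple.Hom L M) (hφD : IsTwistBy J0 J1 φD)
    (ψ : Triple.Hom M Mq) (hψ : IsTwistBy p0 p1 ψ) :
    h0 Lq + h0 M ≤ h0 Mq + h0 L := by
  obtain ⟨eMq⟩ := H9.exists_emb h K Mq
  obtain ⟨eLq'⟩ := H9.exists_emb h K Lq
  let eM : H9.Emb M K := embComp eMq ψ (f01_injective h ψ hψ.1)
  let eL : H9.Emb L K := embComp eM φD (f01_injective h φD hφD.1)
  let eL' : H9.Emb L K := embComp eLq' φq (f01_injective h φq hφq.1)
  obtain ⟨c, hc, hcm⟩ := exists_scale h eL' eL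
  let eLq : H9.Emb Lq K := embScale eLq' c hc
  have hLq_comp : ∀ m, eL.φ m = eLq.φ (φq.f01 m) := fun m => by rw [hcm]; rfl
  have hM_comp : ∀ m, eL.φ m = eM.φ (φD.f01 m) := fun m => rfl
  have hMq_comp : ∀ m, eM.φ m = eMq.φ (ψ.f01 m) := fun m => rfl
  -- chart 0
  have a0 : eLq.I0 ≤ eMq.I0 := fun y hy =>
    mem_I0_of_forall_mul_mem h ψ p0 hp0 hψ.2.2.1 eM eMq hMq_comp (fun a ha =>
      I0_le_of_comp φD eL eM hM_comp (mul_mem_I0 φq p0 hφq.2.2.1 eL eLq hLq_comp hy ha))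
  have b0 : eM.I0 ≤ eMq.I0 := I0_le_of_comp ψ eM eMq hMq_comp
  have c0 : eLq.I0 ⊓ eM.I0 ≤ eL.I0 := by
    rintro y ⟨hy1, hy2⟩
    have h1 : (1 : 𝒞.B0) ∈ p0 ⊔ J0 := by rw [hc0]; exact Submodule.mem_top
    obtain ⟨a, ha, b, hb, hab⟩ := Submodule.mem_sup.mp h1
    have hy : y = H9.b0K 𝒞 K a * y + H9.b0K 𝒞 K b * y := by
      rw [← add_mul, ← map_add, hab, map_one, one_mul]
    rw [hy]
    exact Submodule.add_mem _ (mul_mem_I0 φq p0 hφq.2.2.1 eL eLq hLq_comp hy1 ha)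
      (mul_mem_I0 φD J0 hφD.2.2.1 eL eM hM_comp hy2 hb)
  -- chart 1
  have a1 : eLq.I1 ≤ eMq.I1 := fun y hy =>
    mem_I1_of_forall_mul_mem h ψ p1 hp1 hψ.2.2.2 eM eMq hMq_comp (fun a ha =>
      I1_le_of_comp φD eL eM hM_comp (mul_mem_I1 φq p1 hφq.2.2.2 eL eLq hLq_comp hy ha))
  have b1 : eM.I1 ≤ eMq.I1 := I1_le_of_comp ψ eM eMq hMq_comp
  have c1 : eLq.I1 ⊓ eM.I1 ≤ eL.I1 := by
    rintro y ⟨hy1, hy2⟩
    have h1 : (1 : 𝒞.B1) ∈ p1 ⊔ J1 := by rw [hc1]; exact Submodule.mem_top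
    obtain ⟨a, ha, b, hb, hab⟩ := Submodule.mem_sup.mp h1
    have hy : y = H9.b1K 𝒞 K a * y + H9.b1K 𝒞 K b * y := by
      rw [← add_mul, ← map_add, hab, map_one, one_mul]
    rw [hy]
    exact Submodule.add_mem _ (mul_mem_I1 φq p1 hφq.2.2.2 eL eLq hLq_comp hy1 ha)
      (mul_mem_I1 φD J1 hφD.2.2.2 eL eM hM_comp hy2 hb)
  -- the dimension count
  have hUW : eLq.I0 ⊓ eLq.I1 ≤ eMq.I0 ⊓ eMq.I1 := inf_le_inf a0 a1
  have hVW : eM.I0 ⊓ eM.I1 ≤ eMq.I0 ⊓ eMq.I1 := inf_le_inf b0 b1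
  have hUVZ : (eLq.I0 ⊓ eLq.I1) ⊓ (eM.I0 ⊓ eM.I1) ≤ eL.I0 ⊓ eL.I1 := by
    rintro y ⟨⟨h1, h2⟩, ⟨h3, h4⟩⟩
    exact ⟨c0 ⟨h1, h3⟩, c1 ⟨h2, h4⟩⟩
  haveI := finite_I0_inf_I1 h eLq
  haveI := finite_I0_inf_I1 h eM
  haveI := finite_I0_inf_I1 h eMq
  haveI := finite_I0_inf_I1 h eL
  have e1 := Submodule.finrank_sup_add_finrank_inf_eq (eLq.I0 ⊓ eLq.I1) (eM.I0 ⊓ eM.I1)
  have e2 : Module.finrank k ↥((eLq.I0 ⊓ eLq.I1) ⊔ (eM.I0 ⊓ eM.I1)) ≤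
      Module.finrank k ↥(eMq.I0 ⊓ eMq.I1) := Submodule.finrank_mono (sup_le hUW hVW)
  have e3 : Module.finrank k ↥((eLq.I0 ⊓ eLq.I1) ⊓ (eM.I0 ⊓ eM.I1)) ≤
      Module.finrank k ↥(eL.I0 ⊓ eL.I1) := Submodule.finrank_mono hUVZ
  rw [finrank_I0_inf_I1 h eLq, finrank_I0_inf_I1 h eM] at e1
  rw [finrank_I0_inf_I1 h eMq] at e2
  rw [finrank_I0_inf_I1 h eL] at e3
  omega

/-- **The KEY lemma**: `h0 (L(q)) + h0 (L(D)) ≤ h0 (L(D + q)) + h0 L` for `D` prime to `q`. -/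
theorem h0_key (h : 𝒞.IsGood) {L Lq M Mq : Triple 𝒞 k}
    (p0 J0 : Ideal 𝒞.B0) (p1 J1 : Ideal 𝒞.B1)
    (hp0 : p0 ≠ ⊥) (hp1 : p1 ≠ ⊥) (hc0 : p0 ⊔ J0 = ⊤) (hc1 : p1 ⊔ J1 = ⊤)
    (hLq : IsTwist p0 p1 L Lq) (hM : IsTwist J0 J1 L M) (hMq : IsTwist p0 p1 M Mq) :
    h0 Lq + h0 M ≤ h0 Mq + h0 L := by
  haveI := h.dom01
  obtain ⟨φq, hφq⟩ := hLq
  obtain ⟨φD, hφD⟩ := hM
  obtain ⟨ψ, hψ⟩ := hMq
  exact h0_key_aux (K := FractionRing 𝒞.B01) h p0 J0 p1 J1 hp0 hp1 hc0 hc1 φq hφq φD hφD ψ hψ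

end Key

/-! ## Wiring: twists by points -/

section Main

variable {k : Type u} [Field k] [IsAlgClosed k] {𝒞 : CurveDatum k}

/-- The identity is the twist by the zero divisor. -/
theorem isTwist_top (L : Triple 𝒞 k) : IsTwist (⊤ : Ideal 𝒞.B0) (⊤ : Ideal 𝒞.B1) L L := by
  refine ⟨H74.homId L, Function.injective_id, Function.injective_id, ?_, ?_⟩
  · change LinearMap.range LinearMap.id = _
    rw [LinearMap.range_id, ext0, Ideal.map_top, Submodule.top_smul]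
  · change LinearMap.range LinearMap.id = _
    rw [LinearMap.range_id, ext1, Ideal.map_top, Submodule.top_smul]

/-- The numerical consequences of CHI + PTS for the twist by a point. -/
theorem pt_numerics (hC : Stmt_CHI.{u}) (hP : Stmt_PTS.{u}) (h : 𝒞.IsGood) (q : 𝒞.B0 →ₐ[k] k)
    {L L' : Triple 𝒞 k} (hq : IsTwistPt0 q L L') :
    chi L' = chi L + 1 ∧ h0 L ≤ h0 L' ∧ h1 L' ≤ h1 L ∧ h0 L' ≤ h0 L + 1 := by
  obtain ⟨-, h1, h2, h3, h4⟩ := hC k 𝒞 h _ _ L L' hq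
  have hd := ((hP k 𝒞 h).1 q).2.1
  rw [hd] at h1 h4
  exact ⟨h1, h2, h3, by exact_mod_cast h4⟩

theorem ker_isMaximal0 (q : 𝒞.B0 →ₐ[k] k) : (RingHom.ker q).IsMaximal :=
  H50.ker_point_isMaximal 𝒞.B0 q

theorem ker_isMaximal1 (q : 𝒞.B1 →ₐ[k] k) : (RingHom.ker q).IsMaximal :=
  H50.ker_point_isMaximal 𝒞.B1 q

theorem ker_sup_ker_eq_top {q q' : 𝒞.B0 →ₐ[k] k} (hne : q ≠ q') :
    RingHom.ker q ⊔ RingHom.ker q' = ⊤ :=
  Ideal.IsMaximal.coprime_of_ne (ker_isMaximal0 q) (ker_isMaximal0 q')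
    (fun heq => hne (H50.point_ext_of_ker_eq 𝒞.B0 q q' heq))

theorem tr01_sup_tr01_eq_top (hP : Stmt_PTS.{u}) (h : 𝒞.IsGood) {q q' : 𝒞.B0 →ₐ[k] k}
    (hne : q ≠ q') : tr01 (RingHom.ker q) ⊔ tr01 (RingHom.ker q') = ⊤ := by
  obtain ⟨-, -, ht, hn⟩ := (hP k 𝒞 h).1 q
  obtain ⟨-, -, ht', hn'⟩ := (hP k 𝒞 h).1 q'
  by_cases hx : q 𝒞.x0 = 0
  · rw [ht hx, top_sup_eq]
  by_cases hx' : q' 𝒞.x0 = 0
  · rw [ht' hx', sup_top_eq]
  obtain ⟨q01, hq01, e1⟩ := hn hx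
  obtain ⟨q01', hq01', e1'⟩ := hn' hx'
  rw [e1, e1']
  refine Ideal.IsMaximal.coprime_of_ne (ker_isMaximal1 _) (ker_isMaximal1 _) (fun heq => hne ?_)
  have h2 : q01.comp 𝒞.i1 = q01'.comp 𝒞.i1 := H50.point_ext_of_ker_eq 𝒞.B1 _ _ heq
  letI : Algebra 𝒞.B1 𝒞.B01 := 𝒞.i1.toRingHom.toAlgebra
  haveI : IsLocalization.Away 𝒞.z1 𝒞.B01 := h.loc1
  have h3r : q01.toRingHom = q01'.toRingHom :=
    IsLocalization.ringHom_ext (Submonoid.powers 𝒞.z1) (by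
      ext b
      exact DFunLike.congr_fun h2 b)
  have h3 : q01 = q01' := AlgHom.ext (fun b => DFunLike.congr_fun h3r b)
  rw [← hq01, ← hq01', h3]

/-- Twisting by pairwise different bad points: `h1` does not change. -/
theorem exists_twist_of_bad (hC : Stmt_CHI.{u}) (hT : Stmt_TWEX.{u}) (hP : Stmt_PTS.{u})
    (h : 𝒞.IsGood) (L : Triple 𝒞 k) (t : Finset (𝒞.B0 →ₐ[k] k))
    (hbad : ∀ q ∈ t, ∃ L' : Triple 𝒞 k, IsTwistPt0 q L L' ∧ h0 L' = h0 L + 1) :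
    ∃ M : Triple 𝒞 k,
      IsTwist (∏ q ∈ t, RingHom.ker q) (∏ q ∈ t, tr01 (RingHom.ker q)) L M ∧
      h1 M = h1 L ∧ chi M = chi L + (t.card : ℤ) := by
  classical
  induction t using Finset.induction_on with
  | empty =>
    refine ⟨L, ?_, rfl, by simp⟩
    rw [Finset.prod_empty, Finset.prod_empty, Ideal.one_eq_top, Ideal.one_eq_top]
    exact isTwist_top L
  | insert q t hqt ih =>
    obtain ⟨M, hM, hh1, hchi⟩ := ih (fun q' hq' => hbad q' (Finset.mem_insert_of_mem hq'))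
    obtain ⟨Lq, hLq, hLq0⟩ := hbad q (Finset.mem_insert_self q t)
    have heff := ((hP k 𝒞 h).1 q).1
    obtain ⟨Mq, hMq⟩ := (hT k 𝒞 h _ _ heff).1 M
    have hJeff := (hC k 𝒞 h _ _ L M hM).1
    have hcomp := (hT k 𝒞 h _ _ hJeff).2.2.2.2.2 _ _ L M Mq hM hMq
    have hc0 : RingHom.ker q ⊔ ∏ q' ∈ t, RingHom.ker q' = ⊤ :=
      Ideal.sup_prod_eq_top (fun q' hq' => ker_sup_ker_eq_top (fun hqq => hqt (hqq ▸ hq')))
    have hc1 : tr01 (RingHom.ker q) ⊔ ∏ q' ∈ t, tr01 (RingHom.ker q') = ⊤ :=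
      Ideal.sup_prod_eq_top (fun q' hq' =>
        tr01_sup_tr01_eq_top hP h (fun hqq => hqt (hqq ▸ hq')))
    have hkey := h0_key h (RingHom.ker q) (∏ q' ∈ t, RingHom.ker q') (tr01 (RingHom.ker q))
      (∏ q' ∈ t, tr01 (RingHom.ker q')) heff.1 heff.2.1 hc0 hc1 hLq hM hMq
    obtain ⟨n1, n2, n3, n4⟩ := pt_numerics hC hP h q hMq
    refine ⟨Mq, ?_, ?_, ?_⟩
    · rw [Finset.prod_insert hqt, Finset.prod_insert hqt, mul_comm (RingHom.ker q),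
        mul_comm (tr01 (RingHom.ker q))]
      exact hcomp
    · have h5 : h0 Mq = h0 M + 1 := by omega
      unfold chi at n1
      omega
    · rw [n1, hchi, Finset.card_insert_of_notMem hqt]
      push_cast
      ring

/-- **NUM-DROP** from RIEM, CHI, TWEX, PTS. -/
theorem stmt_DROP_of (hR : Stmt_RIEM.{u}) (hC : Stmt_CHI.{u}) (hT : Stmt_TWEX.{u})
    (hP : Stmt_PTS.{u}) : Stmt_DROP.{u} := by
  intro k _ _ 𝒞 h L hL
  classical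
  obtain ⟨c, hc⟩ := hR k 𝒞 h
  have hfin : {q : 𝒞.B0 →ₐ[k] k | ∃ L' : Triple 𝒞 k, IsTwistPt0 q L L' ∧ h1 L' + 1 ≠ h1 L}.Finite := by
    by_contra hinf
    have hinf' : {q : 𝒞.B0 →ₐ[k] k |
        ∃ L' : Triple 𝒞 k, IsTwistPt0 q L L' ∧ h1 L' + 1 ≠ h1 L}.Infinite := hinf
    obtain ⟨t, ht, hcard⟩ := hinf'.exists_subset_card_eq (c - deg L).toNat
    have hbad : ∀ q ∈ t, ∃ L' : Triple 𝒞 k, IsTwistPt0 q L L' ∧ h0 L' = h0 L + 1 := by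
      intro q hq
      obtain ⟨L', hL', hne⟩ := ht hq
      obtain ⟨n1, n2, n3, n4⟩ := pt_numerics hC hP h q hL'
      refine ⟨L', hL', ?_⟩
      unfold chi at n1
      omega
    obtain ⟨M, hM, hh1, hchi⟩ := exists_twist_of_bad hC hT hP h L t hbad
    have hdM : deg M = deg L + (t.card : ℤ) := by
      unfold deg
      rw [hchi]
      ring
    have hdeg : c ≤ deg M := by
      have h6 := Int.self_le_toNat (c - deg L)
      rw [hdM, hcard]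
      omega
    have h7 := hc M hdeg
    omega
  refine ⟨hfin.toFinset, fun q hq L' hL' => ?_⟩
  by_contra hne
  exact hq (hfin.mem_toFinset.mpr ⟨L', hL', hne⟩)

end Main

end Fermat.Agent.S25.Num.H63
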