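/-
helper63, S25 (Jacobian exists), package NUM, leaf NUM-NSP (a non-special divisor).

`stmt_NSP_of : Stmt_DROP → Stmt_CHI → Stmt_TWEX → Stmt_PTS → Stmt_NSP`.

Proof.  Start with a unit triple `U` (`h0 = 1`, `h1 = genus`) and twist `genus` times by a point:
at every step `h1 > 0`, so by DROP all but finitely many points drop `h1` by one; we choose the value
`c = q x0` of the new point outside the finite set of the values of `x0` on `T`, on the exceptional set
of DROP and on the points already chosen, and then a point `q` with `q x0 = c` (going up for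
`k[x0] ⊂ B0`).  By CHI + PTS `chi` grows by one, so `h0` stays `1`.
-/
import Mathlib
import Fermat.Agent.S25.Num.H63_Drop
import Fermat.Agent.S25.Num.H45_Iso
import Fermat.Agent.S25.Num.H50_Fibre

set_option autoImplicit false
set_option linter.style.haveILetI false
set_option linter.unusedSectionVars false
set_option linter.unusedVariables false

universe u

open TensorProduct Polynomial

namespace Fermat.Agent.S25.Num.H63

open Fermat.Agent.S25 LB

variable {k : Type u} [Field k] [IsAlgClosed k] {𝒞 : CurveDatum k}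

/-- Over every value `c` of `x0` there is a point of `V0` (going up). -/
theorem exists_point_x0 (h : 𝒞.IsGood) (c : k) : ∃ q : 𝒞.B0 →ₐ[k] k, q 𝒞.x0 = c := by
  letI : Algebra k[X] 𝒞.B0 := (Polynomial.aeval (R := k) 𝒞.x0).toRingHom.toAlgebra
  haveI : Module.Finite k[X] 𝒞.B0 := h.fin0
  haveI : Algebra.IsIntegral k[X] 𝒞.B0 := inferInstance
  haveI := H50.span_X_sub_C_isMaximal c
  have hinj : Function.Injective (algebraMap k[X] 𝒞.B0) := h.trans0
  have hker : RingHom.ker (algebraMap k[X] 𝒞.B0) ≤ Ideal.span {(X - C c : k[X])} := by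
    rw [(RingHom.injective_iff_ker_eq_bot _).mp hinj]
    exact bot_le
  obtain ⟨Q, hQ, hQP⟩ := Ideal.exists_ideal_over_maximal_of_isIntegral (S := 𝒞.B0)
    (Ideal.span {(X - C c : k[X])}) hker
  haveI := H50.finiteType_B0 𝒞 h
  obtain ⟨q, hq⟩ := H50.exists_point_of_isMaximal k 𝒞.B0 Q
  refine ⟨q, ?_⟩
  have h1 : (X - C c : k[X]) ∈ Q.comap (algebraMap k[X] 𝒞.B0) := by
    rw [hQP]
    exact Ideal.subset_span rfl
  have h2 : Polynomial.aeval (R := k) 𝒞.x0 (X - C c : k[X]) ∈ Q := h1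
  rw [← hq, RingHom.mem_ker] at h2
  have h3 : q (Polynomial.aeval (R := k) 𝒞.x0 (X - C c : k[X])) = 0 := h2
  rw [map_sub, Polynomial.aeval_X, Polynomial.aeval_C, map_sub, AlgHom.commutes,
    Algebra.algebraMap_self_apply, sub_eq_zero] at h3
  exact h3

theorem ptsI0_cons {n : ℕ} (q : Fin n → (𝒞.B0 →ₐ[k] k)) (q0 : 𝒞.B0 →ₐ[k] k) :
    ptsI0 (Fin.cons q0 q : Fin (n + 1) → (𝒞.B0 →ₐ[k] k)) = RingHom.ker q0 * ptsI0 q := by
  unfold ptsI0
  rw [Fin.prod_univ_succ]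
  simp only [Fin.cons_zero, Fin.cons_succ]

theorem ptsI1_cons {n : ℕ} (q : Fin n → (𝒞.B0 →ₐ[k] k)) (q0 : 𝒞.B0 →ₐ[k] k) :
    ptsI1 (Fin.cons q0 q : Fin (n + 1) → (𝒞.B0 →ₐ[k] k)) =
      tr01 (RingHom.ker q0) * ptsI1 q := by
  unfold ptsI1
  rw [Fin.prod_univ_succ]
  simp only [Fin.cons_zero, Fin.cons_succ]

/-- The induction: `j ≤ genus` good points. -/
theorem nsp_aux (hD : Stmt_DROP.{u}) (hC : Stmt_CHI.{u}) (hT : Stmt_TWEX.{u})
    (hP : Stmt_PTS.{u}) (h : 𝒞.IsGood) (T : Finset (𝒞.B0 →ₐ[k] k)) (U : Triple 𝒞 k)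
    (hU : IsUnitTriple U) :
    ∀ j : ℕ, j ≤ genus 𝒞 → ∃ (q : Fin j → (𝒞.B0 →ₐ[k] k)) (M : Triple 𝒞 k),
      (∀ i, q i ∉ T) ∧ Function.Injective (fun i => q i 𝒞.x0) ∧
      IsTwist (ptsI0 q) (ptsI1 q) U M ∧ h1 M + j = genus 𝒞 ∧ h0 M = 1 := by
  classical
  intro j
  induction j with
  | zero =>
    intro _
    refine ⟨fun i => i.elim0, U, fun i => i.elim0, fun i => i.elim0, ?_, ?_, H45.h0_unit h hU⟩
    · unfold ptsI0 ptsI1
      rw [Finset.univ_eq_empty, Finset.prod_empty, Finset.prod_empty, Ideal.one_eq_top,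
        Ideal.one_eq_top]
      exact isTwist_top U
    · rw [add_zero]
      exact H45.h1_unit h hU
  | succ j ih =>
    intro hj
    obtain ⟨q, M, hqT, hqinj, hM, hh1, hh0⟩ := ih (Nat.le_of_succ_le hj)
    have hpos : 0 < h1 M := by omega
    obtain ⟨S, hS⟩ := hD k 𝒞 h M hpos
    -- the forbidden values of `x0`
    let vals : Finset k := (T ∪ S).image (fun p => p 𝒞.x0) ∪ Finset.univ.image (fun i => q i 𝒞.x0)
    obtain ⟨c, hc⟩ := Infinite.exists_notMem_finset vals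
    obtain ⟨qn, hqn⟩ := exists_point_x0 h c
    have hnT : qn ∉ T := fun hmem => hc (Finset.mem_union_left _
      (Finset.mem_image.mpr ⟨qn, Finset.mem_union_left _ hmem, hqn⟩))
    have hnS : qn ∉ S := fun hmem => hc (Finset.mem_union_left _
      (Finset.mem_image.mpr ⟨qn, Finset.mem_union_right _ hmem, hqn⟩))
    have hnq : ∀ i, q i 𝒞.x0 ≠ qn 𝒞.x0 := fun i hi => hc (Finset.mem_union_right _
      (Finset.mem_image.mpr ⟨i, Finset.mem_univ _, hi.trans hqn⟩))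
    have heff := ((hP k 𝒞 h).1 qn).1
    obtain ⟨Mn, hMn⟩ := (hT k 𝒞 h _ _ heff).1 M
    have hdrop := hS qn hnS Mn hMn
    obtain ⟨n1, n2, n3, n4⟩ := pt_numerics hC hP h qn hMn
    have hJeff := (hC k 𝒞 h _ _ U M hM).1
    have hcomp := (hT k 𝒞 h _ _ hJeff).2.2.2.2.2 _ _ U M Mn hM hMn
    refine ⟨Fin.cons qn q, Mn, ?_, ?_, ?_, ?_, ?_⟩
    · intro i
      refine Fin.cases ?_ (fun i' => ?_) i
      · rw [Fin.cons_zero]; exact hnT
      · rw [Fin.cons_succ]; exact hqT i'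
    · have hfun : (fun i => (Fin.cons qn q : Fin (j + 1) → (𝒞.B0 →ₐ[k] k)) i 𝒞.x0) =
          Fin.cons (qn 𝒞.x0) (fun i => q i 𝒞.x0) := by
        funext i
        refine Fin.cases ?_ (fun i' => ?_) i
        · rw [Fin.cons_zero, Fin.cons_zero]
        · rw [Fin.cons_succ, Fin.cons_succ]
      rw [hfun, Fin.cons_injective_iff]
      refine ⟨?_, hqinj⟩
      rintro ⟨i, hi⟩
      exact hnq i hi
    · rw [ptsI0_cons, ptsI1_cons, mul_comm (RingHom.ker qn), mul_comm (tr01 (RingHom.ker qn))]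
      exact hcomp
    · omega
    · unfold chi at n1
      omega

/-- **NUM-NSP** from DROP, CHI, TWEX, PTS. -/
theorem stmt_NSP_of (hD : Stmt_DROP.{u}) (hC : Stmt_CHI.{u}) (hT : Stmt_TWEX.{u})
    (hP : Stmt_PTS.{u}) : Stmt_NSP.{u} := by
  intro k _ _ 𝒞 h T
  obtain ⟨U, hU⟩ := H45.exists_isUnitTriple h
  obtain ⟨q, M, hqT, hqinj, hM, hh1, hh0⟩ := nsp_aux hD hC hT hP h T U hU (genus 𝒞) le_rfl
  exact ⟨q, U, M, hqT, hqinj, hU, hM, by omega, hh0⟩

/-- **NUM-NSP** from RIEM, CHI, TWEX, PTS. -/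
theorem stmt_NSP_of' (hR : Stmt_RIEM.{u}) (hC : Stmt_CHI.{u}) (hT : Stmt_TWEX.{u})
    (hP : Stmt_PTS.{u}) : Stmt_NSP.{u} :=
  stmt_NSP_of (stmt_DROP_of hR hC hT hP) hC hT hP

end Fermat.Agent.S25.Num.H63
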