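/-
helper21, S25 package NUM, interface part C: the output for CHART (helper4), in the vocabulary of
S25/Chart/Defs2.lean (`Chart.Pt`, `Chart.IsDiv`, `Chart.IsEtAt`, `Chart.IsGenus`).

`Stmt_NSPCH`: the Mumford chart of `(𝒞, h)` has a NON-SPECIAL `k`-point: a chart point `pt` over `k` with
`det ρ(h) ≠ 0` whose line bundle `O(Z_pt)` has `H1 = 0`.
-/
import Fermat.Agent.S25.Num.Defs
import Fermat.Agent.S25.Chart.Defs2

set_option autoImplicit false

universe u

open Polynomial TensorProduct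

namespace Fermat.Agent.S25.Num

open Fermat.Agent.S25.LB

/-- **NUM-NSPCH** (the chart is not empty).
Proof from `Stmt_NSP` with `T` = the zeros of `h` in `V0` (a finite set, `h ≠ 0`): points `q_1, …, q_g` of `V0`
with `h (q_i) ≠ 0` and pairwise different `x0 (q_i)`, `L = O(q_1 + … + q_g)` with `h1 L = 0`.
The chart point: `ρ b` = the matrix of `b` acting on `k^g = ∏ k(q_i)` in the basis `1, x0, …, x0^(g-1)`
(Vandermonde), so `pt.ideal = ext0 (∏ ker q_i)`, `det (ρ h) = ∏ h (q_i)`; the section `(s0, s1)` is the image of `1`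
under the morphism `U → L` of `IsTwist`. -/
def Stmt_NSPCH : Prop :=
  ∀ (k : Type u) [Field k] [IsAlgClosed k] (𝒞 : CurveDatum k), 𝒞.IsGood →
    ∀ h : 𝒞.B0, Chart.IsEtAt 𝒞 h → ∀ g : ℕ, Chart.IsGenus 𝒞 g →
      ∃ (pt : Chart.Pt k 𝒞.B0 𝒞.x0 g k) (L : Triple 𝒞 k) (s0 : L.P0) (s1 : L.P1),
        IsUnit (pt.ρ h).det ∧ Chart.IsDiv L s0 s1 pt ∧ Subsingleton L.H1

end Fermat.Agent.S25.Num
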