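/-
helper93, S25 (Jacobian exists), package NUM, leaf NUM-NSPCH (the chart is not empty).

`nspch_of : Stmt_NSP → Stmt_NSPCH`.

Proof.  `T` = the zeros of `h` in `V0` (finite: `h ≠ 0`, `B0` Dedekind).  `Stmt_NSP` gives points `q_1, …, q_g`
(`g = genus`) of `V0` outside `T` with pairwise different values of `x0` and `L = O(q_1 + … + q_g)`, `h1 L = 0`,
with `φ : U → L` from a unit triple.  The chart point is the Vandermonde point `Chart.H93V.vpt` of the `q_i`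
(ideal `⨅ ker q_i = ∏ ker q_i`, `det ρ(h) = ∏ q_i h ≠ 0`), the section is `(s0, s1) = φ(1)`.
`IsDiv` from `Chart.H94.stmt_DIV1GEN`: glue, `reg0`, `div0` (colon ideal of an invertible module, dual basis) and
`GenAtInfty` (the points are not at infinity: `∏ tr01 (ker q_i)` is coprime to `z1`).
-/
import Fermat.Agent.S25.Num.DefsC
import Fermat.Agent.S25.Num.H38_Pts
import Fermat.Agent.S25.Num.H45_Iso
import Fermat.Agent.S25.Num.H50_FinStmt
import Fermat.Agent.S25.Chart.H94_Div1Gen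
import Fermat.Agent.S25.Chart.H92_InvRankOne
import Fermat.Agent.S25.Chart.H93_VdmPt

set_option autoImplicit false

universe u

open Polynomial TensorProduct

namespace Fermat.Agent.S25.Num.H93

open Fermat.Agent.S25.LB Fermat.Agent.S25.Num Fermat.Agent.S25

/-! ## Algebra -/

section Alg

/-- The colon ideal `(J P : P)` of an invertible module is `J`. -/
theorem mem_of_forall_smul_mem {S : Type u} [CommRing S] {P : Type u} [AddCommGroup P] [Module S P]
    [Module.Invertible S P] (J : Ideal S) (c : S)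
    (h : ∀ y : P, c • y ∈ J • (⊤ : Submodule S P)) : c ∈ J := by
  obtain ⟨ι, _, φ, b, hb⟩ := Chart.H92R.exists_dualBasis (R := S) (M := P)
  have hφ : ∀ (ψ : P →ₗ[S] S) (y : P), y ∈ J • (⊤ : Submodule S P) → ψ y ∈ J := by
    intro ψ y hy
    refine Submodule.smul_induction_on hy ?_ ?_
    · intro r hr n _
      rw [map_smul, smul_eq_mul]
      exact J.mul_mem_right _ hr
    · intro y1 y2 h1 h2
      rw [map_add]
      exact J.add_mem h1 h2
  have h1 : c = ∑ i, φ i (c • b i) := by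
    simp only [map_smul, smul_eq_mul]
    rw [← Finset.mul_sum, hb, mul_one]
  rw [h1]
  exact J.sum_mem (fun i _ => hφ (φ i) _ (h (b i)))

variable {k : Type u} [Field k]

/-- The kernel of a `k`-point is maximal. -/
theorem ker_isMaximal {B : Type u} [CommRing B] [Algebra k B] (q : B →ₐ[k] k) :
    (RingHom.ker q).IsMaximal :=
  RingHom.ker_isMaximal_of_surjective q (fun c => ⟨algebraMap k B c, by simp⟩)

/-- A `k`-point is determined by its kernel. -/
theorem point_ext {B : Type u} [CommRing B] [Algebra k B] (q q' : B →ₐ[k] k)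
    (h : RingHom.ker q = RingHom.ker q') : q = q' := by
  ext b
  have hb : b - algebraMap k B (q b) ∈ RingHom.ker q := by
    rw [RingHom.mem_ker, map_sub, AlgHom.commutes, Algebra.algebraMap_self_apply, sub_self]
  rw [h, RingHom.mem_ker, map_sub, AlgHom.commutes, Algebra.algebraMap_self_apply,
    sub_eq_zero] at hb
  exact hb.symm

/-- In a Dedekind domain, a nonzero element has finitely many zeros. -/
theorem finite_zeros {B : Type u} [CommRing B] [IsDedekindDomain B] [Algebra k B] (h : B)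
    (hh : h ≠ 0) : {q : B →ₐ[k] k | q h = 0}.Finite := by
  have hfin := Ideal.finite_minimalPrimes_of_isNoetherianRing B (Ideal.span {h})
  refine Set.Finite.of_finite_image (f := fun q : B →ₐ[k] k => RingHom.ker q)
    (hfin.subset ?_) (fun q _ q' _ hqq' => point_ext q q' hqq')
  rintro _ ⟨q, hq, rfl⟩
  have hmax := ker_isMaximal q
  have hle : Ideal.span {h} ≤ RingHom.ker q := by
    rw [Ideal.span_singleton_le_iff_mem]
    exact hq
  refine ⟨⟨hmax.isPrime, hle⟩, ?_⟩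
  rintro p ⟨hp, hJp⟩ hpq
  have hp0 : p ≠ ⊥ := by
    intro h0
    rw [h0] at hJp
    exact hh ((Ideal.span_singleton_eq_bot).mp (le_bot_iff.mp hJp))
  have hpm : p.IsMaximal := hp.isMaximal hp0
  exact (hpm.eq_of_le hmax.ne_top hpq).ge

/-- The kernels of points with different values of `x` are coprime. -/
theorem isCoprime_ker {B : Type u} [CommRing B] [Algebra k B] (x : B) (q q' : B →ₐ[k] k)
    (h : q x ≠ q' x) : IsCoprime (RingHom.ker q) (RingHom.ker q') := by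
  have := ker_isMaximal q
  have := ker_isMaximal q'
  refine Ideal.isCoprime_of_isMaximal (fun hker => h ?_)
  rw [point_ext q q' hker]

/-- The product of the kernels of points with pairwise different values of `x` is the intersection. -/
theorem prod_ker_eq_iInf {B : Type u} [CommRing B] [Algebra k B] (x : B) {g : ℕ}
    (q : Fin g → (B →ₐ[k] k)) (hq : Function.Injective (fun i => q i x)) :
    ∏ i, RingHom.ker (q i) = ⨅ i, RingHom.ker (q i) := by
  have h := Ideal.prod_eq_iInf_of_pairwise_isCoprime (s := Finset.univ)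
    (J := fun i => RingHom.ker (q i)) (by
      intro i _ j _ hij
      exact isCoprime_ker x (q i) (q j) (fun e => hij (hq e)))
  rw [h]
  simp

end Alg

/-! ## The section of a twist of a unit triple -/

section Sec

variable {k : Type u} [Field k] {𝒞 : CurveDatum k}

/-- In a unit triple every element is a multiple of `e0⁻¹ 1`. -/
theorem unit_smul0 {U : Triple 𝒞 k} (e0 : U.P0 ≃ₗ[k ⊗[k] 𝒞.B0] (k ⊗[k] 𝒞.B0)) (u : U.P0) :
    u = e0 u • e0.symm 1 := by
  apply e0.injective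
  rw [map_smul, LinearEquiv.apply_symm_apply, smul_eq_mul, mul_one]

theorem unit_smul1 {U : Triple 𝒞 k} (e1 : U.P1 ≃ₗ[k ⊗[k] 𝒞.B1] (k ⊗[k] 𝒞.B1)) (u : U.P1) :
    u = e1 u • e1.symm 1 := by
  apply e1.injective
  rw [map_smul, LinearEquiv.apply_symm_apply, smul_eq_mul, mul_one]

variable {U L : Triple 𝒞 k} (φ : Triple.Hom U L)
  (e0 : U.P0 ≃ₗ[k ⊗[k] 𝒞.B0] (k ⊗[k] 𝒞.B0)) (e1 : U.P1 ≃ₗ[k ⊗[k] 𝒞.B1] (k ⊗[k] 𝒞.B1))
  (e01 : U.P01 ≃ₗ[k ⊗[k] 𝒞.B01] (k ⊗[k] 𝒞.B01))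

/-- The section glues. -/
theorem sec_glue (h0 : ∀ p, e01 (U.r0 p) = 𝒞.ι0 k (e0 p)) (h1 : ∀ p, e01 (U.r1 p) = 𝒞.ι1 k (e1 p)) :
    L.r0 (φ.f0 (e0.symm 1)) = L.r1 (φ.f1 (e1.symm 1)) := by
  rw [← φ.comm0, ← φ.comm1]
  congr 1
  apply e01.injective
  rw [h0, h1, LinearEquiv.apply_symm_apply, LinearEquiv.apply_symm_apply, map_one, map_one]

/-- The section is regular. -/
theorem sec_reg0 (hinj : Function.Injective φ.f0) (c : k ⊗[k] 𝒞.B0)
    (hc : c • φ.f0 (e0.symm 1) = 0) : c = 0 := by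
  rw [← map_smul] at hc
  have h2 : c • e0.symm 1 = 0 := hinj (by rw [hc, map_zero])
  have h3 := congrArg e0 h2
  rwa [map_smul, LinearEquiv.apply_symm_apply, smul_eq_mul, mul_one, map_zero] at h3

/-- The multiples of the section are the range of `φ.f0`. -/
theorem sec_span0 (y : L.P0) :
    (∃ d : k ⊗[k] 𝒞.B0, y = d • φ.f0 (e0.symm 1)) ↔ y ∈ LinearMap.range φ.f0 := by
  constructor
  · rintro ⟨d, rfl⟩
    exact ⟨d • e0.symm 1, map_smul _ _ _⟩
  · rintro ⟨u, rfl⟩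
    refine ⟨e0 u, ?_⟩
    rw [← map_smul, ← unit_smul0 e0 u]

theorem sec_span1 (y : L.P1) :
    (∃ d : k ⊗[k] 𝒞.B1, y = d • φ.f1 (e1.symm 1)) ↔ y ∈ LinearMap.range φ.f1 := by
  constructor
  · rintro ⟨d, rfl⟩
    exact ⟨d • e1.symm 1, map_smul _ _ _⟩
  · rintro ⟨u, rfl⟩
    refine ⟨e1 u, ?_⟩
    rw [← map_smul, ← unit_smul1 e1 u]

/-- The colon ideal of the section on the chart `V0`. -/
theorem sec_div0 (J : Ideal (k ⊗[k] 𝒞.B0))
    (hr : LinearMap.range φ.f0 = J • (⊤ : Submodule (k ⊗[k] 𝒞.B0) L.P0)) (c : k ⊗[k] 𝒞.B0) :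
    c ∈ J ↔ ∀ y : L.P0, ∃ d : k ⊗[k] 𝒞.B0, c • y = d • φ.f0 (e0.symm 1) := by
  have := L.inv0
  constructor
  · intro hc y
    rw [sec_span0 φ e0, hr]
    exact Submodule.smul_mem_smul hc trivial
  · intro h
    refine mem_of_forall_smul_mem (P := L.P0) J c (fun y => ?_)
    rw [← hr, ← sec_span0 φ e0]
    exact h y

/-- If the divisor is coprime to `z1`, the section generates at infinity. -/
theorem sec_genAtInfty (J : Ideal (k ⊗[k] 𝒞.B1))
    (hr : LinearMap.range φ.f1 = J • (⊤ : Submodule (k ⊗[k] 𝒞.B1) L.P1))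
    (hJ : J ⊔ Ideal.span {((1 : k) ⊗ₜ[k] 𝒞.z1 : k ⊗[k] 𝒞.B1)} = ⊤) :
    Chart.GenAtInfty L (φ.f1 (e1.symm 1)) := by
  intro y
  have h1 : (1 : k ⊗[k] 𝒞.B1) ∈ J ⊔ Ideal.span {((1 : k) ⊗ₜ[k] 𝒞.z1 : k ⊗[k] 𝒞.B1)} := by
    rw [hJ]; trivial
  obtain ⟨j, hj, w, hw, hjw⟩ := Submodule.mem_sup.mp h1
  obtain ⟨w', rfl⟩ := Ideal.mem_span_singleton'.mp hw
  have h2 : j • y ∈ LinearMap.range φ.f1 := by
    rw [hr]
    exact Submodule.smul_mem_smul hj trivial
  obtain ⟨d, hd⟩ := (sec_span1 φ e1 (j • y)).mpr h2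
  refine ⟨d, w' • y, ?_⟩
  rw [← hd, smul_smul, mul_comm, ← add_smul, hjw, one_smul]

end Sec

/-! ## The divisor at infinity -/

section Infty

variable {k : Type u} [Field k] {𝒞 : CurveDatum k}

/-- The divisor of a point of `V0` is coprime to `z1`. -/
theorem isCoprime_tr01 (hG : 𝒞.IsGood) (q : 𝒞.B0 →ₐ[k] k) :
    IsCoprime (tr01 (RingHom.ker q)) (Ideal.span {𝒞.z1}) := by
  obtain ⟨-, -, h3, h4⟩ := H38.pts0 hG q
  by_cases hq : q 𝒞.x0 = 0
  · rw [h3 hq, Ideal.isCoprime_iff_sup_eq, top_sup_eq]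
  · obtain ⟨q01, -, hker⟩ := h4 hq
    rw [hker, Ideal.isCoprime_iff_sup_eq]
    have hmax := ker_isMaximal (q01.comp 𝒞.i1)
    by_contra hne
    have heq := hmax.eq_of_le hne le_sup_left
    have hz : 𝒞.z1 ∈ RingHom.ker (q01.comp 𝒞.i1) := by
      rw [heq]
      exact Ideal.mem_sup_right (Ideal.mem_span_singleton_self _)
    rw [RingHom.mem_ker, AlgHom.comp_apply] at hz
    have h1 : q01 (𝒞.i0 𝒞.x0) * q01 (𝒞.i1 𝒞.z1) = 1 := by
      rw [← map_mul, 𝒞.hxz, map_one]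
    rw [hz, mul_zero] at h1
    exact zero_ne_one h1

/-- The divisor of points of `V0` is coprime to `z1`, in `k ⊗ B1`. -/
theorem ext1_ptsI1_sup (hG : 𝒞.IsGood) {g : ℕ} (q : Fin g → (𝒞.B0 →ₐ[k] k)) :
    ext1 (ptsI1 q) ⊔ Ideal.span {((1 : k) ⊗ₜ[k] 𝒞.z1 : k ⊗[k] 𝒞.B1)} = ⊤ := by
  have h1 : IsCoprime (ptsI1 q) (Ideal.span {𝒞.z1}) :=
    IsCoprime.prod_left (fun i _ => isCoprime_tr01 hG (q i))
  rw [Ideal.isCoprime_iff_sup_eq] at h1
  have h2 := congrArg (Ideal.map (Algebra.TensorProduct.includeRight : 𝒞.B1 →ₐ[k] k ⊗[k] 𝒞.B1)) h1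
  rw [Ideal.map_sup, Ideal.map_top, Ideal.map_span, Set.image_singleton] at h2
  exact h2

end Infty

/-! ## The assembly -/

section Main

variable {k : Type u} [Field k] [IsAlgClosed k] {𝒞 : CurveDatum k}

omit [IsAlgClosed k] in
/-- The chart point and the section of `O(q_1 + … + q_g)`. -/
theorem exists_isDiv (hG : 𝒞.IsGood) {g : ℕ} (q : Fin g → (𝒞.B0 →ₐ[k] k))
    (hq : Function.Injective (fun i => q i 𝒞.x0)) (U L : Triple 𝒞 k) (hU : IsUnitTriple U)
    (htw : IsTwist (ptsI0 q) (ptsI1 q) U L) :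
    ∃ (s0 : L.P0) (s1 : L.P1), Chart.IsDiv L s0 s1 (Chart.H93V.vpt hq) := by
  obtain ⟨e0, e1, e01, h0, h1⟩ := hU
  obtain ⟨φ, hi0, hi1, hr0, hr1⟩ := htw
  refine ⟨φ.f0 (e0.symm 1), φ.f1 (e1.symm 1), ?_⟩
  refine Chart.H94.stmt_DIV1GEN k 𝒞 hG g k (Chart.H93V.vpt hq) L _ _
    (sec_glue φ e0 e1 e01 h0 h1) (sec_reg0 φ e0 hi0) ?_
    (sec_genAtInfty φ e1 (ext1 (ptsI1 q)) hr1 (ext1_ptsI1_sup hG q))
  intro c
  rw [← sec_div0 φ e0 (ext0 (ptsI0 q)) hr0 c, Chart.H93V.ideal_vpt hq, ext0, ptsI0,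
    prod_ker_eq_iInf 𝒞.x0 q hq]

/-- **NUM-NSPCH** from **NUM-NSP**. -/
theorem nspch_of (hNSP : Stmt_NSP.{u}) : Stmt_NSPCH.{u} := by
  intro k _ _ 𝒞 hG h hEt g hgen
  have := hG.dom0
  have := H50.isDedekindDomain_B0 𝒞 hG
  classical
  -- the zeros of `h`
  have hfin : {q : 𝒞.B0 →ₐ[k] k | q h = 0}.Finite := finite_zeros h hEt.1
  obtain ⟨q, U, L, hT, hq, hU, htw, hh1, -⟩ := hNSP k 𝒞 hG hfin.toFinset
  -- the genus
  have hgenus : genus 𝒞 = g := by
    have h5 := (H45.stmt_ISO k 𝒞 hG).2.2.2.2 U hU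
    obtain ⟨e0, e1, e01, hc0, hc1⟩ := hU
    have h6 := hgen U e0 e1 e01 hc0 hc1
    rw [← h5.2, ← h6]
    rfl
  subst hgenus
  obtain ⟨s0, s1, hdiv⟩ := exists_isDiv hG q hq U L hU htw
  refine ⟨Chart.H93V.vpt hq, L, s0, s1, ?_, hdiv, ?_⟩
  · refine Chart.H93V.isUnit_det_vpt_ρ hq h (fun i hi => hT i ?_)
    rw [Set.Finite.mem_toFinset]
    exact hi
  · have hF := (H50.stmt_FIN k 𝒞 hG L).2
    have h0 : Module.finrank k L.H1 = 0 := hh1
    exact Module.finrank_zero_iff.mp h0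

end Main

end Fermat.Agent.S25.Num.H93
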