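import Mathlib
import Fermat.Agent.S25.Num.H9_FracConv

/-!
# S25, package NUM, leaf NUM-FRAC part 3 (helper9): from embedded triples to fractional data

`Emb.toFracData`: the images `(I0, I1)` of an embedded triple form a fractional datum.
`Emb.eq_smul`: two embeddings of the same triple differ by a scalar of `Kˣ`.
-/

set_option autoImplicit false
set_option linter.style.haveILetI false
set_option linter.unusedSectionVars false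

universe u

open TensorProduct nonZeroDivisors

namespace Fermat.Agent.S25.Num.H9

open Fermat.Agent.S25 LB

variable {k : Type u} [Field k] {𝒞 : CurveDatum k} {K : Type u} [Field K] [Algebra 𝒞.B01 K]
  [Algebra k K] [IsFractionRing 𝒞.B01 K] [IsScalarTower k 𝒞.B01 K] {L : Triple 𝒞 k}

namespace Emb

variable (e : Emb L K)

theorem φ_r0_smul (c : k ⊗[k] 𝒞.B0) (p : L.P0) :
    e.φ (L.r0 (c • p)) = toK0 𝒞 K c * e.φ (L.r0 p) := by
  rw [L.r0.map_smulₛₗ, e.lin, toK_ι0]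

theorem φ_r1_smul (c : k ⊗[k] 𝒞.B1) (p : L.P1) :
    e.φ (L.r1 (c • p)) = toK1 𝒞 K c * e.φ (L.r1 p) := by
  rw [L.r1.map_smulₛₗ, e.lin, toK_ι1]

theorem mem_I0 (y : K) : y ∈ e.I0 ↔ ∃ p : L.P0, e.φ (L.r0 p) = y := Iff.rfl

theorem mem_I1 (y : K) : y ∈ e.I1 ↔ ∃ p : L.P1, e.φ (L.r1 p) = y := Iff.rfl

theorem mem_I01 (y : K) : y ∈ e.I01 ↔ ∃ m : L.P01, e.φ m = y := Iff.rfl

theorem b0K_mul_mem (b : 𝒞.B0) {y : K} (hy : y ∈ e.I0) : b0K 𝒞 K b * y ∈ e.I0 := by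
  obtain ⟨p, rfl⟩ := (e.mem_I0 _).1 hy
  refine (e.mem_I0 _).2 ⟨((1 : k) ⊗ₜ[k] b : k ⊗[k] 𝒞.B0) • p, ?_⟩
  rw [e.φ_r0_smul, toK0_tmul, one_smul]

theorem b1K_mul_mem (b : 𝒞.B1) {y : K} (hy : y ∈ e.I1) : b1K 𝒞 K b * y ∈ e.I1 := by
  obtain ⟨p, rfl⟩ := (e.mem_I1 _).1 hy
  refine (e.mem_I1 _).2 ⟨((1 : k) ⊗ₜ[k] b : k ⊗[k] 𝒞.B1) • p, ?_⟩
  rw [e.φ_r1_smul, toK1_tmul, one_smul]

theorem algebraMap_mul_mem (b : 𝒞.B01) {y : K} (hy : y ∈ e.I01) :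
    algebraMap 𝒞.B01 K b * y ∈ e.I01 := by
  obtain ⟨m, rfl⟩ := (e.mem_I01 _).1 hy
  refine (e.mem_I01 _).2 ⟨((1 : k) ⊗ₜ[k] b : k ⊗[k] 𝒞.B01) • m, ?_⟩
  rw [e.lin, toK_tmul, one_smul]

/-- `P0` as a `k ⊗ B0`-linear map to `K`. -/
noncomputable def linR0 :
    @LinearMap (k ⊗[k] 𝒞.B0) (k ⊗[k] 𝒞.B0) _ _ (RingHom.id _) L.P0 K _ _ _
      (toK0 𝒞 K).toAlgebra.toModule :=
  letI : Algebra (k ⊗[k] 𝒞.B0) K := (toK0 𝒞 K).toAlgebra
  { toFun := fun p => e.φ (L.r0 p)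
    map_add' := fun p q => by rw [map_add, map_add]
    map_smul' := fun c p => e.φ_r0_smul c p }

/-- `P1` as a `k ⊗ B1`-linear map to `K`. -/
noncomputable def linR1 :
    @LinearMap (k ⊗[k] 𝒞.B1) (k ⊗[k] 𝒞.B1) _ _ (RingHom.id _) L.P1 K _ _ _
      (toK1 𝒞 K).toAlgebra.toModule :=
  letI : Algebra (k ⊗[k] 𝒞.B1) K := (toK1 𝒞 K).toAlgebra
  { toFun := fun p => e.φ (L.r1 p)
    map_add' := fun p q => by rw [map_add, map_add]
    map_smul' := fun c p => e.φ_r1_smul c p }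

theorem exists_den0 (h : 𝒞.IsGood) :
    ∃ d : 𝒞.B0, d ≠ 0 ∧ ∀ y ∈ e.I0, ∃ b : 𝒞.B0, b0K 𝒞 K d * y = b0K 𝒞 K b := by
  letI : Algebra (k ⊗[k] 𝒞.B0) K := (toK0 𝒞 K).toAlgebra
  haveI : IsFractionRing (k ⊗[k] 𝒞.B0) K := isFractionRing_toK0 h
  haveI := isDomain_tensor0 h
  haveI := L.inv0
  have hfg : (LinearMap.range e.linR0).FG := by
    rw [LinearMap.range_eq_map]
    exact Submodule.FG.map _ (Module.Finite.fg_top)
  obtain ⟨a, ha, hint⟩ := FractionalIdeal.isFractional_of_fg (S := (k ⊗[k] 𝒞.B0)⁰) hfg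
  refine ⟨Algebra.TensorProduct.lid k 𝒞.B0 a, ?_, ?_⟩
  · intro h0
    have h1 : a = 0 := (Algebra.TensorProduct.lid k 𝒞.B0).injective (h0.trans (map_zero _).symm)
    exact nonZeroDivisors.ne_zero ha h1
  · rintro y ⟨p, rfl⟩
    obtain ⟨b, hb⟩ := hint (e.linR0 p) ⟨p, rfl⟩
    refine ⟨Algebra.TensorProduct.lid k 𝒞.B0 b, ?_⟩
    have hb' : toK0 𝒞 K b = toK0 𝒞 K a * e.linR0 p := hb
    rw [← toK0_eq, ← toK0_eq, hb']
    rfl

theorem exists_den1 (h : 𝒞.IsGood) :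
    ∃ d : 𝒞.B1, d ≠ 0 ∧ ∀ y ∈ e.I1, ∃ b : 𝒞.B1, b1K 𝒞 K d * y = b1K 𝒞 K b := by
  letI : Algebra (k ⊗[k] 𝒞.B1) K := (toK1 𝒞 K).toAlgebra
  haveI : IsFractionRing (k ⊗[k] 𝒞.B1) K := isFractionRing_toK1 h
  haveI := isDomain_tensor1 h
  haveI := L.inv1
  have hfg : (LinearMap.range e.linR1).FG := by
    rw [LinearMap.range_eq_map]
    exact Submodule.FG.map _ (Module.Finite.fg_top)
  obtain ⟨a, ha, hint⟩ := FractionalIdeal.isFractional_of_fg (S := (k ⊗[k] 𝒞.B1)⁰) hfg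
  refine ⟨Algebra.TensorProduct.lid k 𝒞.B1 a, ?_, ?_⟩
  · intro h0
    have h1 : a = 0 := (Algebra.TensorProduct.lid k 𝒞.B1).injective (h0.trans (map_zero _).symm)
    exact nonZeroDivisors.ne_zero ha h1
  · rintro y ⟨p, rfl⟩
    obtain ⟨b, hb⟩ := hint (e.linR1 p) ⟨p, rfl⟩
    refine ⟨Algebra.TensorProduct.lid k 𝒞.B1 b, ?_⟩
    have hb' : toK1 𝒞 K b = toK1 𝒞 K a * e.linR1 p := hb
    rw [← toK1_eq, ← toK1_eq, hb']
    rfl

theorem I0_ne_bot (h : 𝒞.IsGood) : e.I0 ≠ ⊥ := by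
  haveI := isDomain_tensor0 h
  haveI := L.inv0
  intro h0
  have hall : ∀ p : L.P0, p = 0 := fun p => by
    have h1 : e.lin0 p ∈ e.I0 := ⟨p, rfl⟩
    rw [h0, Submodule.mem_bot] at h1
    exact e.lin0_injective h (h1.trans (map_zero _).symm)
  have : (1 : k ⊗[k] 𝒞.B0) = 0 := by
    apply FaithfulSMul.eq_of_smul_eq_smul (α := L.P0)
    intro p
    rw [hall p, smul_zero, smul_zero]
  exact one_ne_zero this

theorem I1_ne_bot (h : 𝒞.IsGood) : e.I1 ≠ ⊥ := by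
  haveI := isDomain_tensor1 h
  haveI := L.inv1
  intro h0
  have hall : ∀ p : L.P1, p = 0 := fun p => by
    have h1 : e.lin1 p ∈ e.I1 := ⟨p, rfl⟩
    rw [h0, Submodule.mem_bot] at h1
    exact e.lin1_injective h (h1.trans (map_zero _).symm)
  have : (1 : k ⊗[k] 𝒞.B1) = 0 := by
    apply FaithfulSMul.eq_of_smul_eq_smul (α := L.P1)
    intro p
    rw [hall p, smul_zero, smul_zero]
  exact one_ne_zero this

/-- **The fractional datum of an embedded triple.** -/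
noncomputable def toFracData (h : 𝒞.IsGood) : FracData 𝒞 K where
  J0 := e.I0
  J1 := e.I1
  smul0 := fun b _ hy => e.b0K_mul_mem b hy
  smul1 := fun b _ hy => e.b1K_mul_mem b hy
  ne0 := e.I0_ne_bot h
  ne1 := e.I1_ne_bot h
  den0 := e.exists_den0 h
  den1 := e.exists_den1 h
  to1 := by
    rintro y ⟨p, rfl⟩
    obtain ⟨n, q, hq⟩ := L.surj1 (L.r0 p)
    refine ⟨n, q, ?_⟩
    change e.φ (L.r1 q) = _ * e.φ (L.r0 p)
    rw [← hq, e.lin, FracData.toK_z1_pow]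
  to0 := by
    rintro y ⟨p, rfl⟩
    obtain ⟨n, q, hq⟩ := L.surj0 (L.r1 p)
    refine ⟨n, q, ?_⟩
    change e.φ (L.r0 q) = _ * e.φ (L.r1 p)
    rw [← hq, e.lin, FracData.toK_x0_pow]

end Emb

end Fermat.Agent.S25.Num.H9
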