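import Mathlib
import Fermat.Agent.S25.Num.H9_FracFwd

/-!
# S25, package NUM, leaf NUM-FRAC part 4 (helper9): morphisms of triples are scalars of `K`

For embedded triples `e : Emb L K`, `e' : Emb L' K`:
* `Emb.exists_scalar`: every morphism `φ : L → L'` is the multiplication by a scalar `a ∈ K`
  (`e' (φ m) = a * e m`), and `a I0 ⊆ I0'`, `a I1 ⊆ I1'`;
* `Emb.homOfScalar`: conversely every such scalar is a morphism;
* `Emb.iso_of_scalar`: `a ≠ 0`, `a I0 = I0'`, `a I1 = I1'` gives an isomorphism.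
-/

set_option autoImplicit false
set_option linter.style.haveILetI false
set_option linter.unusedSectionVars false

universe u

open TensorProduct nonZeroDivisors

namespace Fermat.Agent.S25.Num.H9

open Fermat.Agent.S25 LB

section Lift

variable {R : Type u} [CommRing R] {K : Type u} [Field K] (τ : R →+* K)
  {M M' : Type u} [AddCommGroup M] [Module R M] [AddCommGroup M'] [Module R M']

/-- the lift of a `τ`-semilinear map to `K` through an injective `τ`-semilinear map -/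
noncomputable def liftLin (f : M →+ K) (g : M' →+ K)
    (hf : ∀ (c : R) (m : M), f (c • m) = τ c * f m)
    (hg : ∀ (c : R) (m : M'), g (c • m) = τ c * g m) (hinj : Function.Injective g)
    (hr : ∀ m, ∃ m', g m' = f m) : M →ₗ[R] M' where
  toFun m := Classical.choose (hr m)
  map_add' m n := hinj (by
    have h1 := Classical.choose_spec (hr (m + n))
    have h2 := Classical.choose_spec (hr m)
    have h3 := Classical.choose_spec (hr n)
    rw [h1, map_add g, h2, h3, map_add])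
  map_smul' c m := hinj (by
    have h1 := Classical.choose_spec (hr (c • m))
    have h2 := Classical.choose_spec (hr m)
    rw [RingHom.id_apply, hg, h1, h2, hf])

theorem liftLin_spec (f : M →+ K) (g : M' →+ K)
    (hf : ∀ (c : R) (m : M), f (c • m) = τ c * f m)
    (hg : ∀ (c : R) (m : M'), g (c • m) = τ c * g m) (hinj : Function.Injective g)
    (hr : ∀ m, ∃ m', g m' = f m) (m : M) : g (liftLin τ f g hf hg hinj hr m) = f m :=
  Classical.choose_spec (hr m)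

end Lift

variable {k : Type u} [Field k] {𝒞 : CurveDatum k} {K : Type u} [Field K] [Algebra 𝒞.B01 K]
  [Algebra k K] [IsFractionRing 𝒞.B01 K] [IsScalarTower k 𝒞.B01 K] {L L' L'' : Triple 𝒞 k}

namespace Emb

variable (e : Emb L K) (e' : Emb L' K) (e'' : Emb L'' K)

/-- the additive map `P0 → K` -/
noncomputable def φ0 : L.P0 →+ K := e.φ.comp L.r0.toAddMonoidHom

/-- the additive map `P1 → K` -/
noncomputable def φ1 : L.P1 →+ K := e.φ.comp L.r1.toAddMonoidHom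

theorem φ0_apply (p : L.P0) : e.φ0 p = e.φ (L.r0 p) := rfl

theorem φ1_apply (p : L.P1) : e.φ1 p = e.φ (L.r1 p) := rfl

theorem φ0_smul (c : k ⊗[k] 𝒞.B0) (p : L.P0) : e.φ0 (c • p) = toK0 𝒞 K c * e.φ0 p :=
  e.φ_r0_smul c p

theorem φ1_smul (c : k ⊗[k] 𝒞.B1) (p : L.P1) : e.φ1 (c • p) = toK1 𝒞 K c * e.φ1 p :=
  e.φ_r1_smul c p

theorem φ0_injective (h : 𝒞.IsGood) : Function.Injective e.φ0 := e.lin0_injective h

theorem φ1_injective (h : 𝒞.IsGood) : Function.Injective e.φ1 := e.lin1_injective h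

theorem φ0_mem (p : L.P0) : e.φ0 p ∈ e.I0 := (e.mem_I0 _).2 ⟨p, rfl⟩

theorem φ1_mem (p : L.P1) : e.φ1 p ∈ e.I1 := (e.mem_I1 _).2 ⟨p, rfl⟩

theorem φ_mem (m : L.P01) : e.φ m ∈ e.I01 := (e.mem_I01 _).2 ⟨m, rfl⟩

theorem exists_x0_pow_mul_mem {y : K} (hy : y ∈ e.I01) :
    ∃ n : ℕ, b0K 𝒞 K 𝒞.x0 ^ n * y ∈ e.I0 := by
  obtain ⟨m, rfl⟩ := (e.mem_I01 _).1 hy
  obtain ⟨n, p, hp⟩ := L.surj0 m
  refine ⟨n, (e.mem_I0 _).2 ⟨p, ?_⟩⟩
  rw [← hp, e.lin, FracData.toK_x0_pow]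

theorem exists_z1_pow_mul_mem {y : K} (hy : y ∈ e.I01) :
    ∃ n : ℕ, b1K 𝒞 K 𝒞.z1 ^ n * y ∈ e.I1 := by
  obtain ⟨m, rfl⟩ := (e.mem_I01 _).1 hy
  obtain ⟨n, p, hp⟩ := L.surj1 m
  refine ⟨n, (e.mem_I1 _).2 ⟨p, ?_⟩⟩
  rw [← hp, e.lin, FracData.toK_z1_pow]

theorem z1_pow_mul_mem_I01 {y : K} (hy : y ∈ e.I01) (n : ℕ) :
    b1K 𝒞 K 𝒞.z1 ^ n * y ∈ e.I01 := by
  rw [← map_pow, b1K_apply]
  exact e.algebraMap_mul_mem _ hy

theorem x0_pow_mul_mem_I01 {y : K} (hy : y ∈ e.I01) (n : ℕ) :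
    b0K 𝒞 K 𝒞.x0 ^ n * y ∈ e.I01 := by
  rw [← map_pow, b0K_apply]
  exact e.algebraMap_mul_mem _ hy

/-- `a` is the scalar of a morphism `L → L'`: `a I0 ⊆ I0'` and `a I1 ⊆ I1'`. -/
def IsHomScalar (a : K) : Prop :=
  (∀ y ∈ e.I0, a * y ∈ e'.I0) ∧ (∀ y ∈ e.I1, a * y ∈ e'.I1)

variable {e e'}

theorem IsHomScalar.mul_mem_I01 {a : K} (ha : IsHomScalar e e' a) {y : K} (hy : y ∈ e.I01) :
    a * y ∈ e'.I01 := by
  obtain ⟨n, hn⟩ := e.exists_x0_pow_mul_mem hy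
  have h1 := e'.z1_pow_mul_mem_I01 (e'.I0_le (ha.1 _ hn)) n
  have h2 : b1K 𝒞 K 𝒞.z1 ^ n * (a * (b0K 𝒞 K 𝒞.x0 ^ n * y)) = a * y := by
    have h3 := b0K_x0_pow_mul_b1K_z1_pow (𝒞 := 𝒞) (K := K) n
    calc b1K 𝒞 K 𝒞.z1 ^ n * (a * (b0K 𝒞 K 𝒞.x0 ^ n * y))
        = (b0K 𝒞 K 𝒞.x0 ^ n * b1K 𝒞 K 𝒞.z1 ^ n) * (a * y) := by ring
      _ = a * y := by rw [h3, one_mul]
  rwa [h2] at h1

variable (e e')

/-- the map `p ↦ a * e p` on `P0` -/
noncomputable def mulφ0 (a : K) : L.P0 →+ K := (AddMonoidHom.mulLeft a).comp e.φ0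

/-- the map `p ↦ a * e p` on `P1` -/
noncomputable def mulφ1 (a : K) : L.P1 →+ K := (AddMonoidHom.mulLeft a).comp e.φ1

/-- the map `p ↦ a * e p` on `P01` -/
noncomputable def mulφ (a : K) : L.P01 →+ K := (AddMonoidHom.mulLeft a).comp e.φ

theorem mulφ0_apply (a : K) (p : L.P0) : e.mulφ0 a p = a * e.φ0 p := rfl

theorem mulφ1_apply (a : K) (p : L.P1) : e.mulφ1 a p = a * e.φ1 p := rfl

theorem mulφ_apply (a : K) (p : L.P01) : e.mulφ a p = a * e.φ p := rfl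

theorem mulφ0_smul (a : K) (c : k ⊗[k] 𝒞.B0) (p : L.P0) :
    e.mulφ0 a (c • p) = toK0 𝒞 K c * e.mulφ0 a p := by
  rw [mulφ0_apply, mulφ0_apply, e.φ0_smul]; ring

theorem mulφ1_smul (a : K) (c : k ⊗[k] 𝒞.B1) (p : L.P1) :
    e.mulφ1 a (c • p) = toK1 𝒞 K c * e.mulφ1 a p := by
  rw [mulφ1_apply, mulφ1_apply, e.φ1_smul]; ring

theorem mulφ_smul (a : K) (c : k ⊗[k] 𝒞.B01) (p : L.P01) :
    e.mulφ a (c • p) = toK 𝒞 K c * e.mulφ a p := by
  rw [mulφ_apply, mulφ_apply, e.lin]; ring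

variable {e e'}

theorem IsHomScalar.ex0 {a : K} (ha : IsHomScalar e e' a) (p : L.P0) :
    ∃ p' : L'.P0, e'.φ0 p' = e.mulφ0 a p :=
  (e'.mem_I0 _).1 (ha.1 _ (e.φ0_mem p))

theorem IsHomScalar.ex1 {a : K} (ha : IsHomScalar e e' a) (p : L.P1) :
    ∃ p' : L'.P1, e'.φ1 p' = e.mulφ1 a p :=
  (e'.mem_I1 _).1 (ha.2 _ (e.φ1_mem p))

theorem IsHomScalar.ex01 {a : K} (ha : IsHomScalar e e' a) (m : L.P01) :
    ∃ m' : L'.P01, e'.φ m' = e.mulφ a m :=
  (e'.mem_I01 _).1 (ha.mul_mem_I01 (e.φ_mem m))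

variable (e e')

/-- the morphism of a scalar on `P0` -/
noncomputable def scal0 (h : 𝒞.IsGood) (a : K) (ha : IsHomScalar e e' a) :
    L.P0 →ₗ[k ⊗[k] 𝒞.B0] L'.P0 :=
  liftLin (toK0 𝒞 K) (e.mulφ0 a) e'.φ0 (e.mulφ0_smul a) e'.φ0_smul (e'.φ0_injective h) ha.ex0

/-- the morphism of a scalar on `P1` -/
noncomputable def scal1 (h : 𝒞.IsGood) (a : K) (ha : IsHomScalar e e' a) :
    L.P1 →ₗ[k ⊗[k] 𝒞.B1] L'.P1 :=
  liftLin (toK1 𝒞 K) (e.mulφ1 a) e'.φ1 (e.mulφ1_smul a) e'.φ1_smul (e'.φ1_injective h) ha.ex1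

/-- the morphism of a scalar on `P01` -/
noncomputable def scal01 (a : K) (ha : IsHomScalar e e' a) :
    L.P01 →ₗ[k ⊗[k] 𝒞.B01] L'.P01 :=
  liftLin (toK 𝒞 K) (e.mulφ a) e'.φ (e.mulφ_smul a) e'.lin e'.inj ha.ex01

theorem scal0_spec (h : 𝒞.IsGood) (a : K) (ha : IsHomScalar e e' a) (p : L.P0) :
    e'.φ0 (scal0 e e' h a ha p) = a * e.φ0 p :=
  liftLin_spec (toK0 𝒞 K) (e.mulφ0 a) e'.φ0 (e.mulφ0_smul a) e'.φ0_smul (e'.φ0_injective h)
    ha.ex0 p

theorem scal1_spec (h : 𝒞.IsGood) (a : K) (ha : IsHomScalar e e' a) (p : L.P1) :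
    e'.φ1 (scal1 e e' h a ha p) = a * e.φ1 p :=
  liftLin_spec (toK1 𝒞 K) (e.mulφ1 a) e'.φ1 (e.mulφ1_smul a) e'.φ1_smul (e'.φ1_injective h)
    ha.ex1 p

theorem scal01_spec (a : K) (ha : IsHomScalar e e' a) (m : L.P01) :
    e'.φ (scal01 e e' a ha m) = a * e.φ m :=
  liftLin_spec (toK 𝒞 K) (e.mulφ a) e'.φ (e.mulφ_smul a) e'.lin e'.inj ha.ex01 m

/-- **The morphism of a scalar.** -/
noncomputable def homOfScalar (h : 𝒞.IsGood) (a : K) (ha : IsHomScalar e e' a) :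
    Triple.Hom L L' where
  f0 := scal0 e e' h a ha
  f1 := scal1 e e' h a ha
  f01 := scal01 e e' a ha
  comm0 := fun p => e'.inj (by
    rw [scal01_spec]
    exact (scal0_spec e e' h a ha p).symm)
  comm1 := fun p => e'.inj (by
    rw [scal01_spec]
    exact (scal1_spec e e' h a ha p).symm)

theorem homOfScalar_f01 (h : 𝒞.IsGood) (a : K) (ha : IsHomScalar e e' a) (m : L.P01) :
    e'.φ ((homOfScalar e e' h a ha).f01 m) = a * e.φ m :=
  scal01_spec e e' a ha m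

theorem homOfScalar_f0 (h : 𝒞.IsGood) (a : K) (ha : IsHomScalar e e' a) (p : L.P0) :
    e'.φ0 ((homOfScalar e e' h a ha).f0 p) = a * e.φ0 p :=
  scal0_spec e e' h a ha p

theorem homOfScalar_f1 (h : 𝒞.IsGood) (a : K) (ha : IsHomScalar e e' a) (p : L.P1) :
    e'.φ1 ((homOfScalar e e' h a ha).f1 p) = a * e.φ1 p :=
  scal1_spec e e' h a ha p

/-- `a` is the scalar of the morphism `ψ`. -/
def IsScalarOf (ψ : Triple.Hom L L') (a : K) : Prop := ∀ m : L.P01, e'.φ (ψ.f01 m) = a * e.φ m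

theorem isScalarOf_homOfScalar (h : 𝒞.IsGood) (a : K) (ha : IsHomScalar e e' a) :
    IsScalarOf e e' (homOfScalar e e' h a ha) a := homOfScalar_f01 e e' h a ha

variable {e e'}

theorem IsScalarOf.f0 {ψ : Triple.Hom L L'} {a : K} (hs : IsScalarOf e e' ψ a) (p : L.P0) :
    e'.φ0 (ψ.f0 p) = a * e.φ0 p := by
  rw [φ0_apply, ← ψ.comm0, hs, φ0_apply]

theorem IsScalarOf.f1 {ψ : Triple.Hom L L'} {a : K} (hs : IsScalarOf e e' ψ a) (p : L.P1) :
    e'.φ1 (ψ.f1 p) = a * e.φ1 p := by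
  rw [φ1_apply, ← ψ.comm1, hs, φ1_apply]

theorem IsScalarOf.isHomScalar {ψ : Triple.Hom L L'} {a : K} (hs : IsScalarOf e e' ψ a) :
    IsHomScalar e e' a := by
  constructor
  · intro y hy
    obtain ⟨p, rfl⟩ := (e.mem_I0 _).1 hy
    exact (e'.mem_I0 _).2 ⟨ψ.f0 p, hs.f0 p⟩
  · intro y hy
    obtain ⟨p, rfl⟩ := (e.mem_I1 _).1 hy
    exact (e'.mem_I1 _).2 ⟨ψ.f1 p, hs.f1 p⟩

variable (e e')

/-- **Every morphism is a scalar.** -/
theorem exists_scalar (ψ : Triple.Hom L L') : ∃ a : K, IsScalarOf e e' ψ a := by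
  by_cases hne : ∃ m0 : L.P01, m0 ≠ 0
  · obtain ⟨m0, hm0⟩ := hne
    have hf0 : e.φ m0 ≠ 0 := fun h0 => hm0 (e.inj (h0.trans (map_zero _).symm))
    refine ⟨e'.φ (ψ.f01 m0) / e.φ m0, fun m => ?_⟩
    obtain ⟨p, s, hs, hps⟩ := IsFractionRing.div_surjective (A := 𝒞.B01) (e.φ m / e.φ m0)
    haveI : Nontrivial 𝒞.B01 := (algebraMap 𝒞.B01 K).domain_nontrivial
    have hs' : algebraMap 𝒞.B01 K s ≠ 0 :=
      IsFractionRing.to_map_ne_zero_of_mem_nonZeroDivisors hs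
    have h1 : algebraMap 𝒞.B01 K s * e.φ m = algebraMap 𝒞.B01 K p * e.φ m0 := by
      field_simp at hps
      linear_combination -hps
    have h2 : ((1 : k) ⊗ₜ[k] s : k ⊗[k] 𝒞.B01) • m = ((1 : k) ⊗ₜ[k] p : k ⊗[k] 𝒞.B01) • m0 := by
      apply e.inj
      rw [e.lin, e.lin, toK_tmul, toK_tmul, one_smul, one_smul, h1]
    have h3 := congrArg (fun x => e'.φ (ψ.f01 x)) h2
    simp only [map_smul, e'.lin, toK_tmul, one_smul] at h3
    field_simp
    have h4 : e'.φ (ψ.f01 m) * algebraMap 𝒞.B01 K s * e.φ m0 =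
        e'.φ (ψ.f01 m0) * (algebraMap 𝒞.B01 K s * e.φ m) := by
      rw [h1]
      linear_combination (e.φ m0) * h3
    have h5 : algebraMap 𝒞.B01 K s * (e'.φ (ψ.f01 m) * e.φ m0) =
        algebraMap 𝒞.B01 K s * (e'.φ (ψ.f01 m0) * e.φ m) := by
      linear_combination h4
    exact mul_left_cancel₀ hs' h5
  · simp only [not_exists, not_not] at hne
    refine ⟨0, fun m => ?_⟩
    rw [hne m, map_zero, map_zero, map_zero, mul_zero]

theorem isScalarOf_unique (h : 𝒞.IsGood) {ψ : Triple.Hom L L'} {a b : K}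
    (ha : IsScalarOf e e' ψ a) (hb : IsScalarOf e e' ψ b) : a = b := by
  obtain ⟨y, hy, hy0⟩ := Submodule.exists_mem_ne_zero_of_ne_bot (e.I0_ne_bot h)
  obtain ⟨p, rfl⟩ := (e.mem_I0 _).1 hy
  have h1 := ha (L.r0 p)
  rw [hb (L.r0 p)] at h1
  exact (mul_right_cancel₀ hy0 h1).symm

theorem isScalarOf_comp {ψ : Triple.Hom L L'} {ψ' : Triple.Hom L' L''} {a b : K}
    (ha : IsScalarOf e e' ψ a) (hb : IsScalarOf e' e'' ψ' b) (χ : Triple.Hom L L'')
    (hχ : ∀ m, χ.f01 m = ψ'.f01 (ψ.f01 m)) : IsScalarOf e e'' χ (b * a) := by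
  intro m
  rw [hχ, hb, ha, mul_assoc]

/-- the scalar is nonzero iff the morphism is nonzero -/
theorem IsScalarOf.ne_zero_iff (h : 𝒞.IsGood) {ψ : Triple.Hom L L'} {a : K}
    (hs : IsScalarOf e e' ψ a) : a ≠ 0 ↔ ψ.f01 ≠ 0 := by
  constructor
  · intro ha h0
    obtain ⟨y, hy, hy0⟩ := Submodule.exists_mem_ne_zero_of_ne_bot (e.I0_ne_bot h)
    obtain ⟨p, rfl⟩ := (e.mem_I0 _).1 hy
    have h1 := hs (L.r0 p)
    rw [h0, LinearMap.zero_apply, map_zero] at h1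
    exact (mul_ne_zero ha hy0) h1.symm
  · intro hψ ha
    apply hψ
    ext m
    apply e'.inj
    rw [hs m, ha, zero_mul, LinearMap.zero_apply, map_zero]

theorem IsScalarOf.injective01 {ψ : Triple.Hom L L'} {a : K}
    (hs : IsScalarOf e e' ψ a) (ha : a ≠ 0) : Function.Injective ψ.f01 := by
  intro m m' hmm
  apply e.inj
  have h1 := hs m
  rw [hmm, hs m'] at h1
  exact (mul_left_cancel₀ ha h1).symm

theorem IsScalarOf.injective0 (h : 𝒞.IsGood) {ψ : Triple.Hom L L'} {a : K}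
    (hs : IsScalarOf e e' ψ a) (ha : a ≠ 0) : Function.Injective ψ.f0 := by
  intro m m' hmm
  apply e.φ0_injective h
  have h1 := hs.f0 m
  rw [hmm, hs.f0 m'] at h1
  exact (mul_left_cancel₀ ha h1).symm

theorem IsScalarOf.injective1 (h : 𝒞.IsGood) {ψ : Triple.Hom L L'} {a : K}
    (hs : IsScalarOf e e' ψ a) (ha : a ≠ 0) : Function.Injective ψ.f1 := by
  intro m m' hmm
  apply e.φ1_injective h
  have h1 := hs.f1 m
  rw [hmm, hs.f1 m'] at h1
  exact (mul_left_cancel₀ ha h1).symm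

/-- **The isomorphism of an invertible scalar.** -/
noncomputable def isoOfScalar (h : 𝒞.IsGood) (a : K) (ha0 : a ≠ 0) (ha : IsHomScalar e e' a)
    (ha' : IsHomScalar e' e a⁻¹) : Triple.Iso L L' where
  e0 := LinearEquiv.ofLinearMap (homOfScalar e e' h a ha).f0 (homOfScalar e' e h a⁻¹ ha').f0
    (LinearMap.ext fun p => e'.φ0_injective h (by
      rw [LinearMap.comp_apply, homOfScalar_f0, homOfScalar_f0, LinearMap.id_apply,
        ← mul_assoc, mul_inv_cancel₀ ha0, one_mul]))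
    (LinearMap.ext fun p => e.φ0_injective h (by
      rw [LinearMap.comp_apply, homOfScalar_f0, homOfScalar_f0, LinearMap.id_apply,
        ← mul_assoc, inv_mul_cancel₀ ha0, one_mul]))
  e1 := LinearEquiv.ofLinearMap (homOfScalar e e' h a ha).f1 (homOfScalar e' e h a⁻¹ ha').f1
    (LinearMap.ext fun p => e'.φ1_injective h (by
      rw [LinearMap.comp_apply, homOfScalar_f1, homOfScalar_f1, LinearMap.id_apply,
        ← mul_assoc, mul_inv_cancel₀ ha0, one_mul]))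
    (LinearMap.ext fun p => e.φ1_injective h (by
      rw [LinearMap.comp_apply, homOfScalar_f1, homOfScalar_f1, LinearMap.id_apply,
        ← mul_assoc, inv_mul_cancel₀ ha0, one_mul]))
  e01 := LinearEquiv.ofLinearMap (homOfScalar e e' h a ha).f01 (homOfScalar e' e h a⁻¹ ha').f01
    (LinearMap.ext fun p => e'.inj (by
      rw [LinearMap.comp_apply, homOfScalar_f01, homOfScalar_f01, LinearMap.id_apply,
        ← mul_assoc, mul_inv_cancel₀ ha0, one_mul]))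
    (LinearMap.ext fun p => e.inj (by
      rw [LinearMap.comp_apply, homOfScalar_f01, homOfScalar_f01, LinearMap.id_apply,
        ← mul_assoc, inv_mul_cancel₀ ha0, one_mul]))
  comm0 := (homOfScalar e e' h a ha).comm0
  comm1 := (homOfScalar e e' h a ha).comm1

/-- the morphism underlying an isomorphism -/
def _root_.Fermat.Agent.S25.Num.H9.isoHom (ι : Triple.Iso L L') : Triple.Hom L L' where
  f0 := ι.e0.toLinearMap
  f1 := ι.e1.toLinearMap
  f01 := ι.e01.toLinearMap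
  comm0 := ι.comm0
  comm1 := ι.comm1

/-- the scalar of an isomorphism -/
theorem exists_scalar_iso (h : 𝒞.IsGood) (ι : Triple.Iso L L') :
    ∃ a : K, a ≠ 0 ∧ IsScalarOf e e' (isoHom ι) a ∧ IsHomScalar e e' a ∧
      IsHomScalar e' e a⁻¹ := by
  obtain ⟨a, ha⟩ := exists_scalar e e' (isoHom ι)
  have ha0 : a ≠ 0 := by
    rw [IsScalarOf.ne_zero_iff e e' h ha]
    intro h0
    obtain ⟨y, hy, hy0⟩ := Submodule.exists_mem_ne_zero_of_ne_bot (e.I0_ne_bot h)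
    obtain ⟨p, rfl⟩ := (e.mem_I0 _).1 hy
    have h1 : ι.e01 (L.r0 p) = 0 := by
      have := congrArg (fun f => f (L.r0 p)) h0
      exact this
    have h2 : L.r0 p = 0 := ι.e01.injective (h1.trans (map_zero _).symm)
    apply hy0
    change e.φ (L.r0 p) = 0
    rw [h2, map_zero]
  refine ⟨a, ha0, ha, ha.isHomScalar, ?_, ?_⟩
  · intro y hy
    obtain ⟨p, rfl⟩ := (e'.mem_I0 _).1 hy
    refine (e.mem_I0 _).2 ⟨ι.e0.symm p, ?_⟩
    have h1 := ha.f0 (ι.e0.symm p)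
    have h2 : (isoHom ι).f0 (ι.e0.symm p) = p := ι.e0.apply_symm_apply p
    rw [h2] at h1
    change e.φ0 _ = _
    change _ = a⁻¹ * e'.φ0 p
    rw [h1, ← mul_assoc, inv_mul_cancel₀ ha0, one_mul]
  · intro y hy
    obtain ⟨p, rfl⟩ := (e'.mem_I1 _).1 hy
    refine (e.mem_I1 _).2 ⟨ι.e1.symm p, ?_⟩
    have h1 := ha.f1 (ι.e1.symm p)
    have h2 : (isoHom ι).f1 (ι.e1.symm p) = p := ι.e1.apply_symm_apply p
    rw [h2] at h1
    change e.φ1 _ = _
    change _ = a⁻¹ * e'.φ1 p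
    rw [h1, ← mul_assoc, inv_mul_cancel₀ ha0, one_mul]

/-- **Iso ⟺ scaling.** -/
theorem nonempty_iso_iff (h : 𝒞.IsGood) :
    Nonempty (Triple.Iso L L') ↔
      ∃ a : K, a ≠ 0 ∧ IsHomScalar e e' a ∧ IsHomScalar e' e a⁻¹ := by
  constructor
  · rintro ⟨ι⟩
    obtain ⟨a, ha0, -, h1, h2⟩ := exists_scalar_iso e e' h ι
    exact ⟨a, ha0, h1, h2⟩
  · rintro ⟨a, ha0, h1, h2⟩
    exact ⟨isoOfScalar e e' h a ha0 h1 h2⟩

end Emb

end Fermat.Agent.S25.Num.H9
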