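import Mathlib
import Fermat.Agent.S25.Num.Defs
import Fermat.Agent.S25.Num.H9_Scal

/-!
# S25, package NUM, leaf NUM-TWEX part 1 (helper9): ideals and their inverses inside `K`

Generic part (`β : B →ₐ[k] K`, `B` Dedekind with fraction field `K`):
`sc a X` (scaling), `idl β J` (image of an ideal), `cinv β J` (the inverse `(B : J)`),
`idl_mul_cinv : J · J⁻¹ = B`, `idl_cancel`.
Then the operations on fractional data: `FracData.mul`, `FracData.ofEff`, `FracData.invEff`.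
-/

set_option autoImplicit false
set_option linter.style.haveILetI false
set_option linter.unusedSectionVars false

universe u

open TensorProduct nonZeroDivisors

namespace Fermat.Agent.S25.Num.H9

open Fermat.Agent.S25 LB

/-! ## Generic part -/

section Gen

variable {k : Type u} [Field k] {K : Type u} [Field K] [Algebra k K]

/-- the submodule `a X` -/
noncomputable def sc (a : K) (X : Submodule k K) : Submodule k K :=
  X.map (LinearMap.mulLeft k a)

theorem mem_sc {a : K} {X : Submodule k K} {y : K} : y ∈ sc a X ↔ ∃ x ∈ X, a * x = y := by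
  rw [sc, Submodule.mem_map]
  rfl

theorem mul_mem_sc (a : K) {X : Submodule k K} {x : K} (hx : x ∈ X) : a * x ∈ sc a X :=
  mem_sc.2 ⟨x, hx, rfl⟩

theorem sc_eq_span_mul (a : K) (X : Submodule k K) : sc a X = Submodule.span k {a} * X := by
  apply le_antisymm
  · intro y hy
    obtain ⟨x, hx, rfl⟩ := mem_sc.1 hy
    exact Submodule.mul_mem_mul (Submodule.mem_span_singleton_self a) hx
  · rw [Submodule.mul_le]
    intro m hm n hn
    obtain ⟨c, rfl⟩ := Submodule.mem_span_singleton.1 hm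
    exact mem_sc.2 ⟨c • n, X.smul_mem c hn, by rw [mul_smul_comm, smul_mul_assoc]⟩

theorem sc_mul (a : K) (X Y : Submodule k K) : sc a (X * Y) = X * sc a Y := by
  rw [sc_eq_span_mul, sc_eq_span_mul, mul_left_comm]

theorem sc_mul' (a : K) (X Y : Submodule k K) : sc a (X * Y) = sc a X * Y := by
  rw [sc_eq_span_mul, sc_eq_span_mul, mul_assoc]

theorem sc_sc (a b : K) (X : Submodule k K) : sc a (sc b X) = sc (a * b) X := by
  ext y
  simp only [mem_sc]
  constructor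
  · rintro ⟨x, ⟨x', hx', rfl⟩, rfl⟩
    exact ⟨x', hx', by rw [mul_assoc]⟩
  · rintro ⟨x, hx, rfl⟩
    exact ⟨b * x, ⟨x, hx, rfl⟩, by rw [mul_assoc]⟩

theorem sc_one (X : Submodule k K) : sc (1 : K) X = X := by
  ext y
  simp only [mem_sc, one_mul, exists_eq_right]

theorem sc_inv_sc {a : K} (ha : a ≠ 0) (X : Submodule k K) : sc a⁻¹ (sc a X) = X := by
  rw [sc_sc, inv_mul_cancel₀ ha, sc_one]

theorem sc_sc_inv {a : K} (ha : a ≠ 0) (X : Submodule k K) : sc a (sc a⁻¹ X) = X := by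
  rw [sc_sc, mul_inv_cancel₀ ha, sc_one]

theorem sc_le_iff {a : K} {X Y : Submodule k K} : sc a X ≤ Y ↔ ∀ x ∈ X, a * x ∈ Y := by
  constructor
  · intro h x hx
    exact h (mul_mem_sc a hx)
  · intro h y hy
    obtain ⟨x, hx, rfl⟩ := mem_sc.1 hy
    exact h x hx

theorem sc_mono (a : K) {X Y : Submodule k K} (h : X ≤ Y) : sc a X ≤ sc a Y :=
  Submodule.map_mono h

theorem sc_ne_bot {a : K} (ha : a ≠ 0) {X : Submodule k K} (hX : X ≠ ⊥) : sc a X ≠ ⊥ := by
  obtain ⟨x, hx, hx0⟩ := Submodule.exists_mem_ne_zero_of_ne_bot hX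
  intro h0
  have h1 : a * x ∈ sc a X := mul_mem_sc a hx
  rw [h0, Submodule.mem_bot] at h1
  exact (mul_ne_zero ha hx0) h1

variable {B : Type u} [CommRing B] [Algebra k B] (β : B →ₐ[k] K)

/-- `X` is stable under the multiplication by `B`. -/
def StableUnder (X : Submodule k K) : Prop := ∀ (b : B) (y : K), y ∈ X → β b * y ∈ X

/-- the image in `K` of an ideal of `B` -/
noncomputable def idl (J : Ideal B) : Submodule k K :=
  (J.restrictScalars k).map β.toLinearMap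

/-- the inverse `(B : J)` in `K` of an ideal of `B` -/
noncomputable def cinv (J : Ideal B) : Submodule k K where
  carrier := {y | ∀ j ∈ J, β j * y ∈ idl β (⊤ : Ideal B)}
  add_mem' := fun ha hb j hj => by rw [mul_add]; exact add_mem (ha j hj) (hb j hj)
  zero_mem' := fun j _ => by rw [mul_zero]; exact zero_mem _
  smul_mem' := fun c y hy j hj => by rw [mul_smul_comm]; exact Submodule.smul_mem _ c (hy j hj)

variable {β}

theorem mem_idl {J : Ideal B} {y : K} : y ∈ idl β J ↔ ∃ j ∈ J, β j = y := by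
  rw [idl, Submodule.mem_map]
  rfl

theorem map_mem_idl {J : Ideal B} {j : B} (hj : j ∈ J) : β j ∈ idl β J := mem_idl.2 ⟨j, hj, rfl⟩

theorem mem_idl_top {y : K} : y ∈ idl β (⊤ : Ideal B) ↔ ∃ b : B, β b = y := by
  rw [mem_idl]
  exact ⟨fun ⟨j, _, h⟩ => ⟨j, h⟩, fun ⟨j, h⟩ => ⟨j, trivial, h⟩⟩

theorem one_mem_idl_top : (1 : K) ∈ idl β (⊤ : Ideal B) := mem_idl_top.2 ⟨1, map_one β⟩

theorem mem_cinv {J : Ideal B} {y : K} :
    y ∈ cinv β J ↔ ∀ j ∈ J, β j * y ∈ idl β (⊤ : Ideal B) := Iff.rfl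

theorem idl_mono {I J : Ideal B} (h : I ≤ J) : idl β I ≤ idl β J := by
  intro y hy
  obtain ⟨j, hj, rfl⟩ := mem_idl.1 hy
  exact map_mem_idl (h hj)

theorem idl_mul (I J : Ideal B) : idl β (I * J) = idl β I * idl β J := by
  apply le_antisymm
  · intro y hy
    obtain ⟨j, hj, rfl⟩ := mem_idl.1 hy
    refine Submodule.mul_induction_on hj ?_ ?_
    · intro a ha b hb
      rw [map_mul]
      exact Submodule.mul_mem_mul (map_mem_idl ha) (map_mem_idl hb)
    · intro a b ha hb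
      rw [map_add]
      exact add_mem ha hb
  · rw [Submodule.mul_le]
    intro m hm n hn
    obtain ⟨a, ha, rfl⟩ := mem_idl.1 hm
    obtain ⟨b, hb, rfl⟩ := mem_idl.1 hn
    rw [← map_mul]
    exact map_mem_idl (Ideal.mul_mem_mul ha hb)

theorem stableUnder_idl (J : Ideal B) : StableUnder β (idl β J) := by
  intro b y hy
  obtain ⟨j, hj, rfl⟩ := mem_idl.1 hy
  rw [← map_mul]
  exact map_mem_idl (J.mul_mem_left b hj)

theorem stableUnder_cinv (J : Ideal B) : StableUnder β (cinv β J) := by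
  intro b y hy j hj
  rw [mul_left_comm]
  exact stableUnder_idl ⊤ b _ (hy j hj)

theorem StableUnder.mul {X : Submodule k K} (hX : StableUnder β X) (Y : Submodule k K) :
    StableUnder β (X * Y) := by
  intro b z hz
  refine Submodule.mul_induction_on hz ?_ ?_
  · intro x hx y hy
    rw [← mul_assoc]
    exact Submodule.mul_mem_mul (hX b x hx) hy
  · intro x y hx hy
    rw [mul_add]
    exact add_mem hx hy

theorem StableUnder.sc {X : Submodule k K} (hX : StableUnder β X) (a : K) :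
    StableUnder β (sc a X) := by
  intro b z hz
  obtain ⟨x, hx, rfl⟩ := mem_sc.1 hz
  rw [mul_left_comm]
  exact mul_mem_sc a (hX b x hx)

theorem StableUnder.idl_mul_le {X : Submodule k K} (hX : StableUnder β X) (J : Ideal B) :
    idl β J * X ≤ X := by
  rw [Submodule.mul_le]
  intro m hm n hn
  obtain ⟨j, -, rfl⟩ := mem_idl.1 hm
  exact hX j n hn

theorem StableUnder.idl_top_mul {X : Submodule k K} (hX : StableUnder β X) :
    idl β (⊤ : Ideal B) * X = X := by
  apply le_antisymm (hX.idl_mul_le ⊤)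
  intro x hx
  have := Submodule.mul_mem_mul (one_mem_idl_top (β := β)) hx
  rwa [one_mul] at this

theorem idl_mul_cinv_le (J : Ideal B) : idl β J * cinv β J ≤ idl β (⊤ : Ideal B) := by
  rw [Submodule.mul_le]
  intro m hm n hn
  obtain ⟨j, hj, rfl⟩ := mem_idl.1 hm
  exact hn j hj

theorem idl_top_le_cinv (J : Ideal B) : idl β (⊤ : Ideal B) ≤ cinv β J := by
  intro y hy j _
  exact stableUnder_idl ⊤ j y hy

theorem one_mem_cinv (J : Ideal B) : (1 : K) ∈ cinv β J := idl_top_le_cinv J one_mem_idl_top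

/-- **Invertibility of nonzero ideals of a Dedekind domain, inside `K`.** -/
theorem one_mem_idl_mul_cinv [IsDedekindDomain B] (hinj : Function.Injective β)
    (hfrac : ∀ z : K, ∃ x y : B, z = β x / β y) {J : Ideal B} (hJ : J ≠ ⊥) :
    (1 : K) ∈ idl β J * cinv β J := by
  letI : Algebra B K := β.toRingHom.toAlgebra
  haveI : FaithfulSMul B K := (faithfulSMul_iff_algebraMap_injective _ _).mpr hinj
  haveI : IsFractionRing B K := IsFractionRing.of_field B K hfrac
  have hI : (J : FractionalIdeal B⁰ K) ≠ 0 := FractionalIdeal.coeIdeal_ne_zero.mpr hJ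
  have h1 : (J : FractionalIdeal B⁰ K) * (J : FractionalIdeal B⁰ K)⁻¹ = 1 :=
    FractionalIdeal.coe_ideal_mul_inv J hJ
  have h2 : (1 : K) ∈ (J : FractionalIdeal B⁰ K) * (J : FractionalIdeal B⁰ K)⁻¹ := by
    rw [h1]; exact FractionalIdeal.one_mem_one _
  refine FractionalIdeal.mul_induction_on h2 ?_ ?_
  · intro x hx y hy
    obtain ⟨j, hj, rfl⟩ := (FractionalIdeal.mem_coeIdeal _).1 hx
    refine Submodule.mul_mem_mul (map_mem_idl hj) ?_
    intro j' hj'
    have h3 := (FractionalIdeal.mem_inv_iff hI).1 hy (algebraMap B K j')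
      (FractionalIdeal.mem_coeIdeal_of_mem _ hj')
    obtain ⟨b, hb⟩ := (FractionalIdeal.mem_one_iff _).1 h3
    refine mem_idl_top.2 ⟨b, ?_⟩
    rw [mul_comm]
    exact hb
  · intro x y hx hy
    exact add_mem hx hy

theorem idl_mul_cinv [IsDedekindDomain B] (hinj : Function.Injective β)
    (hfrac : ∀ z : K, ∃ x y : B, z = β x / β y) {J : Ideal B} (hJ : J ≠ ⊥) :
    idl β J * cinv β J = idl β (⊤ : Ideal B) := by
  apply le_antisymm (idl_mul_cinv_le J)
  intro y hy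
  have h1 := one_mem_idl_mul_cinv hinj hfrac hJ
  have h2 := ((stableUnder_idl (β := β) J).mul (cinv β J))
  obtain ⟨b, rfl⟩ := mem_idl_top.1 hy
  have := h2 b 1 h1
  rwa [mul_one] at this

theorem cinv_mul_idl_mul [IsDedekindDomain B] (hinj : Function.Injective β)
    (hfrac : ∀ z : K, ∃ x y : B, z = β x / β y) {J : Ideal B} (hJ : J ≠ ⊥)
    {X : Submodule k K} (hX : StableUnder β X) : cinv β J * (idl β J * X) = X := by
  rw [← mul_assoc, mul_comm (cinv β J), idl_mul_cinv hinj hfrac hJ, hX.idl_top_mul]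

theorem idl_mul_cinv_mul [IsDedekindDomain B] (hinj : Function.Injective β)
    (hfrac : ∀ z : K, ∃ x y : B, z = β x / β y) {J : Ideal B} (hJ : J ≠ ⊥)
    {X : Submodule k K} (hX : StableUnder β X) : idl β J * (cinv β J * X) = X := by
  rw [← mul_assoc, idl_mul_cinv hinj hfrac hJ, hX.idl_top_mul]

/-- cancellation of a nonzero ideal -/
theorem idl_cancel [IsDedekindDomain B] (hinj : Function.Injective β)
    (hfrac : ∀ z : K, ∃ x y : B, z = β x / β y) {J : Ideal B} (hJ : J ≠ ⊥)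
    {X Y : Submodule k K} (hX : StableUnder β X) (hY : StableUnder β Y)
    (h : idl β J * X = idl β J * Y) : X = Y := by
  rw [← cinv_mul_idl_mul hinj hfrac hJ hX, h, cinv_mul_idl_mul hinj hfrac hJ hY]

theorem idl_ne_bot (hinj : Function.Injective β) {J : Ideal B} (hJ : J ≠ ⊥) : idl β J ≠ ⊥ := by
  obtain ⟨j, hj, hj0⟩ := Submodule.exists_mem_ne_zero_of_ne_bot hJ
  intro h0
  have h1 : β j ∈ idl β J := map_mem_idl hj
  rw [h0, Submodule.mem_bot] at h1
  exact hj0 (hinj (h1.trans (map_zero β).symm))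

theorem mul_ne_bot' {X Y : Submodule k K} (hX : X ≠ ⊥) (hY : Y ≠ ⊥) : X * Y ≠ ⊥ := by
  obtain ⟨x, hx, hx0⟩ := Submodule.exists_mem_ne_zero_of_ne_bot hX
  obtain ⟨y, hy, hy0⟩ := Submodule.exists_mem_ne_zero_of_ne_bot hY
  intro h0
  have h1 : x * y ∈ X * Y := Submodule.mul_mem_mul hx hy
  rw [h0, Submodule.mem_bot] at h1
  exact (mul_ne_zero hx0 hy0) h1

variable (β) in
/-- `X` has a common denominator in `B`. -/
def HasDen (X : Submodule k K) : Prop :=
  ∃ d : B, d ≠ 0 ∧ ∀ y ∈ X, ∃ b : B, β d * y = β b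

theorem HasDen.mul [IsDomain B] {X Y : Submodule k K} (hX : HasDen β X) (hY : HasDen β Y) :
    HasDen β (X * Y) := by
  obtain ⟨d, hd, hdX⟩ := hX
  obtain ⟨d', hd', hdY⟩ := hY
  refine ⟨d * d', mul_ne_zero hd hd', fun z hz => ?_⟩
  refine Submodule.mul_induction_on hz ?_ ?_
  · intro x hx y hy
    obtain ⟨b, hb⟩ := hdX x hx
    obtain ⟨b', hb'⟩ := hdY y hy
    refine ⟨b * b', ?_⟩
    rw [map_mul, map_mul, ← hb, ← hb']
    ring
  · rintro x y ⟨b, hb⟩ ⟨b', hb'⟩
    exact ⟨b + b', by rw [mul_add, hb, hb', map_add]⟩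

theorem hasDen_idl [Nontrivial B] (J : Ideal B) : HasDen β (idl β J) := by
  refine ⟨1, one_ne_zero, fun y hy => ?_⟩
  obtain ⟨j, -, rfl⟩ := mem_idl.1 hy
  exact ⟨j, by rw [map_one, one_mul]⟩

theorem hasDen_cinv {J : Ideal B} (hJ : J ≠ ⊥) : HasDen β (cinv β J) := by
  obtain ⟨j, hj, hj0⟩ := Submodule.exists_mem_ne_zero_of_ne_bot hJ
  refine ⟨j, hj0, fun y hy => ?_⟩
  obtain ⟨b, hb⟩ := mem_idl_top.1 (hy j hj)
  exact ⟨b, hb.symm⟩

end Gen

/-! ## Two charts -/

section Two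

variable {k : Type u} [Field k] {K : Type u} [Field K] [Algebra k K]
  {B B' C : Type u} [CommRing B] [CommRing B'] [CommRing C] [Algebra k B] [Algebra k B']
  [Algebra k C] (i : B →ₐ[k] C) (i' : B' →ₐ[k] C) (γ : C →ₐ[k] K) (z : B')

/-- every element of `X` lands in `X'` after multiplication by a power of `z` -/
def To (X X' : Submodule k K) : Prop :=
  ∀ y ∈ X, ∃ n : ℕ, (γ.comp i') z ^ n * y ∈ X'

variable {i i' γ z}

theorem To.mul {X X' Y Y' : Submodule k K} (hX : To i' γ z X X') (hY : To i' γ z Y Y')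
    (hst : StableUnder (γ.comp i') X') : To i' γ z (X * Y) (X' * Y') := by
  intro w hw
  refine Submodule.mul_induction_on hw ?_ ?_
  · intro x hx y hy
    obtain ⟨n, hn⟩ := hX x hx
    obtain ⟨m, hm⟩ := hY y hy
    refine ⟨n + m, ?_⟩
    have : (γ.comp i') z ^ (n + m) * (x * y) =
        ((γ.comp i') z ^ n * x) * ((γ.comp i') z ^ m * y) := by ring
    rw [this]
    exact Submodule.mul_mem_mul hn hm
  · rintro x y ⟨n, hn⟩ ⟨m, hm⟩
    refine ⟨n + m, ?_⟩
    have hst' := hst.mul Y'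
    have h1 := hst' (z ^ m) _ hn
    have h2 := hst' (z ^ n) _ hm
    have : (γ.comp i') z ^ (n + m) * (x + y) =
        (γ.comp i') (z ^ m) * ((γ.comp i') z ^ n * x) +
          (γ.comp i') (z ^ n) * ((γ.comp i') z ^ m * y) := by
      rw [map_pow, map_pow]; ring
    rw [this]
    exact add_mem h1 h2

/-- every element of `C`, mapped to `K`, is `z^(-n) b'`. -/
theorem exists_pow_mul_eq (loc' : @IsLocalization.Away B' _ z C _ i'.toRingHom.toAlgebra)
    (c : C) : ∃ (n : ℕ) (b' : B'), (γ.comp i') z ^ n * γ c = (γ.comp i') b' := by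
  letI : Algebra B' C := i'.toRingHom.toAlgebra
  haveI : IsLocalization.Away z C := loc'
  obtain ⟨⟨a0, ⟨_, n, rfl⟩⟩, ha⟩ := IsLocalization.surj (Submonoid.powers z) c
  have ha' : c * i' (z ^ n) = i' a0 := ha
  refine ⟨n, a0, ?_⟩
  rw [AlgHom.comp_apply, AlgHom.comp_apply, ← ha', map_mul, map_pow, map_pow, mul_comm]

theorem to_idl (loc' : @IsLocalization.Away B' _ z C _ i'.toRingHom.toAlgebra)
    {J : Ideal B} {J' : Ideal B'} (hJ : J.map i = J'.map i') :
    To i' γ z (idl (γ.comp i) J) (idl (γ.comp i') J') := by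
  intro y hy
  obtain ⟨j, hj, rfl⟩ := mem_idl.1 hy
  letI : Algebra B' C := i'.toRingHom.toAlgebra
  haveI : IsLocalization.Away z C := loc'
  have h1 : i j ∈ Ideal.map (algebraMap B' C) J' := by
    have : i j ∈ J.map i := Ideal.mem_map_of_mem _ hj
    rw [hJ] at this
    exact this
  obtain ⟨⟨⟨j1, hj1⟩, ⟨_, n, rfl⟩⟩, hx⟩ :=
    (IsLocalization.mem_map_algebraMap_iff (Submonoid.powers z) C).1 h1
  have hx' : i j * i' (z ^ n) = i' j1 := hx
  refine ⟨n, mem_idl.2 ⟨j1, hj1, ?_⟩⟩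
  rw [AlgHom.comp_apply, AlgHom.comp_apply, AlgHom.comp_apply, ← hx', map_mul, map_pow, map_pow,
    mul_comm]

theorem mul_map_mem_range {J : Ideal B} {y : K} (hy : y ∈ cinv (γ.comp i) J) {c : C}
    (hc : c ∈ J.map i) : ∃ c' : C, y * γ c = γ c' := by
  refine Submodule.span_induction (p := fun c _ => ∃ c' : C, y * γ c = γ c') ?_ ?_ ?_ ?_ hc
  · rintro _ ⟨j, hj, rfl⟩
    obtain ⟨b, hb⟩ := mem_idl_top.1 (hy j hj)
    refine ⟨i b, ?_⟩
    rw [mul_comm]
    exact hb.symm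
  · exact ⟨0, by rw [map_zero, mul_zero]⟩
  · rintro a b _ _ ⟨a', ha'⟩ ⟨b', hb'⟩
    exact ⟨a' + b', by rw [map_add, mul_add, ha', hb', map_add]⟩
  · rintro r a _ ⟨a', ha'⟩
    refine ⟨r * a', ?_⟩
    rw [smul_eq_mul, map_mul, map_mul, ← ha']
    ring

theorem to_cinv [IsDedekindDomain B'] (hinj : Function.Injective (γ.comp i'))
    (hfrac : ∀ w : K, ∃ x y : B', w = (γ.comp i') x / (γ.comp i') y)
    (loc' : @IsLocalization.Away B' _ z C _ i'.toRingHom.toAlgebra)
    {J : Ideal B} {J' : Ideal B'} (hJ' : J' ≠ ⊥) (hJ : J.map i = J'.map i') :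
    To i' γ z (cinv (γ.comp i) J) (cinv (γ.comp i') J') := by
  intro y hy
  have key : ∀ w ∈ idl (γ.comp i') J' * cinv (γ.comp i') J',
      ∃ n : ℕ, (γ.comp i') z ^ n * (y * w) ∈ cinv (γ.comp i') J' := by
    intro w hw
    refine Submodule.mul_induction_on hw ?_ ?_
    · intro m hm v hv
      obtain ⟨j, hj, rfl⟩ := mem_idl.1 hm
      have h1 : i' j ∈ J.map i := by
        rw [hJ]; exact Ideal.mem_map_of_mem _ hj
      obtain ⟨c', hc'⟩ := mul_map_mem_range (γ := γ) hy h1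
      obtain ⟨n, b', hb'⟩ := exists_pow_mul_eq (γ := γ) loc' c'
      refine ⟨n, ?_⟩
      have : (γ.comp i') z ^ n * (y * ((γ.comp i') j * v)) = (γ.comp i') b' * v := by
        rw [← hb', ← hc', AlgHom.comp_apply, AlgHom.comp_apply]
        ring
      rw [this]
      exact stableUnder_cinv J' b' v hv
    · rintro a b ⟨n, hn⟩ ⟨m, hm⟩
      refine ⟨n + m, ?_⟩
      have hst := stableUnder_cinv (β := γ.comp i') J'
      have h1 := hst (z ^ m) _ hn
      have h2 := hst (z ^ n) _ hm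
      have : (γ.comp i') z ^ (n + m) * (y * (a + b)) =
          (γ.comp i') (z ^ m) * ((γ.comp i') z ^ n * (y * a)) +
            (γ.comp i') (z ^ n) * ((γ.comp i') z ^ m * (y * b)) := by
        rw [map_pow, map_pow]; ring
      rw [this]
      exact add_mem h1 h2
  obtain ⟨n, hn⟩ := key 1 (one_mem_idl_mul_cinv hinj hfrac hJ')
  exact ⟨n, by rwa [mul_one] at hn⟩

end Two

/-! ## The two charts of a curve datum -/

section Charts

variable {k : Type u} [Field k] {𝒞 : CurveDatum k} {K : Type u} [Field K] [Algebra 𝒞.B01 K]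
  [Algebra k K] [IsFractionRing 𝒞.B01 K] [IsScalarTower k 𝒞.B01 K]

variable (𝒞 K) in
/-- `B01 → K` as a `k`-algebra map -/
noncomputable def gA : 𝒞.B01 →ₐ[k] K := IsScalarTower.toAlgHom k 𝒞.B01 K

variable (𝒞 K) in
/-- `B0 → K` as a `k`-algebra map -/
noncomputable def b0A : 𝒞.B0 →ₐ[k] K := (gA 𝒞 K).comp 𝒞.i0

variable (𝒞 K) in
/-- `B1 → K` as a `k`-algebra map -/
noncomputable def b1A : 𝒞.B1 →ₐ[k] K := (gA 𝒞 K).comp 𝒞.i1

theorem b0A_apply (b : 𝒞.B0) : b0A 𝒞 K b = b0K 𝒞 K b := rfl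

theorem b1A_apply (b : 𝒞.B1) : b1A 𝒞 K b = b1K 𝒞 K b := rfl

theorem b0A_injective (h : 𝒞.IsGood) : Function.Injective (b0A 𝒞 K) := b0K_injective h

theorem b1A_injective (h : 𝒞.IsGood) : Function.Injective (b1A 𝒞 K) := b1K_injective h

theorem b0A_frac (h : 𝒞.IsGood) (z : K) : ∃ x y : 𝒞.B0, z = b0A 𝒞 K x / b0A 𝒞 K y := by
  obtain ⟨x, y, -, hz⟩ := exists_div_b0K h z
  exact ⟨x, y, hz⟩

theorem b1A_frac (h : 𝒞.IsGood) (z : K) : ∃ x y : 𝒞.B1, z = b1A 𝒞 K x / b1A 𝒞 K y := by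
  obtain ⟨x, y, -, hz⟩ := exists_div_b1K h z
  exact ⟨x, y, hz⟩

namespace FracData

variable (D D' : FracData 𝒞 K)

theorem stable0 : StableUnder (b0A 𝒞 K) D.J0 := D.smul0

theorem stable1 : StableUnder (b1A 𝒞 K) D.J1 := D.smul1

theorem hasDen0 : HasDen (b0A 𝒞 K) D.J0 := D.den0

theorem hasDen1 : HasDen (b1A 𝒞 K) D.J1 := D.den1

theorem to1' : To 𝒞.i1 (gA 𝒞 K) 𝒞.z1 D.J0 D.J1 := D.to1

theorem to0' : To 𝒞.i0 (gA 𝒞 K) 𝒞.x0 D.J1 D.J0 := D.to0

/-- the product of two fractional data (the tensor product of the line bundles) -/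
noncomputable def mul (h : 𝒞.IsGood) (D D' : FracData 𝒞 K) : FracData 𝒞 K where
  J0 := D.J0 * D'.J0
  J1 := D.J1 * D'.J1
  smul0 := D.stable0.mul D'.J0
  smul1 := D.stable1.mul D'.J1
  ne0 := mul_ne_bot' D.ne0 D'.ne0
  ne1 := mul_ne_bot' D.ne1 D'.ne1
  den0 := haveI := h.dom0; D.hasDen0.mul D'.hasDen0
  den1 := haveI := h.dom1; D.hasDen1.mul D'.hasDen1
  to1 := D.to1'.mul D'.to1' D.stable1
  to0 := D.to0'.mul D'.to0' D.stable0

/-- the fractional datum of `O(-D)`, `D` an effective divisor -/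
noncomputable def ofEff (h : 𝒞.IsGood) (J0 : Ideal 𝒞.B0) (J1 : Ideal 𝒞.B1)
    (hJ : IsEffDiv J0 J1) : FracData 𝒞 K where
  J0 := idl (b0A 𝒞 K) J0
  J1 := idl (b1A 𝒞 K) J1
  smul0 := stableUnder_idl J0
  smul1 := stableUnder_idl J1
  ne0 := idl_ne_bot (b0A_injective h) hJ.1
  ne1 := idl_ne_bot (b1A_injective h) hJ.2.1
  den0 := haveI := h.dom0; hasDen_idl J0
  den1 := haveI := h.dom1; hasDen_idl J1
  to1 := to_idl (γ := gA 𝒞 K) h.loc1 hJ.2.2
  to0 := to_idl (γ := gA 𝒞 K) h.loc0 hJ.2.2.symm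

/-- the fractional datum of `O(D)`, `D` an effective divisor -/
noncomputable def invEff (h : 𝒞.IsGood) (J0 : Ideal 𝒞.B0) (J1 : Ideal 𝒞.B1)
    (hJ : IsEffDiv J0 J1) : FracData 𝒞 K where
  J0 := cinv (b0A 𝒞 K) J0
  J1 := cinv (b1A 𝒞 K) J1
  smul0 := stableUnder_cinv J0
  smul1 := stableUnder_cinv J1
  ne0 := fun h0 => one_ne_zero ((Submodule.mem_bot k).1 (h0 ▸ one_mem_cinv (β := b0A 𝒞 K) J0))
  ne1 := fun h0 => one_ne_zero ((Submodule.mem_bot k).1 (h0 ▸ one_mem_cinv (β := b1A 𝒞 K) J1))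
  den0 := hasDen_cinv hJ.1
  den1 := hasDen_cinv hJ.2.1
  to1 := haveI := H50.isDedekindDomain_B1 𝒞 h
    to_cinv (γ := gA 𝒞 K) (b1A_injective h) (b1A_frac h) h.loc1 hJ.2.1 hJ.2.2
  to0 := haveI := H50.isDedekindDomain_B0 𝒞 h
    to_cinv (γ := gA 𝒞 K) (b0A_injective h) (b0A_frac h) h.loc0 hJ.1 hJ.2.2.symm

end FracData

end Charts

end Fermat.Agent.S25.Num.H9
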