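import Mathlib
import Fermat.Agent.S25.Num.H9_Idl

/-!
# S25, package NUM, leaf NUM-TWEX (helper9): twists exist, are unique and compose

Dictionary (for embedded triples `e : Emb L K`, `e' : Emb L' K`):
* `Emb.isTwistBy_iff`: a morphism of scalar `a` is the twist by `(J0, J1)` iff `a ≠ 0`,
  `a I0 = J0 I0'` and `a I1 = J1 I1'`;
* `Emb.isTwist_iff`, `Emb.nonempty_iso_iff'`.
Main result: `stmt_TWEX : Stmt_TWEX`.
-/

set_option autoImplicit false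
set_option linter.style.haveILetI false
set_option linter.unusedSectionVars false

universe u

open TensorProduct nonZeroDivisors

namespace Fermat.Agent.S25.Num.H9

open Fermat.Agent.S25 LB

variable {k : Type u} [Field k] {𝒞 : CurveDatum k} {K : Type u} [Field K] [Algebra 𝒞.B01 K]
  [Algebra k K] [IsFractionRing 𝒞.B01 K] [IsScalarTower k 𝒞.B01 K] {L L' L'' : Triple 𝒞 k}

namespace Emb

variable (e : Emb L K) (e' : Emb L' K) (e'' : Emb L'' K)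

theorem stable0 : StableUnder (b0A 𝒞 K) e.I0 := fun b _ hy => e.b0K_mul_mem b hy

theorem stable1 : StableUnder (b1A 𝒞 K) e.I1 := fun b _ hy => e.b1K_mul_mem b hy

theorem toK0_mul_mem_I0 (c : k ⊗[k] 𝒞.B0) {y : K} (hy : y ∈ e.I0) : toK0 𝒞 K c * y ∈ e.I0 := by
  obtain ⟨p, rfl⟩ := (e.mem_I0 _).1 hy
  exact (e.mem_I0 _).2 ⟨c • p, e.φ_r0_smul c p⟩

theorem toK1_mul_mem_I1 (c : k ⊗[k] 𝒞.B1) {y : K} (hy : y ∈ e.I1) : toK1 𝒞 K c * y ∈ e.I1 := by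
  obtain ⟨p, rfl⟩ := (e.mem_I1 _).1 hy
  exact (e.mem_I1 _).2 ⟨c • p, e.φ_r1_smul c p⟩

theorem toK0_mul_mem (J0 : Ideal 𝒞.B0) {c : k ⊗[k] 𝒞.B0} (hc : c ∈ ext0 J0) {y : K}
    (hy : y ∈ e.I0) : toK0 𝒞 K c * y ∈ idl (b0A 𝒞 K) J0 * e.I0 := by
  revert y
  refine Submodule.span_induction
    (p := fun c _ => ∀ {y : K}, y ∈ e.I0 → toK0 𝒞 K c * y ∈ idl (b0A 𝒞 K) J0 * e.I0)
    ?_ ?_ ?_ ?_ hc
  · rintro _ ⟨j, hj, rfl⟩ y hy
    have : toK0 𝒞 K ((Algebra.TensorProduct.includeRight : 𝒞.B0 →ₐ[k] k ⊗[k] 𝒞.B0) j) =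
        b0A 𝒞 K j := by
      change toK0 𝒞 K ((1 : k) ⊗ₜ[k] j) = _
      rw [toK0_tmul, one_smul]
      rfl
    rw [this]
    exact Submodule.mul_mem_mul (map_mem_idl hj) hy
  · intro y _
    rw [map_zero, zero_mul]
    exact zero_mem _
  · intro a b _ _ ha hb y hy
    rw [map_add, add_mul]
    exact add_mem (ha hy) (hb hy)
  · intro r a _ ha y hy
    rw [smul_eq_mul, map_mul, mul_comm (toK0 𝒞 K r), mul_assoc]
    exact ha (e.toK0_mul_mem_I0 r hy)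

theorem toK1_mul_mem (J1 : Ideal 𝒞.B1) {c : k ⊗[k] 𝒞.B1} (hc : c ∈ ext1 J1) {y : K}
    (hy : y ∈ e.I1) : toK1 𝒞 K c * y ∈ idl (b1A 𝒞 K) J1 * e.I1 := by
  revert y
  refine Submodule.span_induction
    (p := fun c _ => ∀ {y : K}, y ∈ e.I1 → toK1 𝒞 K c * y ∈ idl (b1A 𝒞 K) J1 * e.I1)
    ?_ ?_ ?_ ?_ hc
  · rintro _ ⟨j, hj, rfl⟩ y hy
    have : toK1 𝒞 K ((Algebra.TensorProduct.includeRight : 𝒞.B1 →ₐ[k] k ⊗[k] 𝒞.B1) j) =
        b1A 𝒞 K j := by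
      change toK1 𝒞 K ((1 : k) ⊗ₜ[k] j) = _
      rw [toK1_tmul, one_smul]
      rfl
    rw [this]
    exact Submodule.mul_mem_mul (map_mem_idl hj) hy
  · intro y _
    rw [map_zero, zero_mul]
    exact zero_mem _
  · intro a b _ _ ha hb y hy
    rw [map_add, add_mul]
    exact add_mem (ha hy) (hb hy)
  · intro r a _ ha y hy
    rw [smul_eq_mul, map_mul, mul_comm (toK1 𝒞 K r), mul_assoc]
    exact ha (e.toK1_mul_mem_I1 r hy)

/-- the image of `J0 P0` in `K` is `J0 I0` -/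
theorem mem_smul_top_iff0 (h : 𝒞.IsGood) (J0 : Ideal 𝒞.B0) (p : L.P0) :
    p ∈ ext0 J0 • (⊤ : Submodule (k ⊗[k] 𝒞.B0) L.P0) ↔ e.φ0 p ∈ idl (b0A 𝒞 K) J0 * e.I0 := by
  constructor
  · intro hp
    refine Submodule.smul_induction_on hp ?_ ?_
    · intro c hc q _
      rw [e.φ0_smul]
      exact e.toK0_mul_mem J0 hc (e.φ0_mem q)
    · intro x y hx hy
      rw [map_add]
      exact add_mem hx hy
  · intro hp
    have key : ∀ w ∈ idl (b0A 𝒞 K) J0 * e.I0,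
        ∃ q ∈ ext0 J0 • (⊤ : Submodule (k ⊗[k] 𝒞.B0) L.P0), e.φ0 q = w := by
      intro w hw
      refine Submodule.mul_induction_on hw ?_ ?_
      · intro m hm n hn
        obtain ⟨j, hj, rfl⟩ := mem_idl.1 hm
        obtain ⟨q, rfl⟩ := (e.mem_I0 _).1 hn
        refine ⟨((1 : k) ⊗ₜ[k] j : k ⊗[k] 𝒞.B0) • q,
          Submodule.smul_mem_smul (Ideal.mem_map_of_mem _ hj) trivial, ?_⟩
        rw [e.φ0_smul, toK0_tmul, one_smul]
        rfl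
      · rintro x y ⟨q, hq, rfl⟩ ⟨q', hq', rfl⟩
        exact ⟨q + q', add_mem hq hq', map_add _ _ _⟩
    obtain ⟨q, hq, hqe⟩ := key _ hp
    rwa [← e.φ0_injective h hqe]

/-- the image of `J1 P1` in `K` is `J1 I1` -/
theorem mem_smul_top_iff1 (h : 𝒞.IsGood) (J1 : Ideal 𝒞.B1) (p : L.P1) :
    p ∈ ext1 J1 • (⊤ : Submodule (k ⊗[k] 𝒞.B1) L.P1) ↔ e.φ1 p ∈ idl (b1A 𝒞 K) J1 * e.I1 := by
  constructor
  · intro hp
    refine Submodule.smul_induction_on hp ?_ ?_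
    · intro c hc q _
      rw [e.φ1_smul]
      exact e.toK1_mul_mem J1 hc (e.φ1_mem q)
    · intro x y hx hy
      rw [map_add]
      exact add_mem hx hy
  · intro hp
    have key : ∀ w ∈ idl (b1A 𝒞 K) J1 * e.I1,
        ∃ q ∈ ext1 J1 • (⊤ : Submodule (k ⊗[k] 𝒞.B1) L.P1), e.φ1 q = w := by
      intro w hw
      refine Submodule.mul_induction_on hw ?_ ?_
      · intro m hm n hn
        obtain ⟨j, hj, rfl⟩ := mem_idl.1 hm
        obtain ⟨q, rfl⟩ := (e.mem_I1 _).1 hn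
        refine ⟨((1 : k) ⊗ₜ[k] j : k ⊗[k] 𝒞.B1) • q,
          Submodule.smul_mem_smul (Ideal.mem_map_of_mem _ hj) trivial, ?_⟩
        rw [e.φ1_smul, toK1_tmul, one_smul]
        rfl
      · rintro x y ⟨q, hq, rfl⟩ ⟨q', hq', rfl⟩
        exact ⟨q + q', add_mem hq hq', map_add _ _ _⟩
    obtain ⟨q, hq, hqe⟩ := key _ hp
    rwa [← e.φ1_injective h hqe]

variable {e e'}

theorem IsScalarOf.range0 (h : 𝒞.IsGood) {ψ : Triple.Hom L L'} {a : K}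
    (hs : IsScalarOf e e' ψ a) (p' : L'.P0) :
    p' ∈ LinearMap.range ψ.f0 ↔ e'.φ0 p' ∈ sc a e.I0 := by
  constructor
  · rintro ⟨p, rfl⟩
    rw [hs.f0]
    exact mul_mem_sc a (e.φ0_mem p)
  · intro hp
    obtain ⟨x, hx, hxe⟩ := mem_sc.1 hp
    obtain ⟨p, rfl⟩ := (e.mem_I0 _).1 hx
    refine ⟨p, e'.φ0_injective h ?_⟩
    rw [hs.f0]
    exact hxe

theorem IsScalarOf.range1 (h : 𝒞.IsGood) {ψ : Triple.Hom L L'} {a : K}
    (hs : IsScalarOf e e' ψ a) (p' : L'.P1) :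
    p' ∈ LinearMap.range ψ.f1 ↔ e'.φ1 p' ∈ sc a e.I1 := by
  constructor
  · rintro ⟨p, rfl⟩
    rw [hs.f1]
    exact mul_mem_sc a (e.φ1_mem p)
  · intro hp
    obtain ⟨x, hx, hxe⟩ := mem_sc.1 hp
    obtain ⟨p, rfl⟩ := (e.mem_I1 _).1 hx
    refine ⟨p, e'.φ1_injective h ?_⟩
    rw [hs.f1]
    exact hxe

/-- **The dictionary for twists.** -/
theorem IsScalarOf.isTwistBy_iff (h : 𝒞.IsGood) {ψ : Triple.Hom L L'} {a : K}
    (hs : IsScalarOf e e' ψ a) (J0 : Ideal 𝒞.B0) (J1 : Ideal 𝒞.B1) :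
    IsTwistBy J0 J1 ψ ↔ a ≠ 0 ∧ sc a e.I0 = idl (b0A 𝒞 K) J0 * e'.I0 ∧
      sc a e.I1 = idl (b1A 𝒞 K) J1 * e'.I1 := by
  constructor
  · rintro ⟨hi0, -, hr0, hr1⟩
    refine ⟨?_, ?_, ?_⟩
    · intro ha
      obtain ⟨y, hy, hy0⟩ := Submodule.exists_mem_ne_zero_of_ne_bot (e.I0_ne_bot h)
      obtain ⟨p, rfl⟩ := (e.mem_I0 _).1 hy
      have h1 : e'.φ0 (ψ.f0 p) = 0 := by rw [hs.f0, ha, zero_mul]
      have h2 : ψ.f0 p = 0 := e'.φ0_injective h (h1.trans (map_zero _).symm)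
      have h3 : p = 0 := hi0 (h2.trans (map_zero _).symm)
      apply hy0
      change e.φ0 p = 0
      rw [h3, map_zero]
    · ext y
      constructor
      · intro hy
        obtain ⟨x, hx, rfl⟩ := mem_sc.1 hy
        obtain ⟨p, rfl⟩ := (e.mem_I0 _).1 hx
        have h1 : ψ.f0 p ∈ ext0 J0 • (⊤ : Submodule (k ⊗[k] 𝒞.B0) L'.P0) := by
          rw [← hr0]; exact ⟨p, rfl⟩
        have h2 := (e'.mem_smul_top_iff0 h J0 _).1 h1
        rw [hs.f0] at h2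
        exact h2
      · intro hy
        have h1 : y ∈ e'.I0 := (e'.stable0.idl_mul_le J0) hy
        obtain ⟨p', rfl⟩ := (e'.mem_I0 _).1 h1
        have h2 : p' ∈ LinearMap.range ψ.f0 := by
          rw [hr0]; exact (e'.mem_smul_top_iff0 h J0 p').2 hy
        exact (hs.range0 h p').1 h2
    · ext y
      constructor
      · intro hy
        obtain ⟨x, hx, rfl⟩ := mem_sc.1 hy
        obtain ⟨p, rfl⟩ := (e.mem_I1 _).1 hx
        have h1 : ψ.f1 p ∈ ext1 J1 • (⊤ : Submodule (k ⊗[k] 𝒞.B1) L'.P1) := by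
          rw [← hr1]; exact ⟨p, rfl⟩
        have h2 := (e'.mem_smul_top_iff1 h J1 _).1 h1
        rw [hs.f1] at h2
        exact h2
      · intro hy
        have h1 : y ∈ e'.I1 := (e'.stable1.idl_mul_le J1) hy
        obtain ⟨p', rfl⟩ := (e'.mem_I1 _).1 h1
        have h2 : p' ∈ LinearMap.range ψ.f1 := by
          rw [hr1]; exact (e'.mem_smul_top_iff1 h J1 p').2 hy
        exact (hs.range1 h p').1 h2
  · rintro ⟨ha, h0, h1⟩
    refine ⟨hs.injective0 e e' h ha, hs.injective1 e e' h ha, ?_, ?_⟩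
    · ext p'
      rw [hs.range0 h, h0]
      exact (e'.mem_smul_top_iff0 h J0 p').symm
    · ext p'
      rw [hs.range1 h, h1]
      exact (e'.mem_smul_top_iff1 h J1 p').symm

variable (e e')

/-- **`L' ≅ L(D)` in terms of the fractional data.** -/
theorem isTwist_iff (h : 𝒞.IsGood) (J0 : Ideal 𝒞.B0) (J1 : Ideal 𝒞.B1) :
    IsTwist J0 J1 L L' ↔ ∃ a : K, a ≠ 0 ∧ sc a e.I0 = idl (b0A 𝒞 K) J0 * e'.I0 ∧
      sc a e.I1 = idl (b1A 𝒞 K) J1 * e'.I1 := by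
  constructor
  · rintro ⟨ψ, hψ⟩
    obtain ⟨a, ha⟩ := exists_scalar e e' ψ
    exact ⟨a, (ha.isTwistBy_iff h J0 J1).1 hψ⟩
  · rintro ⟨a, ha0, h0, h1⟩
    have hsc : IsHomScalar e e' a := by
      constructor
      · intro y hy
        have : a * y ∈ sc a e.I0 := mul_mem_sc a hy
        rw [h0] at this
        exact (e'.stable0.idl_mul_le J0) this
      · intro y hy
        have : a * y ∈ sc a e.I1 := mul_mem_sc a hy
        rw [h1] at this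
        exact (e'.stable1.idl_mul_le J1) this
    exact ⟨homOfScalar e e' h a hsc,
      ((isScalarOf_homOfScalar e e' h a hsc).isTwistBy_iff h J0 J1).2 ⟨ha0, h0, h1⟩⟩

/-- **Iso ⟺ scaling**, in terms of the fractional data. -/
theorem nonempty_iso_iff' (h : 𝒞.IsGood) :
    Nonempty (Triple.Iso L L') ↔ ∃ a : K, a ≠ 0 ∧ sc a e.I0 = e'.I0 ∧ sc a e.I1 = e'.I1 := by
  rw [nonempty_iso_iff e e' h]
  constructor
  · rintro ⟨a, ha0, h1, h2⟩
    refine ⟨a, ha0, le_antisymm (sc_le_iff.2 h1.1) ?_, le_antisymm (sc_le_iff.2 h1.2) ?_⟩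
    · intro y hy
      have := mul_mem_sc a (h2.1 y hy)
      rwa [← mul_assoc, mul_inv_cancel₀ ha0, one_mul] at this
    · intro y hy
      have := mul_mem_sc a (h2.2 y hy)
      rwa [← mul_assoc, mul_inv_cancel₀ ha0, one_mul] at this
  · rintro ⟨a, ha0, h0, h1⟩
    refine ⟨a, ha0, ⟨?_, ?_⟩, ⟨?_, ?_⟩⟩
    · intro y hy
      rw [← h0]; exact mul_mem_sc a hy
    · intro y hy
      rw [← h1]; exact mul_mem_sc a hy
    · intro y hy
      rw [← h0] at hy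
      obtain ⟨x, hx, rfl⟩ := mem_sc.1 hy
      rwa [← mul_assoc, inv_mul_cancel₀ ha0, one_mul]
    · intro y hy
      rw [← h1] at hy
      obtain ⟨x, hx, rfl⟩ := mem_sc.1 hy
      rwa [← mul_assoc, inv_mul_cancel₀ ha0, one_mul]

end Emb

/-! ## The statement -/

section Main

variable (h : 𝒞.IsGood)

include h in
theorem exists_twist_up (J0 : Ideal 𝒞.B0) (J1 : Ideal 𝒞.B1) (hJ : IsEffDiv J0 J1)
    (e : Emb L K) : ∃ L' : Triple 𝒞 k, IsTwist J0 J1 L L' := by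
  haveI := H50.isDedekindDomain_B0 𝒞 h
  haveI := H50.isDedekindDomain_B1 𝒞 h
  let D' : FracData 𝒞 K := (FracData.invEff h J0 J1 hJ).mul h (e.toFracData h)
  refine ⟨D'.toTriple h, (Emb.isTwist_iff e (D'.emb h) h J0 J1).2 ⟨1, one_ne_zero, ?_, ?_⟩⟩
  · rw [sc_one, FracData.emb_I0]
    exact (idl_mul_cinv_mul (b0A_injective h) (b0A_frac h) hJ.1 e.stable0).symm
  · rw [sc_one, FracData.emb_I1]
    exact (idl_mul_cinv_mul (b1A_injective h) (b1A_frac h) hJ.2.1 e.stable1).symm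

include h in
theorem exists_twist_down (J0 : Ideal 𝒞.B0) (J1 : Ideal 𝒞.B1) (hJ : IsEffDiv J0 J1)
    (e : Emb L K) : ∃ L' : Triple 𝒞 k, IsTwist J0 J1 L' L := by
  let D' : FracData 𝒞 K := (FracData.ofEff h J0 J1 hJ).mul h (e.toFracData h)
  refine ⟨D'.toTriple h, (Emb.isTwist_iff (D'.emb h) e h J0 J1).2 ⟨1, one_ne_zero, ?_, ?_⟩⟩
  · rw [sc_one, FracData.emb_I0]
    rfl
  · rw [sc_one, FracData.emb_I1]
    rfl

include h in
theorem twist_up_unique (J0 : Ideal 𝒞.B0) (J1 : Ideal 𝒞.B1) (hJ : IsEffDiv J0 J1)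
    (e : Emb L K) (e' : Emb L' K) (e'' : Emb L'' K)
    (h1 : IsTwist J0 J1 L L') (h2 : IsTwist J0 J1 L L'') : Nonempty (Triple.Iso L' L'') := by
  haveI := H50.isDedekindDomain_B0 𝒞 h
  haveI := H50.isDedekindDomain_B1 𝒞 h
  obtain ⟨a, ha0, ha, ha'⟩ := (Emb.isTwist_iff e e' h J0 J1).1 h1
  obtain ⟨b, hb0, hb, hb'⟩ := (Emb.isTwist_iff e e'' h J0 J1).1 h2
  refine (Emb.nonempty_iso_iff' e' e'' h).2 ⟨b * a⁻¹, mul_ne_zero hb0 (inv_ne_zero ha0), ?_, ?_⟩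
  · apply idl_cancel (b0A_injective h) (b0A_frac h) hJ.1 (e'.stable0.sc _) e''.stable0
    rw [← sc_mul, ← ha, sc_sc, mul_assoc, inv_mul_cancel₀ ha0, mul_one, hb]
  · apply idl_cancel (b1A_injective h) (b1A_frac h) hJ.2.1 (e'.stable1.sc _) e''.stable1
    rw [← sc_mul, ← ha', sc_sc, mul_assoc, inv_mul_cancel₀ ha0, mul_one, hb']

include h in
theorem twist_down_unique (J0 : Ideal 𝒞.B0) (J1 : Ideal 𝒞.B1)
    (e : Emb L K) (e' : Emb L' K) (e'' : Emb L'' K)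
    (h1 : IsTwist J0 J1 L' L) (h2 : IsTwist J0 J1 L'' L) : Nonempty (Triple.Iso L' L'') := by
  obtain ⟨a, ha0, ha, ha'⟩ := (Emb.isTwist_iff e' e h J0 J1).1 h1
  obtain ⟨b, hb0, hb, hb'⟩ := (Emb.isTwist_iff e'' e h J0 J1).1 h2
  refine (Emb.nonempty_iso_iff' e' e'' h).2 ⟨b⁻¹ * a, mul_ne_zero (inv_ne_zero hb0) ha0, ?_, ?_⟩
  · rw [← sc_sc, ha, ← hb, sc_inv_sc hb0]
  · rw [← sc_sc, ha', ← hb', sc_inv_sc hb0]

include h in
theorem twist_congr (J0 : Ideal 𝒞.B0) (J1 : Ideal 𝒞.B1) {M M' : Triple 𝒞 k}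
    (e : Emb L K) (e' : Emb L' K) (f : Emb M K) (f' : Emb M' K)
    (h1 : Nonempty (Triple.Iso L M)) (h2 : Nonempty (Triple.Iso L' M'))
    (h3 : IsTwist J0 J1 L L') : IsTwist J0 J1 M M' := by
  obtain ⟨c, hc0, hc, hc'⟩ := (Emb.nonempty_iso_iff' e f h).1 h1
  obtain ⟨d, hd0, hd, hd'⟩ := (Emb.nonempty_iso_iff' e' f' h).1 h2
  obtain ⟨a, ha0, ha, ha'⟩ := (Emb.isTwist_iff e e' h J0 J1).1 h3
  refine (Emb.isTwist_iff f f' h J0 J1).2
    ⟨d * a * c⁻¹, mul_ne_zero (mul_ne_zero hd0 ha0) (inv_ne_zero hc0), ?_, ?_⟩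
  · rw [← hc, sc_sc, mul_assoc, mul_assoc, inv_mul_cancel₀ hc0, mul_one, ← sc_sc, ha, sc_mul, hd]
  · rw [← hc', sc_sc, mul_assoc, mul_assoc, inv_mul_cancel₀ hc0, mul_one, ← sc_sc, ha', sc_mul,
      hd']

include h in
theorem twist_comp (J0 I0 : Ideal 𝒞.B0) (J1 I1 : Ideal 𝒞.B1)
    (e : Emb L K) (e' : Emb L' K) (e'' : Emb L'' K)
    (h1 : IsTwist J0 J1 L L') (h2 : IsTwist I0 I1 L' L'') :
    IsTwist (J0 * I0) (J1 * I1) L L'' := by
  obtain ⟨a, ha0, ha, ha'⟩ := (Emb.isTwist_iff e e' h J0 J1).1 h1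
  obtain ⟨b, hb0, hb, hb'⟩ := (Emb.isTwist_iff e' e'' h I0 I1).1 h2
  refine (Emb.isTwist_iff e e'' h _ _).2 ⟨b * a, mul_ne_zero hb0 ha0, ?_, ?_⟩
  · rw [← sc_sc, ha, sc_mul, hb, idl_mul, mul_assoc]
  · rw [← sc_sc, ha', sc_mul, hb', idl_mul, mul_assoc]

end Main

/-- **NUM-TWEX**: twists exist, are unique up to isomorphism, and compose. -/
theorem stmt_TWEX : Stmt_TWEX.{u} := by
  intro k _ _ 𝒞 h J0 J1 hJ
  haveI := h.dom01
  have emb : ∀ L : Triple 𝒞 k, Nonempty (Emb L (FractionRing 𝒞.B01)) :=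
    fun L => exists_emb h (FractionRing 𝒞.B01) L
  refine ⟨?_, ?_, ?_, ?_, ?_, ?_⟩
  · intro L
    obtain ⟨e⟩ := emb L
    exact exists_twist_up h J0 J1 hJ e
  · intro L
    obtain ⟨e⟩ := emb L
    exact exists_twist_down h J0 J1 hJ e
  · intro L L' L'' h1 h2
    obtain ⟨e⟩ := emb L
    obtain ⟨e'⟩ := emb L'
    obtain ⟨e''⟩ := emb L''
    exact twist_up_unique h J0 J1 hJ e e' e'' h1 h2
  · intro L L' L'' h1 h2
    obtain ⟨e⟩ := emb L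
    obtain ⟨e'⟩ := emb L'
    obtain ⟨e''⟩ := emb L''
    exact twist_down_unique h J0 J1 e e' e'' h1 h2
  · intro L L' M M' h1 h2 h3
    obtain ⟨e⟩ := emb L
    obtain ⟨e'⟩ := emb L'
    obtain ⟨f⟩ := emb M
    obtain ⟨f'⟩ := emb M'
    exact twist_congr h J0 J1 e e' f f' h1 h2 h3
  · intro I0 I1 L L' L'' h1 h2
    obtain ⟨e⟩ := emb L
    obtain ⟨e'⟩ := emb L'
    obtain ⟨e''⟩ := emb L''
    exact twist_comp h J0 I0 J1 I1 e e' e'' h1 h2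

end Fermat.Agent.S25.Num.H9
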