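/-
helper63, S25 (Jacobian exists), package NUM: ALL the statements of `S25/Num/Defs.lean` and `DefsC.lean`,
UNCONDITIONAL, in one place (wiring of the landed leaves):

FIN (helper50), ISO (helper45), TWEX (helper9), PTS (helper38), CHI (helper50), SEC + MONO (helper97),
MONOCOR (helper44), RIEM (helper21), DROP + NSP (helper63), EFF (helper47), NSPCH (helper93).
-/
import Fermat.Agent.S25.Num.H50_FinStmt
import Fermat.Agent.S25.Num.H45_Iso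
import Fermat.Agent.S25.Num.H9_Twex
import Fermat.Agent.S25.Num.H38_Pts
import Fermat.Agent.S25.Num.H50_ChiStmt
import Fermat.Agent.S25.Num.H97_MonoSec
import Fermat.Agent.S25.Num.H44_MonoCor
import Fermat.Agent.S25.Num.H21_Riem
import Fermat.Agent.S25.Num.H63_Nsp
import Fermat.Agent.S25.Num.H47_Eff
import Fermat.Agent.S25.Num.H93_NspCh

set_option autoImplicit false

universe u

namespace Fermat.Agent.S25.Num.H63

/-- **NUM-MONO**, unconditional. -/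
theorem stmt_MONO : Stmt_MONO.{u} := H97.mono_of H50.stmt_CHI H38.stmt_PTS

/-- **NUM-MONOCOR**, unconditional. -/
theorem stmt_MONOCOR : Stmt_MONOCOR.{u} :=
  H44.monocor_of H45.stmt_ISO H97.stmt_SEC stmt_MONO H50.stmt_CHI H38.stmt_PTS

/-- **NUM-RIEM**, unconditional. -/
theorem stmt_RIEM : Stmt_RIEM.{u} :=
  H21.riem_of H50.stmt_CHI H97.stmt_SEC stmt_MONO H45.stmt_ISO

/-- **NUM-DROP**, unconditional. -/
theorem stmt_DROP : Stmt_DROP.{u} :=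
  stmt_DROP_of stmt_RIEM H50.stmt_CHI H9.stmt_TWEX H38.stmt_PTS

/-- **NUM-NSP**, unconditional. -/
theorem stmt_NSP : Stmt_NSP.{u} :=
  stmt_NSP_of stmt_DROP H50.stmt_CHI H9.stmt_TWEX H38.stmt_PTS

/-- **NUM-EFF**, unconditional. -/
theorem stmt_EFF : Stmt_EFF.{u} :=
  H47.eff_of H45.stmt_ISO H97.stmt_SEC stmt_MONO H50.stmt_CHI H38.stmt_PTS

/-- **NUM-NSPCH**, unconditional. -/
theorem stmt_NSPCH : Stmt_NSPCH.{u} := H93.nspch_of stmt_NSP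

/-- All the leaves of NUM. -/
theorem stmt_NUM_all :
    Stmt_FIN.{u} ∧ Stmt_ISO.{u} ∧ Stmt_TWEX.{u} ∧ Stmt_PTS.{u} ∧ Stmt_CHI.{u} ∧ Stmt_MONO.{u} ∧
      Stmt_SEC.{u} ∧ Stmt_MONOCOR.{u} ∧ Stmt_RIEM.{u} ∧ Stmt_DROP.{u} ∧ Stmt_NSP.{u} ∧
      Stmt_EFF.{u} ∧ Stmt_NSPCH.{u} :=
  ⟨H50.stmt_FIN, H45.stmt_ISO, H9.stmt_TWEX, H38.stmt_PTS, H50.stmt_CHI, stmt_MONO, H97.stmt_SEC,
    stmt_MONOCOR, stmt_RIEM, stmt_DROP, stmt_NSP, stmt_EFF, stmt_NSPCH⟩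

end Fermat.Agent.S25.Num.H63
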