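/-
helper21, S25 package NUM, interface part K: numerics over an EXTENSION FIELD `K` of the base field `k`
(needed by TOP-VALUNIQ: the fibres of a family over a valuation ring live over arbitrary fields).

`Stmt_MONOK`: over any field `K ⊇ k`, a triple `N` with the Euler characteristic of the unit triple and with a
nonzero global section is isomorphic to the unit triple ("degree 0 and h0 ≥ 1 ⟹ trivial").
-/
import Fermat.Agent.S25.LB.DefsB

set_option autoImplicit false

universe u

open Polynomial TensorProduct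

namespace Fermat.Agent.S25.Num

open Fermat.Agent.S25.LB

variable {k : Type u} [Field k] {𝒞 : CurveDatum k}

/-- `L` is isomorphic to the structure sheaf, over any base ring `R` (same shape as `LB.Stmt_UNIT`). -/
def IsUnitTripleR {R : Type u} [CommRing R] [Algebra k R] (L : Triple 𝒞 R) : Prop :=
  ∃ (e0 : L.P0 ≃ₗ[R ⊗[k] 𝒞.B0] (R ⊗[k] 𝒞.B0)) (e1 : L.P1 ≃ₗ[R ⊗[k] 𝒞.B1] (R ⊗[k] 𝒞.B1))
    (e01 : L.P01 ≃ₗ[R ⊗[k] 𝒞.B01] (R ⊗[k] 𝒞.B01)),
    (∀ p, e01 (L.r0 p) = 𝒞.ι0 R (e0 p)) ∧ (∀ p, e01 (L.r1 p) = 𝒞.ι1 R (e1 p))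

/-- **NUM-MONOK**: over a field `K ⊇ k`: if `chi N = chi U` (`U` a unit triple) and `N` has a nonzero global
section, then `N` is a unit triple.
Proof: the section is an injective morphism `U → N` (the rings `K ⊗ B_i` are domains, `k` being algebraically
closed); its cokernel `Q` is a torsion sheaf: finite dimensional over `K` on both charts, `Q0 → Q01` and
`Q1 → Q01` onto, `H1 Q = 0`; `chi Q = chi N - chi U = 0` forces `Q = 0`. -/
def Stmt_MONOK : Prop :=
  ∀ (k : Type u) [Field k] [IsAlgClosed k] (𝒞 : CurveDatum k), 𝒞.IsGood →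
    ∀ (K : Type u) [Field K] [Algebra k K] (U N : Triple 𝒞 K), IsUnitTripleR U →
      (Module.finrank K N.H0 : ℤ) - (Module.finrank K N.H1 : ℤ) =
        (Module.finrank K U.H0 : ℤ) - (Module.finrank K U.H1 : ℤ) →
      (∃ s : N.H0, s ≠ 0) → IsUnitTripleR N

end Fermat.Agent.S25.Num
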