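/-
helper21, S25 package NUM, leaf NUM-MONOK, abstract part (linear algebra over a field + two ring lemmas).

* `finite_of_aeval_eq_zero` : a space generated by the `X ^ j s`, `s` in a finite set, on which `f(X) = 0`
  for a nonzero polynomial `f`, is finite dimensional.
* `surjective_of_finite_of_loc` : `j : V → W`, `V` finite dimensional, `j ∘ φ = τ ∘ j` with `τ` an
  automorphism, every `m : W` has `τ ^ n m ∈ range j` ⟹ `j` is surjective.
* `surjective_of_chi_eq` : an injective morphism of two-chart data over a field, with the same Euler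
  characteristic and with finite dimensional cokernels on the two charts, is surjective on the two charts.
* `exists_ne_zero_mem_span` : contraction of a nonzero principal ideal along an integral map from `K[X]`.
* `isIntegral_aeval_tensor` : `K ⊗ B` is integral over `K[X]` if `B` is integral over `k[X]`.
-/
import Mathlib
import Fermat.Agent.S25.Num.H50_Coker

set_option autoImplicit false
set_option linter.style.haveILetI false
set_option linter.unusedSectionVars false

universe u

open Polynomial TensorProduct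

namespace Fermat.Agent.S25.Num.H21

open Fermat.Agent.S25 Fermat.Agent.S25.P1

section LinAlg

variable {K : Type*} [Field K] {V : Type*} [AddCommGroup V] [Module K V]

/-- `X ^ j v` is a combination of the `X ^ i v`, `i < d`, if a monic polynomial of degree `d` kills `X`. -/
theorem pow_apply_mem_span (X : Module.End K V) (g : K[X]) (hgm : g.Monic)
    (hgX : Polynomial.aeval X g = 0) (j : ℕ) (v : V) :
    (X ^ j) v ∈ Submodule.span K (Set.range fun i : Fin g.natDegree => (X ^ (i : ℕ)) v) := by
  have h1 : (Polynomial.X ^ j : K[X]) %ₘ g + g * ((Polynomial.X ^ j) /ₘ g) = Polynomial.X ^ j :=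
    Polynomial.modByMonic_add_div _ _
  have h2 : Polynomial.aeval X ((Polynomial.X ^ j : K[X]) %ₘ g) = X ^ j := by
    have h3 := congrArg (Polynomial.aeval X) h1
    rw [map_add, map_mul, hgX, zero_mul, add_zero, map_pow, Polynomial.aeval_X] at h3
    exact h3
  have hdeg : ((Polynomial.X ^ j : K[X]) %ₘ g).degree < g.degree :=
    Polynomial.degree_modByMonic_lt _ hgm
  by_cases hr0 : (Polynomial.X ^ j : K[X]) %ₘ g = 0
  · rw [← h2, hr0, map_zero, LinearMap.zero_apply]
    exact Submodule.zero_mem _
  have hnat : ((Polynomial.X ^ j : K[X]) %ₘ g).natDegree < g.natDegree :=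
    Polynomial.natDegree_lt_natDegree hr0 hdeg
  have h4 : (X ^ j) v = ∑ i ∈ Finset.range g.natDegree,
      ((Polynomial.X ^ j : K[X]) %ₘ g).coeff i • (X ^ i) v := by
    rw [← h2, Polynomial.aeval_eq_sum_range' hnat, LinearMap.sum_apply]
    rfl
  rw [h4]
  refine Submodule.sum_mem _ fun i hi => ?_
  refine Submodule.smul_mem _ _ (Submodule.subset_span ?_)
  exact ⟨⟨i, Finset.mem_range.mp hi⟩, rfl⟩

/-- If `f(X) = 0` on `V` for a nonzero polynomial `f` and `V` is generated by the `X ^ j s`, `s ∈ S`
finite, then `V` is finite dimensional. -/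
theorem finite_of_aeval_eq_zero (X : Module.End K V) (S : Finset V)
    (hS : Submodule.span K {y | ∃ (j : ℕ) (s : V), s ∈ S ∧ y = (X ^ j) s} = ⊤)
    (f : K[X]) (hf : f ≠ 0) (hfX : Polynomial.aeval X f = 0) : Module.Finite K V := by
  classical
  have hgm : (f * C (f.leadingCoeff)⁻¹).Monic := Polynomial.monic_mul_leadingCoeff_inv hf
  have hgX : Polynomial.aeval X (f * C (f.leadingCoeff)⁻¹) = 0 := by
    rw [map_mul, hfX, zero_mul]
  have hfin : (⋃ s ∈ S, Set.range fun i : Fin (f * C (f.leadingCoeff)⁻¹).natDegree =>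
      (X ^ (i : ℕ)) s).Finite :=
    Set.Finite.biUnion S.finite_toSet fun s _ => Set.finite_range _
  have hT : Submodule.span K (⋃ s ∈ S, Set.range fun i : Fin (f * C (f.leadingCoeff)⁻¹).natDegree =>
      (X ^ (i : ℕ)) s) = ⊤ := by
    rw [eq_top_iff, ← hS]
    apply Submodule.span_le.mpr
    rintro y ⟨j, s, hs, rfl⟩
    have h := pow_apply_mem_span X _ hgm hgX j s
    refine Submodule.span_mono ?_ h
    intro y hy
    exact Set.mem_biUnion hs hy
  exact ⟨⟨hfin.toFinset, by rw [Set.Finite.coe_toFinset]; exact hT⟩⟩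

variable {W : Type*} [AddCommGroup W] [Module K W]

/-- A finite dimensional space which becomes everything after localisation already is everything. -/
theorem surjective_of_finite_of_loc [FiniteDimensional K V] (j : V →ₗ[K] W) (φ : V →ₗ[K] V)
    (τ : W ≃ₗ[K] W) (hc : ∀ v, j (φ v) = τ (j v))
    (hloc : ∀ m : W, ∃ (n : ℕ) (a : V), (τ.toLinearMap ^ n) m = j a) : Function.Surjective j := by
  -- the restriction of `τ` to the range of `j`
  have hmap : ∀ w ∈ LinearMap.range j, τ.toLinearMap w ∈ LinearMap.range j := by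
    rintro _ ⟨v, rfl⟩
    exact ⟨φ v, hc v⟩
  let τW : LinearMap.range j →ₗ[K] LinearMap.range j := τ.toLinearMap.restrict hmap
  have hinj : Function.Injective τW := by
    intro a b hab
    apply Subtype.ext
    apply τ.injective
    exact congrArg Subtype.val hab
  have hsurj : Function.Surjective τW := LinearMap.injective_iff_surjective.mp hinj
  have hpow : ∀ (n : ℕ) (w : W), w ∈ LinearMap.range j →
      ∃ w' ∈ LinearMap.range j, (τ.toLinearMap ^ n) w' = w := by
    intro n
    induction n with
    | zero => intro w hw; exact ⟨w, hw, by simp⟩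
    | succ n ih =>
      intro w hw
      obtain ⟨w1, hw1, h1⟩ := ih w hw
      obtain ⟨⟨w2, hw2⟩, h2⟩ := hsurj ⟨w1, hw1⟩
      have h2' : τ w2 = w1 := congrArg Subtype.val h2
      refine ⟨w2, hw2, ?_⟩
      rw [pow_succ, Module.End.mul_apply]
      change (τ.toLinearMap ^ n) (τ w2) = w
      rw [h2', h1]
  have hpinj : ∀ n : ℕ, Function.Injective (τ.toLinearMap ^ n) := by
    intro n
    induction n with
    | zero => intro a b h; simpa using h
    | succ n ih =>
      intro a b h
      rw [pow_succ, Module.End.mul_apply, Module.End.mul_apply] at h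
      exact τ.injective (ih h)
  intro m
  obtain ⟨n, a, hna⟩ := hloc m
  obtain ⟨w', hw', h'⟩ := hpow n (j a) ⟨a, rfl⟩
  have : w' = m := hpinj n (h'.trans hna.symm)
  rw [← this]
  exact hw'

end LinAlg

section DataK

variable {K : Type u} [Field K]

theorem hom_T_pow {N N' : Data K} (g : Data.Hom N N') (n : ℕ) (m : N.N01) :
    (N'.T.toLinearMap ^ n) (g.f01 m) = g.f01 ((N.T.toLinearMap ^ n) m) := by
  induction n generalizing m with
  | zero => rfl
  | succ n ih =>
    rw [pow_succ, Module.End.mul_apply, pow_succ, Module.End.mul_apply]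
    change (N'.T.toLinearMap ^ n) (N'.T (g.f01 m)) = g.f01 ((N.T.toLinearMap ^ n) (N.T m))
    rw [← g.f01_T, ih]

theorem hom_T_symm_pow {N N' : Data K} (g : Data.Hom N N') (n : ℕ) (m : N.N01) :
    (N'.T.symm.toLinearMap ^ n) (g.f01 m) = g.f01 ((N.T.symm.toLinearMap ^ n) m) := by
  induction n generalizing m with
  | zero => rfl
  | succ n ih =>
    rw [pow_succ, Module.End.mul_apply, pow_succ, Module.End.mul_apply]
    change (N'.T.symm.toLinearMap ^ n) (N'.T.symm (g.f01 m)) =
      g.f01 ((N.T.symm.toLinearMap ^ n) (N.T.symm m))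
    rw [← H50.f01_T_symm g, ih]

/-- An injective morphism of two-chart data over a field with the same Euler characteristic, whose
cokernel is finite dimensional on both charts, is surjective on both charts. -/
theorem surjective_of_chi_eq {N' N : Data K} (f : Data.Hom N' N)
    (hi0 : Function.Injective f.f0) (hi1 : Function.Injective f.f1)
    (hi01 : Function.Injective f.f01) (hloc : N.IsLoc)
    [FiniteDimensional K N'.H0] [FiniteDimensional K N'.H1]
    [FiniteDimensional K N.H0] [FiniteDimensional K N.H1]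
    [FiniteDimensional K (H50.cokerData f).N0] [FiniteDimensional K (H50.cokerData f).N1]
    (hchi : (Module.finrank K N.H0 : ℤ) - (Module.finrank K N.H1 : ℤ) =
      (Module.finrank K N'.H0 : ℤ) - (Module.finrank K N'.H1 : ℤ)) :
    Function.Surjective f.f0 ∧ Function.Surjective f.f1 := by
  -- `j0`, `j1` of the cokernel are surjective
  have hj0 : Function.Surjective (H50.cokerData f).j0 := by
    apply surjective_of_finite_of_loc (H50.cokerData f).j0 (H50.cokerData f).X0
      (H50.cokerData f).T (H50.cokerData f).j0_X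
    intro m
    obtain ⟨m, rfl⟩ := (H50.shortExact_coker f hi0 hi1 hi01).surj01 m
    obtain ⟨n, a, hna⟩ := hloc.surj0 m
    refine ⟨n, (H50.cokerHom f).f0 a, ?_⟩
    rw [hom_T_pow, hna, (H50.cokerHom f).f_j0]
  have hj1 : Function.Surjective (H50.cokerData f).j1 := by
    apply surjective_of_finite_of_loc (H50.cokerData f).j1 (H50.cokerData f).Z1
      (H50.cokerData f).T.symm
    · intro v
      apply (H50.cokerData f).T.injective
      rw [LinearEquiv.apply_symm_apply, (H50.cokerData f).j1_Z]
    · intro m
      obtain ⟨m, rfl⟩ := (H50.shortExact_coker f hi0 hi1 hi01).surj01 m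
      obtain ⟨n, a, hna⟩ := hloc.surj1 m
      refine ⟨n, (H50.cokerHom f).f1 a, ?_⟩
      rw [hom_T_symm_pow, hna, (H50.cokerHom f).f_j1]
  -- `H1 Q = 0`
  haveI hH1 : Subsingleton (H50.cokerData f).H1 :=
    H50.subsingleton_H1_of_j0_surjective (H50.cokerData f) hj0
  haveI : FiniteDimensional K (H50.cokerData f).H1 := inferInstance
  haveI : FiniteDimensional K (H50.cokerData f).H0 := inferInstance
  have hadd := H50.chi_of_shortExact f (H50.cokerHom f) (H50.shortExact_coker f hi0 hi1 hi01)
  have hQ1 : Module.finrank K (H50.cokerData f).H1 = 0 := Module.finrank_zero_of_subsingleton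
  have hQ0 : Module.finrank K (H50.cokerData f).H0 = 0 := by
    unfold H50.chi H50.h0 H50.h1 at hadd
    omega
  haveI : Subsingleton (H50.cokerData f).H0 := Module.finrank_zero_iff.mp hQ0
  -- `Q.N0 = 0`, `Q.N1 = 0`
  have h0 : ∀ a : (H50.cokerData f).N0, a = 0 := by
    intro a
    obtain ⟨b, hb⟩ := hj1 ((H50.cokerData f).j0 a)
    have hmem : ((a, b) : (H50.cokerData f).N0 × (H50.cokerData f).N1) ∈ (H50.cokerData f).H0 :=
      hb.symm
    have h := Subsingleton.elim (⟨(a, b), hmem⟩ : (H50.cokerData f).H0) 0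
    exact congrArg (fun p : (H50.cokerData f).H0 => p.1.1) h
  have h1 : ∀ b : (H50.cokerData f).N1, b = 0 := by
    intro b
    obtain ⟨a, ha⟩ := hj0 ((H50.cokerData f).j1 b)
    have hmem : ((a, b) : (H50.cokerData f).N0 × (H50.cokerData f).N1) ∈ (H50.cokerData f).H0 :=
      ha
    have h := Subsingleton.elim (⟨(a, b), hmem⟩ : (H50.cokerData f).H0) 0
    exact congrArg (fun p : (H50.cokerData f).H0 => p.1.2) h
  constructor
  · intro y
    have h := h0 ((H50.cokerHom f).f0 y)
    exact (Submodule.Quotient.mk_eq_zero _).mp h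
  · intro y
    have h := h1 ((H50.cokerHom f).f1 y)
    exact (Submodule.Quotient.mk_eq_zero _).mp h

end DataK

section Ring

/-- A nonzero principal ideal of a domain which is integral over `K[X]` contains the image of a nonzero
polynomial. -/
theorem exists_ne_zero_mem_span {K : Type*} [Field K] {S : Type*} [CommRing S] [IsDomain S]
    (φ : K[X] →+* S) (hφ : φ.IsIntegral) (c : S) (hc : c ≠ 0) :
    ∃ f : K[X], f ≠ 0 ∧ φ f ∈ Ideal.span {c} := by
  letI := φ.toAlgebra
  have h := Ideal.comap_ne_bot_of_integral_mem (R := K[X]) (I := Ideal.span {c}) hc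
    (Ideal.mem_span_singleton_self c) (hφ c)
  obtain ⟨f, hf, hf0⟩ := Submodule.exists_mem_ne_zero_of_ne_bot h
  exact ⟨f, hf0, hf⟩

/-- `K ⊗ B` is integral over `K[X]` (through `1 ⊗ x`) if `B` is integral over `k[X]` (through `x`). -/
theorem isIntegral_aeval_tensor (k : Type*) [Field k] (K : Type*) [Field K] [Algebra k K]
    (B : Type*) [CommRing B] [Algebra k B] (x : B)
    (hx : (Polynomial.aeval (R := k) x).toRingHom.IsIntegral) :
    (Polynomial.aeval (R := K) ((1 : K) ⊗ₜ[k] x : K ⊗[k] B)).toRingHom.IsIntegral := by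
  letI algS : Algebra K[X] (K ⊗[k] B) :=
    (Polynomial.aeval (R := K) ((1 : K) ⊗ₜ[k] x : K ⊗[k] B)).toRingHom.toAlgebra
  letI algB : Algebra k[X] B := (Polynomial.aeval (R := k) x).toRingHom.toAlgebra
  have hcomp : (algebraMap K[X] (K ⊗[k] B)).comp (Polynomial.mapRingHom (algebraMap k K)) =
      (Algebra.TensorProduct.includeRight : B →ₐ[k] K ⊗[k] B).toRingHom.comp
        (algebraMap k[X] B) := by
    apply Polynomial.ringHom_ext
    · intro a
      change Polynomial.aeval ((1 : K) ⊗ₜ[k] x : K ⊗[k] B)
          (Polynomial.map (algebraMap k K) (C a)) =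
        (1 : K) ⊗ₜ[k] (Polynomial.aeval x (C a))
      rw [Polynomial.map_C, Polynomial.aeval_C, Polynomial.aeval_C,
        Algebra.TensorProduct.algebraMap_apply, Algebra.algebraMap_eq_smul_one (A := B) a,
        TensorProduct.tmul_smul, Algebra.algebraMap_eq_smul_one (A := K) a,
        TensorProduct.smul_tmul']
      simp
    · change Polynomial.aeval ((1 : K) ⊗ₜ[k] x : K ⊗[k] B)
          (Polynomial.map (algebraMap k K) Polynomial.X) =
        (1 : K) ⊗ₜ[k] (Polynomial.aeval x Polynomial.X)
      rw [Polynomial.map_X, Polynomial.aeval_X, Polynomial.aeval_X]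
  have h1 : ∀ b : B, IsIntegral K[X] ((1 : K) ⊗ₜ[k] b : K ⊗[k] B) := fun b =>
    IsIntegral.map_of_comp_eq (Polynomial.mapRingHom (algebraMap k K))
      (Algebra.TensorProduct.includeRight : B →ₐ[k] K ⊗[k] B).toRingHom hcomp (hx b)
  have h2 : ∀ a : K, IsIntegral K[X] ((a : K) ⊗ₜ[k] (1 : B) : K ⊗[k] B) := fun a => by
    have : ((a : K) ⊗ₜ[k] (1 : B) : K ⊗[k] B) = algebraMap K[X] (K ⊗[k] B) (C a) := by
      change _ = Polynomial.aeval ((1 : K) ⊗ₜ[k] x : K ⊗[k] B) (C a)
      rw [Polynomial.aeval_C, Algebra.TensorProduct.algebraMap_apply]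
      rfl
    rw [this]
    exact isIntegral_algebraMap
  intro s
  change IsIntegral K[X] s
  induction s using TensorProduct.induction_on with
  | zero => exact isIntegral_zero
  | tmul a b =>
    have : (a ⊗ₜ[k] b : K ⊗[k] B) = (a ⊗ₜ[k] (1 : B)) * ((1 : K) ⊗ₜ[k] b) := by
      rw [Algebra.TensorProduct.tmul_mul_tmul, mul_one, one_mul]
    rw [this]
    exact (h2 a).mul (h1 b)
  | add s t hs ht => exact hs.add ht

end Ring

end Fermat.Agent.S25.Num.H21
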