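/-
helper21, S25 package NUM, leaf NUM-MONOK: `stmt_MONOK : Stmt_MONOK` (S25/Num/DefsK.lean).

Over any field `K ⊇ k` (`k` algebraically closed): a triple `N` over `K` with `chi N = chi U` (`U` a unit
triple) and with a nonzero global section `s` is a unit triple.
Proof: `s` gives `φ : U → N`, injective (`K ⊗ B_i` are domains, invertible modules are torsion free).
The cokernel is killed by `c = ℓ(s0) ≠ 0` on the chart `0` (rank one), `(c) ∩ K[x0] ≠ 0` (integrality), so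
the cokernel is finite dimensional on both charts; then `surjective_of_chi_eq` (H21_MonoKAbs.lean).
-/
import Fermat.Agent.S25.Num.DefsK
import Fermat.Agent.S25.Num.H21_MonoKAbs
import Fermat.Agent.S25.Num.H97_MonoSec
import Fermat.Agent.S25.Num.H50_Fin
import Fermat.Agent.S26.C.H13_TensorDomain

set_option autoImplicit false
set_option linter.style.haveILetI false
set_option linter.unusedSectionVars false

universe u

open Polynomial TensorProduct

namespace Fermat.Agent.S25.Num.H21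

open Fermat.Agent.S25 Fermat.Agent.S25.LB Fermat.Agent.S25.Num Fermat.Agent.S25.P1

variable {k : Type u} [Field k] {𝒞 : CurveDatum k} {K : Type u} [Field K] [Algebra k K]

/-! ## The rings `K ⊗ B_i` -/

theorem isDomain_K0 [IsAlgClosed k] (h : 𝒞.IsGood) : IsDomain (K ⊗[k] 𝒞.B0) :=
  haveI := h.dom0
  S26.C.H13.isDomain_tensorProduct (K := k) K 𝒞.B0

theorem isDomain_K1 [IsAlgClosed k] (h : 𝒞.IsGood) : IsDomain (K ⊗[k] 𝒞.B1) :=
  haveI := h.dom1
  S26.C.H13.isDomain_tensorProduct (K := k) K 𝒞.B1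

theorem isDomain_K01 [IsAlgClosed k] (h : 𝒞.IsGood) : IsDomain (K ⊗[k] 𝒞.B01) :=
  haveI := h.dom01
  S26.C.H13.isDomain_tensorProduct (K := k) K 𝒞.B01

theorem isUnit_xK01 : IsUnit ((1 : K) ⊗ₜ[k] 𝒞.i0 𝒞.x0 : K ⊗[k] 𝒞.B01) :=
  IsUnit.of_mul_eq_one _ (Triple.unit_mul_unit 𝒞 K)

theorem isUnit_zK01 : IsUnit ((1 : K) ⊗ₜ[k] 𝒞.i1 𝒞.z1 : K ⊗[k] 𝒞.B01) :=
  IsUnit.of_mul_eq_one _ (by rw [mul_comm]; exact Triple.unit_mul_unit 𝒞 K)

theorem tmul_x0_ne_zero [IsAlgClosed k] (h : 𝒞.IsGood) :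
    ((1 : K) ⊗ₜ[k] 𝒞.x0 : K ⊗[k] 𝒞.B0) ≠ 0 := by
  haveI := isDomain_K01 (K := K) h
  intro h0
  have h1 : 𝒞.ι0 K ((1 : K) ⊗ₜ[k] 𝒞.x0) = ((1 : K) ⊗ₜ[k] 𝒞.i0 𝒞.x0 : K ⊗[k] 𝒞.B01) := rfl
  rw [h0, map_zero] at h1
  exact (isUnit_xK01 (𝒞 := 𝒞) (K := K)).ne_zero h1.symm

theorem tmul_z1_ne_zero [IsAlgClosed k] (h : 𝒞.IsGood) :
    ((1 : K) ⊗ₜ[k] 𝒞.z1 : K ⊗[k] 𝒞.B1) ≠ 0 := by
  haveI := isDomain_K01 (K := K) h
  intro h0
  have h1 : 𝒞.ι1 K ((1 : K) ⊗ₜ[k] 𝒞.z1) = ((1 : K) ⊗ₜ[k] 𝒞.i1 𝒞.z1 : K ⊗[k] 𝒞.B01) := rfl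
  rw [h0, map_zero] at h1
  exact (isUnit_zK01 (𝒞 := 𝒞) (K := K)).ne_zero h1.symm

theorem r0_injK [IsAlgClosed k] (h : 𝒞.IsGood) (N : Triple 𝒞 K) : Function.Injective N.r0 := by
  haveI := isDomain_K0 (K := K) h
  haveI := N.inv0
  intro a b hab
  have h0 : N.r0 (a - b) = 0 := by rw [map_sub, hab, sub_self]
  obtain ⟨n, hn⟩ := N.ker0 _ h0
  rcases H97.smul_eq_zero_inv hn with h1 | h1
  · exact absurd h1 (pow_ne_zero n (tmul_x0_ne_zero h))
  · exact sub_eq_zero.mp h1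

theorem r1_injK [IsAlgClosed k] (h : 𝒞.IsGood) (N : Triple 𝒞 K) : Function.Injective N.r1 := by
  haveI := isDomain_K1 (K := K) h
  haveI := N.inv1
  intro a b hab
  have h0 : N.r1 (a - b) = 0 := by rw [map_sub, hab, sub_self]
  obtain ⟨n, hn⟩ := N.ker1 _ h0
  rcases H97.smul_eq_zero_inv hn with h1 | h1
  · exact absurd h1 (pow_ne_zero n (tmul_z1_ne_zero h))
  · exact sub_eq_zero.mp h1

/-! ## Morphisms of triples as morphisms of two-chart data -/

/-- The morphism of two-chart data of a morphism of triples. -/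
noncomputable def homData {R : Type u} [CommRing R] [Algebra k R] {L L' : Triple 𝒞 R}
    (φ : Triple.Hom L L') : Data.Hom L.toData L'.toData where
  f0 :=
    { toFun := φ.f0
      map_add' := map_add _
      map_smul' := fun r p => φ.f0.map_smul (algebraMap R (R ⊗[k] 𝒞.B0) r) p }
  f1 :=
    { toFun := φ.f1
      map_add' := map_add _
      map_smul' := fun r p => φ.f1.map_smul (algebraMap R (R ⊗[k] 𝒞.B1) r) p }
  f01 :=
    { toFun := φ.f01
      map_add' := map_add _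
      map_smul' := fun r p => φ.f01.map_smul (algebraMap R (R ⊗[k] 𝒞.B01) r) p }
  f0_X := fun p => φ.f0.map_smul _ p
  f1_Z := fun p => φ.f1.map_smul _ p
  f01_T := fun p => φ.f01.map_smul _ p
  f_j0 := φ.comm0
  f_j1 := φ.comm1

/-- The morphism from a unit triple given by a global section (over any `R`). -/
noncomputable def secHomK {R : Type u} [CommRing R] [Algebra k R] (U N : Triple 𝒞 R)
    (e0 : U.P0 ≃ₗ[R ⊗[k] 𝒞.B0] (R ⊗[k] 𝒞.B0)) (e1 : U.P1 ≃ₗ[R ⊗[k] 𝒞.B1] (R ⊗[k] 𝒞.B1))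
    (e01 : U.P01 ≃ₗ[R ⊗[k] 𝒞.B01] (R ⊗[k] 𝒞.B01))
    (hc0 : ∀ p, e01 (U.r0 p) = 𝒞.ι0 R (e0 p)) (hc1 : ∀ p, e01 (U.r1 p) = 𝒞.ι1 R (e1 p))
    (s0 : N.P0) (s1 : N.P1) (hs : N.r0 s0 = N.r1 s1) : Triple.Hom U N where
  f0 := (LinearMap.toSpanSingleton (R ⊗[k] 𝒞.B0) N.P0 s0).comp e0.toLinearMap
  f1 := (LinearMap.toSpanSingleton (R ⊗[k] 𝒞.B1) N.P1 s1).comp e1.toLinearMap
  f01 := (LinearMap.toSpanSingleton (R ⊗[k] 𝒞.B01) N.P01 (N.r0 s0)).comp e01.toLinearMap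
  comm0 := fun p => by
    simp only [LinearMap.comp_apply, LinearEquiv.coe_coe, LinearMap.toSpanSingleton_apply]
    rw [hc0, N.r0.map_smulₛₗ]
  comm1 := fun p => by
    simp only [LinearMap.comp_apply, LinearEquiv.coe_coe, LinearMap.toSpanSingleton_apply]
    rw [hc1, N.r1.map_smulₛₗ, hs]

/-! ## Finite dimensionality of quotients -/

/-- A quotient of a space generated by the `X ^ j s` by an `X`-stable subspace containing the image of
`f(X)`, `f ≠ 0`, is finite dimensional. -/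
theorem quotient_finite {V : Type*} [AddCommGroup V] [Module K V] (X : Module.End K V)
    (W : Submodule K V) (S : Finset V)
    (hS : Submodule.span K {y | ∃ (j : ℕ) (s : V), s ∈ S ∧ y = (X ^ j) s} = ⊤)
    (f : K[X]) (hf : f ≠ 0) (hfW : ∀ v, (Polynomial.aeval X f) v ∈ W)
    (hXW : W ≤ W.comap X) : Module.Finite K (V ⧸ W) := by
  classical
  have hpow : ∀ (j : ℕ) (v : V), ((W.mapQ W X hXW) ^ j) (W.mkQ v) = W.mkQ ((X ^ j) v) := by
    intro j
    induction j with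
    | zero => intro v; rfl
    | succ j ih =>
      intro v
      rw [pow_succ, Module.End.mul_apply, pow_succ, Module.End.mul_apply]
      exact ih _
  have haev : ∀ (g : K[X]) (v : V),
      (Polynomial.aeval (W.mapQ W X hXW) g) (W.mkQ v) = W.mkQ ((Polynomial.aeval X g) v) := by
    intro g v
    induction g using Polynomial.induction_on' with
    | add p q hp hq => rw [map_add, map_add, LinearMap.add_apply, LinearMap.add_apply, map_add, hp, hq]
    | monomial n a =>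
      rw [Polynomial.aeval_monomial, Polynomial.aeval_monomial, Module.End.mul_apply,
        Module.End.mul_apply, Module.algebraMap_end_apply, Module.algebraMap_end_apply, hpow,
        map_smul]
  have hspan : ∀ v : V, v ∈ Submodule.span K {y | ∃ (j : ℕ) (s : V), s ∈ S ∧ y = (X ^ j) s} →
      W.mkQ v ∈ Submodule.span K
        {y | ∃ (j : ℕ) (s : V ⧸ W), s ∈ S.image W.mkQ ∧ y = ((W.mapQ W X hXW) ^ j) s} := by
    intro v hv
    induction hv using Submodule.span_induction with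
    | mem y hy =>
      obtain ⟨j, s, hs, rfl⟩ := hy
      refine Submodule.subset_span ⟨j, W.mkQ s, Finset.mem_image_of_mem _ hs, ?_⟩
      exact (hpow j s).symm
    | zero => rw [map_zero]; exact Submodule.zero_mem _
    | add a b _ _ ha hb => rw [map_add]; exact Submodule.add_mem _ ha hb
    | smul c a _ ha => rw [map_smul]; exact Submodule.smul_mem _ _ ha
  refine finite_of_aeval_eq_zero (W.mapQ W X hXW) (S.image W.mkQ) ?_ f hf ?_
  · rw [eq_top_iff]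
    intro q _
    obtain ⟨v, rfl⟩ := W.mkQ_surjective q
    exact hspan v (by rw [hS]; exact Submodule.mem_top)
  · apply LinearMap.ext
    intro q
    obtain ⟨v, rfl⟩ := W.mkQ_surjective q
    rw [haev, LinearMap.zero_apply]
    exact (Submodule.Quotient.mk_eq_zero _).mpr (hfW v)

theorem aeval_X0_apply (N : Triple 𝒞 K) (f : K[X]) (p : N.toData.N0) :
    (Polynomial.aeval N.toData.X0 f) p =
      ((Polynomial.aeval ((1 : K) ⊗ₜ[k] 𝒞.x0 : K ⊗[k] 𝒞.B0) f) • (id p : N.P0) : N.P0) := by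
  induction f using Polynomial.induction_on' with
  | add a b ha hb =>
    have h1 : (Polynomial.aeval N.toData.X0 (a + b)) p =
        (Polynomial.aeval N.toData.X0 a) p + (Polynomial.aeval N.toData.X0 b) p := by
      rw [map_add]; rfl
    rw [h1, ha, hb, map_add, add_smul]
    rfl
  | monomial n a =>
    have h1 : (Polynomial.aeval N.toData.X0 (Polynomial.monomial n a)) p =
        a • ((N.toData.X0 ^ n) p) := by
      rw [Polynomial.aeval_monomial]; rfl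
    have h2 : (N.toData.X0 ^ n) p =
        (((1 : K) ⊗ₜ[k] 𝒞.x0 : K ⊗[k] 𝒞.B0) ^ n • (id p : N.P0) : N.P0) := H7.h7_X0_pow N n p
    have h3 : Polynomial.aeval ((1 : K) ⊗ₜ[k] 𝒞.x0 : K ⊗[k] 𝒞.B0) (Polynomial.monomial n a) =
        algebraMap K (K ⊗[k] 𝒞.B0) a * ((1 : K) ⊗ₜ[k] 𝒞.x0) ^ n := Polynomial.aeval_monomial _
    rw [h3, mul_smul]
    exact h1.trans (congrArg (fun q : N.P0 => (algebraMap K (K ⊗[k] 𝒞.B0) a) • q) h2)

theorem aeval_Z1_apply (N : Triple 𝒞 K) (f : K[X]) (p : N.toData.N1) :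
    (Polynomial.aeval N.toData.Z1 f) p =
      ((Polynomial.aeval ((1 : K) ⊗ₜ[k] 𝒞.z1 : K ⊗[k] 𝒞.B1) f) • (id p : N.P1) : N.P1) := by
  induction f using Polynomial.induction_on' with
  | add a b ha hb =>
    have h1 : (Polynomial.aeval N.toData.Z1 (a + b)) p =
        (Polynomial.aeval N.toData.Z1 a) p + (Polynomial.aeval N.toData.Z1 b) p := by
      rw [map_add]; rfl
    rw [h1, ha, hb, map_add, add_smul]
    rfl
  | monomial n a =>
    have h1 : (Polynomial.aeval N.toData.Z1 (Polynomial.monomial n a)) p =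
        a • ((N.toData.Z1 ^ n) p) := by
      rw [Polynomial.aeval_monomial]; rfl
    have h2 : (N.toData.Z1 ^ n) p =
        (((1 : K) ⊗ₜ[k] 𝒞.z1 : K ⊗[k] 𝒞.B1) ^ n • (id p : N.P1) : N.P1) := H7.h7_Z1_pow N n p
    have h3 : Polynomial.aeval ((1 : K) ⊗ₜ[k] 𝒞.z1 : K ⊗[k] 𝒞.B1) (Polynomial.monomial n a) =
        algebraMap K (K ⊗[k] 𝒞.B1) a * ((1 : K) ⊗ₜ[k] 𝒞.z1) ^ n := Polynomial.aeval_monomial _
    rw [h3, mul_smul]
    exact h1.trans (congrArg (fun q : N.P1 => (algebraMap K (K ⊗[k] 𝒞.B1) a) • q) h2)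

/-- In an invertible module over a domain `S` integral over `K[X]`: a nonzero polynomial `f` with
`f(x) • P ⊆ S s` for a given `s ≠ 0`. -/
theorem exists_poly_smul_mem {S : Type*} [CommRing S] [IsDomain S] [Algebra K S] (x : S)
    (hx : (Polynomial.aeval (R := K) x).toRingHom.IsIntegral)
    {P : Type*} [AddCommGroup P] [Module S P] [Module.Invertible S P] (s : P) (hs : s ≠ 0) :
    ∃ f : K[X], f ≠ 0 ∧ ∀ p : P, ∃ b : S, (Polynomial.aeval x f) • p = b • s := by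
  obtain ⟨ℓ, hℓ⟩ : ∃ ℓ : Module.Dual S P, ℓ s ≠ 0 := by
    by_contra hcon
    exact hs (H97.eq_zero_of_dual (A := S) s fun ℓ => by
      by_contra h1
      exact hcon ⟨ℓ, h1⟩)
  obtain ⟨f, hf0, hf⟩ := exists_ne_zero_mem_span (Polynomial.aeval (R := K) x).toRingHom hx _ hℓ
  obtain ⟨u, hu⟩ := Ideal.mem_span_singleton'.mp hf
  refine ⟨f, hf0, fun p => ⟨u * ℓ p, ?_⟩⟩
  have h1 : (Polynomial.aeval x f : S) = u * ℓ s := hu.symm
  rw [h1, mul_smul, H97.dual_swap ℓ s p, mul_smul]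

/-! ## The cokernel of a section is finite dimensional on both charts -/

theorem coker0_finite [IsAlgClosed k] (h : 𝒞.IsGood) {U N : Triple 𝒞 K} (φ : Triple.Hom U N)
    (s0 : N.P0) (hs0 : s0 ≠ 0) (hr : ∀ b : K ⊗[k] 𝒞.B0, b • s0 ∈ LinearMap.range φ.f0) :
    Module.Finite K (H50.cokerData (homData φ)).N0 := by
  haveI := isDomain_K0 (K := K) h
  haveI := N.inv0
  have hint : (Polynomial.aeval (R := K)
      ((1 : K) ⊗ₜ[k] 𝒞.x0 : K ⊗[k] 𝒞.B0)).toRingHom.IsIntegral :=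
    isIntegral_aeval_tensor k K 𝒞.B0 𝒞.x0 (RingHom.Finite.to_isIntegral h.fin0)
  obtain ⟨f, hf0, hf⟩ :=
    exists_poly_smul_mem (K := K) ((1 : K) ⊗ₜ[k] 𝒞.x0 : K ⊗[k] 𝒞.B0) hint s0 hs0
  obtain ⟨S, hS⟩ := P1.H83.fg0_of_proj0 N.toData (H7.stmt_VB k 𝒞 h K N).proj0
  exact quotient_finite N.toData.X0 (LinearMap.range (homData φ).f0) S hS f hf0 (fun v => by
      rw [aeval_X0_apply]
      obtain ⟨b, hb⟩ := hf v
      obtain ⟨u, hu⟩ := hr b
      exact ⟨u, hu.trans hb.symm⟩) (H50.range_f0_le_comap_X0 (homData φ))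

theorem coker1_finite [IsAlgClosed k] (h : 𝒞.IsGood) {U N : Triple 𝒞 K} (φ : Triple.Hom U N)
    (s1 : N.P1) (hs1 : s1 ≠ 0) (hr : ∀ b : K ⊗[k] 𝒞.B1, b • s1 ∈ LinearMap.range φ.f1) :
    Module.Finite K (H50.cokerData (homData φ)).N1 := by
  haveI := isDomain_K1 (K := K) h
  haveI := N.inv1
  have hint : (Polynomial.aeval (R := K)
      ((1 : K) ⊗ₜ[k] 𝒞.z1 : K ⊗[k] 𝒞.B1)).toRingHom.IsIntegral :=
    isIntegral_aeval_tensor k K 𝒞.B1 𝒞.z1 (RingHom.Finite.to_isIntegral h.fin1)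
  obtain ⟨f, hf0, hf⟩ :=
    exists_poly_smul_mem (K := K) ((1 : K) ⊗ₜ[k] 𝒞.z1 : K ⊗[k] 𝒞.B1) hint s1 hs1
  obtain ⟨S, hS⟩ := P1.H83.fg1_of_proj1 N.toData (H7.stmt_VB k 𝒞 h K N).proj1
  exact quotient_finite N.toData.Z1 (LinearMap.range (homData φ).f1) S hS f hf0 (fun v => by
      rw [aeval_Z1_apply]
      obtain ⟨b, hb⟩ := hf v
      obtain ⟨u, hu⟩ := hr b
      exact ⟨u, hu.trans hb.symm⟩) (H50.range_f1_le_comap_Z1 (homData φ))

/-! ## The theorem -/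

theorem toSpanSingleton_injective {S : Type*} [CommRing S] [IsDomain S] {P : Type*}
    [AddCommGroup P] [Module S P] [Module.Invertible S P] (s : P) (hs : s ≠ 0) :
    Function.Injective (LinearMap.toSpanSingleton S P s) := by
  rw [← LinearMap.ker_eq_bot, LinearMap.ker_eq_bot']
  intro b hb
  rw [LinearMap.toSpanSingleton_apply] at hb
  rcases H97.smul_eq_zero_inv hb with h1 | h1
  · exact h1
  · exact absurd h1 hs

/-- **NUM-MONOK**. -/
theorem stmt_MONOK : Stmt_MONOK.{u} := by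
  intro k _ _ 𝒞 h K _ _ U N hU hchi hsec
  obtain ⟨e0, e1, e01, hc0, hc1⟩ := hU
  obtain ⟨s, hs⟩ := hsec
  obtain ⟨s0, hs0⟩ : ∃ t : N.P0, t = s.1.1 := ⟨_, rfl⟩
  obtain ⟨s1, hs1⟩ : ∃ t : N.P1, t = s.1.2 := ⟨_, rfl⟩
  have hglue : N.r0 s0 = N.r1 s1 := by
    rw [hs0, hs1]
    exact s.2
  have hs0ne : s0 ≠ 0 := by
    intro h0
    have h1 : N.r1 s1 = 0 := by rw [← hglue, h0, map_zero]
    have h2 : s1 = 0 := r1_injK h N (h1.trans (map_zero N.r1).symm)
    exact hs (Subtype.ext (Prod.ext (hs0.symm.trans h0) (hs1.symm.trans h2)))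
  have hs1ne : s1 ≠ 0 := by
    intro h1
    have h0 : N.r0 s0 = 0 := by rw [hglue, h1, map_zero]
    exact hs0ne (r0_injK h N (h0.trans (map_zero N.r0).symm))
  have hs01ne : N.r0 s0 ≠ 0 := fun h0 => hs0ne (r0_injK h N (h0.trans (map_zero N.r0).symm))
  haveI := isDomain_K0 (K := K) h
  haveI := isDomain_K1 (K := K) h
  haveI := isDomain_K01 (K := K) h
  haveI := N.inv0
  haveI := N.inv1
  haveI := H9.invertible01 h N
  -- the three maps
  have hF0 := toSpanSingleton_injective (S := K ⊗[k] 𝒞.B0) s0 hs0ne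
  have hF1 := toSpanSingleton_injective (S := K ⊗[k] 𝒞.B1) s1 hs1ne
  have hF01 := toSpanSingleton_injective (S := K ⊗[k] 𝒞.B01) (N.r0 s0) hs01ne
  -- the morphism `U → N`
  have hi0 : Function.Injective (homData (secHomK U N e0 e1 e01 hc0 hc1 s0 s1 hglue)).f0 :=
    hF0.comp e0.injective
  have hi1 : Function.Injective (homData (secHomK U N e0 e1 e01 hc0 hc1 s0 s1 hglue)).f1 :=
    hF1.comp e1.injective
  have hi01 : Function.Injective (homData (secHomK U N e0 e1 e01 hc0 hc1 s0 s1 hglue)).f01 :=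
    hF01.comp e01.injective
  haveI := coker0_finite h (secHomK U N e0 e1 e01 hc0 hc1 s0 s1 hglue) s0 hs0ne
    (fun b => ⟨e0.symm b, by
      change LinearMap.toSpanSingleton _ _ s0 (e0 (e0.symm b)) = _
      rw [LinearEquiv.apply_symm_apply, LinearMap.toSpanSingleton_apply]⟩)
  haveI := coker1_finite h (secHomK U N e0 e1 e01 hc0 hc1 s0 s1 hglue) s1 hs1ne
    (fun b => ⟨e1.symm b, by
      change LinearMap.toSpanSingleton _ _ s1 (e1 (e1.symm b)) = _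
      rw [LinearEquiv.apply_symm_apply, LinearMap.toSpanSingleton_apply]⟩)
  haveI : Module.Finite K U.toData.H0 := H50.triple_h0_finite h U
  haveI : Module.Finite K U.toData.H1 := H50.triple_h1_finite h U
  haveI : Module.Finite K N.toData.H0 := H50.triple_h0_finite h N
  haveI : Module.Finite K N.toData.H1 := H50.triple_h1_finite h N
  obtain ⟨hsur0, hsur1⟩ := surjective_of_chi_eq
    (homData (secHomK U N e0 e1 e01 hc0 hc1 s0 s1 hglue)) hi0 hi1 hi01 (H7.h7_isLoc N) hchi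
  -- surjectivity of the three maps
  have hS0 : Function.Surjective (LinearMap.toSpanSingleton (K ⊗[k] 𝒞.B0) N.P0 s0) := by
    intro p
    obtain ⟨u, hu⟩ := hsur0 p
    exact ⟨e0 u, hu⟩
  have hS1 : Function.Surjective (LinearMap.toSpanSingleton (K ⊗[k] 𝒞.B1) N.P1 s1) := by
    intro p
    obtain ⟨u, hu⟩ := hsur1 p
    exact ⟨e1 u, hu⟩
  have hS01 : Function.Surjective (LinearMap.toSpanSingleton (K ⊗[k] 𝒞.B01) N.P01 (N.r0 s0)) := by
    intro m
    obtain ⟨n, p, hp⟩ := N.surj0 m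
    obtain ⟨b, hb⟩ := hS0 p
    refine ⟨((1 : K) ⊗ₜ[k] 𝒞.i1 𝒞.z1 : K ⊗[k] 𝒞.B01) ^ n * 𝒞.ι0 K b, ?_⟩
    rw [LinearMap.toSpanSingleton_apply] at hb ⊢
    rw [mul_smul, ← N.r0.map_smulₛₗ, hb, ← hp, smul_smul, ← mul_pow, mul_comm,
      Triple.unit_mul_unit, one_pow, one_smul]
  obtain ⟨E0, hE0⟩ : ∃ E : (K ⊗[k] 𝒞.B0) ≃ₗ[K ⊗[k] 𝒞.B0] N.P0, ∀ b, E b = b • s0 :=
    ⟨LinearEquiv.ofBijective _ ⟨hF0, hS0⟩, fun b => LinearMap.toSpanSingleton_apply _ _ _ _⟩
  obtain ⟨E1, hE1⟩ : ∃ E : (K ⊗[k] 𝒞.B1) ≃ₗ[K ⊗[k] 𝒞.B1] N.P1, ∀ b, E b = b • s1 :=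
    ⟨LinearEquiv.ofBijective _ ⟨hF1, hS1⟩, fun b => LinearMap.toSpanSingleton_apply _ _ _ _⟩
  obtain ⟨E01, hE01⟩ : ∃ E : (K ⊗[k] 𝒞.B01) ≃ₗ[K ⊗[k] 𝒞.B01] N.P01, ∀ b, E b = b • N.r0 s0 :=
    ⟨LinearEquiv.ofBijective _ ⟨hF01, hS01⟩, fun b => LinearMap.toSpanSingleton_apply _ _ _ _⟩
  refine ⟨E0.symm, E1.symm, E01.symm, ?_, ?_⟩
  · intro p
    have h1 : N.r0 p = E01 (𝒞.ι0 K (E0.symm p)) := by
      rw [hE01, ← N.r0.map_smulₛₗ, ← hE0, LinearEquiv.apply_symm_apply]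
    rw [h1, LinearEquiv.symm_apply_apply]
  · intro p
    have h1 : N.r1 p = E01 (𝒞.ι1 K (E1.symm p)) := by
      rw [hE01, hglue, ← N.r1.map_smulₛₗ, ← hE1, LinearEquiv.apply_symm_apply]
    rw [h1, LinearEquiv.symm_apply_apply]

end Fermat.Agent.S25.Num.H21
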