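import Fermat.Agent.S25.Num.H50_ChiStmt
import Fermat.Agent.S25.Num.H38_Pts
import Fermat.Agent.S25.Num.H45_Iso
import Fermat.Agent.S25.Num.H9_Twex
import Fermat.Agent.S25.Num.H97_MonoSec
import Fermat.Agent.S25.Num.H44_MonoCor
import Fermat.Agent.S25.Num.H21_Riem
import Fermat.Agent.S25.Num.H63_Nsp
import Fermat.Agent.S25.Num.H93_NspCh
import Fermat.Agent.S25.Num.H47_Eff

/-!
# S25, package NUM: the closed (unconditional) forms of all leaves

Wiring only: `H50.stmt_CHI` (helper50), `H38.stmt_PTS` (helper38), `H45.stmt_ISO` (helper45),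
`H9.stmt_TWEX` (helper9), `H97.stmt_SEC`, `H97.mono_of` (helper97), `H21.riem_of` (helper21),
`H63.stmt_DROP_of`, `H63.stmt_NSP_of` (helper63), `H93.nspch_of` (helper93), `H47.eff_of` (helper47),
`H44.monocor_of` (helper44).
-/

set_option autoImplicit false

universe u

namespace Fermat.Agent.S25.Num.H44

open Fermat.Agent.S25.Num

/-- **NUM-MONO**, unconditional. -/
theorem stmt_MONO : Stmt_MONO.{u} := H97.mono_of H50.stmt_CHI H38.stmt_PTS

/-- **NUM-MONOCOR**, unconditional. -/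
theorem stmt_MONOCOR : Stmt_MONOCOR.{u} :=
  monocor_of H45.stmt_ISO H97.stmt_SEC stmt_MONO H50.stmt_CHI H38.stmt_PTS

/-- **NUM-RIEM**, unconditional. -/
theorem stmt_RIEM : Stmt_RIEM.{u} := H21.riem_of H50.stmt_CHI H97.stmt_SEC stmt_MONO H45.stmt_ISO

/-- **NUM-DROP**, unconditional. -/
theorem stmt_DROP : Stmt_DROP.{u} :=
  H63.stmt_DROP_of stmt_RIEM H50.stmt_CHI H9.stmt_TWEX H38.stmt_PTS

/-- **NUM-NSP**, unconditional. -/
theorem stmt_NSP : Stmt_NSP.{u} := H63.stmt_NSP_of stmt_DROP H50.stmt_CHI H9.stmt_TWEX H38.stmt_PTS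

/-- **NUM-NSPCH**, unconditional. -/
theorem stmt_NSPCH : Stmt_NSPCH.{u} := H93.nspch_of stmt_NSP

/-- **NUM-EFF**, unconditional. -/
theorem stmt_EFF : Stmt_EFF.{u} :=
  H47.eff_of H45.stmt_ISO H97.stmt_SEC stmt_MONO H50.stmt_CHI H38.stmt_PTS

end Fermat.Agent.S25.Num.H44
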