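/-
helper83, S25 (Jacobian exists), package NUM, leaf **NUM-ISO**:
`h0`, `h1` are invariants of the isomorphism class of a triple; unit triples are isomorphic to each
other, there is one, and a unit triple has `h0 = 1` (`IsGood.h0`: `H0(C, O) = k`) and `h1 = genus`.

* `dataIso`            : an isomorphism of triples gives an isomorphism of the two-chart data;
* `h0_eq_of_iso`, `h1_eq_of_iso`;
* `isUnitTriple_of_iso`, `iso_of_isUnitTriple`, `exists_isUnitTriple`;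
* `h0_unit : IsUnitTriple L → h0 L = 1`, `h1_unit : IsUnitTriple L → h1 L = genus 𝒞`;
* `stmt_ISO : Num.Stmt_ISO` (unconditional).
-/
import Mathlib
import Fermat.Agent.S25.Num.Defs
import Fermat.Agent.S25.LB.H60_Unit
import Fermat.Agent.S25.P1.H22_IsoStmt

set_option autoImplicit false

universe u

open Polynomial TensorProduct

namespace Fermat.Agent.S25.Num.H83

open Fermat.Agent.S25 Fermat.Agent.S25.LB Fermat.Agent.S25.Num

variable {k : Type u} [Field k] {𝒞 : CurveDatum k}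

/-! ### Isomorphic triples have isomorphic data -/

/-- An isomorphism of triples gives an isomorphism of the two-chart data. -/
noncomputable def dataIso {L L' : Triple 𝒞 k} (E : Triple.Iso L L') :
    P1.Data.Iso L.toData L'.toData where
  e0 :=
    { toFun := E.e0
      invFun := E.e0.symm
      map_add' := fun (p q : L.P0) => map_add E.e0 p q
      map_smul' := fun r (p : L.P0) => by
        change E.e0 (algebraMap k (k ⊗[k] 𝒞.B0) r • p) =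
          algebraMap k (k ⊗[k] 𝒞.B0) r • E.e0 p
        exact map_smul E.e0 _ _
      left_inv := E.e0.symm_apply_apply
      right_inv := E.e0.apply_symm_apply }
  e1 :=
    { toFun := E.e1
      invFun := E.e1.symm
      map_add' := fun (p q : L.P1) => map_add E.e1 p q
      map_smul' := fun r (p : L.P1) => by
        change E.e1 (algebraMap k (k ⊗[k] 𝒞.B1) r • p) =
          algebraMap k (k ⊗[k] 𝒞.B1) r • E.e1 p
        exact map_smul E.e1 _ _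
      left_inv := E.e1.symm_apply_apply
      right_inv := E.e1.apply_symm_apply }
  e01 :=
    { toFun := E.e01
      invFun := E.e01.symm
      map_add' := fun (p q : L.P01) => map_add E.e01 p q
      map_smul' := fun r (p : L.P01) => by
        change E.e01 (algebraMap k (k ⊗[k] 𝒞.B01) r • p) =
          algebraMap k (k ⊗[k] 𝒞.B01) r • E.e01 p
        exact map_smul E.e01 _ _
      left_inv := E.e01.symm_apply_apply
      right_inv := E.e01.apply_symm_apply }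
  e0_X := fun (n : L.P0) => by
    change E.e0 (((1 : k) ⊗ₜ[k] 𝒞.x0 : k ⊗[k] 𝒞.B0) • n) =
      ((1 : k) ⊗ₜ[k] 𝒞.x0 : k ⊗[k] 𝒞.B0) • E.e0 n
    exact map_smul E.e0 _ _
  e1_Z := fun (n : L.P1) => by
    change E.e1 (((1 : k) ⊗ₜ[k] 𝒞.z1 : k ⊗[k] 𝒞.B1) • n) =
      ((1 : k) ⊗ₜ[k] 𝒞.z1 : k ⊗[k] 𝒞.B1) • E.e1 n
    exact map_smul E.e1 _ _
  e01_T := fun (m : L.P01) => by
    change E.e01 (((1 : k) ⊗ₜ[k] 𝒞.i0 𝒞.x0 : k ⊗[k] 𝒞.B01) • m) =
      ((1 : k) ⊗ₜ[k] 𝒞.i0 𝒞.x0 : k ⊗[k] 𝒞.B01) • E.e01 m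
    exact map_smul E.e01 _ _
  e_j0 := fun (n : L.P0) => E.comm0 n
  e_j1 := fun (n : L.P1) => E.comm1 n

theorem h0_eq_of_iso {L L' : Triple 𝒞 k} (E : Triple.Iso L L') : h0 L = h0 L' := by
  obtain ⟨⟨e⟩, -, -, -⟩ := P1.H22IS.stmt_ISO k L.toData L'.toData (dataIso E)
  exact e.finrank_eq

theorem h1_eq_of_iso {L L' : Triple 𝒞 k} (E : Triple.Iso L L') : h1 L = h1 L' := by
  obtain ⟨-, ⟨e⟩, -, -⟩ := P1.H22IS.stmt_ISO k L.toData L'.toData (dataIso E)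
  exact e.finrank_eq

/-! ### Unit triples -/

theorem isUnitTriple_of_iso {L L' : Triple 𝒞 k} (E : Triple.Iso L L') (h : IsUnitTriple L) :
    IsUnitTriple L' := by
  obtain ⟨u0, u1, u01, h0, h1⟩ := h
  refine ⟨E.e0.symm.trans u0, E.e1.symm.trans u1, E.e01.symm.trans u01, fun p => ?_, fun p => ?_⟩
  · have e : E.e01.symm (L'.r0 p) = L.r0 (E.e0.symm p) := by
      rw [LinearEquiv.symm_apply_eq, E.comm0, LinearEquiv.apply_symm_apply]
    simp only [LinearEquiv.trans_apply]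
    rw [e, h0]
  · have e : E.e01.symm (L'.r1 p) = L.r1 (E.e1.symm p) := by
      rw [LinearEquiv.symm_apply_eq, E.comm1, LinearEquiv.apply_symm_apply]
    simp only [LinearEquiv.trans_apply]
    rw [e, h1]

/-- Two unit triples are isomorphic. -/
noncomputable def isoOfUnit {L L' : Triple 𝒞 k}
    (u0 : L.P0 ≃ₗ[k ⊗[k] 𝒞.B0] (k ⊗[k] 𝒞.B0)) (u1 : L.P1 ≃ₗ[k ⊗[k] 𝒞.B1] (k ⊗[k] 𝒞.B1))
    (u01 : L.P01 ≃ₗ[k ⊗[k] 𝒞.B01] (k ⊗[k] 𝒞.B01))
    (h0 : ∀ p, u01 (L.r0 p) = 𝒞.ι0 k (u0 p)) (h1 : ∀ p, u01 (L.r1 p) = 𝒞.ι1 k (u1 p))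
    (u0' : L'.P0 ≃ₗ[k ⊗[k] 𝒞.B0] (k ⊗[k] 𝒞.B0)) (u1' : L'.P1 ≃ₗ[k ⊗[k] 𝒞.B1] (k ⊗[k] 𝒞.B1))
    (u01' : L'.P01 ≃ₗ[k ⊗[k] 𝒞.B01] (k ⊗[k] 𝒞.B01))
    (h0' : ∀ p, u01' (L'.r0 p) = 𝒞.ι0 k (u0' p)) (h1' : ∀ p, u01' (L'.r1 p) = 𝒞.ι1 k (u1' p)) :
    Triple.Iso L L' where
  e0 := u0.trans u0'.symm
  e1 := u1.trans u1'.symm
  e01 := u01.trans u01'.symm
  comm0 := fun p => by
    simp only [LinearEquiv.trans_apply]
    rw [LinearEquiv.symm_apply_eq, h0', LinearEquiv.apply_symm_apply, h0]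
  comm1 := fun p => by
    simp only [LinearEquiv.trans_apply]
    rw [LinearEquiv.symm_apply_eq, h1', LinearEquiv.apply_symm_apply, h1]

theorem iso_of_isUnitTriple {L L' : Triple 𝒞 k} (h : IsUnitTriple L) (h' : IsUnitTriple L') :
    Nonempty (Triple.Iso L L') := by
  obtain ⟨u0, u1, u01, h0, h1⟩ := h
  obtain ⟨u0', u1', u01', h0', h1'⟩ := h'
  exact ⟨isoOfUnit u0 u1 u01 h0 h1 u0' u1' u01' h0' h1'⟩

theorem exists_isUnitTriple (h : 𝒞.IsGood) : ∃ L : Triple 𝒞 k, IsUnitTriple L :=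
  H60.stmt_UNIT k 𝒞 h k

/-! ### `H0` of a unit triple -/

theorem one_tmul_lid (B : Type u) [CommRing B] [Algebra k B] (a : k ⊗[k] B) :
    (1 : k) ⊗ₜ[k] (TensorProduct.lid k B a) = a := by
  induction a using TensorProduct.induction_on with
  | zero => simp
  | tmul c b =>
    rw [TensorProduct.lid_tmul, TensorProduct.tmul_smul, TensorProduct.smul_tmul', smul_eq_mul,
      mul_one]
  | add x y hx hy => rw [map_add, TensorProduct.tmul_add, hx, hy]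

/-- A global section of a unit triple is a constant multiple of the unit section. -/
theorem exists_const_of_unit (h : 𝒞.IsGood) {L : Triple 𝒞 k}
    (u0 : L.P0 ≃ₗ[k ⊗[k] 𝒞.B0] (k ⊗[k] 𝒞.B0)) (u1 : L.P1 ≃ₗ[k ⊗[k] 𝒞.B1] (k ⊗[k] 𝒞.B1))
    (u01 : L.P01 ≃ₗ[k ⊗[k] 𝒞.B01] (k ⊗[k] 𝒞.B01))
    (hu0 : ∀ p, u01 (L.r0 p) = 𝒞.ι0 k (u0 p)) (hu1 : ∀ p, u01 (L.r1 p) = 𝒞.ι1 k (u1 p))
    (a : L.P0) (b : L.P1) (hab : L.r0 a = L.r1 b) :
    ∃ c : k, algebraMap k (k ⊗[k] 𝒞.B0) c • u0.symm 1 = a ∧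
      algebraMap k (k ⊗[k] 𝒞.B1) c • u1.symm 1 = b := by
  have hι0 : ∀ b : 𝒞.B0, 𝒞.ι0 k ((1 : k) ⊗ₜ[k] b) = (1 : k) ⊗ₜ[k] 𝒞.i0 b := fun b => rfl
  have hι1 : ∀ b : 𝒞.B1, 𝒞.ι1 k ((1 : k) ⊗ₜ[k] b) = (1 : k) ⊗ₜ[k] 𝒞.i1 b := fun b => rfl
  have e3 : 𝒞.ι0 k (u0 a) = 𝒞.ι1 k (u1 b) := by rw [← hu0, ← hu1, hab]
  have e1 := e3
  rw [← one_tmul_lid 𝒞.B0 (u0 a), ← one_tmul_lid 𝒞.B1 (u1 b), hι0, hι1] at e1
  have e2 := congrArg (TensorProduct.lid k 𝒞.B01) e1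
  rw [TensorProduct.lid_tmul, TensorProduct.lid_tmul, one_smul, one_smul] at e2
  obtain ⟨c, hc⟩ := h.h0 _ _ e2
  have ha : u0 a = algebraMap k (k ⊗[k] 𝒞.B0) c := by
    rw [← one_tmul_lid 𝒞.B0 (u0 a), hc, Algebra.TensorProduct.algebraMap_apply,
      Algebra.algebraMap_eq_smul_one, TensorProduct.tmul_smul, TensorProduct.smul_tmul',
      Algebra.algebraMap_self_apply, smul_eq_mul, mul_one]
  have hb : u1 b = algebraMap k (k ⊗[k] 𝒞.B1) c := by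
    apply H60.ι1_injective k h
    rw [← e3, ha]
    exact ((Algebra.TensorProduct.map (AlgHom.id k k) 𝒞.i0).commutes c).trans
      ((Algebra.TensorProduct.map (AlgHom.id k k) 𝒞.i1).commutes c).symm
  refine ⟨c, ?_, ?_⟩
  · rw [← map_smul, smul_eq_mul, mul_one, ← ha, LinearEquiv.symm_apply_apply]
  · rw [← map_smul, smul_eq_mul, mul_one, ← hb, LinearEquiv.symm_apply_apply]

theorem h0_unit (h : 𝒞.IsGood) {L : Triple 𝒞 k} (hL : IsUnitTriple L) : h0 L = 1 := by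
  obtain ⟨u0, u1, u01, hu0, hu1⟩ := hL
  have := h.dom0
  -- the generator
  have hv : (u0.symm 1, u1.symm 1) ∈ L.H0 := by
    change L.r0 (u0.symm 1) = L.r1 (u1.symm 1)
    apply u01.injective
    rw [hu0, hu1, LinearEquiv.apply_symm_apply, LinearEquiv.apply_symm_apply, map_one, map_one]
  have h10 : (1 : k ⊗[k] 𝒞.B0) ≠ 0 := by
    intro e
    have e2 := congrArg (Algebra.TensorProduct.lid k 𝒞.B0) e
    rw [map_one, map_zero] at e2
    exact one_ne_zero e2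
  unfold h0
  rw [finrank_eq_one_iff']
  refine ⟨⟨(u0.symm 1, u1.symm 1), hv⟩, ?_, ?_⟩
  · intro e
    have e1 : u0.symm 1 = 0 := congrArg (fun w : L.H0 => w.1.1) e
    rw [LinearEquiv.symm_apply_eq, map_zero] at e1
    exact h10 e1
  · rintro ⟨⟨a, b⟩, hab⟩
    obtain ⟨c, hca, hcb⟩ := exists_const_of_unit h u0 u1 u01 hu0 hu1 a b hab
    refine ⟨c, ?_⟩
    apply Subtype.ext
    exact Prod.ext hca hcb

theorem h1_unit (h : 𝒞.IsGood) {L : Triple 𝒞 k} (hL : IsUnitTriple L) : h1 L = genus 𝒞 := by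
  have hex : ∃ L : Triple 𝒞 k, IsUnitTriple L := exists_isUnitTriple h
  unfold genus
  rw [dif_pos hex]
  obtain ⟨E⟩ := iso_of_isUnitTriple hL hex.choose_spec
  exact h1_eq_of_iso E

/-- **NUM-ISO**. -/
theorem stmt_ISO : Stmt_ISO.{u} := by
  intro k _ _ 𝒞 h
  refine ⟨fun L L' ⟨E⟩ => ⟨h0_eq_of_iso E, h1_eq_of_iso E⟩,
    fun L L' ⟨E⟩ hL => isUnitTriple_of_iso E hL,
    fun L L' hL hL' => iso_of_isUnitTriple hL hL',
    exists_isUnitTriple h,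
    fun L hL => ⟨h0_unit h hL, h1_unit h hL⟩⟩

end Fermat.Agent.S25.Num.H83
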